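import Fermat.Agent.S19.UP

/-!
# S19 (CE): places and divisors in a constant field extension `F'/K'` of `F/K`
(`K ⊆ K'` algebraically closed)
-/

set_option autoImplicit false

open AlgebraicCurve

namespace Fermat.Agent.S19Lib

open Fermat.Agent.S18Lib Fermat.Agent.S24Lib Fermat.Agent.FFLib Fermat.Agent.S34Lib

variable {K F K' F' : Type*} [Field K] [Field F] [Algebra K F] [Field K'] [Field F']
  [Algebra K' F']

theorem ceb_transcendental (C : CE K F K' F') {x : F} (hx : Transcendental K x) :
    Transcendental K' (C.ι x) := by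
  rw [transcendental_iff]
  intro P hP
  have hli : LinearIndependent K (fun i : Fin (P.natDegree + 1) => x ^ (i : ℕ)) :=
    (dg_linInd_pow hx).comp _ Fin.val_injective
  have h2 := C.ld _ _ hli
  rw [Polynomial.aeval_eq_sum_range, Finset.sum_range] at hP
  have h3 := Fintype.linearIndependent_iff.1 h2 (fun i => P.coeff (i : ℕ)) (by
    rw [← hP]
    exact Finset.sum_congr rfl fun i _ => by rw [map_pow])
  ext n
  by_cases hn : n < P.natDegree + 1
  · simpa using h3 ⟨n, hn⟩
  · rw [Polynomial.coeff_zero]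
    exact Polynomial.coeff_eq_zero_of_natDegree_lt (by omega)

/-- (CE1) `ι x` is transcendental over `K'` (powers are independent: `C.ld`), `ce_finrank_le` -/
theorem CE.isFF (C : CE K F K' F') (hF : IsFF K F) : IsFF K' F' := by
  obtain ⟨x, hx, hfin⟩ := hF
  exact ⟨C.ι x, ceb_transcendental C hx, (ce_finrank_le C.i C.ι C.comm C.gen x hfin).1⟩

/-- (CE1') -/
theorem CE.transcendental (C : CE K F K' F') {x : F} (hx : Transcendental K x) :
    Transcendental K' (C.ι x) :=
  ceb_transcendental C hx

/-- (CE2) `place_ext_of_ord` -/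
theorem IsCst.inj {C : CE K F K' F'} {P P' : Place K F} {v : Place K' F'} (h : IsCst C P v)
    (h' : IsCst C P' v) : P = P' :=
  place_ext_of_ord fun f hf => by rw [← h' f, h f]; exact hf

/-- a function with its only pole at `P`, and the degree of the pole divisor of `ι x` -/
theorem ceb_key [IsAlgClosed K] [IsAlgClosed K'] (hF : IsFF K F) (hF' : IsFF K' F')
    (C : CE K F K' F') (P : Place K F) :
    ∃ x : F, P.ord x < 0 ∧ Divisor.degree (poleDiv K' (C.ι x)) ≤ -P.ord x := by
  classical
  obtain ⟨x, hxc, hxQ⟩ := ce3_exists_only_pole hF P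
  have hxP : P.ord x < 0 := by
    obtain ⟨Q, hQ⟩ := ce3_exists_pole hF hxc
    by_cases h : Q = P
    · rwa [h] at hQ
    · exact absurd (hxQ Q h) (not_le.mpr hQ)
  have hxtr : Transcendental K x := transcendental_of_not_mem_range hxc
  have hpole : poleDiv K x = Finsupp.single P (-P.ord x) := by
    ext Q
    rw [poleDiv_apply hF, Finsupp.single_apply]
    split_ifs with h
    · rw [← h]; exact max_eq_left (by omega)
    · exact max_eq_right (by have := hxQ Q (Ne.symm h); omega)
  have hdeg : (Module.finrank (IntermediateField.adjoin K {x}) F : ℤ) = -P.ord x := by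
    rw [← degree_poleDiv hF hxtr, hpole, degree_single' hF]
  refine ⟨x, hxP, ?_⟩
  rw [degree_poleDiv hF' (ceb_transcendental C hxtr), ← hdeg]
  exact_mod_cast (ce_finrank_le C.i C.ι C.comm C.gen x (IsFF.finiteDimensional hF hxtr)).2

theorem ceb_add_le_degree [IsAlgClosed K] (hF : IsFF K F) {D : Divisor K F} (hD : 0 ≤ D)
    {v v' : Place K F} (hv : v ≠ v') : D v + D v' ≤ Divisor.degree D := by
  classical
  have h1 : 0 ≤ D - Finsupp.single v (D v) := by
    intro w
    rw [Finsupp.sub_apply, Finsupp.single_apply]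
    split_ifs with h
    · rw [h]; simp
    · simpa using hD w
  have h2 := ce3_le_degree hF h1 v'
  rw [Finsupp.sub_apply, Finsupp.single_apply, if_neg hv, map_sub, degree_single' hF] at h2
  omega

/-- (CE3) uniqueness of the constant place above `P`: let `x` have its only pole at `P`
(`ce3_exists_only_pole`), of order `m = [F : K(x)]`; `deg (ι x)_∞ = [F' : K'(ι x)] ≤ m`
(`ce_finrank_le`, `degree_poleDiv`) and each constant place above `P` contributes `m`. -/
theorem IsCst.unique [IsAlgClosed K] [IsAlgClosed K'] (hF : IsFF K F) (hF' : IsFF K' F')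
    {C : CE K F K' F'} {P : Place K F} {v v' : Place K' F'} (h : IsCst C P v)
    (h' : IsCst C P v') : v = v' := by
  by_contra hne
  obtain ⟨x, hx, hdeg⟩ := ceb_key hF hF' C P
  have h1 := ceb_add_le_degree hF' (dg_poleDiv_nonneg hF' (C.ι x)) hne
  rw [poleDiv_apply hF', poleDiv_apply hF', h x, h' x, max_eq_left (by omega)] at h1
  omega

/-- (CE4) -/
theorem IsPt.ord_eq_zero {C : CE K F K' F'} {e : F →+* K'} {v : Place K' F'} (h : IsPt C e v)
    (f : F) : v.ord (C.ι f) = 0 := by
  by_cases hf : f = 0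
  · rw [hf, map_zero, Place.ord_zero]
  have he : algebraMap K' F' (e f) ≠ 0 := (map_ne_zero _).2 ((map_ne_zero e).2 hf)
  have h1 := D2.ord_add_eq v he (a := C.ι f - algebraMap K' F' (e f))
    (by rw [ord_algebraMap, zero_add]; exact h f)
  rwa [sub_add_cancel, ord_algebraMap] at h1

/-- (CE5) `ev_unique` -/
theorem IsPt.eq_of {C : CE K F K' F'} {e e' : F →+* K'} {v : Place K' F'} (h : IsPt C e v)
    (h' : IsPt C e' v) : e = e' :=
  RingHom.ext fun f => ev_unique v (h f) (h' f)

/-- (CE5') -/
theorem IsPt.comm {C : CE K F K' F'} {e : F →+* K'} {v : Place K' F'} (h : IsPt C e v) (a : K) :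
    e (algebraMap K F a) = C.i a :=
  ev_unique v (h (algebraMap K F a)) (Or.inl (by rw [C.comm, sub_self]))

/-- (CE6) a point is not a constant place -/
theorem IsPt.not_isCst [IsAlgClosed K] (hF : IsFF K F) {C : CE K F K' F'} {e : F →+* K'}
    {v : Place K' F'} (h : IsPt C e v) (P : Place K F) : ¬ IsCst C P v := by
  intro hc
  obtain ⟨π, hπ⟩ := IsDiscreteValuationRing.exists_irreducible P.toValuationSubring
  have h1 := hc (π : F)
  rw [h.ord_eq_zero, P.ord_coe_irreducible hπ] at h1
  exact zero_ne_one h1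

/-- (CE7) classification of the places of `F'`: `ce_restrict`.  If `ord_v ∘ ι = 0` put
`e f := evP v (ι f)`.  If `ord_v ∘ ι = e · ord_P` then `e = 1` by the degree count of (CE3). -/
theorem CE.cst_or_pt [IsAlgClosed K] [IsAlgClosed K'] (hF : IsFF K F) (hF' : IsFF K' F')
    (C : CE K F K' F') (v : Place K' F') :
    (∃ P, IsCst C P v) ∨ ∃ e : F →+* K', IsPt C e v := by
  rcases ce_restrict C.i C.ι C.comm v with h0 | ⟨P, e, he, hP⟩
  · right
    have hge : ∀ f : F, D2_ge v 0 (C.ι f) := fun f => Or.inr (h0 f).ge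
    refine ⟨{ toFun := fun f => evP v (C.ι f)
              map_one' := by
                rw [map_one, ← map_one (algebraMap K' F'), evP_algebraMap]
              map_mul' := fun f g => by rw [map_mul, evP_mul hF' v (hge f) (hge g)]
              map_zero' := by
                rw [map_zero, ← map_zero (algebraMap K' F'), evP_algebraMap]
              map_add' := fun f g => by rw [map_add, evP_add hF' v (hge f) (hge g)] }, ?_⟩
    intro f
    exact evP_spec hF' v (hge f)
  · left
    obtain ⟨x, hx, hdeg⟩ := ceb_key hF hF' C P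
    have h1 := ce3_le_degree hF' (dg_poleDiv_nonneg hF' (C.ι x)) v
    rw [poleDiv_apply hF', hP x] at h1
    have h4 : -((e : ℤ) * P.ord x) ≤ -P.ord x := le_trans (le_trans (le_max_left _ _) h1) hdeg
    have he1 : e = 1 := by
      have he' : (1 : ℤ) ≤ e := by exact_mod_cast he
      have : (e : ℤ) ≤ 1 := by
        by_contra hcon
        push Not at hcon
        nlinarith
      omega
    refine ⟨P, fun f => ?_⟩
    rw [hP f, he1]
    simp

/-- (CE8) -/
theorem CE.extP_injective [IsAlgClosed K] [IsAlgClosed K'] (hF : IsFF K F) (hF' : IsFF K' F')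
    (C : CE K F K' F') : Function.Injective (C.extP hF hF') := by
  intro P P' h
  have h1 := C.isCst_extP hF hF' P
  have h2 := C.isCst_extP hF hF' P'
  rw [← h] at h2
  exact h1.inj h2

/-- (CE8') -/
theorem IsCst.eq_extP [IsAlgClosed K] [IsAlgClosed K'] (hF : IsFF K F) (hF' : IsFF K' F')
    {C : CE K F K' F'} {P : Place K F} {v : Place K' F'} (h : IsCst C P v) :
    v = C.extP hF hF' P :=
  h.unique hF hF' (C.isCst_extP hF hF' P)

theorem CE.extD_apply_extP [IsAlgClosed K] [IsAlgClosed K'] (hF : IsFF K F) (hF' : IsFF K' F')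
    (C : CE K F K' F') (D : Divisor K F) (P : Place K F) :
    C.extD hF hF' D (C.extP hF hF' P) = D P :=
  Finsupp.mapDomain_apply (C.extP_injective hF hF') D P

theorem CE.extD_apply_cst [IsAlgClosed K] [IsAlgClosed K'] (hF : IsFF K F) (hF' : IsFF K' F')
    (C : CE K F K' F') (D : Divisor K F) {P : Place K F} {v : Place K' F'} (h : IsCst C P v) :
    C.extD hF hF' D v = D P := by
  rw [h.eq_extP hF hF', C.extD_apply_extP]

theorem CE.extD_apply_pt [IsAlgClosed K] [IsAlgClosed K'] (hF : IsFF K F) (hF' : IsFF K' F')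
    (C : CE K F K' F') (D : Divisor K F) {e : F →+* K'} {v : Place K' F'} (h : IsPt C e v) :
    C.extD hF hF' D v = 0 := by
  apply Finsupp.mapDomain_of_notMem_range
  rintro ⟨P, rfl⟩
  exact h.not_isCst hF P (C.isCst_extP hF hF' P)

/-- (CE9) the divisor of `ι f` is the extension of the divisor of `f` -/
theorem CE.extD_apply_of_div [IsAlgClosed K] [IsAlgClosed K'] (hF : IsFF K F) (hF' : IsFF K' F')
    (C : CE K F K' F') (f : F) (D : Divisor K F) (hD : ∀ P, D P = P.ord f) (v : Place K' F') :
    C.extD hF hF' D v = v.ord (C.ι f) := by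
  rcases C.cst_or_pt hF hF' v with ⟨P, hP⟩ | ⟨e, he⟩
  · rw [C.extD_apply_cst hF hF' D hP, hD, hP f]
  · rw [C.extD_apply_pt hF hF' D he, he.ord_eq_zero]

/-- (CE10) -/
theorem CE.extD_isPrincipal [IsAlgClosed K] [IsAlgClosed K'] (hF : IsFF K F) (hF' : IsFF K' F')
    (C : CE K F K' F') {D : Divisor K F} (hD : Divisor.IsPrincipal D) :
    Divisor.IsPrincipal (C.extD hF hF' D) := by
  obtain ⟨f, hf, hD⟩ := hD
  exact ⟨C.ι f, (map_ne_zero _).2 hf, C.extD_apply_of_div hF hF' f D hD⟩

/-- (CE11) -/
theorem CE.degree_extD [IsAlgClosed K] [IsAlgClosed K'] (hF : IsFF K F) (hF' : IsFF K' F')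
    (C : CE K F K' F') (D : Divisor K F) :
    Divisor.degree (C.extD hF hF' D) = Divisor.degree D := by
  unfold CE.extD
  induction D using Finsupp.induction_linear with
  | zero => simp
  | add f g hf hg => rw [Finsupp.mapDomain_add, map_add, map_add, hf, hg]
  | single v n => rw [Finsupp.mapDomain_single, degree_single' hF', degree_single' hF]

/-- (CE12) `ι` maps `L(D)` into `L(extD D)` -/
theorem CE.map_mem_L [IsAlgClosed K] [IsAlgClosed K'] (hF : IsFF K F) (hF' : IsFF K' F')
    (C : CE K F K' F') {D : Divisor K F} {f : F} (hf : f ∈ riemannRochSpace D) :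
    C.ι f ∈ riemannRochSpace (C.extD hF hF' D) := by
  rw [mem_L_iff]
  intro v
  by_cases hf0 : f = 0
  · exact Or.inl (by rw [hf0, map_zero])
  refine Or.inr ?_
  rcases C.cst_or_pt hF hF' v with ⟨P, hP⟩ | ⟨e, he⟩
  · rw [C.extD_apply_cst hF hF' D hP, hP f]
    exact ((mem_L_iff.1 hf) P).resolve_left hf0
  · rw [C.extD_apply_pt hF hF' D he, he.ord_eq_zero]
    simp

/-- (CE13) `C.ld` -/
theorem CE.ell_le_extD [IsAlgClosed K] [IsAlgClosed K'] (hF : IsFF K F) (hF' : IsFF K' F')
    (C : CE K F K' F') (D : Divisor K F) : FFLib.ell D ≤ FFLib.ell (C.extD hF hF' D) := by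
  have := finiteDimensional_L hF D
  have := finiteDimensional_L hF' (C.extD hF hF' D)
  let b := Module.finBasis K (riemannRochSpace D)
  have h1 : LinearIndependent K (fun j => ((b j : riemannRochSpace D) : F)) :=
    b.linearIndependent.map' (riemannRochSpace D).subtype (Submodule.ker_subtype _)
  have h2 := C.ld _ _ h1
  have h3 : LinearIndependent K' (fun j => (⟨C.ι ((b j : riemannRochSpace D) : F),
      C.map_mem_L hF hF' (b j).2⟩ : riemannRochSpace (C.extD hF hF' D))) :=
    LinearIndependent.of_comp (riemannRochSpace (C.extD hF hF' D)).subtype h2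
  have h4 := h3.fintype_card_le_finrank
  rw [Fintype.card_fin] at h4
  exact h4

/-- (CE14) -/
theorem CE.extP_refl [IsAlgClosed K] (hF : IsFF K F) (P : Place K F) :
    (CE.refl K F).extP hF hF P = P :=
  (IsCst.eq_extP hF hF (C := CE.refl K F) (P := P) (v := P) (fun _ => rfl)).symm

/-- (CE15) `extD (poleDiv x) = poleDiv (ι x)` -/
theorem CE.extD_poleDiv [IsAlgClosed K] [IsAlgClosed K'] (hF : IsFF K F) (hF' : IsFF K' F')
    (C : CE K F K' F') (x : F) : C.extD hF hF' (poleDiv K x) = poleDiv K' (C.ι x) := by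
  ext v
  rw [poleDiv_apply hF']
  rcases C.cst_or_pt hF hF' v with ⟨P, hP⟩ | ⟨e, he⟩
  · rw [C.extD_apply_cst hF hF' _ hP, poleDiv_apply hF, hP x]
  · rw [C.extD_apply_pt hF hF' _ he, he.ord_eq_zero]
    simp

end Fermat.Agent.S19Lib
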