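import Fermat.Agent.S19.UP

/-!
# S19 (SX): extension of independent tuples of embeddings to automorphisms of `Ω`
-/

set_option autoImplicit false

open AlgebraicCurve

namespace Fermat.Agent.S19Lib

open Fermat.Agent.S18Lib Fermat.Agent.S24Lib Fermat.Agent.FFLib Fermat.Agent.S34Lib

variable {K F Ω : Type*} [Field K] [Field F] [Algebra K F] [Field Ω]

/-- (SX1) `e_i t` are algebraically independent over `j K` (monomials in `t` are independent) -/
theorem Indep.algebraicIndependent {j : K →+* Ω} {g : ℕ} {e : Fin g → F →+* Ω}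
    (he : ∀ i a, e i (algebraMap K F a) = j a) (hind : Indep j e) {t : F}
    (ht : Transcendental K t) :
    AlgebraicIndependent j.fieldRange (fun i => e i t) := by
  classical
  rw [algebraicIndependent_iff]
  intro p hp
  choose a ha using fun d => RingHom.mem_fieldRange.mp (p.coeff d).2
  set N := p.totalDegree with hN
  let toF : (Fin g → Fin (N + 1)) → (Fin g →₀ ℕ) :=
    fun ν => Finsupp.equivFunOnFinite.symm (fun i => (ν i : ℕ))
  have htoF : Function.Injective toF := by
    intro ν μ h
    funext i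
    have := DFunLike.congr_fun h i
    exact Fin.ext this
  have hsub : p.support ⊆ Finset.univ.image toF := by
    intro d hd
    refine Finset.mem_image.mpr ⟨fun i => ⟨d i, ?_⟩, Finset.mem_univ _, ?_⟩
    · have h1 := MvPolynomial.le_totalDegree hd
      have h2 : d i ≤ d.sum fun _ k => k := by
        rw [Finsupp.sum_fintype _ _ (fun _ => rfl)]
        exact Finset.single_le_sum (f := fun i => d i) (fun _ _ => Nat.zero_le _)
          (Finset.mem_univ i)
      omega
    · ext i
      rfl
  have hb : LinearIndependent K (fun k : Fin (N + 1) => t ^ (k : ℕ)) :=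
    (dg_linInd_pow ht).comp _ Fin.val_injective
  have hsum : ∑ ν : Fin g → Fin (N + 1), j (a (toF ν)) * ∏ i, e i (t ^ (ν i : ℕ)) = 0 := by
    rw [← hp, MvPolynomial.aeval_def, MvPolynomial.eval₂_eq',
      Finset.sum_subset hsub (fun d _ hd => by
        rw [MvPolynomial.notMem_support_iff.mp hd, map_zero, zero_mul]),
      Finset.sum_image (fun ν _ μ _ h => htoF h)]
    refine Finset.sum_congr rfl fun ν _ => ?_
    rw [ha]
    simp only [map_pow]
    rfl
  have h0 := hind (N + 1) _ hb (fun ν => a (toF ν)) hsum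
  ext d
  by_cases hd : d ∈ p.support
  · obtain ⟨ν, -, rfl⟩ := Finset.mem_image.mp (hsub hd)
    have h1 := congrFun h0 ν
    simp only [Pi.zero_apply] at h1
    have h2 := ha (toF ν)
    rw [h1, map_zero] at h2
    rw [MvPolynomial.coeff_zero, ← h2]
    rfl
  · rw [MvPolynomial.notMem_support_iff.mp hd, MvPolynomial.coeff_zero]

/-- extension of an injective ring hom on a subring to a subfield of fractions -/
theorem sx_frac_ext {Ω Ω' : Type*} [Field Ω] [Field Ω'] (A : Subring Ω) (φ₀ : A →+* Ω')
    (hinj : Function.Injective φ₀) (T : Subfield Ω)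
    (hT : ∀ x ∈ T, ∃ y ∈ A, ∃ z ∈ A, y / z = x) :
    ∃ φ : T →+* Ω', ∀ (a : A) (h : (a : Ω) ∈ T), φ ⟨a, h⟩ = φ₀ a := by
  let ι' : FractionRing A →+* Ω :=
    IsFractionRing.lift (g := A.subtype) Subtype.val_injective
  let φ' : FractionRing A →+* Ω' := IsFractionRing.lift hinj
  have hι : ∀ a : A, ι' (algebraMap A (FractionRing A) a) = a :=
    fun a => IsFractionRing.lift_algebraMap _ a
  have hex : ∀ x : T, ∃ q : FractionRing A, ι' q = x := by
    intro x
    obtain ⟨y, hy, z, hz, hyz⟩ := hT x x.2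
    refine ⟨algebraMap A (FractionRing A) ⟨y, hy⟩ / algebraMap A (FractionRing A) ⟨z, hz⟩, ?_⟩
    rw [map_div₀, hι, hι, ← hyz]
  choose q hq using hex
  refine ⟨{ toFun := fun x => φ' (q x)
            map_one' := ?_
            map_mul' := ?_
            map_zero' := ?_
            map_add' := ?_ }, ?_⟩
  · rw [← map_one φ']
    congr 1
    apply ι'.injective
    rw [hq, map_one]
    rfl
  · intro x y
    rw [← map_mul φ']
    congr 1
    apply ι'.injective
    rw [hq, map_mul, hq, hq]
    rfl
  · rw [← map_zero φ']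
    congr 1
    apply ι'.injective
    rw [hq, map_zero]
    rfl
  · intro x y
    rw [← map_add φ']
    congr 1
    apply ι'.injective
    rw [hq, map_add, hq, hq]
    rfl
  · intro a h
    show φ' (q ⟨a, h⟩) = φ₀ a
    have : q ⟨a, h⟩ = algebraMap A (FractionRing A) a := by
      apply ι'.injective
      rw [hq, hι]
    rw [this]
    exact IsFractionRing.lift_algebraMap _ a

/-- (SX2) a ring hom on the field generated by the `e_i F`: `Indep.exists_hom` with `T i = ⊤`,
`S = Ω`, it is injective by `hind'` and `Indep.exists_rep`; extend to the fraction field. -/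
theorem exists_hom_closure {j j' : K →+* Ω} {g : ℕ} {e e' : Fin g → F →+* Ω}
    (he : ∀ i a, e i (algebraMap K F a) = j a) (he' : ∀ i a, e' i (algebraMap K F a) = j' a)
    (hind : Indep j e) (hind' : Indep j' e') :
    ∃ φ : Subfield.closure (Set.range j ∪ ⋃ i, Set.range (e i)) →+* Ω,
      (∀ (a : K) (h : j a ∈ Subfield.closure (Set.range j ∪ ⋃ i, Set.range (e i))),
        φ ⟨j a, h⟩ = j' a) ∧
      ∀ (i : Fin g) (f : F) (h : e i f ∈ Subfield.closure (Set.range j ∪ ⋃ i, Set.range (e i))),
        φ ⟨e i f, h⟩ = e' i f := by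
  obtain ⟨φ₀, hφ1, hφ2⟩ := hind.exists_hom he (fun _ => (⊤ : Subalgebra K F)) (S := Ω)
    (fun i => (e' i).comp (⊤ : Subalgebra K F).val.toRingHom) j' (fun i x => he' i x)
  have hX : (Set.range j ∪ ⋃ i, (e i) '' ((⊤ : Subalgebra K F) : Set F)) = Set.range j ∪ ⋃ i, Set.range (e i) := by
    simp only [Algebra.coe_top, Set.image_univ]
  have hj : ∀ a, j a ∈ Subring.closure (Set.range j ∪ ⋃ i, (e i) '' ((⊤ : Subalgebra K F) : Set F)) := fun a => Subring.subset_closure (Or.inl ⟨a, rfl⟩)
  have hei : ∀ i f, e i f ∈ Subring.closure (Set.range j ∪ ⋃ i, (e i) '' ((⊤ : Subalgebra K F) : Set F)) := fun i f =>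
    Subring.subset_closure (Or.inr (Set.mem_iUnion.mpr ⟨i, f, trivial, rfl⟩))
  have hφ2' : ∀ i f, φ₀ ⟨e i f, hei i f⟩ = e' i f := fun i f => hφ2 i ⟨f, trivial⟩ (hei i f)
  have hinj : Function.Injective φ₀ := by
    rw [injective_iff_map_eq_zero]
    intro z hz
    obtain ⟨m, b, hb, hrep⟩ := Indep.exists_rep he (n := 1) (fun _ => (z : Ω))
      (fun _ => by rw [← hX]; exact z.2)
    obtain ⟨lam, hlam⟩ := hrep 0
    have hz' : z = ∑ ν, (⟨j (lam ν), hj _⟩ : Subring.closure (Set.range j ∪ ⋃ i, (e i) '' ((⊤ : Subalgebra K F) : Set F))) *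
        ∏ i, (⟨e i (b (ν i)), hei _ _⟩ : Subring.closure (Set.range j ∪ ⋃ i, (e i) '' ((⊤ : Subalgebra K F) : Set F))) := by
      apply Subtype.ext
      rw [hlam, AddSubmonoidClass.coe_finsetSum]
      refine Finset.sum_congr rfl fun ν _ => ?_
      rw [Subring.coe_mul, SubmonoidClass.coe_finsetProd]
    rw [hz', map_sum] at hz
    simp only [map_mul, map_prod, hφ1, hφ2'] at hz
    have h0 := hind' m b hb lam hz
    rw [hz']
    refine Finset.sum_eq_zero fun ν _ => ?_
    have : (⟨j (lam ν), hj _⟩ : Subring.closure (Set.range j ∪ ⋃ i, (e i) '' ((⊤ : Subalgebra K F) : Set F))) = 0 := by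
      apply Subtype.ext
      show j (lam ν) = 0
      rw [h0]
      exact map_zero j
    rw [this, zero_mul]
  obtain ⟨φ, hφ⟩ := sx_frac_ext (Subring.closure (Set.range j ∪ ⋃ i, (e i) '' ((⊤ : Subalgebra K F) : Set F))) φ₀ hinj
    (Subfield.closure (Set.range j ∪ ⋃ i, Set.range (e i))) (by
      intro x hx
      rw [Subfield.mem_closure_iff, ← hX] at hx
      exact hx)
  exact ⟨φ, fun a h => by rw [hφ ⟨j a, hj a⟩ h, hφ1],
    fun i f h => by rw [hφ ⟨e i f, hei i f⟩ h, hφ2']⟩

theorem sx_isAlgebraic_trans {Ω : Type*} [Field Ω] (S T : Subfield Ω)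
    (hT : ∀ t ∈ T, IsAlgebraic S t) {z : Ω} (hz : IsAlgebraic T z) : IsAlgebraic S z := by
  let f : T →+* algebraicClosure S Ω :=
    T.subtype.codRestrict (algebraicClosure S Ω) (fun t => mem_algebraicClosure_iff.mpr (hT t t.2))
  have hz' : IsAlgebraic (algebraicClosure S Ω) z :=
    hz.ringHom_of_comp_eq f (RingHom.id Ω) f.injective rfl
  exact hz'.restrictScalars S

theorem sx_lift {M Ω Ω' : Type*} [Field M] [Field Ω] [Field Ω'] [IsAlgClosed Ω'] [Algebra M Ω]
    [Algebra.IsAlgebraic M Ω] (f : M →+* Ω') :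
    ∃ s : Ω →+* Ω', ∀ x, s (algebraMap M Ω x) = f x := by
  letI := f.toAlgebra
  exact ⟨(IsAlgClosed.lift : Ω →ₐ[M] Ω').toRingHom, fun x => AlgHom.commutes _ x⟩

theorem sx_surjective {Ω : Type*} [Field Ω] [IsAlgClosed Ω] (s : Ω →+* Ω)
    (h : ∀ z : Ω, IsAlgebraic s.fieldRange z) : Function.Surjective s := by
  have h1 : IsAlgClosed s.fieldRange := IsAlgClosed.of_ringEquiv Ω _ s.rangeRestrictFieldEquiv
  have h2 : Algebra.IsIntegral s.fieldRange Ω := ⟨fun z => (h z).isIntegral⟩
  intro z
  obtain ⟨y, rfl⟩ := (IsAlgClosed.algebraMap_bijective_of_isIntegral (k := s.fieldRange)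
    (K := Ω)).2 z
  exact RingHom.mem_fieldRange.mp y.2

/-- (SX) `IsAlgClosed.lift` extends (SX2) to `s : Ω → Ω`.  Surjective: `(e i t)` is a transcendence
basis of `Ω` over `j K` (SX1 + `halg` + `F` algebraic over `K(t)`), `(e' i t)` is algebraically
independent over `j' K = j K` with the same cardinality, hence a transcendence basis
(`AlgebraicIndependent.isTranscendenceBasis_of_trdeg_le_of_finite` ...), so `Ω` is algebraic over
the algebraically closed field `s Ω`. -/
theorem exists_aut [IsAlgClosed Ω] (hF : IsFF K F) {j j' : K →+* Ω} {g : ℕ}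
    {e e' : Fin g → F →+* Ω}
    (he : ∀ i a, e i (algebraMap K F a) = j a) (he' : ∀ i a, e' i (algebraMap K F a) = j' a)
    (hind : Indep j e) (hind' : Indep j' e') (hjj' : Set.range j' = Set.range j)
    (halg : ∀ z : Ω, IsAlgebraic (Subfield.closure (Set.range j ∪ ⋃ i, Set.range (e i))) z) :
    ∃ s : Ω ≃+* Ω, (∀ a, s (j a) = j' a) ∧ ∀ i f, s (e i f) = e' i f := by
  obtain ⟨t, ht, hfd⟩ := id hF
  let X : Subfield Ω := Subfield.closure (Set.range j ∪ Set.range (fun i => e i t))
  have hjX : ∀ a, j a ∈ X := fun a => Subfield.subset_closure (Or.inl ⟨a, rfl⟩)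
  have hxX : ∀ i, e i t ∈ X := fun i => Subfield.subset_closure (Or.inr ⟨i, rfl⟩)
  have hKt : ∀ i, ∀ y : IntermediateField.adjoin K {t}, e i (y : F) ∈ X := by
    intro i y
    have hle : IntermediateField.adjoin K {t} ≤ (X.comap (e i)).toIntermediateField (fun a => by
        show e i _ ∈ X
        rw [he]
        exact hjX a) := by
      rw [IntermediateField.adjoin_le_iff]
      rintro _ rfl
      exact hxX i
    exact hle y.2
  have hA : ∀ z : Ω, IsAlgebraic X z := by
    intro z
    refine sx_isAlgebraic_trans X _ ?_ (halg z)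
    have hle : Subfield.closure (Set.range j ∪ ⋃ i, Set.range (e i)) ≤
        (algebraicClosure X Ω).toSubfield := by
      rw [Subfield.closure_le]
      rintro y (⟨a, rfl⟩ | hy)
      · exact mem_algebraicClosure_iff.mpr (isAlgebraic_algebraMap (⟨j a, hjX a⟩ : X))
      · obtain ⟨i, f, rfl⟩ := Set.mem_iUnion.mp hy
        apply mem_algebraicClosure_iff.mpr
        have hf : IsAlgebraic (IntermediateField.adjoin K {t}) f :=
          Algebra.IsAlgebraic.isAlgebraic f
        let f₀ : IntermediateField.adjoin K {t} →+* X :=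
          ((e i).comp (algebraMap (IntermediateField.adjoin K {t}) F)).codRestrict X (hKt i)
        exact hf.ringHom_of_comp_eq f₀ (e i) f₀.injective rfl
    exact fun s hs => mem_algebraicClosure_iff.mp (hle hs)
  have hB : Algebra.IsAlgebraic
      (IntermediateField.adjoin j.fieldRange (Set.range fun i => e i t)) Ω := by
    refine ⟨fun z => ?_⟩
    have hle : X ≤ (IntermediateField.adjoin j.fieldRange
        (Set.range fun i => e i t)).toSubfield := by
      rw [Subfield.closure_le]
      rintro y (⟨a, rfl⟩ | ⟨i, rfl⟩)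
      · exact IntermediateField.algebraMap_mem _ (⟨j a, ⟨a, rfl⟩⟩ : j.fieldRange)
      · exact IntermediateField.subset_adjoin _ _ ⟨i, rfl⟩
    let f₀ : X →+* IntermediateField.adjoin j.fieldRange (Set.range fun i => e i t) :=
      X.subtype.codRestrict _ (fun y => hle y.2)
    exact (hA z).ringHom_of_comp_eq f₀ (RingHom.id Ω) f₀.injective rfl
  have hC : Algebra.IsAlgebraic (Algebra.adjoin j.fieldRange (Set.range fun i => e i t)) Ω := by
    open scoped IntermediateField.algebraAdjoinAdjoin in
    exact Algebra.IsAlgebraic.trans (Algebra.adjoin j.fieldRange (Set.range fun i => e i t))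
      (IntermediateField.adjoin j.fieldRange (Set.range fun i => e i t)) Ω
  have htr := Algebra.IsAlgebraic.trdeg_le_cardinalMk j.fieldRange (Set.range fun i => e i t)
  have hx' : AlgebraicIndependent j.fieldRange (fun i => e' i t) := by
    have h1 := hind'.algebraicIndependent he' ht
    have hR : j'.fieldRange = j.fieldRange :=
      SetLike.ext' (by simpa [RingHom.coe_fieldRange] using hjj')
    rw [hR] at h1
    exact h1
  have hE := (hx'.isTranscendenceBasis_of_lift_trdeg_le_of_finite
    ((Cardinal.lift_le.mpr htr).trans Cardinal.mk_range_le_lift)).isAlgebraic_field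
  obtain ⟨φ, hφ1, hφ2⟩ := exists_hom_closure he he' hind hind'
  have hS : Algebra.IsAlgebraic (Subfield.closure (Set.range j ∪ ⋃ i, Set.range (e i))) Ω := ⟨halg⟩
  obtain ⟨s, hs⟩ := sx_lift (Ω := Ω) φ
  have hsj : ∀ a, s (j a) = j' a := fun a => by
    have := hs ⟨j a, Subfield.subset_closure (Or.inl ⟨a, rfl⟩)⟩
    rw [hφ1] at this
    exact this
  have hse : ∀ i f, s (e i f) = e' i f := fun i f => by
    have := hs ⟨e i f, Subfield.subset_closure (Or.inr (Set.mem_iUnion.mpr ⟨i, f, rfl⟩))⟩
    rw [hφ2] at this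
    exact this
  have hsurj : Function.Surjective s := by
    apply sx_surjective
    intro z
    have hle : IntermediateField.adjoin j.fieldRange (Set.range fun i => e' i t) ≤
        (s.fieldRange).toIntermediateField (fun r => by
          obtain ⟨a, ha⟩ := RingHom.mem_fieldRange.mp r.2
          obtain ⟨a', ha'⟩ : (r : Ω) ∈ Set.range j' := by rw [hjj']; exact ⟨a, ha⟩
          exact RingHom.mem_fieldRange.mpr ⟨j a', by rw [hsj, ha']; rfl⟩) := by
      rw [IntermediateField.adjoin_le_iff]
      rintro _ ⟨i, rfl⟩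
      exact RingHom.mem_fieldRange.mpr ⟨e i t, hse i t⟩
    let f₀ : IntermediateField.adjoin j.fieldRange (Set.range fun i => e' i t) →+* s.fieldRange :=
      (algebraMap _ Ω).codRestrict s.fieldRange (fun y => hle y.2)
    exact (hE.isAlgebraic z).ringHom_of_comp_eq f₀ (RingHom.id Ω) f₀.injective rfl
  exact ⟨RingEquiv.ofBijective s ⟨s.injective, hsurj⟩, hsj, hse⟩

/-- (SX3) transport of independence along a semilinear automorphism of `F` -/
theorem Indep.comp_semilinear {j : K →+* Ω} {g : ℕ} {e : Fin g → F →+* Ω} (hind : Indep j e)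
    (φ : SemilinearAut K F) :
    Indep (j.comp ((SemilinearAut.baseAut φ : K ≃+* K) : K →+* K))
      (fun i => (e i).comp ((SemilinearAut.toRingAut φ : F ≃+* F) : F →+* F)) := by
  intro m b hb lam hsum
  have hb' : LinearIndependent K (fun a => SemilinearAut.toRingAut φ (b a)) := by
    rw [Fintype.linearIndependent_iff] at hb ⊢
    intro c hc a
    have h1 : ∑ a, ((SemilinearAut.baseAut φ).symm (c a)) • b a = 0 := by
      apply (SemilinearAut.toRingAut φ).injective
      rw [map_sum, map_zero, ← hc]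
      refine Finset.sum_congr rfl fun a _ => ?_
      rw [Algebra.smul_def, Algebra.smul_def, map_mul, SemilinearAut.commutes,
        RingEquiv.apply_symm_apply]
    have h2 := hb _ h1 a
    exact (map_eq_zero_iff _ (SemilinearAut.baseAut φ).symm.injective).mp h2
  have h3 := hind m _ hb' (fun ν => SemilinearAut.baseAut φ (lam ν)) hsum
  funext ν
  have h4 := congrFun h3 ν
  exact (map_eq_zero_iff _ (SemilinearAut.baseAut φ).injective).mp h4

/-- (SX4) infinite Galois theory: an element fixed by all automorphisms over `M` lies in `M` -/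
theorem mem_of_fixed [IsAlgClosed Ω] [CharZero Ω] (M : Subfield Ω)
    (halg : ∀ z : Ω, IsAlgebraic M z) (z : Ω)
    (hz : ∀ s : Ω ≃+* Ω, (∀ x ∈ M, s x = x) → s z = z) : z ∈ M := by
  have h1 : Algebra.IsAlgebraic M Ω := ⟨halg⟩
  have h2 : IsAlgClosure M Ω := ⟨inferInstance, h1⟩
  have h3 : CharZero M := ⟨fun a b hab => by
    have := congrArg (Subtype.val) hab
    simpa using this⟩
  have h4 : z ∈ Set.range (algebraMap M Ω) := by
    rw [InfiniteGalois.mem_range_algebraMap_iff_fixed]
    intro f
    exact hz f.toRingEquiv fun x hx => f.commutes ⟨x, hx⟩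
  obtain ⟨y, rfl⟩ := h4
  exact y.2

end Fermat.Agent.S19Lib
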