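import Fermat.Agent.S19.Norm
import Fermat.Agent.S19.SX

/-!
# S19 (CB): the rational structure `𝔽₀ = ℚ(e_1 F0, ..., e_g F0) ⊆ Ω`
-/

set_option autoImplicit false

open AlgebraicCurve

namespace Fermat.Agent.S19Lib

open Fermat.Agent.S18Lib Fermat.Agent.S24Lib Fermat.Agent.FFLib Fermat.Agent.S34Lib

/-- `Gal(ℚ̄/ℚ)` -/
abbrev GQ : Type := Qb ≃ₐ[ℚ] Qb

/-- the rational orthonormality hypothesis (DL1) on a `ℚ`-structure `F0` of `F` -/
def HasRatOrth {k F Ft : Type*} [Field k] [Field F] [Algebra Qb F] [Field Ft] [Algebra k Ft]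
    {A : ValuationSubring Qb} {resK : A →+* k} (R : RedData A resK F Ft) (F0 : Subfield F) : Prop :=
  ∀ (n : ℕ) (f : Fin n → F), (∀ t, f t ∈ F0) →
    ∃ (m : ℕ) (b : Fin m → R.O), (∀ a, ((b a : R.O) : F) ∈ F0) ∧
      LinearIndependent k (fun a => R.red (b a)) ∧
      ∀ t, ∃ c : Fin m → ℚ, f t = ∑ a, (algebraMap ℚ Qb (c a)) • ((b a : R.O) : F)

variable {F Ω : Type*} [Field F] [Algebra Qb F] [Field Ω]

theorem CB_isAlgebraic_of_hom {R S : Type*} [CommRing R] [CommRing S] [Algebra R Ω] [Algebra S Ω]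
    (φ : R →+* S) (hφ : Function.Injective φ) (hc : (algebraMap S Ω).comp φ = algebraMap R Ω)
    {z : Ω} (hz : IsAlgebraic R z) : IsAlgebraic S z := by
  obtain ⟨p, hp0, hp⟩ := hz
  refine ⟨p.map φ, (Polynomial.map_ne_zero_iff hφ).2 hp0, ?_⟩
  rw [Polynomial.aeval_def, Polynomial.eval₂_map, hc, ← Polynomial.aeval_def, hp]

theorem CB_ratCast_mem (j : Qb →+* Ω) (M0 : Subfield Ω) (q : ℚ) :
    j (algebraMap ℚ Qb q) ∈ M0 := by
  rw [eq_ratCast, map_ratCast]
  exact SubfieldClass.ratCast_mem M0 q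

theorem CB_isAlgebraic (j : Qb →+* Ω) (M0 : Subfield Ω) (a : Qb) : IsAlgebraic M0 (j a) := by
  have ha : IsAlgebraic ℚ a := (AlgebraicClosure.isAlgebraic ℚ).isAlgebraic a
  obtain ⟨p, hp0, hp⟩ := ha
  let φ : ℚ →+* M0 := (j.comp (algebraMap ℚ Qb)).codRestrict M0 (CB_ratCast_mem j M0)
  refine ⟨p.map φ, (Polynomial.map_ne_zero_iff φ.injective).2 hp0, ?_⟩
  have hφ : (algebraMap M0 Ω).comp φ = j.comp (algebraMap ℚ Qb) := rfl
  rw [Polynomial.aeval_def, Polynomial.eval₂_map, hφ, ← Polynomial.hom_eval₂,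
    ← Polynomial.aeval_def, hp, map_zero]

/-- (CB2) -/
theorem closure_union_F0 (j : Qb →+* Ω) {g : ℕ} (e : Fin g → F →+* Ω)
    (he : ∀ i a, e i (algebraMap Qb F a) = j a) (F0 : Subfield F)
    (hgen : Subfield.closure (Set.range (algebraMap Qb F) ∪ (F0 : Set F)) = ⊤) :
    Subfield.closure (Set.range j ∪ (Subfield.closure (⋃ i, (e i) '' (F0 : Set F)) : Set Ω)) =
      Subfield.closure (Set.range j ∪ ⋃ i, Set.range (e i)) := by
  apply le_antisymm
  · rw [Subfield.closure_le]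
    rintro x (hx | hx)
    · exact Subfield.subset_closure (Or.inl hx)
    · refine (Subfield.closure_le.2 ?_) hx
      intro y hy
      obtain ⟨i, f, -, rfl⟩ := Set.mem_iUnion.1 hy
      exact Subfield.subset_closure (Or.inr (Set.mem_iUnion.2 ⟨i, f, rfl⟩))
  · rw [Subfield.closure_le]
    rintro x (hx | hx)
    · exact Subfield.subset_closure (Or.inl hx)
    · obtain ⟨i, f, rfl⟩ := Set.mem_iUnion.1 hx
      set L := Subfield.closure
        (Set.range j ∪ (Subfield.closure (⋃ i, (e i) '' (F0 : Set F)) : Set Ω)) with hL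
      have htop : (⊤ : Subfield F) ≤ L.comap (e i) := by
        rw [← hgen, Subfield.closure_le]
        rintro y (⟨a, rfl⟩ | hy)
        · show e i (algebraMap Qb F a) ∈ L
          rw [he]
          exact Subfield.subset_closure (Or.inl ⟨a, rfl⟩)
        · show e i y ∈ L
          exact Subfield.subset_closure (Or.inr (Subfield.subset_closure
            (Set.mem_iUnion.2 ⟨i, y, hy, rfl⟩)))
      exact htop (Subfield.mem_top f)

/-- (CB1) `Ω` is algebraic over `𝔽₀`: `j ℚ̄` is algebraic over `ℚ`, `e i F` is generated by `j ℚ̄`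
and `e i F0` -/
theorem isAlgebraic_closure_F0 (j : Qb →+* Ω) {g : ℕ} (e : Fin g → F →+* Ω)
    (he : ∀ i a, e i (algebraMap Qb F a) = j a) (F0 : Subfield F)
    (hgen : Subfield.closure (Set.range (algebraMap Qb F) ∪ (F0 : Set F)) = ⊤)
    (halg : ∀ z : Ω, IsAlgebraic (Subfield.closure (Set.range j ∪ ⋃ i, Set.range (e i))) z)
    (z : Ω) : IsAlgebraic (Subfield.closure (⋃ i, (e i) '' (F0 : Set F))) z := by
  set M0 := Subfield.closure (⋃ i, (e i) '' (F0 : Set F)) with hM0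
  set M1 := Subfield.closure (Set.range j ∪ ⋃ i, Set.range (e i)) with hM1
  let M1' : IntermediateField M0 Ω := IntermediateField.adjoin M0 (Set.range j)
  have hle : M1 ≤ M1'.toSubfield := by
    rw [hM1, ← closure_union_F0 j e he F0 hgen, Subfield.closure_le]
    rintro x (hx | hx)
    · exact IntermediateField.subset_adjoin _ _ hx
    · exact M1'.algebraMap_mem ⟨x, hx⟩
  have h1 : IsAlgebraic M1' z :=
    CB_isAlgebraic_of_hom (R := M1) (S := M1') (Subfield.inclusion hle)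
      (Subfield.inclusion hle).injective rfl (halg z)
  have : Algebra.IsAlgebraic M0 M1' := by
    apply IntermediateField.isAlgebraic_adjoin
    rintro _ ⟨a, rfl⟩
    exact (CB_isAlgebraic j M0 a).isIntegral
  exact h1.restrictScalars M0

/-- (CB3) an automorphism of `Ω` fixing `𝔽₀` and inducing `σ` on `ℚ̄` is a lift of `σ` -/
theorem lift_comp (j : Qb →+* Ω) {g : ℕ} (e : Fin g → F →+* Ω)
    (he : ∀ i a, e i (algebraMap Qb F a) = j a) (F0 : Subfield F)
    (hgen : Subfield.closure (Set.range (algebraMap Qb F) ∪ (F0 : Set F)) = ⊤)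
    (φ : SemilinearAut Qb F) (hφ0 : ∀ a ∈ F0, φ • a = a) (θ : Ω ≃+* Ω)
    (hθj : ∀ a, θ (j a) = j (SemilinearAut.baseAut φ a))
    (hθ0 : ∀ x ∈ Subfield.closure (⋃ i, (e i) '' (F0 : Set F)), θ x = x) (i : Fin g) (f : F) :
    θ (e i f) = e i (φ • f) := by
  let f1 : F →+* Ω := (θ : Ω →+* Ω).comp (e i)
  let f2 : F →+* Ω := (e i).comp ((SemilinearAut.toRingAut φ : F ≃+* F) : F →+* F)
  have htop : (⊤ : Subfield F) ≤ RingHom.eqLocusField f1 f2 := by
    rw [← hgen, Subfield.closure_le]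
    rintro y (⟨a, rfl⟩ | hy)
    · show θ (e i (algebraMap Qb F a)) = e i (φ • algebraMap Qb F a)
      rw [he, hθj, SemilinearAut.smul_algebraMap, he]
    · show θ (e i y) = e i (φ • y)
      rw [hφ0 y hy]
      exact hθ0 _ (Subfield.subset_closure (Set.mem_iUnion.2 ⟨i, y, hy, rfl⟩))
  exact htop (Subfield.mem_top f)

theorem CB_mem_range (j : Qb →+* Ω) (ψ : Qb →+* Ω) (a : Qb) : ψ a ∈ j.range := by
  have ha : IsAlgebraic ℚ a := (AlgebraicClosure.isAlgebraic ℚ).isAlgebraic a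
  obtain ⟨p, hp0, hp⟩ := ha
  have hsp : (p.map (algebraMap ℚ Qb)).Splits := IsAlgClosed.splits _
  refine hsp.mem_range_of_isRoot (Polynomial.map_ne_zero hp0) (i := j) ?_
  have hcomp : j.comp (algebraMap ℚ Qb) = ψ.comp (algebraMap ℚ Qb) := Subsingleton.elim _ _
  rw [Polynomial.IsRoot.def, Polynomial.map_map, hcomp, Polynomial.eval_map,
    ← Polynomial.hom_eval₂, ← Polynomial.aeval_def, hp, map_zero]

/-- (CB4) every automorphism of `Ω` induces an automorphism of `ℚ̄` (`j ℚ̄` is the set of algebraic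
numbers of `Ω`) -/
theorem exists_sigma (j : Qb →+* Ω) (θ : Ω ≃+* Ω) : ∃ σ : GQ, ∀ a, θ (j a) = j (σ a) := by
  have h1 : ∀ a, ∃ b, j b = θ (j a) := fun a => CB_mem_range j ((θ : Ω →+* Ω).comp j) a
  choose ψ hψ using h1
  let ψ' : Qb →+* Qb :=
    { toFun := ψ
      map_one' := j.injective (by rw [hψ, map_one, map_one])
      map_mul' := fun x y => j.injective (by rw [hψ, map_mul, map_mul, map_mul, hψ, hψ])
      map_zero' := j.injective (by rw [hψ, map_zero, map_zero])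
      map_add' := fun x y => j.injective (by rw [hψ, map_add, map_add, map_add, hψ, hψ]) }
  have hbij : Function.Bijective ψ'.toRatAlgHom := by
    refine ⟨ψ'.injective, fun b => ?_⟩
    obtain ⟨a, ha⟩ := CB_mem_range j ((θ.symm : Ω →+* Ω).comp j) b
    refine ⟨a, j.injective ?_⟩
    show j (ψ a) = j b
    rw [hψ, ha]
    exact θ.apply_symm_apply _
  exact ⟨AlgEquiv.ofBijective ψ'.toRatAlgHom hbij, fun a => (hψ a).symm⟩

/-- (CB5) existence of lifts: (SX) with `j' = j ∘ σ`, `e' i = e i ∘ φ`, (SX3) -/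
theorem exists_lift [IsAlgClosed Ω] (hF : IsFF Qb F) (j : Qb →+* Ω) {g : ℕ} (e : Fin g → F →+* Ω)
    (he : ∀ i a, e i (algebraMap Qb F a) = j a) (hind : Indep j e)
    (halg : ∀ z : Ω, IsAlgebraic (Subfield.closure (Set.range j ∪ ⋃ i, Set.range (e i))) z)
    (F0 : Subfield F) (φ : SemilinearAut Qb F) (hφ0 : ∀ a ∈ F0, φ • a = a) :
    ∃ θ : Ω ≃+* Ω, (∀ a, θ (j a) = j (SemilinearAut.baseAut φ a)) ∧
      (∀ i f, θ (e i f) = e i (φ • f)) ∧
      ∀ x ∈ Subfield.closure (⋃ i, (e i) '' (F0 : Set F)), θ x = x := by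
  obtain ⟨θ, hθj, hθe⟩ := exists_aut hF (j := j)
    (j' := j.comp ((SemilinearAut.baseAut φ : Qb ≃+* Qb) : Qb →+* Qb)) (e := e)
    (e' := fun i => (e i).comp ((SemilinearAut.toRingAut φ : F ≃+* F) : F →+* F)) he
    (fun i a => by
      show e i (SemilinearAut.toRingAut φ (algebraMap Qb F a)) = j (SemilinearAut.baseAut φ a)
      rw [SemilinearAut.commutes, he])
    hind (hind.comp_semilinear φ)
    (by
      ext x
      constructor
      · rintro ⟨a, rfl⟩
        exact ⟨_, rfl⟩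
      · rintro ⟨a, rfl⟩
        refine ⟨(SemilinearAut.baseAut φ).symm a, ?_⟩
        show j (SemilinearAut.baseAut φ ((SemilinearAut.baseAut φ).symm a)) = j a
        rw [RingEquiv.apply_symm_apply])
    halg
  refine ⟨θ, hθj, hθe, ?_⟩
  intro x hx
  have hle : Subfield.closure (⋃ i, (e i) '' (F0 : Set F)) ≤
      RingHom.eqLocusField (θ : Ω →+* Ω) (RingHom.id Ω) := by
    rw [Subfield.closure_le]
    intro y hy
    obtain ⟨i, f, hf, rfl⟩ := Set.mem_iUnion.1 hy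
    show θ (e i f) = e i f
    rw [hθe]
    show e i (φ • f) = e i f
    rw [hφ0 f hf]
  exact hle hx

theorem DL_denom (s : Set Ω) {r : ℕ} (u' : Fin r → Ω) (hu' : ∀ i, u' i ∈ Subfield.closure s) :
    ∃ Δ ∈ Subring.closure s, Δ ≠ 0 ∧ ∀ i, u' i * Δ ∈ Subring.closure s := by
  classical
  have h1 : ∀ i, ∃ N ∈ Subring.closure s, ∃ D ∈ Subring.closure s, D ≠ 0 ∧ u' i * D = N := by
    intro i
    obtain ⟨N, hN, D, hD, h⟩ := Subfield.mem_closure_iff.1 (hu' i)
    by_cases hD0 : D = 0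
    · refine ⟨0, Subring.zero_mem _, 1, Subring.one_mem _, one_ne_zero, ?_⟩
      rw [← h, hD0, div_zero, zero_mul]
    · exact ⟨N, hN, D, hD, hD0, by rw [← h, div_mul_cancel₀ _ hD0]⟩
  choose N hN D hD hD0 hND using h1
  refine ⟨∏ i, D i, Subring.prod_mem _ fun i _ => hD i, Finset.prod_ne_zero_iff.2 fun i _ => hD0 i,
    fun i => ?_⟩
  rw [← Finset.mul_prod_erase Finset.univ D (Finset.mem_univ i), ← mul_assoc, hND]
  exact Subring.mul_mem _ (hN i) (Subring.prod_mem _ fun k _ => hD k)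

theorem DL_lin {ι T : Type*} [Fintype ι] [Fintype T] (φ : ℚ →+* Ω) (P : ι → Ω) (c : T → ℚ)
    (U : T → ι → ℚ) :
    ∑ ν, φ ((∑ t, c t • U t) ν) * P ν = ∑ t, φ (c t) * ∑ ν, φ (U t ν) * P ν := by
  simp only [Finset.sum_apply, Pi.smul_apply, smul_eq_mul, map_sum, map_mul, Finset.sum_mul,
    Finset.mul_sum]
  rw [Finset.sum_comm]
  refine Finset.sum_congr rfl fun t _ => Finset.sum_congr rfl fun ν _ => ?_
  rw [mul_assoc]

/-- rational representation in one rational orthonormal product basis -/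
theorem DL_rep {k Ft : Type*} [Field k] [Field Ft] [Algebra k Ft]
    {A : ValuationSubring Qb} {resK : A →+* k}
    {R : RedData A resK F Ft} {j : Qb →+* Ω} {g : ℕ}
    {e : Fin g → F →+* Ω} (he : ∀ i a, e i (algebraMap Qb F a) = j a)
    (F0 : Subfield F) (hF0 : HasRatOrth R F0) {n : ℕ} (z : Fin n → Ω)
    (hz : ∀ t, z t ∈ Subring.closure (⋃ i, (e i) '' (F0 : Set F))) :
    ∃ (m : ℕ) (b : Fin m → R.O), (∀ a, ((b a : R.O) : F) ∈ F0) ∧
      LinearIndependent k (fun a => R.red (b a)) ∧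
      ∀ t, ∃ lam : (Fin g → Fin m) → ℚ,
        z t = ∑ ν, j (algebraMap ℚ Qb (lam ν)) * ∏ i, e i ((b (ν i) : R.O) : F) := by
  have : CharZero F := charZero_of_injective_algebraMap (algebraMap Qb F).injective
  have : CharZero F0 := F0.subtype.charZero
  let j₀ : ℚ →+* Ω := j.comp (algebraMap ℚ Qb)
  let e₀ : Fin g → F0 →+* Ω := fun i => (e i).comp F0.subtype
  have he₀ : ∀ i a, e₀ i (algebraMap ℚ F0 a) = j₀ a := by
    intro i a
    have : (e₀ i).comp (algebraMap ℚ F0) = j₀ := Subsingleton.elim _ _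
    exact RingHom.congr_fun this a
  obtain ⟨m', b', -, hrep⟩ := Indep.exists_rep (K := ℚ) (F := F0) (j := j₀) (e := e₀) he₀ z (by
    intro t
    refine Subring.closure_mono ?_ (hz t)
    intro y hy
    obtain ⟨i, f, hf, rfl⟩ := Set.mem_iUnion.1 hy
    exact Or.inr (Set.mem_iUnion.2 ⟨i, ⟨f, hf⟩, rfl⟩))
  obtain ⟨m, b, hbF0, hb, hco⟩ := hF0 m' (fun a => ((b' a : F0) : F)) (fun a => (b' a).2)
  choose γ hγ using hco
  refine ⟨m, b, hbF0, hb, fun t => ?_⟩
  obtain ⟨lam, hlam⟩ := hrep t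
  refine ⟨fun μ => ∑ ν, lam ν * ∏ i, γ (ν i) (μ i), ?_⟩
  have := up_expand j₀ (fun _ => m) lam (fun i ν l => γ (ν i) l)
    (fun i l => e i ((b l : R.O) : F))
  rw [hlam]
  refine Eq.trans ?_ this
  refine Finset.sum_congr rfl fun ν _ => ?_
  congr 1
  refine Finset.prod_congr rfl fun i _ => ?_
  show e i ((b' (ν i) : F0) : F) = _
  rw [hγ (ν i), map_sum]
  refine Finset.sum_congr rfl fun l _ => ?_
  rw [up_e_smul he]
  rfl

/-- (DL) rational orthonormal bases. -/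
theorem exists_orth_rational {k Ft ω : Type*} [Field k] [Field Ft] [Algebra k Ft] [Field ω]
    {A : ValuationSubring Qb} {resK : A →+* k} {B : ValuationSubring Ω} {resΩ : B →+* ω}
    (hres : Function.Surjective resK) (hresΩ : Function.Surjective resΩ)
    {R : RedData A resK F Ft} {j : Qb →+* Ω} {jb : k →+* ω} (V : VE A resK B resΩ j jb) {g : ℕ}
    {e : Fin g → F →+* Ω} {eb : Fin g → Ft →+* ω} (h : Good R B resΩ j jb e eb)
    (F0 : Subfield F) (hF0 : HasRatOrth R F0) (r : ℕ) (u' : Fin r → Ω)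
    (hu' : ∀ i, u' i ∈ Subfield.closure (⋃ i, (e i) '' (F0 : Set F))) :
    ∃ (r' : ℕ) (u : Fin r' → Ω),
      (∀ t, u t ∈ Subfield.closure (⋃ i, (e i) '' (F0 : Set F))) ∧ (∀ t, u t ∈ B) ∧
      (∀ lam : Fin r' → Qb, ∑ t, j (lam t) * u t ∈ B → ∀ t, lam t ∈ A) ∧
      (∀ i, ∃ c : Fin r' → ℚ, u' i = ∑ t, j (algebraMap ℚ Qb (c t)) * u t) ∧
      (∀ t, ∃ c : Fin r → ℚ, u t = ∑ i, j (algebraMap ℚ Qb (c i)) * u' i) := by
  classical
  set M0 := Subfield.closure (⋃ i, (e i) '' (F0 : Set F)) with hM0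
  have hR0M0 : ∀ x ∈ Subring.closure (⋃ i, (e i) '' (F0 : Set F)), x ∈ M0 := by
    intro x hx
    exact (Subring.closure_le (t := M0.toSubring)).2 Subfield.subset_closure hx
  obtain ⟨Δ, hΔ, hΔ0, hN⟩ := DL_denom _ u' hu'
  obtain ⟨m, b, hbF0, hb, hrep⟩ := DL_rep h.comm F0 hF0
    (Fin.cons Δ (fun i => u' i * Δ) : Fin (r + 1) → Ω) (by
      intro t
      refine Fin.cases ?_ (fun i => ?_) t
      · exact hΔ
      · exact hN i)
  obtain ⟨lamΔ, hlamΔ⟩ := hrep 0
  have hrepN : ∀ i : Fin r, ∃ lam : (Fin g → Fin m) → ℚ,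
      u' i * Δ = ∑ ν, j (algebraMap ℚ Qb (lam ν)) * ∏ i, e i ((b (ν i) : R.O) : F) :=
    fun i => hrep i.succ
  choose lamN hlamN using hrepN
  rw [Fin.cons_zero] at hlamΔ
  let φ : ℚ →+* Ω := j.comp (algebraMap ℚ Qb)
  let P : (Fin g → Fin m) → Ω := fun ν => ∏ i, e i ((b (ν i) : R.O) : F)
  let S : ((Fin g → Fin m) → ℚ) → Ω := fun v => ∑ ν, φ (v ν) * P ν
  have hSΔ : Δ = S lamΔ := hlamΔ
  have hSN : ∀ i, u' i * Δ = S (lamN i) := hlamN
  let A₀ : ValuationSubring ℚ := A.comap (algebraMap ℚ Qb)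
  have hA₀ : ∀ q : ℚ, q ∈ A₀ ↔ algebraMap ℚ Qb q ∈ A := fun q => Iff.rfl
  have hlamΔ0 : lamΔ ≠ 0 := by
    rintro rfl
    apply hΔ0
    rw [hSΔ]
    simp [S]
  obtain ⟨ν0, h0, hall⟩ := exists_max_val A₀ lamΔ hlamΔ0
  set c := lamΔ ν0 with hc
  have hφc : φ c ≠ 0 := (map_ne_zero φ).2 h0
  have hSscale : ∀ v : (Fin g → Fin m) → ℚ, S (fun ν => v ν / c) = S v / φ c := by
    intro v
    show ∑ ν, φ (v ν / c) * P ν = (∑ ν, φ (v ν) * P ν) / φ c
    rw [Finset.sum_div]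
    refine Finset.sum_congr rfl fun ν _ => ?_
    rw [map_div₀]
    ring
  set Δ' := S (fun ν => lamΔ ν / c) with hΔ'
  have hΔ'eq : Δ' = Δ / φ c := by rw [hΔ', hSscale, ← hSΔ]
  have hΔ'0 : Δ' ≠ 0 := by
    rw [hΔ'eq]
    exact div_ne_zero hΔ0 hφc
  have hSB : ∀ v : (Fin g → Fin m) → ℚ, (∀ ν, v ν ∈ A₀) → S v ∈ B := fun v hv =>
    (h.mem_iff hres hresΩ V b hb (fun ν => algebraMap ℚ Qb (v ν))).2 hv
  have hΔ'B : Δ' ∈ B := hSB _ hall
  have hΔ'inv : Δ'⁻¹ ∈ B := by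
    refine h.inv_mem hres hresΩ V b hb (fun ν => algebraMap ℚ Qb (lamΔ ν / c)) hall ν0 ?_ ?_
    · show algebraMap ℚ Qb (lamΔ ν0 / c) ≠ 0
      rw [hc, div_self h0, map_one]
      exact one_ne_zero
    · show (algebraMap ℚ Qb (lamΔ ν0 / c))⁻¹ ∈ A
      rw [hc, div_self h0, map_one, inv_one]
      exact A.one_mem
  have hPM0 : ∀ ν, P ν ∈ M0 := fun ν => M0.prod_mem fun i _ =>
    Subfield.subset_closure (Set.mem_iUnion.2 ⟨i, _, hbF0 (ν i), rfl⟩)
  have hSM0 : ∀ v, S v ∈ M0 := fun v => M0.sum_mem fun ν _ =>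
    M0.mul_mem (CB_ratCast_mem j M0 _) (hPM0 ν)
  have hu'S : ∀ i, u' i = S (fun ν => lamN i ν / c) / Δ' := by
    intro i
    rw [hSscale, ← hSN, hΔ'eq]
    field_simp
  obtain ⟨r', U, piv, hUA, hpiv, hwU, hUw⟩ := exists_echelon A₀ (fun i ν => lamN i ν / c)
  refine ⟨r', fun t => S (U t) / Δ', fun t => M0.div_mem (hSM0 _) (hSM0 _), fun t => ?_, ?_, ?_, ?_⟩
  · show S (U t) / Δ' ∈ B
    rw [div_eq_mul_inv]
    exact B.mul_mem _ _ (hSB _ (hUA t)) hΔ'inv
  · intro lam hlam t'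
    have h1 : (∑ t, j (lam t) * (S (U t) / Δ')) * Δ' ∈ B := B.mul_mem _ _ hlam hΔ'B
    have h2 : (∑ t, j (lam t) * (S (U t) / Δ')) * Δ' =
        ∑ ν, j (∑ t, lam t * algebraMap ℚ Qb (U t ν)) * ∏ i, e i ((b (ν i) : R.O) : F) := by
      rw [Finset.sum_mul]
      have : ∀ t, j (lam t) * (S (U t) / Δ') * Δ' = ∑ ν, j (lam t * algebraMap ℚ Qb (U t ν)) * P ν := by
        intro t
        rw [mul_assoc, div_mul_cancel₀ _ hΔ'0]
        show j (lam t) * ∑ ν, φ (U t ν) * P ν = _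
        rw [Finset.mul_sum]
        refine Finset.sum_congr rfl fun ν _ => ?_
        rw [map_mul, mul_assoc]
        rfl
      simp only [this]
      rw [Finset.sum_comm]
      refine Finset.sum_congr rfl fun ν _ => ?_
      rw [map_sum, Finset.sum_mul]
    rw [h2] at h1
    have h3 := (h.mem_iff hres hresΩ V b hb _).1 h1 (piv t')
    have h4 : ∑ t, lam t * algebraMap ℚ Qb (U t (piv t')) = lam t' := by
      simp only [hpiv]
      rw [Finset.sum_eq_single t']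
      · simp
      · intro t _ ht
        simp [ht]
      · intro ht
        exact absurd (Finset.mem_univ _) ht
    rwa [h4] at h3
  · intro i
    obtain ⟨cc, hcc⟩ := hwU i
    refine ⟨cc, ?_⟩
    rw [hu'S i]
    have h1 : S (fun ν => lamN i ν / c) = ∑ t, φ (cc t) * S (U t) := by
      have := DL_lin φ P cc U
      rw [← hcc] at this
      exact this
    rw [h1, Finset.sum_div]
    refine Finset.sum_congr rfl fun t _ => ?_
    rw [mul_div_assoc]
    rfl
  · intro t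
    obtain ⟨cc, hcc⟩ := hUw t
    refine ⟨cc, ?_⟩
    have h1 : S (U t) = ∑ i, φ (cc i) * S (fun ν => lamN i ν / c) := by
      have := DL_lin φ P cc (fun i ν => lamN i ν / c)
      rw [← hcc] at this
      exact this
    show S (U t) / Δ' = _
    rw [h1, Finset.sum_div]
    refine Finset.sum_congr rfl fun i _ => ?_
    rw [hu'S i, mul_div_assoc]
    rfl

end Fermat.Agent.S19Lib
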