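import Fermat.Agent.S37.NormBeta
import Fermat.Agent.S37.FEFund
import Fermat.Agent.ES.Trunk
import Fermat.Agent.S29.GaloisHecke
import Fermat.Agent.S18.Final
import Fermat.Agent.S34.RedG2B
import Fermat.Agent.S19.Rat

/-!
# S19 (LEV): change of level, finiteness of the torsion
-/

set_option autoImplicit false
set_option synthInstance.maxHeartbeats 400000
set_option linter.style.haveILetI false

open AlgebraicCurve ModularCurve CongruenceSubgroup

namespace Fermat.Agent.S19Lib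

open Fermat.Agent.S18Lib Fermat.Agent.S24Lib Fermat.Agent.FFLib Fermat.Agent.S34Lib

/-- a root of unity in `ℚ̄((q))` is a constant -/
theorem LV_const_of_pow_eq_one (n : ℕ) (hn : 0 < n) (u : LaurentSeries Qb) (hu : u ^ n = 1) :
    ∃ c : Qb, u = HahnSeries.C c := by
  have hint : IsIntegral Qb u := by
    refine ⟨Polynomial.X ^ n - 1, Polynomial.monic_X_pow_sub_C 1 hn.ne', ?_⟩
    simp [hu]
  have hdeg : (minpoly Qb u).degree = 1 :=
    IsAlgClosed.degree_eq_one_of_irreducible Qb (minpoly.irreducible hint)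
  obtain ⟨c, hc⟩ := minpoly.mem_range_of_degree_eq_one Qb u hdeg
  exact ⟨c, by rw [← hc, algebraMap_laurentSeries_eq_single]; rfl⟩

set_option maxHeartbeats 1000000 in
/-- (LV1) (LV2) no Kummer subextension in `FB (b N) / FB N`, `b ∤ N` prime (after helper9's
`S33Lib.mem_FB_of_pow_mem`).  The field `E'` of all `x ∈ FB (b N)` such that `w_b x` is a series in
`q ^ b` contains `FB N` and `a`; `[FB (b N) : E'] ≥ b` since `1, j, ..., j ^ (b - 1)` are
independent over `ℚ̄((q ^ b))`; `[FB (b N) : FB N] = b + 1`. -/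
theorem mem_FB_of_pow_mem (N b : ℕ) [NeZero N] [NeZero b] [hbF : Fact b.Prime] (hbN : ¬ b ∣ N)
    (n : ℕ) (hn : 0 < n) (a : LaurentSeries Qb) (ha : a ∈ FB (b * N)) (han : a ^ n ∈ FB N) :
    a ∈ FB N := by
  by_cases ha0 : a = 0
  · rw [ha0]; exact (FB N).zero_mem
  letI := (IntermediateField.inclusion (FB_le N b)).toRingHom.toAlgebra
  have hd := D2_degree (FB_le N b)
  have h1 : (CongruenceSubgroup.Gamma0 (b * N)).index =
      (CongruenceSubgroup.Gamma0 N).index * (b + 1) := by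
    rw [Fermat.Agent.S20Lib.index_Gamma0 (b * N),
      Fermat.Agent.S20Lib.dedekindPsi_mul_of_not_dvd (NeZero.ne N) hbF.out hbN,
      ← Fermat.Agent.S20Lib.index_Gamma0 N, mul_comm]
  have hrank : Module.finrank (FB N) (FB (b * N)) = b + 1 := by
    rw [h1] at hd
    exact (Nat.eq_of_mul_eq_mul_left (Nat.pos_of_ne_zero (D2_index_ne_zero N)) hd).symm
  let φ : FB (b * N) →+* LaurentSeries Qb := wqS N b hbN
  have halg : ∀ (s : LaurentSeries Qb) (hs : s ∈ FB N),
      algebraMap (FB N) (FB (b * N)) ⟨s, hs⟩ = ⟨s, FB_le N b hs⟩ := fun _ _ => rfl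
  let E' : IntermediateField (FB N) (FB (b * N)) :=
    Subfield.toIntermediateField ((qExpand Qb b).fieldRange.comap φ) (by
      rintro ⟨s, hs⟩
      rw [halg s hs, Subfield.mem_comap, RingHom.mem_fieldRange]
      exact ⟨s, (wqS_of_mem N b hbN s hs (FB_le N b hs)).symm⟩)
  have hE' : ∀ x : FB (b * N), x ∈ E' ↔ ∃ y, qExpand Qb b y = φ x := fun x => Iff.rfl
  have hmem : (⟨a, ha⟩ : FB (b * N)) ∈ E' := by
    rw [hE']
    set c : LaurentSeries Qb := φ ⟨a, ha⟩ with hc
    have hpw : (⟨a, ha⟩ : FB (b * N)) ^ n = ⟨a ^ n, FB_le N b han⟩ :=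
      Subtype.ext (SubmonoidClass.coe_pow _ _)
    have hbn : c ^ n = (qExpand Qb b a) ^ n := by
      rw [hc, ← map_pow, ← map_pow, hpw]
      exact wqS_of_mem N b hbN (a ^ n) han (FB_le N b han)
    have hq0 : qExpand Qb b a ≠ 0 := by
      intro h
      exact ha0 (qExpand_injective (R := Qb) b (h.trans (map_zero _).symm))
    obtain ⟨z, hz⟩ := LV_const_of_pow_eq_one n hn (c / qExpand Qb b a) (by
      rw [div_pow, hbn, div_self (pow_ne_zero n hq0)])
    refine ⟨HahnSeries.C z * a, ?_⟩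
    rw [map_mul, qExpand_C, ← hz, div_mul_cancel₀ _ hq0]
  haveI : FiniteDimensional (FB N) (FB (b * N)) :=
    Module.finite_of_finrank_pos (by rw [hrank]; omega)
  let u : FB (b * N) := ⟨qExpand Qb b (jqModC Qb), Vj_mem N b⟩
  have hu : φ u = jqModC Qb := wqS_Vj N b hbN
  have hli : LinearIndependent E' (fun i : Fin b => u ^ (i : ℕ)) := by
    rw [Fintype.linearIndependent_iff]
    intro c hc
    choose y hy using fun i => (hE' (c i : FB (b * N))).1 (c i).2
    have h2 := congrArg φ hc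
    rw [map_sum, map_zero] at h2
    have h0 := ind_Vq b (jqModC Qb) (Fermat.Agent.S28Lib.order_jqModC Qb) y (by
      rw [← h2]
      refine Finset.sum_congr rfl fun i _ => ?_
      rw [hy, ← hu, ← map_pow, ← map_mul]
      rfl)
    intro i
    have h3 : φ (c i : FB (b * N)) = 0 := by rw [← hy, h0, map_zero]
    exact Subtype.ext ((map_eq_zero φ).1 h3)
  have hle : b ≤ Module.finrank E' (FB (b * N)) := by
    simpa using hli.fintype_card_le_finrank
  have hmul := Module.finrank_mul_finrank (FB N) E' (FB (b * N))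
  have hb2 : 2 ≤ b := hbF.out.two_le
  have hone : Module.finrank (FB N) E' = 1 := by
    rw [hrank] at hmul
    have hpos : 0 < Module.finrank (FB N) E' := Module.finrank_pos
    by_contra hne
    have h2 : 2 ≤ Module.finrank (FB N) E' := by omega
    have h3 : 2 * b ≤ Module.finrank (FB N) E' * Module.finrank E' (FB (b * N)) :=
      Nat.mul_le_mul h2 hle
    omega
  have hbot : E' = ⊥ := IntermediateField.finrank_eq_one_iff.mp hone
  rw [hbot, IntermediateField.mem_bot] at hmem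
  obtain ⟨⟨s, hs⟩, hx⟩ := hmem
  rw [halg s hs] at hx
  have : s = a := congrArg Subtype.val hx
  rw [← this]
  exact hs

theorem LV_principal_of_mk_eq_zero {K F : Type*} [Field K] [Field F] [Algebra K F]
    {D : Divisor.degZero (K := K) (F := F)} (h : Pic0.mk D = 0) :
    Divisor.IsPrincipal (D : Divisor K F) := by
  have h1 := (QuotientAddGroup.eq_zero_iff _).mp h
  rw [AddSubgroup.mem_addSubgroupOf] at h1
  exact h1

theorem LV_mk_eq_zero {K F : Type*} [Field K] [Field F] [Algebra K F]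
    {D : Divisor.degZero (K := K) (F := F)} (h : Divisor.IsPrincipal (D : Divisor K F)) :
    Pic0.mk D = 0 := by
  apply (QuotientAddGroup.eq_zero_iff _).mpr
  rw [AddSubgroup.mem_addSubgroupOf]
  exact h

theorem LV_intertwines {N M : ℕ}
    (hNM : laurentBaseChange Qb (modularFunctionFieldFull N) ≤
      laurentBaseChange Qb (modularFunctionFieldFull M)) (σ : Qb ≃ₐ[ℚ] Qb) :
    SemilinearAut.IntertwinesAlong (IntermediateField.inclusion hNM).toRingHom
      (arithmeticGalois (modularFunctionFieldFull N) σ)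
      (arithmeticGalois (modularFunctionFieldFull M) σ) := by
  intro x
  apply Subtype.ext
  show ((arithmeticGalois (modularFunctionFieldFull M) σ • (IntermediateField.inclusion hNM x) :
      laurentBaseChange Qb (modularFunctionFieldFull M)) : LaurentSeries Qb) =
    ((IntermediateField.inclusion hNM (arithmeticGalois (modularFunctionFieldFull N) σ • x) :
      laurentBaseChange Qb (modularFunctionFieldFull M)) : LaurentSeries Qb)
  rw [coe_arithmeticGalois_smul, IntermediateField.coe_inclusion, IntermediateField.coe_inclusion,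
    coe_arithmeticGalois_smul]

/-- abstract pull back of divisor classes -/
theorem LV_abs {K F F' : Type*} [Field K] [IsAlgClosed K] [Field F] [Field F'] [Algebra K F]
    [Algebra K F'] (hF : IsFF K F) (hF' : IsFF K F') (φ : F →ₐ[K] F') :
    ∃ Φ : Pic0 K F →+ Pic0 K F',
      (∀ (g : SemilinearAut K F) (g' : SemilinearAut K F'),
        SemilinearAut.IntertwinesAlong φ.toRingHom g g' → ∀ x, Φ (g • x) = g' • Φ x) ∧
      ∀ D : Divisor.degZero (K := K) (F := F), Φ (Pic0.mk D) = 0 →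
        ∃ h : F', h ≠ 0 ∧ ∀ (f : F) (n : ℕ), f ≠ 0 →
          (∀ P : Place K F, P.ord f = n * (D : Divisor K F) P) →
          ∃ c : K, c ≠ 0 ∧ h ^ n = algebraMap K F' c * φ f := by
  have : HasPrincipalDivisors K F' := hasPrincipalDivisors hF'
  have hφ : φ.toRingHom.IsIntegral := Fermat.Agent.S37Lib.fe_isIntegral_along hF hF' φ
  have hFI := Fermat.Agent.S37Lib.fe_fundamental_along hF hF' φ hφ
  let Φ0 : Divisor.degZero (K := K) (F := F) →+ Divisor.degZero (K := K) (F := F') :=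
    ((Divisor.pullbackAlong φ hφ).domRestrict (Divisor.degZero (K := K) (F := F))).codRestrict _
      (fun D => Divisor.pullbackAlong_mem_degZero φ hφ hFI D.2)
  have hΦ0 : ∀ D, ((Φ0 D : Divisor.degZero (K := K) (F := F')) : Divisor K F') =
      Divisor.pullbackAlong φ hφ (D : Divisor K F) := fun _ => rfl
  let Φ : Pic0 K F →+ Pic0 K F' := QuotientAddGroup.map _ _ Φ0 (by
    rintro ⟨D, hD0⟩ hD
    simp only [AddSubgroup.mem_addSubgroupOf] at hD ⊢
    exact Divisor.isPrincipal_pullbackAlong φ hφ hD)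
  have hΦ : ∀ D, Φ (Pic0.mk D) = Pic0.mk (Φ0 D) := fun _ => rfl
  refine ⟨Φ, ?_, ?_⟩
  · intro g g' hint x
    obtain ⟨D, rfl⟩ := Pic0.mk_surjective x
    rw [SemilinearAut.pic0_smul_mk, hΦ, hΦ, SemilinearAut.pic0_smul_mk]
    congr 1
    apply Subtype.ext
    rw [SemilinearAut.coe_degZeroSMulHom, hΦ0, hΦ0, SemilinearAut.coe_degZeroSMulHom]
    exact Fermat.Agent.S29Lib.GH.pullbackAlong_smul φ hφ _ _ hint _
  · intro D hD
    rw [hΦ] at hD
    obtain ⟨h, hh0, hh⟩ := LV_principal_of_mk_eq_zero hD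
    refine ⟨h, hh0, fun f n hf hfD => ?_⟩
    have hφf : φ f ≠ 0 := (map_ne_zero_iff _ φ.toRingHom.injective).mpr hf
    have hord : ∀ w : Place K F', w.ord (h ^ n / φ f) = 0 := by
      intro w
      rw [div_eq_mul_inv, w.ord_mul (pow_ne_zero n hh0) (inv_ne_zero hφf), w.ord_inv,
        ma_ord_pow, ← hh w, Place.ord_restrictAlong φ hφ, hfD, hΦ0, Divisor.pullbackAlong_apply]
      ring
    obtain ⟨c, hc⟩ := mem_range_of_forall_ord_eq_zero hF' _ hord
    have hc0 : c ≠ 0 := by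
      rintro rfl
      rw [map_zero] at hc
      exact div_ne_zero (pow_ne_zero n hh0) hφf hc.symm
    refine ⟨c, hc0, ?_⟩
    rw [hc, div_mul_cancel₀ _ hφf]

theorem exists_pullback (N M : ℕ) [NeZero N] [NeZero M] (hNM : N ∣ M) :
    ∃ Φ : JZero N →+ JZero M, (∀ (σ : GQ) (x : JZero N), Φ (σ • x) = σ • Φ x) ∧
      ∀ (D : Divisor.degZero (K := Qb) (F := FB N)), Φ (Pic0.mk D) = 0 →
        ∃ h : FB M, h ≠ 0 ∧ ∀ (f : FB N) (n : ℕ), f ≠ 0 →
          (∀ P : Place Qb (FB N), P.ord f = n * (D : Divisor Qb (FB N)) P) →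
          ∃ c : Qb, c ≠ 0 ∧ (h : LaurentSeries Qb) ^ n =
            algebraMap Qb (LaurentSeries Qb) c * (f : LaurentSeries Qb) := by
  obtain ⟨Φ, h1, h2⟩ := LV_abs (isFF_FB N) (isFF_FB M)
    (IntermediateField.inclusion (FB_le_of_dvd hNM))
  refine ⟨Φ, fun σ x => h1 _ _ (LV_intertwines (FB_le_of_dvd hNM) σ) x, fun D hD => ?_⟩
  obtain ⟨h, hh0, hh⟩ := h2 D hD
  refine ⟨h, hh0, fun f n hf hfD => ?_⟩
  obtain ⟨c, hc0, hc⟩ := hh f n hf hfD
  exact ⟨c, hc0, congrArg (Subtype.val : FB M → LaurentSeries Qb) hc⟩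

/-- (LV4) if `h ∈ FB N`, `h ^ n = c f`, `div f = n D` then `D = div h` -/
theorem isPrincipal_of_pow (N : ℕ) [NeZero N] (D : Divisor Qb (FB N)) (f h : FB N) (n : ℕ)
    (hn : 0 < n) (hf : f ≠ 0) (hD : ∀ P : Place Qb (FB N), P.ord f = n * D P) (c : Qb)
    (hc : c ≠ 0) (hh : h ^ n = algebraMap Qb (FB N) c * f) : Divisor.IsPrincipal D := by
  have hc' : algebraMap Qb (FB N) c ≠ 0 :=
    (map_ne_zero_iff _ (algebraMap Qb (FB N)).injective).mpr hc
  have hh0 : h ≠ 0 := by
    rintro rfl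
    rw [zero_pow hn.ne'] at hh
    exact mul_ne_zero hc' hf hh.symm
  refine ⟨h, hh0, fun P => ?_⟩
  have h1 := congrArg P.ord hh
  rw [ma_ord_pow, P.ord_mul hc' hf, ord_algebraMap, zero_add, hD] at h1
  have hn' : (n : ℤ) ≠ 0 := by exact_mod_cast hn.ne'
  exact (mul_left_cancel₀ hn' h1).symm

theorem LV_mk_zsmul {K F : Type*} [Field K] [Field F] [Algebra K F] (n : ℤ)
    (D : Divisor.degZero (K := K) (F := F)) : Pic0.mk (n • D) = n • Pic0.mk D :=
  (QuotientAddGroup.mk' ((Divisor.principal (K := K) (F := F)).addSubgroupOf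
    (Divisor.degZero (K := K) (F := F)))).map_zsmul n D

theorem LV_mk_sub {K F : Type*} [Field K] [Field F] [Algebra K F]
    (D E : Divisor.degZero (K := K) (F := F)) : Pic0.mk (D - E) = Pic0.mk D - Pic0.mk E :=
  (QuotientAddGroup.mk' ((Divisor.principal (K := K) (F := F)).addSubgroupOf
    (Divisor.degZero (K := K) (F := F)))).map_sub D E

/-- a torsion class: `n D = div f` -/
theorem LV_exists_fun {K F : Type*} [Field K] [Field F] [Algebra K F] (n : ℕ) (x : Pic0 K F)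
    (hx : (n : ℤ) • x = 0) :
    ∃ (D : Divisor.degZero (K := K) (F := F)) (f : F), Pic0.mk D = x ∧ f ≠ 0 ∧
      ∀ P : Place K F, P.ord f = n * (D : Divisor K F) P := by
  obtain ⟨D, rfl⟩ := Pic0.mk_surjective x
  rw [← LV_mk_zsmul] at hx
  obtain ⟨f, hf0, hf⟩ := LV_principal_of_mk_eq_zero hx
  refine ⟨D, f, rfl, hf0, fun P => ?_⟩
  rw [← hf P]
  simp

/-- (FIN) finiteness of the torsion: `x = [D]`, `n D = div f`, `f` is a Kummer function
(`ESLib.IsKum`); `ESLib.trunkHyp0` / `TrunkHyp`: `exists_of_isKum`, `congr`, `eq_pow` give an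
injection of `J[n]` into `EP N ℤ / n ≅ (ℤ/n)^r` (cf. `ESLib.P.Kap`). -/
theorem finite_torsion (N : ℕ) [NeZero N] (n : ℕ) (hn : 0 < n) :
    Finite (Submodule.torsionBy ℤ (JZero N) (n : ℤ)) := by
  classical
  have H := (Fermat.Agent.ESLib.trunkHyp0 N).toTrunkHyp
  obtain ⟨r, b, -⟩ := H.theta
  have : NeZero n := ⟨hn.ne'⟩
  have key : ∀ x : Submodule.torsionBy ℤ (JZero N) (n : ℤ),
      ∃ (D : Divisor.degZero (K := Qb) (F := FB N)) (f : FB N) (v : Fin r → ZMod n),
        Pic0.mk D = (x : JZero N) ∧ f ≠ 0 ∧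
        (∀ P : Place Qb (FB N), P.ord f = n * (D : Divisor Qb (FB N)) P) ∧
        Fermat.Agent.ESLib.P.Kap b n f v := by
    intro x
    obtain ⟨D, f, hD, hf0, hf⟩ := LV_exists_fun n (x : JZero N)
      ((Submodule.mem_torsionBy_iff _ _).mp x.2)
    have hK : Fermat.Agent.ESLib.IsKum N n f := ⟨hf0, fun P => ⟨_, hf P⟩⟩
    obtain ⟨φ, hφ, hR⟩ := H.exists_of_isKum hn hK
    exact ⟨D, f, _, hD, hf0, hf, ⟨⟨φ, hφ⟩, hR, rfl⟩⟩
  choose D f v hD hf0 hf hK using key
  refine Finite.of_injective v ?_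
  intro x y hxy
  have h1 := (hK x).mul H hn ((hK y).inv H hn)
  rw [hxy, add_neg_cancel] at h1
  obtain ⟨g, hg0, hg⟩ := h1.eq_pow H hn
  have hp : Divisor.IsPrincipal ((D x - D y : Divisor.degZero (K := Qb) (F := FB N)) :
      Divisor Qb (FB N)) := by
    refine ⟨g, hg0, fun P => ?_⟩
    have h2 := congrArg P.ord hg
    rw [ma_ord_pow, P.ord_mul (hf0 x) (inv_ne_zero (hf0 y)), P.ord_inv, hf, hf] at h2
    have hn' : (n : ℤ) ≠ 0 := by exact_mod_cast hn.ne'
    have h3 : (n : ℤ) * ((D x : Divisor Qb (FB N)) P - (D y : Divisor Qb (FB N)) P) =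
        n * P.ord g := by rw [← h2]; ring
    have h4 := mul_left_cancel₀ hn' h3
    rw [← h4]
    simp
  apply Subtype.ext
  rw [← hD x, ← hD y, ← sub_eq_zero, ← LV_mk_sub]
  exact LV_mk_eq_zero hp

/-- (LEV) -/
theorem exists_level_map (N : ℕ) [NeZero N] {ℓ : ℕ} (hℓ : ℓ.Prime) (hℓN : ¬ ℓ ∣ N) :
    ∃ (M : ℕ) (_ : NeZero M), ¬ ℓ ∣ M ∧ (2 ∣ M ∨ 3 ∣ M) ∧
      ∃ Φ : JZero N →+ JZero M, (∀ (σ : GQ) (x : JZero N), Φ (σ • x) = σ • Φ x) ∧
        ∀ (n : ℕ) (x : JZero N), 0 < n → (n : ℤ) • x = 0 → Φ x = 0 → x = 0 := by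
  obtain ⟨b, hb, hbℓ, hb23⟩ : ∃ b : ℕ, b.Prime ∧ b ≠ ℓ ∧ (b = 2 ∨ b = 3) := by
    by_cases h : ℓ = 2
    · exact ⟨3, Nat.prime_three, by omega, Or.inr rfl⟩
    · exact ⟨2, Nat.prime_two, fun h' => h h'.symm, Or.inl rfl⟩
  by_cases hbN : b ∣ N
  · refine ⟨N, inferInstance, hℓN, ?_, AddMonoidHom.id _, fun _ _ => rfl, fun _ x _ _ h => h⟩
    rcases hb23 with rfl | rfl
    · exact Or.inl hbN
    · exact Or.inr hbN
  · haveI : NeZero b := ⟨hb.ne_zero⟩
    haveI : Fact b.Prime := ⟨hb⟩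
    haveI : NeZero (b * N) := ⟨Nat.mul_ne_zero hb.ne_zero (NeZero.ne N)⟩
    obtain ⟨Φ, h1, h2⟩ := exists_pullback N (b * N) (dvd_mul_left N b)
    refine ⟨b * N, inferInstance, ?_, ?_, Φ, h1, ?_⟩
    · intro h
      rcases (Nat.Prime.dvd_mul hℓ).mp h with h | h
      · exact hbℓ ((Nat.prime_dvd_prime_iff_eq hℓ hb).mp h).symm
      · exact hℓN h
    · rcases hb23 with rfl | rfl
      · exact Or.inl (dvd_mul_right _ _)
      · exact Or.inr (dvd_mul_right _ _)
    · intro n x hn hx hΦ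
      obtain ⟨D, f, rfl, hf0, hf⟩ := LV_exists_fun n x hx
      obtain ⟨h, hh0, hh⟩ := h2 D hΦ
      obtain ⟨c, hc0, hc⟩ := hh f n hf0 hf
      have hmem : (h : LaurentSeries Qb) ∈ FB N :=
        mem_FB_of_pow_mem N b hbN n hn _ h.2 (by
          rw [hc]
          exact mul_mem ((FB N).algebraMap_mem c) f.2)
      apply LV_mk_eq_zero
      exact isPrincipal_of_pow N D f ⟨h, hmem⟩ n hn hf0 hf c hc0 (Subtype.ext hc)

end Fermat.Agent.S19Lib
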