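import Fermat.Agent.S19.Defs

/-!
# S19 (G): general points on a curve over an algebraically closed field (Riemann-Roch free)
-/

set_option autoImplicit false

open AlgebraicCurve

namespace Fermat.Agent.S19Lib

open Fermat.Agent.S18Lib Fermat.Agent.S24Lib Fermat.Agent.FFLib Fermat.Agent.S34Lib

variable {K F : Type*} [Field K] [Field F] [Algebra K F] [IsAlgClosed K]

omit [IsAlgClosed K] in
theorem gen_sumP_cons {n : ℕ} (w : Place K F) (v : Fin n → Place K F) :
    sumP (Fin.cons w v : Fin (n + 1) → Place K F) = Finsupp.single w 1 + sumP v := by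
  unfold sumP
  rw [Fin.sum_univ_succ]
  simp only [Fin.cons_zero, Fin.cons_succ]

open Classical in
omit [IsAlgClosed K] in
theorem gen_sumP_apply {n : ℕ} (v : Fin n → Place K F) (w : Place K F) :
    sumP v w = (Fintype.card {i // v i = w} : ℤ) := by
  unfold sumP
  rw [Finsupp.finsetSum_apply, Fintype.card_subtype]
  simp only [Finsupp.single_apply]
  rw [Finset.sum_boole]

/-- (G1) `x` transcendental; `x - c` has a zero (`exists_place_ord_pos`), different `c` give
different places; `K` is infinite. -/
theorem infinite_place (hF : IsFF K F) : Infinite (Place K F) := by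
  obtain ⟨x, hx, -⟩ := id hF
  have htr : ∀ c : K, Transcendental K (x - algebraMap K F c) := by
    intro c halg
    apply hx
    have := halg.add (isAlgebraic_algebraMap (A := F) c)
    rwa [sub_add_cancel] at this
  choose v hv using fun c : K => exists_place_ord_pos hF (htr c)
  refine Infinite.of_injective v ?_
  intro c c' hcc
  have h1 : D2_ge (v c) 1 (x - algebraMap K F c) := Or.inr (by have := hv c; omega)
  have h2 : D2_ge (v c) 1 (x - algebraMap K F c') := Or.inr (by have := hv c'; rw [hcc]; omega)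
  exact ev_unique _ h1 h2

theorem gen_ell_add_sum (hF : IsFF K F) (C : Divisor K F) (s : Finset (Place K F))
    (hs : ∀ Q ∈ s, FFLib.ell (C + Finsupp.single Q 1) ≠ FFLib.ell C) :
    FFLib.ell C + s.card ≤ FFLib.ell (C + ∑ Q ∈ s, Finsupp.single Q 1) := by
  classical
  induction s using Finset.induction_on with
  | empty => simp
  | insert Q s hQ ih =>
    have ih' := ih fun Q' hQ' => hs Q' (Finset.mem_insert_of_mem hQ')
    have hQs := hs Q (Finset.mem_insert_self _ _)
    rw [Finset.sum_insert hQ, Finset.card_insert_of_notMem hQ]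
    set A : Divisor K F := C + ∑ Q ∈ s, Finsupp.single Q 1 with hA
    have hAQ : A Q = C Q := by
      rw [hA, Finsupp.coe_add, Pi.add_apply, Finsupp.finsetSum_apply]
      rw [Finset.sum_eq_zero, add_zero]
      intro Q' hQ'
      rw [Finsupp.single_apply, if_neg]
      rintro rfl
      exact hQ hQ'
    have hCA : C ≤ A := by
      rw [hA]
      refine le_add_of_nonneg_right (Finset.sum_nonneg fun Q' _ => ?_)
      intro u
      rw [Finsupp.single_apply]
      simp only [Finsupp.coe_zero, Pi.zero_apply]
      split_ifs <;> simp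
    have heq : C + (Finsupp.single Q 1 + ∑ Q ∈ s, Finsupp.single Q 1) = A + Finsupp.single Q 1 := by
      rw [hA]; abel
    rw [heq]
    obtain ⟨f, hf1, hf2⟩ : ∃ f ∈ riemannRochSpace (C + Finsupp.single Q 1),
        f ∉ riemannRochSpace C := by
      by_contra hcon
      push Not at hcon
      apply hQs
      have hle : riemannRochSpace C ≤ riemannRochSpace (C + Finsupp.single Q 1) := by
        refine L_mono (le_add_of_nonneg_right ?_)
        intro u
        rw [Finsupp.single_apply]
        simp only [Finsupp.coe_zero, Pi.zero_apply]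
        split_ifs <;> simp
      have : riemannRochSpace (C + Finsupp.single Q 1) = riemannRochSpace C :=
        le_antisymm hcon hle
      unfold FFLib.ell
      rw [this]
    obtain ⟨hf0, hford⟩ := ls_ord_eq hf1 hf2
    have hlt : riemannRochSpace A < riemannRochSpace (A + Finsupp.single Q 1) := by
      refine lt_of_le_of_ne (L_mono (le_add_of_nonneg_right ?_)) ?_
      · intro u
        rw [Finsupp.single_apply]
        simp only [Finsupp.coe_zero, Pi.zero_apply]
        split_ifs <;> simp
      · intro heq2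
        have h1 : f ∈ riemannRochSpace (A + Finsupp.single Q 1) :=
          L_mono (add_le_add_left hCA _) hf1
        rw [← heq2, mem_L_iff] at h1
        rcases h1 Q with h1 | h1
        · exact hf0 h1
        · rw [hAQ, hford] at h1
          omega
    have := finiteDimensional_L hF (A + Finsupp.single Q 1)
    have h3 := Submodule.finrank_lt_finrank_of_lt hlt
    unfold FFLib.ell at ih' ⊢
    omega

/-- (G2) if `C` is special, only finitely many `Q` have `ℓ(C + Q) > ℓ(C)`.  Otherwise take
distinct such `Q_1, ..., Q_m` outside the support of `C`, `f_j ∈ L(C + Q_j) \ L(C)`: then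
`ℓ(C + ∑ Q_j) = ℓ(C) + m` for all `m`, contradicting `riemann_equality`. -/
theorem finite_special (hF : IsFF K F) (C : Divisor K F)
    (hC : Divisor.degree C + 1 - (genusR K F : ℤ) < (FFLib.ell C : ℤ)) :
    {Q : Place K F | FFLib.ell (C + Finsupp.single Q 1) ≠ FFLib.ell C}.Finite := by
  by_contra hinf
  obtain ⟨c, hc⟩ := riemann_equality hF
  obtain ⟨s, hs, hcard⟩ := (Set.not_finite.mp hinf).exists_subset_card_eq
    (c - Divisor.degree C).toNat
  have h1 := gen_ell_add_sum hF C s (fun Q hQ => hs hQ)
  have hdeg : Divisor.degree (C + ∑ Q ∈ s, Finsupp.single Q 1) = Divisor.degree C + s.card := by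
    rw [map_add, map_sum]
    simp only [degree_single' hF, Finset.sum_const, nsmul_eq_mul, mul_one]
  have h2 := hc (C + ∑ Q ∈ s, Finsupp.single Q 1) (by rw [hdeg, hcard]; omega)
  rw [hdeg] at h2
  omega

/-- (G3) `riemann_inequality`, `ell_le_add` -/
theorem ell_add_single_of_eq (hF : IsFF K F) (C : Divisor K F)
    (hC : (FFLib.ell C : ℤ) = Divisor.degree C + 1 - (genusR K F : ℤ)) (Q : Place K F) :
    FFLib.ell (C + Finsupp.single Q 1) = FFLib.ell C + 1 := by
  have h1 := riemann_inequality hF (C + Finsupp.single Q 1)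
  have h2 := (ls_step hF C Q (finiteDimensional_L hF C)).2
  rw [map_add, degree_single' hF] at h1
  omega

theorem gen_finite_bad (hF : IsFF K F) (C : Divisor K F) :
    {Q : Place K F | (FFLib.ell (C + Finsupp.single Q 1) : ℤ) ≠
      max (FFLib.ell C : ℤ) (Divisor.degree C + 2 - (genusR K F : ℤ))}.Finite := by
  have h0 := riemann_inequality hF C
  rcases h0.lt_or_eq with h | h
  · refine (finite_special hF C h).subset ?_
    intro Q hQ hQ'
    apply hQ
    rw [hQ']
    omega
  · convert Set.finite_empty (α := Place K F)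
    ext Q
    simp only [Set.mem_setOf_eq, Set.mem_empty_iff_false, iff_false, not_not]
    rw [ell_add_single_of_eq hF C h.symm Q]
    push_cast
    omega

theorem gen_evP_sum (hF : IsFF K F) (Q : Place K F) {m : ℕ} (b : Fin m → F)
    (hb : ∀ a, 0 ≤ Q.ord (b a)) (c : Fin m → K) :
    evP Q (∑ a, c a • b a) = ∑ a, c a * evP Q (b a) := by
  apply evP_eq_of
  have : ∑ a, c a • b a - algebraMap K F (∑ a, c a * evP Q (b a)) =
      ∑ a, algebraMap K F (c a) * (b a - algebraMap K F (evP Q (b a))) := by
    rw [map_sum, ← Finset.sum_sub_distrib]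
    refine Finset.sum_congr rfl fun a _ => ?_
    rw [Algebra.smul_def, map_mul]; ring
  rw [this]
  refine ze_ge_sum Q 1 _ _ fun a _ => ?_
  have h1 := evP_spec hF Q (a := b a) (Or.inr (hb a))
  have h3 : D2_ge Q 0 (algebraMap K F (c a)) := Or.inr (ord_algebraMap Q _).ge
  simpa using D2.ge_mul Q h3 h1

/-- the general selection lemma, (G4) and (G6) together -/
theorem gen_sel (hF : IsFF K F) (m : ℕ) (b : Fin m → F) (hb : LinearIndependent K b) (n : ℕ) :
    ∀ (C : Divisor K F) (T : Finset (Place K F)) (Λ : Finset ((Fin n → Fin m) → K)),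
      (∀ lam ∈ Λ, lam ≠ 0) →
    ∃ Q : Fin n → Place K F, Function.Injective Q ∧ (∀ i, Q i ∉ T) ∧
      (∀ i a, 0 ≤ (Q i).ord (b a)) ∧
      (FFLib.ell (C + sumP Q) : ℤ) =
        max (FFLib.ell C : ℤ) (Divisor.degree C + n + 1 - (genusR K F : ℤ)) ∧
      ∀ lam ∈ Λ, ∑ ν, lam ν * ∏ i, evP (Q i) (b (ν i)) ≠ 0 := by
  classical
  induction n with
  | zero =>
    intro C T Λ hΛ
    refine ⟨Fin.elim0, fun i => i.elim0, fun i => i.elim0, fun i => i.elim0, ?_, ?_⟩
    · have := riemann_inequality hF C
      simp only [sumP, Finset.univ_eq_empty, Finset.sum_empty, add_zero, Nat.cast_zero]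
      omega
    · intro lam hlam h
      apply hΛ lam hlam
      funext ν
      have hν : ∀ μ : Fin 0 → Fin m, μ = ν := fun μ => Subsingleton.elim _ _
      rw [Fintype.sum_eq_single ν (fun μ hμ => absurd (hν μ) hμ)] at h
      simpa using h
  | succ n ih =>
    intro C T Λ hΛ
    have h1 : ∀ lam ∈ Λ, ∃ ν' : Fin n → Fin m,
        (∑ a, lam (Fin.cons a ν' : Fin (n + 1) → Fin m) • b a) ≠ 0 := by
      intro lam hlam
      obtain ⟨ν, hν⟩ := Function.ne_iff.mp (hΛ lam hlam)
      refine ⟨Fin.tail ν, fun h => hν ?_⟩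
      have := Fintype.linearIndependent_iff.mp hb _ h (ν 0)
      rwa [Fin.cons_self_tail] at this
    choose ν' hν' using h1
    have hbad : ((T : Set (Place K F)) ∪
        {Q : Place K F | (FFLib.ell (C + Finsupp.single Q 1) : ℤ) ≠
          max (FFLib.ell C : ℤ) (Divisor.degree C + 2 - (genusR K F : ℤ))} ∪
        (⋃ a, {v : Place K F | v.ord (b a) ≠ 0}) ∪
        (⋃ lam : Λ, {v : Place K F | v.ord
          (∑ a, lam.1 (Fin.cons a (ν' lam.1 lam.2) : Fin (n + 1) → Fin m) • b a) ≠ 0})).Finite := by
      refine Set.Finite.union (Set.Finite.union (Set.Finite.union T.finite_toSet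
        (gen_finite_bad hF C)) (Set.finite_iUnion fun a => finite_ord_ne_zero hF _)) ?_
      exact Set.finite_iUnion fun lam => finite_ord_ne_zero hF _
    have := infinite_place hF
    obtain ⟨Q0, hQ0⟩ := hbad.exists_notMem
    simp only [Set.mem_union, Set.mem_iUnion, Set.mem_setOf_eq, not_or, not_exists, not_not,
      Finset.mem_coe] at hQ0
    obtain ⟨⟨⟨hQT, hQell⟩, hQb⟩, hQh⟩ := hQ0
    set ctr : ((Fin (n + 1) → Fin m) → K) → ((Fin n → Fin m) → K) :=
      fun lam ν'' => ∑ a, lam (Fin.cons a ν'') * evP Q0 (b a) with hctr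
    obtain ⟨Q', hinj, hT', hreg, hell, hne⟩ := ih (C + Finsupp.single Q0 1) (insert Q0 T)
      (Λ.image ctr) (by
        intro lam' hlam'
        obtain ⟨lam, hlam, rfl⟩ := Finset.mem_image.mp hlam'
        intro h0
        have h2 : ctr lam (ν' lam hlam) = 0 := by rw [h0]; rfl
        rw [hctr] at h2
        simp only at h2
        rw [← gen_evP_sum hF Q0 b (fun a => (hQb a).ge)] at h2
        have h3 := evP_spec hF Q0
          (a := ∑ a, lam (Fin.cons a (ν' lam hlam) : Fin (n + 1) → Fin m) • b a)
          (Or.inr (hQh ⟨lam, hlam⟩).ge)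
        rw [h2, map_zero, sub_zero] at h3
        rcases h3 with h3 | h3
        · exact hν' lam hlam h3
        · rw [hQh ⟨lam, hlam⟩] at h3
          omega)
    have hsum : ∀ lam : (Fin (n + 1) → Fin m) → K,
        ∑ ν, lam ν * ∏ i, evP ((Fin.cons Q0 Q' : Fin (n + 1) → Place K F) i) (b (ν i)) =
          ∑ ν'' : Fin n → Fin m, ctr lam ν'' * ∏ i, evP (Q' i) (b (ν'' i)) := by
      intro lam
      rw [← (Fin.consEquiv (fun _ => Fin m)).sum_comp, Fintype.sum_prod_type, Finset.sum_comm]
      refine Finset.sum_congr rfl fun ν'' _ => ?_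
      rw [hctr]
      simp only
      rw [Finset.sum_mul]
      refine Finset.sum_congr rfl fun a _ => ?_
      simp only [Fin.consEquiv, Equiv.coe_fn_mk, Fin.prod_univ_succ, Fin.cons_zero, Fin.cons_succ]
      ring
    refine ⟨Fin.cons Q0 Q', ?_, ?_, ?_, ?_, ?_⟩
    · rw [Fin.cons_injective_iff]
      refine ⟨?_, hinj⟩
      rintro ⟨i, hi⟩
      exact hT' i (by rw [hi]; exact Finset.mem_insert_self _ _)
    · intro i
      refine Fin.cases ?_ (fun i => ?_) i
      · simpa using hQT
      · simp only [Fin.cons_succ]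
        exact fun h => hT' i (Finset.mem_insert_of_mem h)
    · intro i a
      refine Fin.cases ?_ (fun i => ?_) i
      · simpa using (hQb a).ge
      · simpa using hreg i a
    · rw [gen_sumP_cons, ← add_assoc, hell, hQell, map_add, degree_single' hF]
      push_cast
      omega
    · intro lam hlam
      rw [hsum]
      exact hne _ (Finset.mem_image_of_mem _ hlam)

/-- (G4) induction on `m` with (G1) (G2) (G3) -/
theorem exists_general_points (hF : IsFF K F) (C : Divisor K F) (T : Finset (Place K F)) (m : ℕ) :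
    ∃ Q : Fin m → Place K F, Function.Injective Q ∧ (∀ i, Q i ∉ T) ∧
      (FFLib.ell (C + sumP Q) : ℤ) =
        max (FFLib.ell C : ℤ) (Divisor.degree C + m + 1 - (genusR K F : ℤ)) := by
  obtain ⟨Q, h1, h2, -, h4, -⟩ := gen_sel hF 0 Fin.elim0 (linearIndependent_empty_type) m C T ∅
    (by simp)
  exact ⟨Q, h1, h2, h4⟩

/-- (G5) -/
theorem exists_points_ell_eq_one (hF : IsFF K F) (D0 : Divisor K F)
    (hD0 : Divisor.degree D0 = 0) :
    ∃ Q : Fin (genusR K F) → Place K F, FFLib.ell (sumP Q + D0) = 1 := by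
  obtain ⟨Q, -, -, h⟩ := exists_general_points hF D0 ∅ (genusR K F)
  refine ⟨Q, ?_⟩
  have h1 := ell_le_degree_add_one hF (A := D0) hD0.ge
  rw [hD0] at h h1
  rw [add_comm]
  omega

/-- (G6) the selection lemma: general points where finitely many nonzero "tensors" do not vanish.
Induction on the number `n ≤ genus` of points (generalise!): choose `Q_0` outside a finite set such
that (G2) holds and, for every `lam ∈ Λ`, the contracted array
`ν' ↦ ∑_a lam (cons a ν') * evP Q_0 (b a)` is nonzero (for some `ν'` the function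
`∑_a lam (cons a ν') • b a` is nonzero; it has finitely many zeros). -/
theorem exists_sel (hF : IsFF K F) (T : Finset (Place K F)) (m : ℕ) (b : Fin m → F)
    (hb : LinearIndependent K b) (Λ : Finset ((Fin (genusR K F) → Fin m) → K))
    (hΛ : ∀ lam ∈ Λ, lam ≠ 0) :
    ∃ Q : Fin (genusR K F) → Place K F, Function.Injective Q ∧ (∀ i, Q i ∉ T) ∧
      (∀ i a, 0 ≤ (Q i).ord (b a)) ∧ FFLib.ell (sumP Q) = 1 ∧
      ∀ lam ∈ Λ, ∑ ν, lam ν * ∏ i, evP (Q i) (b (ν i)) ≠ 0 := by
  obtain ⟨Q, h1, h2, h3, h4, h5⟩ := gen_sel hF m b hb (genusR K F) 0 T Λ hΛ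
  refine ⟨Q, h1, h2, h3, ?_, h5⟩
  rw [zero_add, ell_zero hF, map_zero] at h4
  omega

/-- (G7) -/
theorem exists_effective (hF : IsFF K F) {D : Divisor K F} (hD : 0 < FFLib.ell D) :
    ∃ E : Divisor K F, 0 ≤ E ∧ Divisor.IsPrincipal (E - D) := by
  obtain ⟨f, hf, hf0⟩ := dg_exists_of_ell_ne_zero hD.ne'
  refine ⟨D + divOf K f, dg_add_divOf_nonneg hF hf hf0, f, hf0, fun v => ?_⟩
  rw [add_sub_cancel_left, divOf_apply hF]

/-- (G8) -/
theorem exists_eq_sumP (hF : IsFF K F) {E : Divisor K F} (hE : 0 ≤ E) {n : ℕ}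
    (hn : Divisor.degree E = n) : ∃ v : Fin n → Place K F, E = sumP v := by
  induction n generalizing E with
  | zero =>
    refine ⟨Fin.elim0, ?_⟩
    ext w
    have h1 := ce3_le_degree hF hE w
    have h2 := hE w
    rw [hn] at h1
    simp only [sumP, Finset.univ_eq_empty, Finset.sum_empty, Finsupp.coe_zero, Pi.zero_apply,
      Nat.cast_zero] at h1 h2 ⊢
    omega
  | succ n ih =>
    obtain ⟨w, hw⟩ : ∃ w, 0 < E w := by
      by_contra hcon
      push Not at hcon
      have : E = 0 := by
        ext w
        exact le_antisymm (hcon w) (hE w)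
      rw [this, map_zero] at hn
      push_cast at hn
      omega
    obtain ⟨v, hv⟩ := ih (E := E - Finsupp.single w 1) (by
      intro u
      classical
      rw [Finsupp.coe_sub, Pi.sub_apply, Finsupp.single_apply]
      have := hE u
      simp only [Finsupp.coe_zero, Pi.zero_apply] at this ⊢
      split_ifs with h
      · subst h; omega
      · omega) (by
      rw [map_sub, degree_single' hF, hn]
      push_cast
      ring)
    refine ⟨Fin.cons w v, ?_⟩
    rw [gen_sumP_cons, ← hv]
    abel

omit [IsAlgClosed K] in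
/-- (G9) -/
theorem exists_perm_of_sumP_eq {n : ℕ} {v v' : Fin n → Place K F} (h : sumP v = sumP v') :
    ∃ π : Equiv.Perm (Fin n), v' = v ∘ π := by
  classical
  have hcard : ∀ c, Fintype.card {a // v' a = c} = Fintype.card {b // v b = c} := by
    intro c
    have h1 := gen_sumP_apply v c
    have h2 := gen_sumP_apply v' c
    rw [h] at h1
    rw [h1] at h2
    exact_mod_cast h2.symm
  refine ⟨Equiv.ofFiberEquiv (f := v') (g := v) fun c => Fintype.equivOfCardEq (hcard c), ?_⟩
  funext a
  exact (Equiv.ofFiberEquiv_map _ a).symm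

/-- (G10) -/
theorem eq_of_ell_eq_one (hF : IsFF K F) {E E' : Divisor K F} (hE : 0 ≤ E) (hE' : 0 ≤ E')
    (h : Divisor.IsPrincipal (E' - E)) (h1 : FFLib.ell E = 1) : E' = E := by
  obtain ⟨f, hf0, hf⟩ := h
  have hfE : f ∈ riemannRochSpace E := by
    rw [mem_L_iff]
    intro v
    right
    rw [← hf v, Finsupp.coe_sub, Pi.sub_apply]
    have := hE' v
    simp only [Finsupp.coe_zero, Pi.zero_apply] at this
    omega
  have h1E : (1 : F) ∈ riemannRochSpace E := by
    rw [mem_L_iff]
    intro v
    right
    have := hE v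
    simp only [Finsupp.coe_zero, Pi.zero_apply] at this
    rw [Place.ord_one]
    omega
  have h2 := (finrank_eq_one_iff_of_nonzero' (⟨1, h1E⟩ : riemannRochSpace E)
    (by intro h; exact one_ne_zero (congrArg Subtype.val h))).mp h1 ⟨f, hfE⟩
  obtain ⟨c, hc⟩ := h2
  have hc' : f = algebraMap K F c := by
    have := congrArg Subtype.val hc
    simp only [Submodule.coe_smul] at this
    rw [← this, Algebra.smul_def, mul_one]
  ext v
  have := hf v
  rw [hc', ord_algebraMap, Finsupp.coe_sub, Pi.sub_apply] at this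
  omega

/-- (G11) `ell_add_divOf` -/
theorem ell_eq_of_isPrincipal (hF : IsFF K F) {D D' : Divisor K F}
    (h : Divisor.IsPrincipal (D' - D)) : FFLib.ell D' = FFLib.ell D := by
  obtain ⟨f, hf0, hf⟩ := h
  have : D' = D + divOf K f := by
    ext v
    rw [Finsupp.coe_add, Pi.add_apply, divOf_apply hF, ← hf v, Finsupp.coe_sub, Pi.sub_apply]
    ring
  rw [this, ell_add_divOf hF D hf0]

/-- (G12) -/
theorem degree_sumP (hF : IsFF K F) {n : ℕ} (v : Fin n → Place K F) :
    Divisor.degree (sumP v) = n := by
  unfold sumP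
  rw [map_sum]
  simp only [degree_single' hF, Finset.sum_const, Finset.card_univ, Fintype.card_fin, nsmul_eq_mul,
    mul_one]

omit [IsAlgClosed K] in
/-- (G13) -/
theorem mapDomain_sumP {K' F' : Type*} [Field K'] [Field F'] [Algebra K' F'] {n : ℕ}
    (r : Place K F → Place K' F') (v : Fin n → Place K F) :
    Finsupp.mapDomain r (sumP v) = sumP (r ∘ v) := by
  unfold sumP
  rw [Finsupp.mapDomain_finsetSum]
  simp only [Finsupp.mapDomain_single, Function.comp]

/-- (G14) -/
theorem degree_eq_zero_of_isPrincipal (hF : IsFF K F) {D : Divisor K F}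
    (h : Divisor.IsPrincipal D) : Divisor.degree D = 0 := by
  obtain ⟨f, -, hf⟩ := h
  have : D = divOf K f := by
    ext v
    rw [divOf_apply hF, hf v]
  rw [this, degree_divOf hF]

end Fermat.Agent.S19Lib
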