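import Fermat.Agent.S19.Kit
import Fermat.Agent.S19.General

/-!
# S19 (SF): translation of the generic point of `Sym^g` by a constant class is generic

`K ⊆ K'` algebraically closed (any characteristic; used on the special fibre `k ⊆ ω`).
-/

set_option autoImplicit false

open AlgebraicCurve

namespace Fermat.Agent.S19Lib

open Fermat.Agent.S18Lib Fermat.Agent.S24Lib Fermat.Agent.FFLib Fermat.Agent.S34Lib

variable {K F K' F' : Type*} [Field K] [Field F] [Algebra K F] [Field K'] [Field F']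
  [Algebra K' F'] [IsAlgClosed K] [IsAlgClosed K']

omit [IsAlgClosed K] in
theorem SF_sumP_nonneg {n : ℕ} (v : Fin n → Place K F) : 0 ≤ sumP v := by
  classical
  unfold sumP
  refine Finset.sum_nonneg fun i _ => ?_
  intro P
  rw [Finsupp.single_apply]
  split_ifs <;> simp

omit [IsAlgClosed K] [IsAlgClosed K'] in
theorem SF_mapDomain_sub (r : Place K' F' → Place K F) (D E : Divisor K' F') :
    Finsupp.mapDomain r (D - E) = Finsupp.mapDomain r D - Finsupp.mapDomain r E :=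
  (Finsupp.mapDomain.addMonoidHom r).map_sub D E

theorem SF_mapDomain_extD (hF : IsFF K F) (hF' : IsFF K' F') (C : CE K F K' F')
    (rho : Place K' F' → Place K F) (h : ∀ P, rho (C.extP hF hF' P) = P) (D : Divisor K F) :
    Finsupp.mapDomain rho (C.extD hF hF' D) = D := by
  unfold CE.extD
  rw [← Finsupp.mapDomain_comp]
  have : rho ∘ C.extP hF hF' = id := funext h
  rw [this, Finsupp.mapDomain_id]

/-- (SF1) `≥ 1`: `riemann_inequality` over `K'` and `genusR_ce`.  `≤ 1`: `Q` of (G5), the kit (SK)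
for `(e, Q)`: `ℓ(∑ w_i + extD D0) ≤ ℓ(rho_* ...) = ℓ(∑ Q_i + D0) = 1`. -/
theorem sf_ell (hF : IsFF K F) (hF' : IsFF K' F') (C : CE K F K' F')
    (e : Fin (genusR K F) → F →+* K') (hind : Indep C.i e)
    (w : Fin (genusR K F) → Place K' F') (hw : ∀ i, IsPt C (e i) (w i))
    (D0 : Divisor K F) (hD0 : Divisor.degree D0 = 0) :
    FFLib.ell (sumP w + C.extD hF hF' D0) = 1 := by
  apply le_antisymm
  · obtain ⟨Q, hQ⟩ := exists_points_ell_eq_one hF D0 hD0
    obtain ⟨B, r, rho, -, -, h3, h4, h5, -⟩ :=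
      exists_spec_kit hF hF' C e (fun i a => (hw i).comm a) hind Q
    have h := h3 (sumP w + C.extD hF hF' D0)
    rw [Finsupp.mapDomain_add, mapDomain_sumP, SF_mapDomain_extD hF hF' C rho h4] at h
    have hrw : rho ∘ w = Q := funext fun i => h5 i (w i) (hw i)
    rw [hrw, hQ] at h
    exact h
  · have h := riemann_inequality hF' (sumP w + C.extD hF hF' D0)
    rw [map_add, degree_sumP hF', C.degree_extD hF hF', hD0, genusR_ce hF hF' C] at h
    have : (1 : ℤ) ≤ (FFLib.ell (sumP w + C.extD hF hF' D0) : ℤ) := by linarith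
    exact_mod_cast this

/-- common part of (SF2) and (SF3) -/
theorem SF_spec (hF : IsFF K F) (hF' : IsFF K' F') (C : CE K F K' F')
    (e : Fin (genusR K F) → F →+* K') (hind : Indep C.i e)
    (w : Fin (genusR K F) → Place K' F') (hw : ∀ i, IsPt C (e i) (w i))
    (D0 : Divisor K F) (hD0 : Divisor.degree D0 = 0)
    (w' : Fin (genusR K F) → Place K' F')
    (hE' : Divisor.IsPrincipal (sumP w' - sumP w - C.extD hF hF' D0))
    (Q' : Fin (genusR K F) → Place K F) (hQ' : FFLib.ell (sumP Q') = 1) :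
    ∃ (B : ValuationSubring K') (r : B →+* K) (rho : Place K' F' → Place K F),
      (∀ a, ∃ h : C.i a ∈ B, r ⟨C.i a, h⟩ = a) ∧
      (∀ P, rho (C.extP hF hF' P) = P) ∧
      (∀ (e' : F →+* K') (v : Place K' F'), IsPt C e' v → ∀ f : F, 0 ≤ (rho v).ord f →
        ∃ h : e' f ∈ B, r ⟨e' f, h⟩ = evP (rho v) f) ∧
      sumP (rho ∘ w') = sumP Q' := by
  have hpos : 0 < FFLib.ell (sumP Q' - D0) := by
    have h := riemann_inequality hF (sumP Q' - D0)
    rw [map_sub, degree_sumP hF, hD0] at h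
    have : (0 : ℤ) < (FFLib.ell (sumP Q' - D0) : ℤ) := by linarith
    exact_mod_cast this
  obtain ⟨E, hE0, hEp⟩ := exists_effective hF hpos
  have hEdeg : Divisor.degree E = (genusR K F : ℕ) := by
    have h := degree_eq_zero_of_isPrincipal hF hEp
    rw [map_sub, map_sub, degree_sumP hF, hD0] at h
    linarith
  obtain ⟨Q, rfl⟩ := exists_eq_sumP hF hE0 hEdeg
  obtain ⟨B, r, rho, h1, h2, -, h4, h5, h6⟩ :=
    exists_spec_kit hF hF' C e (fun i a => (hw i).comm a) hind Q
  refine ⟨B, r, rho, h1, h4, h6, ?_⟩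
  have h := h2 _ hE'
  rw [SF_mapDomain_sub, SF_mapDomain_sub, mapDomain_sumP, mapDomain_sumP,
    SF_mapDomain_extD hF hF' C rho h4] at h
  have hrw : rho ∘ w = Q := funext fun i => h5 i (w i) (hw i)
  rw [hrw] at h
  have hsum : Divisor.IsPrincipal (sumP (rho ∘ w') - sumP Q') := by
    have := (Divisor.principal (K := K) (F := F)).add_mem h hEp
    have e1 : sumP (rho ∘ w') - sumP Q - D0 + (sumP Q - (sumP Q' - D0))
        = sumP (rho ∘ w') - sumP Q' := by abel
    rw [e1] at this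
    exact this
  exact eq_of_ell_eq_one hF (SF_sumP_nonneg Q') (SF_sumP_nonneg _) hsum hQ'

/-- (SF2) no point of `E'` is constant.  Suppose `E' ≥ extP Q0`.  (G6) with `T = {Q0}`, `Λ = ∅`:
`Q'` with `ℓ(∑ Q'_i) = 1`, `Q'_i ≠ Q0`.  `ℓ(∑ Q' - D0) ≥ 1`: (G7) (G8) give `Q` with
`∑ Q ~ ∑ Q' - D0`.  Kit (SK) for `(e, Q)`: `rho_* E' ~ ∑ Q + D0 ~ ∑ Q'`, so `rho_* E' = ∑ Q'` (G10),
but `rho (extP Q0) = Q0` lies in its support. -/
theorem sf_not_cst (hF : IsFF K F) (hF' : IsFF K' F') (C : CE K F K' F')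
    (e : Fin (genusR K F) → F →+* K') (hind : Indep C.i e)
    (w : Fin (genusR K F) → Place K' F') (hw : ∀ i, IsPt C (e i) (w i))
    (D0 : Divisor K F) (hD0 : Divisor.degree D0 = 0)
    (w' : Fin (genusR K F) → Place K' F')
    (hE' : Divisor.IsPrincipal (sumP w' - sumP w - C.extD hF hF' D0)) (i : Fin (genusR K F))
    (Q0 : Place K F) : ¬ IsCst C Q0 (w' i) := by
  classical
  intro hc
  obtain ⟨Q', -, hT, -, hell, -⟩ := exists_sel hF {Q0} 0 (fun a => a.elim0)
    linearIndependent_empty_type ∅ (by simp)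
  obtain ⟨B, r, rho, -, h4, -, hs⟩ := SF_spec hF hF' C e hind w hw D0 hD0 w' hE' Q' hell
  obtain ⟨π, hπ⟩ := exists_perm_of_sumP_eq hs
  have h1 : rho (w' i) = Q0 := by rw [hc.eq_extP hF hF', h4]
  have h2 : Q' (π.symm i) = Q0 := by rw [hπ]; simp [h1]
  exact hT (π.symm i) (by simp [h2])

/-- (SF3) independence.  Suppose `∑ lam ν ∏ e'_i (b (ν i)) = 0`, `lam ≠ 0`.  (G6) with
`Λ = {μ ↦ lam (μ ∘ π) | π a permutation}`; `Q` and the kit as in (SF2): `rho ∘ w' = Q' ∘ π` (G9);
apply `r` to the relation (last clause of the kit): `∑ lam ν ∏ evP (Q' (π i)) (b (ν i)) = 0`;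
reindex by `μ = ν ∘ π⁻¹`: contradiction. -/
theorem sf_indep (hF : IsFF K F) (hF' : IsFF K' F') (C : CE K F K' F')
    (e : Fin (genusR K F) → F →+* K') (hind : Indep C.i e)
    (w : Fin (genusR K F) → Place K' F') (hw : ∀ i, IsPt C (e i) (w i))
    (D0 : Divisor K F) (hD0 : Divisor.degree D0 = 0)
    (e' : Fin (genusR K F) → F →+* K') (w' : Fin (genusR K F) → Place K' F')
    (hw' : ∀ i, IsPt C (e' i) (w' i))
    (hE' : Divisor.IsPrincipal (sumP w' - sumP w - C.extD hF hF' D0)) : Indep C.i e' := by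
  classical
  intro m b hb lam hrel
  by_contra hlam
  let Λ : Finset ((Fin (genusR K F) → Fin m) → K) :=
    Finset.univ.image (fun π : Equiv.Perm (Fin (genusR K F)) => fun μ => lam (μ ∘ π))
  have hΛ : ∀ l ∈ Λ, l ≠ 0 := by
    intro l hl
    obtain ⟨π, -, rfl⟩ := Finset.mem_image.mp hl
    intro h0
    apply hlam
    funext ν
    have := congrFun h0 (ν ∘ π.symm)
    simpa [Function.comp_assoc] using this
  obtain ⟨Q', -, -, hreg, hell, hne⟩ := exists_sel hF ∅ m b hb Λ hΛ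
  obtain ⟨B, r, rho, h1, h4, h6, hs⟩ := SF_spec hF hF' C e hind w hw D0 hD0 w' hE' Q' hell
  obtain ⟨π, hπ⟩ := exists_perm_of_sumP_eq hs
  have hrho : ∀ i, rho (w' i) = Q' (π.symm i) := by intro i; rw [hπ]; simp
  have hev : ∀ i a, ∃ h : e' i (b a) ∈ B, r ⟨_, h⟩ = evP (Q' (π.symm i)) (b a) := by
    intro i a
    have := h6 (e' i) (w' i) (hw' i) (b a) (by rw [hrho]; exact hreg _ _)
    rw [hrho] at this
    exact this
  have hzero : (∑ ν : Fin (genusR K F) → Fin m, (⟨C.i (lam ν), (h1 _).choose⟩ : B) *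
      ∏ i, (⟨e' i (b (ν i)), (hev i (ν i)).choose⟩ : B)) = 0 := by
    apply Subtype.ext
    push_cast
    exact hrel
  have h2 := congrArg r hzero
  rw [map_sum, map_zero] at h2
  have h3 : ∑ ν : Fin (genusR K F) → Fin m, lam ν * ∏ i, evP (Q' (π.symm i)) (b (ν i)) = 0 := by
    rw [← h2]
    refine Finset.sum_congr rfl fun ν _ => ?_
    rw [map_mul, map_prod, (h1 _).choose_spec]
    congr 1
    refine Finset.prod_congr rfl fun i _ => ?_
    rw [(hev i (ν i)).choose_spec]
  refine hne (fun μ => lam (μ ∘ π.symm)) (Finset.mem_image.mpr ⟨π.symm, Finset.mem_univ _, rfl⟩) ?_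
  rw [← h3]
  refine Fintype.sum_equiv (π.arrowCongr (Equiv.refl (Fin m))) _ _ fun μ => ?_
  have e1 : (π.arrowCongr (Equiv.refl (Fin m))) μ = μ ∘ π.symm := by
    funext i; simp [Equiv.arrowCongr]
  rw [e1]
  congr 1
  exact (Equiv.prod_comp π.symm (fun j => evP (Q' j) (b (μ j)))).symm

/-- (SF) -/
theorem sf_main (hF : IsFF K F) (hF' : IsFF K' F') (C : CE K F K' F')
    (e : Fin (genusR K F) → F →+* K') (hind : Indep C.i e)
    (w : Fin (genusR K F) → Place K' F') (hw : ∀ i, IsPt C (e i) (w i))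
    (D0 : Divisor K F) (hD0 : Divisor.degree D0 = 0)
    (w' : Fin (genusR K F) → Place K' F')
    (hE' : Divisor.IsPrincipal (sumP w' - sumP w - C.extD hF hF' D0)) :
    ∃ e' : Fin (genusR K F) → F →+* K', (∀ i, IsPt C (e' i) (w' i)) ∧ Indep C.i e' := by
  have h : ∀ i, ∃ e' : F →+* K', IsPt C e' (w' i) := by
    intro i
    rcases C.cst_or_pt hF hF' (w' i) with ⟨P, hP⟩ | h
    · exact absurd hP (sf_not_cst hF hF' C e hind w hw D0 hD0 w' hE' i P)
    · exact h
  choose e' he' using h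
  exact ⟨e', he', sf_indep hF hF' C e hind w hw D0 hD0 e' w' he' hE'⟩

end Fermat.Agent.S19Lib
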