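import Fermat.Agent.S19.BC_Int

/-!
# S19 (BC): base change of a `RedData` along an extension of valued fields

`S_B :=` subring of `F'` generated by `B` and `ι(O)`.  Every element of `S_B` is `∑ β_j ι(c_j)` with
`β_j ∈ B` and `c_j ∈ O` with `k`-independent reductions (`R.exists_orth` applied to the `K`-span of
the finitely many elements of `O` involved: their coordinates in an orthonormal basis lie in `A`).
* `red_S (∑ β_j ι(c_j)) := ∑ res β_j · ιb (red c_j)` is a well defined ring hom `S_B → Ft'`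
  (`C.ld`: the `ι c_j` are `K'`-independent);  `red_S z = 0` iff all `β_j ∈ 𝔪_B` (`Cb.ld`).
* every `z ≠ 0` of `K'[F]` is `γ · z₁` with `γ ∈ K'ˣ`, `z₁ ∈ S_B`, `red_S z₁ ≠ 0` (divide by the
  coefficient of largest absolute value).
* `O' := {a / s | a, s ∈ S_B, red_S s ≠ 0}`, `red' (a / s) = red_S a / red_S s`.
  Valuation ring + `exists_scale`: by the previous point and `C.exists_frac`.
* `exists_orth`: a finite dimensional `U' ⊆ F'` is `s⁻¹ N` with `N ⊆ ⊕ K' ι(c_j)`, `c_j` orthonormal,
  `red_S s ≠ 0`; a subspace of `K'^m` has a basis in echelon form with entries in `B` and pivots `1`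
  (Gaussian elimination choosing the entry of largest absolute value; cf. `S18/OrthFin.lean`).
* surjectivity of `red'`: `Cb.exists_frac`, `Cb.mem_ring_iff`, `hres'`, `R.red_surjective`.
-/

set_option autoImplicit false

open AlgebraicCurve

namespace Fermat.Agent.S19Lib

open Fermat.Agent.S18Lib Fermat.Agent.S24Lib Fermat.Agent.FFLib Fermat.Agent.S34Lib

/-- (BC) -/
theorem exists_bc {K k F Ft K' k' F' Ft' : Type*} [Field K] [Field k] [Field F] [Algebra K F]
    [Field Ft] [Algebra k Ft] [Field K'] [Field k'] [Field F'] [Algebra K' F'] [Field Ft']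
    [Algebra k' Ft'] {A : ValuationSubring K} {resK : A →+* k} (hres : Function.Surjective resK)
    {B : ValuationSubring K'} {resK' : B →+* k'} (hres' : Function.Surjective resK')
    (R : RedData A resK F Ft) (C : CE K F K' F') (Cb : CE k Ft k' Ft')
    (V : VE A resK B resK' C.i Cb.i) :
    ∃ R' : RedData B resK' F' Ft', ∀ x : R.O, ∃ h : C.ι (x : F) ∈ R'.O,
      R'.red ⟨C.ι (x : F), h⟩ = Cb.ι (R.red x) := by
  classical
  let O' : ValuationSubring F' :=
    { carrier := {z | ∃ w, BCInt R C Cb resK' z w}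
      mul_mem' := fun ⟨_, h⟩ ⟨_, h'⟩ => ⟨_, h.mul h'⟩
      one_mem' := ⟨1, BCInt.one⟩
      add_mem' := fun ⟨_, h⟩ ⟨_, h'⟩ => ⟨_, h.add h'⟩
      zero_mem' := ⟨0, BCInt.zero⟩
      neg_mem' := fun ⟨_, h⟩ => ⟨_, h.neg⟩
      mem_or_inv_mem' := BCInt.total hres V R }
  have spec : ∀ z : O', BCInt R C Cb resK' (z : F') z.2.choose := fun z => z.2.choose_spec
  have uniq : ∀ (z : O') (w : Ft'), BCInt R C Cb resK' (z : F') w → z.2.choose = w :=
    fun z w h => (spec z).unique hres V h
  let red' : O' →+* Ft' :=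
    { toFun := fun z => z.2.choose
      map_one' := uniq 1 1 BCInt.one
      map_mul' := fun x y => uniq (x * y) _ ((spec x).mul (spec y))
      map_zero' := uniq 0 0 BCInt.zero
      map_add' := fun x y => uniq (x + y) _ ((spec x).add (spec y)) }
  have spec' : ∀ z : O', BCInt R C Cb resK' (z : F') (red' z) := spec
  have uniq' : ∀ (z : O') (w : Ft'), BCInt R C Cb resK' (z : F') w → red' z = w := uniq
  refine ⟨{ O := O'
            red := red'
            red_surjective := ?_
            isUnit_of_red_ne_zero := ?_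
            algebraMap_mem_iff := ?_
            red_algebraMap := ?_
            exists_scale := ?_
            exists_orth := ?_ }, ?_⟩
  · intro w
    obtain ⟨z, hz⟩ := BCInt.surj (C := C) (Cb := Cb) hres hres' V R w
    exact ⟨⟨z, w, hz⟩, uniq' _ _ hz⟩
  · intro x hx
    have h0 := (spec' x).ne_zero hres V hx
    refine IsUnit.of_mul_eq_one (⟨(x : F')⁻¹, _, (spec' x).inv hres V hx⟩ : O') ?_
    exact Subtype.ext (mul_inv_cancel₀ h0)
  · intro a
    exact ⟨fun ⟨_, h⟩ => h.const_mem hres hres' V,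
      fun ha => ⟨_, BCInt.ofRep (BCRep.const ⟨a, ha⟩)⟩⟩
  · intro a h
    exact uniq' _ _ (BCInt.ofRep (BCRep.const a))
  · intro x hx
    obtain ⟨γ, y, w, hγ, hy, hw, rfl⟩ :=
      BCInt.exists_scale (C := C) (Cb := Cb) (resK' := resK') hres V R hx
    have h0 := hy.ne_zero hres V hw
    refine ⟨γ, hγ, ⟨⟨y, w, hy⟩, ⟨y⁻¹, _, hy.inv hres V hw⟩, Subtype.ext (mul_inv_cancel₀ h0),
      Subtype.ext (inv_mul_cancel₀ h0)⟩, ?_⟩
    rw [Algebra.smul_def]
  · intro U hU
    obtain ⟨x, w, hxU, hxw, hli⟩ :=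
      BCInt.exists_orth (C := C) (Cb := Cb) (resK' := resK') hres V R U
    refine ⟨fun t => ⟨x t, w t, hxw t⟩, hxU, ?_⟩
    have : (fun t => red' ⟨x t, w t, hxw t⟩) = w := funext fun t => uniq' _ _ (hxw t)
    rw [this]
    exact hli
  · intro x
    exact ⟨⟨_, BCInt.ofRep (BCRep.iota x)⟩, uniq' _ _ (BCInt.ofRep (BCRep.iota x))⟩

/-- (BC0) the trivial `RedData` -/
theorem exists_trivRed (K F : Type*) [Field K] [Field F] [Algebra K F] :
    ∃ R : RedData (⊤ : ValuationSubring K) (⊤ : ValuationSubring K).subtype F F,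
      ∀ x : F, ∃ h : x ∈ R.O, R.red ⟨x, h⟩ = x := by
  classical
  refine ⟨{ O := ⊤
            red := (⊤ : ValuationSubring F).subtype
            red_surjective := fun x => ⟨⟨x, trivial⟩, rfl⟩
            isUnit_of_red_ne_zero := ?_
            algebraMap_mem_iff := fun _ => ⟨fun _ => trivial, fun _ => trivial⟩
            red_algebraMap := fun _ _ => rfl
            exists_scale := ?_
            exists_orth := ?_ }, fun x => ⟨trivial, rfl⟩⟩
  · intro x hx
    have h0 : (x : F) ≠ 0 := hx
    exact IsUnit.of_mul_eq_one (⟨(x : F)⁻¹, trivial⟩ : (⊤ : ValuationSubring F))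
      (Subtype.ext (mul_inv_cancel₀ h0))
  · intro x hx
    exact ⟨1, one_ne_zero, ⟨⟨x, trivial⟩, ⟨x⁻¹, trivial⟩, Subtype.ext (mul_inv_cancel₀ hx),
      Subtype.ext (inv_mul_cancel₀ hx)⟩, by simp⟩
  · intro U hU
    refine ⟨fun t => ⟨((Module.finBasis K U t : U) : F), trivial⟩, fun t => (Module.finBasis K U t).2,
      ?_⟩
    exact (Module.finBasis K U).linearIndependent.map' U.subtype (Submodule.ker_subtype _)

end Fermat.Agent.S19Lib
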