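import Fermat.Agent.S19.Defs

/-!
# S19 (L): constant field extensions of subfields of Laurent series fields
-/

set_option autoImplicit false

open AlgebraicCurve ModularCurve

namespace Fermat.Agent.S19Lib

open Fermat.Agent.S18Lib Fermat.Agent.S24Lib Fermat.Agent.FFLib Fermat.Agent.S34Lib

/-- base change of a subfield of `K((q))` along `i : K → L` -/
noncomputable def bcL {K L : Type*} [Field K] [Field L] (i : K →+* L)
    (F : IntermediateField K (LaurentSeries K)) : IntermediateField L (LaurentSeries L) :=
  IntermediateField.adjoin L (⇑(coeffMap i) '' (F : Set (LaurentSeries K)))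

variable {K L : Type*} [Field K] [Field L]

/-- (L1) `K`-independent Laurent series stay independent over `L`: for `n` independent series there
are `n` exponents with invertible coefficient matrix (induction / row rank = column rank). -/
theorem linearIndependent_coeffMap (i : K →+* L) (n : ℕ) (f : Fin n → LaurentSeries K)
    (hf : LinearIndependent K f) : LinearIndependent L (fun t => coeffMap i (f t)) := by
  letI : Algebra K L := i.toAlgebra
  let b := Module.Basis.ofVectorSpace K L
  rw [Fintype.linearIndependent_iff]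
  intro c hc t
  have h1 : ∀ k : ℤ, ∑ t, c t * i ((f t).coeff k) = 0 := by
    intro k
    have := congrArg (fun x : LaurentSeries L => x.coeff k) hc
    simpa [HahnSeries.coeff_sum] using this
  have h2 : ∀ α, ∑ t, (b.repr (c t) α) • f t = 0 := by
    intro α
    ext k
    have h3 := congrArg (fun x => b.repr x α) (h1 k)
    simp only [map_sum, map_zero, Finsupp.coe_zero, Pi.zero_apply, Finsupp.finsetSum_apply] at h3
    rw [HahnSeries.coeff_sum, HahnSeries.coeff_zero, ← h3]
    refine Finset.sum_congr rfl fun t _ => ?_
    have h4 : c t * i ((f t).coeff k) = ((f t).coeff k) • c t := by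
      rw [Algebra.smul_def, mul_comm]
      rfl
    rw [h4, map_smul, Finsupp.smul_apply, HahnSeries.coeff_smul, smul_eq_mul, smul_eq_mul, mul_comm]
  have h5 : b.repr (c t) = 0 := by
    ext α
    exact Fintype.linearIndependent_iff.mp hf _ (h2 α) t
  exact (LinearEquiv.map_eq_zero_iff b.repr).mp h5

theorem lau_coeffMap_algebraMap (i : K →+* L) (a : K) :
    coeffMap i (algebraMap K (LaurentSeries K) a) = algebraMap L (LaurentSeries L) (i a) := by
  rw [algebraMap_laurentSeries_eq_single, algebraMap_laurentSeries_eq_single, coeffMap_single]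

theorem lau_mem_bcL (i : K →+* L) (F : IntermediateField K (LaurentSeries K)) (f : F) :
    coeffMap i (f : LaurentSeries K) ∈ bcL i F :=
  IntermediateField.subset_adjoin L _ ⟨f, f.2, rfl⟩

theorem lau_smul_eq (c : K) (x : LaurentSeries K) :
    c • x = algebraMap K (LaurentSeries K) c * x := by
  rw [algebraMap_laurentSeries_eq_single, HahnSeries.single_zero_mul_eq_smul]

theorem lau_coe_smul (F : IntermediateField K (LaurentSeries K)) (c : K) (x : F) :
    ((c • x : F) : LaurentSeries K) = c • (x : LaurentSeries K) := by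
  rw [lau_smul_eq, Algebra.smul_def]
  rfl

/-- (L2) -/
theorem exists_ceL (i : K →+* L) (F : IntermediateField K (LaurentSeries K)) :
    ∃ C : CE K F L (bcL i F), C.i = i ∧
      ∀ f : F, ((C.ι f : bcL i F) : LaurentSeries L) = coeffMap i (f : LaurentSeries K) := by
  let ι : F →+* bcL i F :=
    ((coeffMap i).comp (algebraMap F (LaurentSeries K))).codRestrict (bcL i F) (lau_mem_bcL i F)
  refine ⟨{ i := i
            ι := ι
            comm := fun a => Subtype.ext (lau_coeffMap_algebraMap i a)
            gen := ?_
            ld := ?_ }, rfl, fun f => rfl⟩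
  · apply IntermediateField.map_injective (bcL i F).val
    rw [IntermediateField.adjoin_map, ← AlgHom.fieldRange_eq_map, IntermediateField.fieldRange_val]
    unfold bcL
    congr 1
    ext x
    constructor
    · rintro ⟨_, ⟨f, rfl⟩, rfl⟩
      exact ⟨f, f.2, rfl⟩
    · rintro ⟨f, hf, rfl⟩
      exact ⟨ι ⟨f, hf⟩, ⟨⟨f, hf⟩, rfl⟩, rfl⟩
  · intro n f hf
    have h1 : LinearIndependent K (fun t => ((f t : F) : LaurentSeries K)) := by
      rw [Fintype.linearIndependent_iff]
      intro c hc
      refine Fintype.linearIndependent_iff.mp hf c (Subtype.ext ?_)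
      rw [AddSubmonoidClass.coe_finsetSum]
      simp only [lau_coe_smul]
      exact hc
    have h2 := linearIndependent_coeffMap i n _ h1
    rw [Fintype.linearIndependent_iff] at h2 ⊢
    intro c hc
    refine h2 c ?_
    have h3 := congrArg (Subtype.val) hc
    rw [AddSubmonoidClass.coe_finsetSum] at h3
    simp only [lau_coe_smul] at h3
    exact h3

/-- (L3) semilinear automorphisms -/
theorem exists_autL (i : K →+* L) (F : IntermediateField K (LaurentSeries K))
    (C : CE K F L (bcL i F))
    (hC : ∀ f : F, ((C.ι f : bcL i F) : LaurentSeries L) = coeffMap i (f : LaurentSeries K))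
    (s : L ≃+* L) (φ : SemilinearAut K F)
    (hφ : ∀ f : F, ((φ • f : F) : LaurentSeries K) =
      coeffMap ((SemilinearAut.baseAut φ : K ≃+* K) : K →+* K) (f : LaurentSeries K))
    (hs : ∀ a, s (i a) = i (SemilinearAut.baseAut φ a)) :
    ∃ Θ : SemilinearAut L (bcL i F), SemilinearAut.baseAut Θ = s ∧
      ∀ f : F, Θ • C.ι f = C.ι (φ • f) := by
  have hgen : ∀ f : F, coeffMap (s : L →+* L) (coeffMap i (f : LaurentSeries K)) =
      coeffMap i ((φ • f : F) : LaurentSeries K) := by
    intro f
    rw [hφ, coeffMap_coeffMap, coeffMap_coeffMap]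
    exact coeffMap_congr (RingHom.ext fun a => hs a) _
  have hss : ∀ x : LaurentSeries L,
      coeffMap (s.symm : L →+* L) (coeffMap (s : L →+* L) x) = x := by
    intro x
    rw [coeffMap_coeffMap, coeffMap_congr (g := RingHom.id L)
      (RingHom.ext fun a => s.symm_apply_apply a) x, coeffMap_id]
  have hss' : ∀ x : LaurentSeries L,
      coeffMap (s : L →+* L) (coeffMap (s.symm : L →+* L) x) = x := by
    intro x
    rw [coeffMap_coeffMap, coeffMap_congr (g := RingHom.id L)
      (RingHom.ext fun a => s.apply_symm_apply a) x, coeffMap_id]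
  have hgen' : ∀ f : F, coeffMap (s.symm : L →+* L) (coeffMap i (f : LaurentSeries K)) =
      coeffMap i ((φ⁻¹ • f : F) : LaurentSeries K) := by
    intro f
    have h1 := hgen (φ⁻¹ • f)
    rw [smul_inv_smul] at h1
    rw [← h1, hss]
  have hmem : ∀ (σ : L →+* L) (ψ : F → F),
      (∀ f : F, coeffMap σ (coeffMap i (f : LaurentSeries K)) =
        coeffMap i ((ψ f : F) : LaurentSeries K)) →
      ∀ x ∈ bcL i F, coeffMap σ x ∈ bcL i F := by
    intro σ ψ hσ x hx
    have hle : bcL i F ≤ ((bcL i F).toSubfield.comap (coeffMap σ)).toIntermediateField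
        (fun a => by
          show coeffMap σ _ ∈ bcL i F
          rw [coeffMap_algebraMap]
          exact (bcL i F).algebraMap_mem _) := by
      unfold bcL
      rw [IntermediateField.adjoin_le_iff]
      rintro _ ⟨f, hf, rfl⟩
      show coeffMap σ _ ∈ bcL i F
      rw [hσ ⟨f, hf⟩]
      exact lau_mem_bcL i F _
    exact hle hx
  let ΘF : bcL i F ≃+* bcL i F :=
    { toFun := fun x => ⟨coeffMap (s : L →+* L) (x : LaurentSeries L),
        hmem _ (fun f => φ • f) hgen x x.2⟩
      invFun := fun x => ⟨coeffMap (s.symm : L →+* L) (x : LaurentSeries L),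
        hmem _ (fun f => φ⁻¹ • f) hgen' x x.2⟩
      left_inv := fun x => Subtype.ext (hss x)
      right_inv := fun x => Subtype.ext (hss' x)
      map_mul' := fun x y => Subtype.ext (map_mul (coeffMap (s : L →+* L)) _ _)
      map_add' := fun x y => Subtype.ext (map_add (coeffMap (s : L →+* L)) _ _) }
  refine ⟨⟨(ΘF, s), fun a => Subtype.ext (coeffMap_algebraMap (s : L →+* L) a)⟩, rfl, fun f => ?_⟩
  apply Subtype.ext
  show coeffMap (s : L →+* L) ((C.ι f : bcL i F) : LaurentSeries L) = _
  rw [hC, hC, hgen]

end Fermat.Agent.S19Lib
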