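import Fermat.Agent.S19.PkgDefs
import Fermat.Agent.S19.Laurent
import Fermat.Agent.S19.BC

/-!
# S19 (PKG): construction of the package by induction on the number of generic points
-/

set_option autoImplicit false

open AlgebraicCurve ModularCurve

namespace Fermat.Agent.S19Lib

open Fermat.Agent.S18Lib Fermat.Agent.S24Lib Fermat.Agent.FFLib Fermat.Agent.S34Lib

/-- (PK1) extension of a valuation ring to an extension field:
`LocalSubring.exists_le_valuationSubring` applied to the image of `O`; the comap is a valuation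
subring dominating `O`, hence equal to `O` (`ValuationSubring.isMax_toLocalSubring`). -/
theorem exists_valuationSubring_comap {L L' : Type*} [Field L] [Field L'] (φ : L →+* L')
    (O : ValuationSubring L) : ∃ B : ValuationSubring L', ∀ x : L, φ x ∈ B ↔ x ∈ O := by
  obtain ⟨B, h, hloc⟩ := IsLocalRing.exists_factor_valuationRing (φ.comp O.subtype)
  refine ⟨B, fun x => ⟨fun hx => ?_, fun hx => h ⟨x, hx⟩⟩⟩
  by_contra hxO
  have hx0 : x ≠ 0 := fun h0 => hxO (h0 ▸ O.zero_mem)
  have hxi : x⁻¹ ∈ O := (O.mem_or_inv_mem x).resolve_left hxO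
  have hu : IsUnit (((φ.comp O.subtype).codRestrict B.toSubring h) ⟨x⁻¹, hxi⟩) := by
    refine IsUnit.of_mul_eq_one (⟨φ x, hx⟩ : B.toSubring) ?_
    apply Subtype.ext
    show φ x⁻¹ * φ x = 1
    rw [← map_mul, inv_mul_cancel₀ hx0, map_one]
  have hu2 : IsUnit (⟨x⁻¹, hxi⟩ : O) := hloc.map_nonunit _ hu
  obtain ⟨y, hy⟩ := hu2.exists_right_inv
  have hy' : x⁻¹ * (y : L) = 1 := congrArg Subtype.val hy
  have : (y : L) = x := by
    field_simp at hy'
    exact hy'
  exact hxO (this ▸ y.2)

/-- (PK2) cf. `S18Lib.isAlgClosed_kk` -/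
theorem isAlgClosed_residueField {L : Type*} [Field L] [IsAlgClosed L] (B : ValuationSubring L) :
    IsAlgClosed (IsLocalRing.ResidueField B) := by
  apply IsAlgClosed.of_exists_root
  intro p hp hirr
  have hl : p ∈ Polynomial.lifts (IsLocalRing.residue B) := by
    rw [Polynomial.lifts_iff_coeff_lifts]
    intro n
    exact IsLocalRing.residue_surjective _
  obtain ⟨P, hPmap, hPdeg, hPmonic⟩ := Polynomial.lifts_and_natDegree_eq_and_monic hl hp
  have hdeg : (P.map B.subtype).degree ≠ 0 := by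
    rw [Polynomial.degree_map_eq_of_injective B.subtype_injective,
      Polynomial.degree_eq_natDegree hPmonic.ne_zero, hPdeg]
    have := hirr.natDegree_pos
    exact_mod_cast this.ne'
  obtain ⟨x, hx⟩ := IsAlgClosed.exists_root (P.map B.subtype) hdeg
  have hint : IsIntegral B x := by
    refine ⟨P, hPmonic, ?_⟩
    rw [Polynomial.IsRoot, Polynomial.eval_map] at hx
    exact hx
  obtain ⟨y, hy⟩ := IsIntegrallyClosed.isIntegral_iff.mp hint
  refine ⟨IsLocalRing.residue B y, ?_⟩
  rw [← hPmap, Polynomial.eval_map, Polynomial.eval₂_hom]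
  have h0 : P.eval y = 0 := by
    apply B.subtype_injective
    rw [map_zero, ← Polynomial.eval₂_hom, ← Polynomial.eval_map]
    have : B.subtype y = x := hy
    rw [this]
    exact hx
  rw [h0, map_zero]

/-- (PK3) the residue map of `R'.O` extends: `Ft' = R'.O / 𝔪 → B' / 𝔪` -/
theorem exists_residue_hom {K k F Ft L' : Type*} [Field K] [Field k] [Field F] [Algebra K F]
    [Field Ft] [Algebra k Ft] [Field L'] {A : ValuationSubring K} {resK : A →+* k}
    (R : RedData A resK F Ft) (φ : F →+* L') (B : ValuationSubring L')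
    (hB : ∀ x : F, φ x ∈ B ↔ x ∈ R.O) :
    ∃ ψ : Ft →+* IsLocalRing.ResidueField B, ∀ (x : R.O) (h : φ (x : F) ∈ B),
      IsLocalRing.residue B ⟨φ (x : F), h⟩ = ψ (R.red x) := by
  let f : R.O →+* B := (φ.comp R.O.subtype).codRestrict B fun x => (hB x).mpr x.2
  let g : R.O →+* IsLocalRing.ResidueField B := (IsLocalRing.residue B).comp f
  have hker : RingHom.ker R.red ≤ RingHom.ker g := by
    intro x hx
    rw [RingHom.mem_ker] at hx ⊢
    show IsLocalRing.residue B (f x) = 0
    rw [IsLocalRing.residue_eq_zero_iff, IsLocalRing.mem_maximalIdeal, mem_nonunits_iff]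
    intro hu
    obtain ⟨y, hy⟩ := hu.exists_right_inv
    have hy' : φ (x : F) * (y : L') = 1 := congrArg Subtype.val hy
    have hx0 : (x : F) ≠ 0 := by
      intro h0
      rw [h0, map_zero, zero_mul] at hy'
      exact zero_ne_one hy'
    have hyx : (y : L') = φ (x : F)⁻¹ := by
      rw [map_inv₀]
      exact eq_inv_of_mul_eq_one_right hy'
    have hxi : (x : F)⁻¹ ∈ R.O := (hB _).mp (hyx ▸ y.2)
    have h1 : x * ⟨(x : F)⁻¹, hxi⟩ = 1 := Subtype.ext (mul_inv_cancel₀ hx0)
    have h2 := congrArg R.red h1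
    rw [map_mul, hx, zero_mul, map_one] at h2
    exact zero_ne_one h2
  refine ⟨R.red.liftOfRightInverse _ (Function.rightInverse_surjInv R.red_surjective) ⟨g, hker⟩,
    fun x h => ?_⟩
  rw [RingHom.liftOfRightInverse_comp_apply]
  rfl

/-- (PK4) one more independent point: group the sum by the last index, use `C.ld`, then `hind` -/
theorem Indep.snoc {K F K' F' Ω : Type*} [Field K] [Field F] [Algebra K F] [Field K'] [Field F']
    [Algebra K' F'] [Field Ω] (C : CE K F K' F') {n : ℕ} {e : Fin n → F →+* K'}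
    (hind : Indep C.i e) (ψ : F' →+* Ω) :
    Indep ((ψ.comp (algebraMap K' F')).comp C.i)
      (Fin.snoc (fun i => (ψ.comp (algebraMap K' F')).comp (e i)) (ψ.comp C.ι) :
        Fin (n + 1) → F →+* Ω) := by
  intro m b hb lam hsum
  let c : Fin m → K' := fun a =>
    ∑ ν' : Fin n → Fin m, C.i (lam (Fin.snoc ν' a : Fin (n + 1) → Fin m)) * ∏ i, e i (b (ν' i))
  have h1 : ψ (∑ a, c a • C.ι (b a)) = 0 := by
    rw [← hsum, map_sum, ← (Fin.snocEquiv (fun _ => Fin m)).sum_comp, Fintype.sum_prod_type]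
    refine Finset.sum_congr rfl fun a _ => ?_
    rw [Algebra.smul_def, map_mul, map_sum, map_sum, Finset.sum_mul]
    refine Finset.sum_congr rfl fun ν' _ => ?_
    simp only [Fin.snocEquiv, Equiv.coe_fn_mk, Fin.prod_univ_castSucc, Fin.snoc_castSucc,
      Fin.snoc_last, map_mul, map_prod, RingHom.comp_apply]
    ring
  have h2 : ∑ a, c a • C.ι (b a) = 0 := (map_eq_zero ψ).mp h1
  have h3 := Fintype.linearIndependent_iff.mp (C.ld m b hb) c h2
  funext ν
  have h4 := hind m b hb (fun ν' => lam (Fin.snoc ν' (ν (Fin.last n)) : Fin (n + 1) → Fin m))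
    (h3 _)
  have h5 := congrFun h4 (Fin.init ν)
  simp only [Fin.snoc_init_self] at h5
  exact h5

theorem pkg_isAlgebraic_trans {Ω : Type*} [Field Ω] (S T : Subfield Ω)
    (hT : ∀ t ∈ T, IsAlgebraic S t) {z : Ω} (hz : IsAlgebraic T z) : IsAlgebraic S z := by
  let f : T →+* algebraicClosure S Ω :=
    T.subtype.codRestrict (algebraicClosure S Ω) (fun t => mem_algebraicClosure_iff.mpr (hT t t.2))
  have hz' : IsAlgebraic (algebraicClosure S Ω) z := by
    obtain ⟨p, hp0, hp⟩ := hz
    refine ⟨p.map f, (Polynomial.map_ne_zero_iff f.injective).mpr hp0, ?_⟩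
    rw [Polynomial.aeval_def, Polynomial.eval₂_map]
    exact hp
  exact hz'.restrictScalars S

theorem pkg_isAlgebraic_map {L Ω : Type*} [Field L] [Field Ω] (S : Subfield L) (S' : Subfield Ω)
    (θ : L →+* Ω) (hθ : ∀ s ∈ S, θ s ∈ S') {x : L} (hx : IsAlgebraic S x) :
    IsAlgebraic S' (θ x) := by
  let f : S →+* S' := (θ.comp S.subtype).codRestrict S' (fun s => hθ s s.2)
  obtain ⟨p, hp0, hp⟩ := hx
  refine ⟨p.map f, (Polynomial.map_ne_zero_iff f.injective).mpr hp0, ?_⟩
  rw [Polynomial.aeval_def, Polynomial.eval₂_map]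
  have h1 : (algebraMap S' Ω).comp f = θ.comp (algebraMap S L) := rfl
  rw [h1, ← Polynomial.hom_eval₂, ← Polynomial.aeval_def, hp, map_zero]

/-- (PK5) algebraicity in the tower -/
theorem isAlgebraic_snoc {K F K' F' Ω : Type*} [Field K] [Field F] [Algebra K F] [Field K']
    [Field F'] [Algebra K' F'] [Field Ω] (C : CE K F K' F') {n : ℕ} {e : Fin n → F →+* K'}
    (halg : ∀ z : K', IsAlgebraic (Subfield.closure (Set.range C.i ∪ ⋃ i, Set.range (e i))) z)
    (ψ : F' →+* Ω) (hψ : ∀ z : Ω, IsAlgebraic ψ.fieldRange z) (z : Ω) :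
    IsAlgebraic (Subfield.closure (Set.range ((ψ.comp (algebraMap K' F')).comp C.i) ∪
      ⋃ i, Set.range ((Fin.snoc (fun i => (ψ.comp (algebraMap K' F')).comp (e i)) (ψ.comp C.ι) :
        Fin (n + 1) → F →+* Ω) i))) z := by
  set S' : Subfield Ω := Subfield.closure (Set.range ((ψ.comp (algebraMap K' F')).comp C.i) ∪
      ⋃ i, Set.range ((Fin.snoc (fun i => (ψ.comp (algebraMap K' F')).comp (e i)) (ψ.comp C.ι) :
        Fin (n + 1) → F →+* Ω) i)) with hS'
  refine pkg_isAlgebraic_trans S' ψ.fieldRange ?_ (hψ z)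
  have h1 : ∀ x : K', IsAlgebraic S' (ψ (algebraMap K' F' x)) := by
    intro x
    refine pkg_isAlgebraic_map _ S' (ψ.comp (algebraMap K' F')) ?_ (halg x)
    have hle : Subfield.closure (Set.range C.i ∪ ⋃ i, Set.range (e i)) ≤
        S'.comap (ψ.comp (algebraMap K' F')) := by
      rw [Subfield.closure_le]
      rintro y (⟨a, rfl⟩ | hy)
      · exact Subfield.subset_closure (Or.inl ⟨a, rfl⟩)
      · obtain ⟨i, f, rfl⟩ := Set.mem_iUnion.mp hy
        refine Subfield.subset_closure (Or.inr (Set.mem_iUnion.mpr ⟨Fin.castSucc i, f, ?_⟩))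
        rw [Fin.snoc_castSucc]
        rfl
    exact fun s hs => hle hs
  have h2 : ∀ f : F, IsAlgebraic S' (ψ (C.ι f)) := by
    intro f
    have hmem : ψ (C.ι f) ∈ S' := by
      refine Subfield.subset_closure (Or.inr (Set.mem_iUnion.mpr ⟨Fin.last n, f, ?_⟩))
      rw [Fin.snoc_last]
      rfl
    exact isAlgebraic_algebraMap (⟨_, hmem⟩ : S')
  let N : Subfield F' := (algebraicClosure S' Ω).toSubfield.comap ψ
  have hN : IntermediateField.adjoin K' (Set.range C.ι) ≤
      N.toIntermediateField (fun x => mem_algebraicClosure_iff.mpr (h1 x)) := by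
    rw [IntermediateField.adjoin_le_iff]
    rintro _ ⟨f, rfl⟩
    exact mem_algebraicClosure_iff.mpr (h2 f)
  rw [C.gen] at hN
  rintro _ ⟨y, rfl⟩
  exact mem_algebraicClosure_iff.mp (hN (IntermediateField.mem_top (x := y)))

/-- (PK6) the induction step.  `R'` from (BC); `Ω' = AlgebraicClosure FΩ`, `B'` from (PK1),
`ω' = ResidueField B'` (PK2), `ψb : Ftω → ω'` from (PK3); the new tuples are the `Fin.snoc`s of
(PK4). -/
theorem Pkg.step {K k F Ft : Type} [Field K] [Field k] [Field F] [Algebra K F] [Field Ft]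
    [Algebra k Ft] {A : ValuationSubring K} {resK : A →+* k} (hres : Function.Surjective resK)
    (R : RedData A resK F Ft) {n : ℕ} (P : Pkg R n) {FΩ Ftω : Type} [Field FΩ] [Algebra P.Ω FΩ]
    [Field Ftω] [Algebra P.ω Ftω] (C : CE K F P.Ω FΩ) (hC : C.i = P.j) (Cb : CE k Ft P.ω Ftω)
    (hCb : Cb.i = P.jb) : Nonempty (Pkg R (n + 1)) := by
  have V : VE A resK P.B P.resΩ C.i Cb.i := by rw [hC, hCb]; exact P.ve
  obtain ⟨R', hR'⟩ := exists_bc hres P.hresΩ R C Cb V
  let φ : FΩ →+* AlgebraicClosure FΩ := algebraMap FΩ (AlgebraicClosure FΩ)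
  obtain ⟨B', hB'⟩ := exists_valuationSubring_comap φ R'.O
  obtain ⟨ψb, hψb⟩ := exists_residue_hom R' φ B' hB'
  have hac := isAlgClosed_residueField B'
  have ha : ∀ y : P.B, ∃ h : φ (algebraMap P.Ω FΩ (y : P.Ω)) ∈ B',
      IsLocalRing.residue B' ⟨φ (algebraMap P.Ω FΩ (y : P.Ω)), h⟩ =
        ψb (algebraMap P.ω Ftω (P.resΩ y)) := by
    intro y
    have h1 : algebraMap P.Ω FΩ (y : P.Ω) ∈ R'.O := (R'.algebraMap_mem_iff _).mpr y.2
    refine ⟨(hB' _).mpr h1, ?_⟩
    rw [hψb ⟨_, h1⟩ ((hB' _).mpr h1), R'.red_algebraMap y h1]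
  refine ⟨{ Ω := AlgebraicClosure FΩ
            ω := IsLocalRing.ResidueField B'
            j := (φ.comp (algebraMap P.Ω FΩ)).comp C.i
            jb := (ψb.comp (algebraMap P.ω Ftω)).comp Cb.i
            B := B'
            resΩ := IsLocalRing.residue B'
            hresΩ := IsLocalRing.residue_surjective
            ve := ⟨?_, ?_⟩
            e := Fin.snoc (fun i => (φ.comp (algebraMap P.Ω FΩ)).comp (P.e i)) (φ.comp C.ι)
            eb := Fin.snoc (fun i => (ψb.comp (algebraMap P.ω Ftω)).comp (P.eb i)) (ψb.comp Cb.ι)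
            good := ⟨?_, ?_, ?_, ?_⟩
            alg := ?_ }⟩
  · intro a
    show φ (algebraMap P.Ω FΩ (C.i a)) ∈ B' ↔ a ∈ A
    rw [hB', R'.algebraMap_mem_iff, V.mem_iff]
  · intro a h
    have h1 : C.i (a : K) ∈ P.B := (V.mem_iff _).mpr a.2
    obtain ⟨h2, h3⟩ := ha ⟨C.i (a : K), h1⟩
    rw [V.res_comm a h1] at h3
    exact h3
  · intro i a
    refine Fin.lastCases ?_ (fun i => ?_) i
    · rw [Fin.snoc_last]
      show φ (C.ι (algebraMap K F a)) = φ (algebraMap P.Ω FΩ (C.i a))
      rw [C.comm]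
    · rw [Fin.snoc_castSucc]
      show φ (algebraMap P.Ω FΩ (P.e i (algebraMap K F a))) = φ (algebraMap P.Ω FΩ (C.i a))
      rw [P.good.comm, hC]
  · intro i a
    refine Fin.lastCases ?_ (fun i => ?_) i
    · rw [Fin.snoc_last]
      show ψb (Cb.ι (algebraMap k Ft a)) = ψb (algebraMap P.ω Ftω (Cb.i a))
      rw [Cb.comm]
    · rw [Fin.snoc_castSucc]
      show ψb (algebraMap P.ω Ftω (P.eb i (algebraMap k Ft a))) = ψb (algebraMap P.ω Ftω (Cb.i a))
      rw [P.good.commb, hCb]
  · intro i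
    refine Fin.lastCases ?_ (fun i => ?_) i
    · rw [Fin.snoc_last, Fin.snoc_last]
      refine ⟨fun x => (hB' _).mpr (hR' x).1, fun x h => ?_⟩
      have h1 := hψb ⟨C.ι (x : F), (hR' x).1⟩ h
      rw [(hR' x).2] at h1
      exact h1
    · rw [Fin.snoc_castSucc, Fin.snoc_castSucc]
      refine ⟨fun x => (ha ⟨P.e i (x : F), (P.good.isom i).mem x⟩).1, fun x h => ?_⟩
      have h1 := (ha ⟨P.e i (x : F), (P.good.isom i).mem x⟩).2
      rw [(P.good.isom i).res x] at h1
      exact h1
  · exact Indep.snoc Cb (by rw [hCb]; exact P.good.indep) ψb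
  · refine isAlgebraic_snoc C (by rw [hC]; exact P.alg) φ (fun z => ?_)
    obtain ⟨p, hp0, hp⟩ := Algebra.IsAlgebraic.isAlgebraic (R := FΩ) z
    refine ⟨p.map φ.rangeRestrictField,
      (Polynomial.map_ne_zero_iff (RingHom.injective _)).mpr hp0, ?_⟩
    rw [Polynomial.aeval_def, Polynomial.eval₂_map]
    exact hp

/-- (PK0) -/
theorem Pkg.zero {K k F Ft : Type} [Field K] [Field k] [Field F] [Algebra K F] [Field Ft]
    [Algebra k Ft] [IsAlgClosed K] [IsAlgClosed k] {A : ValuationSubring K} {resK : A →+* k}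
    (hres : Function.Surjective resK) (R : RedData A resK F Ft) : Nonempty (Pkg R 0) := by
  refine ⟨{ Ω := K
            ω := k
            j := RingHom.id K
            jb := RingHom.id k
            B := A
            resΩ := resK
            hresΩ := hres
            ve := ⟨fun a => Iff.rfl, fun a h => rfl⟩
            e := fun i => i.elim0
            eb := fun i => i.elim0
            good := ⟨fun i => i.elim0, fun i => i.elim0, fun i => i.elim0, ?_⟩
            alg := fun z => ?_ }⟩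
  · intro m b _ lam h
    funext ν
    have hν : ∀ μ : Fin 0 → Fin m, μ = ν := fun μ => Subsingleton.elim _ _
    rw [Fintype.sum_eq_single ν (fun μ hμ => absurd (hν μ) hμ)] at h
    simpa using h
  · exact isAlgebraic_algebraMap (A := K) (⟨z, Subfield.subset_closure (Or.inl ⟨z, rfl⟩)⟩ :
      Subfield.closure (Set.range (RingHom.id K) ∪ ⋃ i : Fin 0, Set.range (i.elim0 : F →+* K)))

/-- (PKG) -/
theorem exists_pkg {K k : Type} [Field K] [Field k] [IsAlgClosed K] [IsAlgClosed k]
    (F : IntermediateField K (LaurentSeries K)) (Ft : IntermediateField k (LaurentSeries k))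
    {A : ValuationSubring K} {resK : A →+* k} (hres : Function.Surjective resK)
    (R : RedData A resK F Ft) (g : ℕ) : Nonempty (Pkg R g) := by
  induction g with
  | zero => exact Pkg.zero hres R
  | succ n ih =>
    obtain ⟨P⟩ := ih
    obtain ⟨C, hC, -⟩ := exists_ceL P.j F
    obtain ⟨Cb, hCb, -⟩ := exists_ceL P.jb Ft
    exact Pkg.step hres R P C hC Cb hCb

end Fermat.Agent.S19Lib
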