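import Fermat.Agent.S19.RepDefs
import Fermat.Agent.S19.Rat

/-!
# S19 (REP): from a system of functions `Ψ t x ∈ Ω` permuted by isometric automorphisms `s y` to an
integral Galois equivariant faithful matrix representation.  Pure field theory.
-/

set_option autoImplicit false

namespace Fermat.Agent.S19Lib

open Fermat.Agent.S18Lib

variable {Ω : Type*} [Field Ω]

/-- the `j ℚ̄`-span of a finite family -/
def jspan (j : Qb →+* Ω) {n : ℕ} (w : Fin n → Ω) : Set Ω :=
  {z | ∃ c : Fin n → Qb, z = ∑ a, j (c a) * w a}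

theorem RP_jspan_zero (j : Qb →+* Ω) {n : ℕ} (w : Fin n → Ω) : (0 : Ω) ∈ jspan j w :=
  ⟨0, by simp⟩

theorem RP_jspan_add {j : Qb →+* Ω} {n : ℕ} {w : Fin n → Ω} {x y : Ω} (hx : x ∈ jspan j w)
    (hy : y ∈ jspan j w) : x + y ∈ jspan j w := by
  obtain ⟨c, rfl⟩ := hx
  obtain ⟨d, rfl⟩ := hy
  refine ⟨c + d, ?_⟩
  rw [← Finset.sum_add_distrib]
  refine Finset.sum_congr rfl fun a _ => ?_
  rw [Pi.add_apply, map_add, add_mul]

theorem RP_jspan_smul {j : Qb →+* Ω} {n : ℕ} {w : Fin n → Ω} {x : Ω} (b : Qb)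
    (hx : x ∈ jspan j w) : j b * x ∈ jspan j w := by
  obtain ⟨c, rfl⟩ := hx
  refine ⟨fun a => b * c a, ?_⟩
  rw [Finset.mul_sum]
  refine Finset.sum_congr rfl fun a _ => ?_
  rw [map_mul, mul_assoc]

theorem RP_jspan_sum {j : Qb →+* Ω} {n : ℕ} {w : Fin n → Ω} {ι : Type*} (s : Finset ι)
    (f : ι → Ω) (hf : ∀ i ∈ s, f i ∈ jspan j w) : ∑ i ∈ s, f i ∈ jspan j w := by
  classical
  induction s using Finset.induction_on with
  | empty => simpa using RP_jspan_zero j w
  | insert a s ha ih =>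
    rw [Finset.sum_insert ha]
    exact RP_jspan_add (hf a (Finset.mem_insert_self a s))
      (ih fun i hi => hf i (Finset.mem_insert_of_mem hi))

theorem RP_jspan_self (j : Qb →+* Ω) {n : ℕ} (w : Fin n → Ω) (a : Fin n) : w a ∈ jspan j w := by
  classical
  refine ⟨fun b => if b = a then 1 else 0, ?_⟩
  simp

theorem RP_jspan_trans {j : Qb →+* Ω} {n m : ℕ} {w : Fin n → Ω} {u : Fin m → Ω}
    (h : ∀ a, w a ∈ jspan j u) {z : Ω} (hz : z ∈ jspan j w) : z ∈ jspan j u := by
  obtain ⟨c, rfl⟩ := hz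
  exact RP_jspan_sum _ _ fun a _ => RP_jspan_smul _ (h a)

/-- reindexing a finite sum -/
theorem RP_of_finset (j : Qb →+* Ω) (M0 : Subfield Ω) {ι : Type*} (s : Finset ι) (w : ι → Ω)
    (c : ι → Qb) (hw : ∀ i ∈ s, w i ∈ M0) :
    ∃ (n : ℕ) (w' : Fin n → Ω), (∀ a, w' a ∈ M0) ∧ ∑ i ∈ s, j (c i) * w i ∈ jspan j w' := by
  refine ⟨s.card, fun a => w (s.equivFin.symm a), fun a => hw _ (s.equivFin.symm a).2,
    fun a => c (s.equivFin.symm a), ?_⟩
  rw [← Finset.sum_coe_sort s (fun i => j (c i) * w i)]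
  exact (Equiv.sum_comp s.equivFin.symm (fun i : s => j (c i) * w i)).symm

theorem RP_ratCast_mem (j : Qb →+* Ω) (M0 : Subfield Ω) (q : ℚ) :
    j (algebraMap ℚ Qb q) ∈ M0 := by
  rw [eq_ratCast, map_ratCast]
  exact SubfieldClass.ratCast_mem M0 q

theorem RP_isAlgebraic (j : Qb →+* Ω) (M0 : Subfield Ω) (a : Qb) : IsAlgebraic M0 (j a) := by
  have ha : IsAlgebraic ℚ a := (AlgebraicClosure.isAlgebraic ℚ).isAlgebraic a
  obtain ⟨p, hp0, hp⟩ := ha
  let φ : ℚ →+* M0 := (j.comp (algebraMap ℚ Qb)).codRestrict M0 (RP_ratCast_mem j M0)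
  refine ⟨p.map φ, (Polynomial.map_ne_zero_iff φ.injective).2 hp0, ?_⟩
  have hφ : (algebraMap M0 Ω).comp φ = j.comp (algebraMap ℚ Qb) := rfl
  rw [Polynomial.aeval_def, Polynomial.eval₂_map, hφ, ← Polynomial.hom_eval₂,
    ← Polynomial.aeval_def, hp, map_zero]

/-- (RP1) -/
theorem mem_closure_iff_span (j : Qb →+* Ω) (M0 : Subfield Ω) (z : Ω)
    (hz : z ∈ Subfield.closure (Set.range j ∪ (M0 : Set Ω))) :
    ∃ (n : ℕ) (w : Fin n → Ω), (∀ a, w a ∈ M0) ∧ z ∈ jspan j w := by
  have halg : ∀ x ∈ Set.range j, IsAlgebraic M0 x := by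
    rintro _ ⟨a, rfl⟩
    exact RP_isAlgebraic j M0 a
  have h1 := IntermediateField.adjoin_toSubalgebra_of_isAlgebraic halg
  have h2 : z ∈ IntermediateField.adjoin M0 (Set.range j) := by
    have hle : Subfield.closure (Set.range j ∪ (M0 : Set Ω)) ≤
        (IntermediateField.adjoin M0 (Set.range j)).toSubfield := by
      rw [Subfield.closure_le]
      rintro x (hx | hx)
      · exact IntermediateField.subset_adjoin _ _ hx
      · exact (IntermediateField.adjoin M0 (Set.range j)).algebraMap_mem ⟨x, hx⟩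
    exact hle hz
  have h3 : z ∈ Algebra.adjoin M0 (Set.range j) := by
    rw [← h1]
    exact h2
  have h4 : z ∈ Submodule.span M0 (Set.range j) := by
    have h5 : z ∈ Subalgebra.toSubmodule (Algebra.adjoin M0 (Set.range j)) := h3
    rw [Algebra.adjoin_eq_span] at h5
    have h6 : (Submonoid.closure (Set.range j) : Set Ω) = Set.range j := by
      have : Set.range j = ((MonoidHom.mrange (j : Qb →* Ω) : Submonoid Ω) : Set Ω) := rfl
      rw [this, Submonoid.closure_eq]
    rwa [h6] at h5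
  obtain ⟨c, hc⟩ := Finsupp.mem_span_range_iff_exists_finsupp.1 h4
  obtain ⟨n, w, hw, hz'⟩ := RP_of_finset j M0 c.support (fun a => ((c a : M0) : Ω)) (fun a => a)
    (fun a _ => (c a).2)
  refine ⟨n, w, hw, ?_⟩
  rw [← hc]
  convert hz' using 1
  refine Finset.sum_congr rfl fun a _ => ?_
  rw [mul_comm]
  rfl

/-- the embedding `ℚ^m → ℚ̄^m` -/
noncomputable def RP_emb (m : ℕ) : (Fin m → ℚ) →ₗ[ℚ] (Fin m → Qb) :=
  (Algebra.linearMap ℚ Qb).compLeft (Fin m)

theorem RP_emb_apply {m : ℕ} (c : Fin m → ℚ) (k : Fin m) :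
    RP_emb m c k = algebraMap ℚ Qb (c k) := rfl

/-- Galois descent for subspaces of `ℚ̄^m` -/
theorem RP_descent {m : ℕ} (U : Submodule Qb (Fin m → Qb))
    (hU : ∀ (σ : GQ), ∀ v ∈ U, (fun i => σ (v i)) ∈ U) :
    ∃ (r : ℕ) (b : Fin r → Fin m → ℚ), (∀ i, RP_emb m (b i) ∈ U) ∧
      ∀ v ∈ U, ∃ d : Fin r → Qb, v = ∑ i, d i • RP_emb m (b i) := by
  classical
  let UQ : Submodule ℚ (Fin m → ℚ) := (U.restrictScalars ℚ).comap (RP_emb m)
  let b := Module.finBasis ℚ UQ
  let S : Submodule Qb (Fin m → Qb) :=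
    Submodule.span Qb (Set.range fun i => RP_emb m ((b i : UQ) : Fin m → ℚ))
  have hrat : ∀ c : Fin m → ℚ, RP_emb m c ∈ U → RP_emb m c ∈ S := by
    intro c hc
    have h1 : (⟨c, hc⟩ : UQ) = ∑ i, b.repr ⟨c, hc⟩ i • b i := (b.sum_repr _).symm
    have h2 : c = ∑ i, b.repr ⟨c, hc⟩ i • ((b i : UQ) : Fin m → ℚ) := by
      have h3 := congrArg (UQ.subtype) h1
      rw [map_sum] at h3
      simpa only [map_smul, Submodule.subtype_apply] using h3
    rw [h2, map_sum]
    refine Submodule.sum_mem _ fun i _ => ?_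
    rw [map_smul, ← algebraMap_smul Qb]
    exact Submodule.smul_mem _ _ (Submodule.subset_span ⟨i, rfl⟩)
  have key : ∀ (k : ℕ), ∀ v ∈ U, (Finset.univ.filter fun i => v i ≠ 0).card ≤ k → v ∈ S := by
    intro k
    induction k with
    | zero =>
      intro v _ hk
      have : v = 0 := by
        funext i
        by_contra hi
        have : i ∈ Finset.univ.filter fun i => v i ≠ 0 := by simpa using hi
        rw [Nat.le_zero, Finset.card_eq_zero] at hk
        rw [hk] at this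
        simp at this
      rw [this]
      exact S.zero_mem
    | succ k ih =>
      intro v hv hk
      by_cases hv0 : v = 0
      · rw [hv0]; exact S.zero_mem
      by_cases h : ∃ u ∈ U, u ≠ 0 ∧
          (Finset.univ.filter fun i => u i ≠ 0) ⊂ (Finset.univ.filter fun i => v i ≠ 0)
      · obtain ⟨u, hu, hu0, hss⟩ := h
        obtain ⟨i, hi⟩ : ∃ i, u i ≠ 0 := by
          by_contra hcon
          push Not at hcon
          exact hu0 (funext hcon)
        have hiv : v i ≠ 0 := by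
          have : i ∈ Finset.univ.filter fun i => v i ≠ 0 := hss.1 (by simpa using hi)
          simpa using this
        have huS : u ∈ S := ih u hu (by
          have := Finset.card_lt_card hss
          omega)
        have hv' : v - (v i / u i) • u ∈ S := by
          refine ih _ (U.sub_mem hv (U.smul_mem _ hu)) ?_
          have hsub : (Finset.univ.filter fun l => (v - (v i / u i) • u) l ≠ 0) ⊆
              (Finset.univ.filter fun i => v i ≠ 0).erase i := by
            intro l hl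
            rw [Finset.mem_filter] at hl
            rw [Finset.mem_erase, Finset.mem_filter]
            refine ⟨?_, Finset.mem_univ _, ?_⟩
            · rintro rfl
              apply hl.2
              simp [div_mul_cancel₀ _ hi]
            · intro hvl
              apply hl.2
              have hul : u l = 0 := by
                by_contra hul
                have : l ∈ Finset.univ.filter fun i => v i ≠ 0 := hss.1 (by simpa using hul)
                simp [hvl] at this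
              simp [hvl, hul]
          have h1 := Finset.card_le_card hsub
          rw [Finset.card_erase_of_mem (by simpa using hiv)] at h1
          omega
        have : v = (v - (v i / u i) • u) + (v i / u i) • u := by abel
        rw [this]
        exact S.add_mem hv' (S.smul_mem _ huS)
      · obtain ⟨i, hi⟩ : ∃ i, v i ≠ 0 := by
          by_contra hcon
          push Not at hcon
          exact hv0 (funext hcon)
        set v' : Fin m → Qb := (v i)⁻¹ • v with hv'
        have hv'U : v' ∈ U := U.smul_mem _ hv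
        have hv'i : v' i = 1 := by simp [hv', hi]
        have hfix : ∀ (σ : GQ) (l : Fin m), σ (v' l) = v' l := by
          intro σ
          by_contra hcon
          apply h
          refine ⟨(fun l => σ (v' l)) - v', U.sub_mem (hU σ v' hv'U) hv'U, ?_, ?_⟩
          · intro h0
            apply hcon
            intro l
            have := congrFun h0 l
            simpa [sub_eq_zero] using this
          · rw [Finset.ssubset_iff_of_subset]
            · refine ⟨i, by simpa using hi, ?_⟩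
              simp [hv'i]
            · intro l hl
              rw [Finset.mem_filter] at hl ⊢
              refine ⟨Finset.mem_univ _, ?_⟩
              intro hvl
              apply hl.2
              simp [hv', hvl]
        have hcl : IsAlgClosure ℚ Qb := ⟨inferInstance, AlgebraicClosure.isAlgebraic ℚ⟩
        have hgal : IsGalois ℚ Qb := IsAlgClosure.isGalois ℚ Qb
        have hc : ∀ l, ∃ c : ℚ, algebraMap ℚ Qb c = v' l := fun l =>
          (InfiniteGalois.mem_range_algebraMap_iff_fixed (k := ℚ) (K := Qb) (v' l)).2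
            (fun σ => hfix σ l)
        choose c hc using hc
        have hcv : RP_emb m c = v' := funext hc
        have : v = (v i) • v' := by
          rw [hv', smul_smul, mul_inv_cancel₀ hi, one_smul]
        rw [this]
        refine S.smul_mem _ ?_
        rw [← hcv]
        exact hrat c (by rw [hcv]; exact hv'U)
  refine ⟨_, fun i => ((b i : UQ) : Fin m → ℚ), fun i => (b i).2, fun v hv => ?_⟩
  have := key _ v hv le_rfl
  obtain ⟨d, hd⟩ := (Submodule.mem_span_range_iff_exists_fun Qb).1 this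
  exact ⟨d, hd.symm⟩


/-- a common finite family -/
theorem RP_common (j : Qb →+* Ω) (M0 : Subfield Ω) {n : ℕ} (Ψ' : Fin n → Ω)
    (hΨ : ∀ a, Ψ' a ∈ Subfield.closure (Set.range j ∪ (M0 : Set Ω))) :
    ∃ (m : ℕ) (w : Fin m → Ω), (∀ k, w k ∈ M0) ∧ ∀ a, Ψ' a ∈ jspan j w := by
  classical
  choose n' w' hw' hΨ' using fun a => mem_closure_iff_span j M0 (Ψ' a) (hΨ a)
  let e := Fintype.equivFin (Σ a, Fin (n' a))
  let F : (Σ a, Fin (n' a)) → Ω := fun x => w' x.1 x.2
  refine ⟨_, fun k => F (e.symm k), fun k => hw' _ _, fun a => ?_⟩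
  refine RP_jspan_trans (fun b => ?_) (hΨ' a)
  have h1 : F (e.symm (e ⟨a, b⟩)) ∈ jspan j (fun k => F (e.symm k)) :=
    RP_jspan_self j (fun k => F (e.symm k)) (e ⟨a, b⟩)
  rw [Equiv.symm_apply_apply] at h1
  exact h1

/-- (RP2) -/
theorem exists_rational_span (j : Qb →+* Ω) (M0 : Subfield Ω)
    (h2 : ∀ σ : GQ, ∃ θ : Ω ≃+* Ω, (∀ a, θ (j a) = j (σ a)) ∧ ∀ x ∈ M0, θ x = x)
    {n : ℕ} (Ψ' : Fin n → Ω) (hΨ : ∀ a, Ψ' a ∈ Subfield.closure (Set.range j ∪ (M0 : Set Ω)))
    (hst : ∀ (θ : Ω ≃+* Ω) (σ : GQ), (∀ a, θ (j a) = j (σ a)) → (∀ x ∈ M0, θ x = x) →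
      ∀ a, θ (Ψ' a) ∈ jspan j Ψ') :
    ∃ (r : ℕ) (u' : Fin r → Ω), (∀ i, u' i ∈ M0) ∧ (∀ i, u' i ∈ jspan j Ψ') ∧
      ∀ a, Ψ' a ∈ jspan j u' := by
  obtain ⟨m, w, hw, hΨw⟩ := RP_common j M0 Ψ' hΨ
  let U : Submodule Qb (Fin m → Qb) :=
    { carrier := {c | ∑ k, j (c k) * w k ∈ jspan j Ψ'}
      add_mem' := by
        intro c d hc hd
        have : ∑ k, j ((c + d) k) * w k = ∑ k, j (c k) * w k + ∑ k, j (d k) * w k := by
          rw [← Finset.sum_add_distrib]
          refine Finset.sum_congr rfl fun k _ => ?_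
          rw [Pi.add_apply, map_add, add_mul]
        show ∑ k, j ((c + d) k) * w k ∈ jspan j Ψ'
        rw [this]
        exact RP_jspan_add hc hd
      zero_mem' := by
        show ∑ k, j ((0 : Fin m → Qb) k) * w k ∈ jspan j Ψ'
        simpa using RP_jspan_zero j Ψ'
      smul_mem' := by
        intro b c hc
        have : ∑ k, j ((b • c) k) * w k = j b * ∑ k, j (c k) * w k := by
          rw [Finset.mul_sum]
          refine Finset.sum_congr rfl fun k _ => ?_
          rw [Pi.smul_apply, smul_eq_mul, map_mul, mul_assoc]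
        show ∑ k, j ((b • c) k) * w k ∈ jspan j Ψ'
        rw [this]
        exact RP_jspan_smul b hc }
  have hUmem : ∀ c : Fin m → Qb, c ∈ U ↔ ∑ k, j (c k) * w k ∈ jspan j Ψ' := fun c => Iff.rfl
  have hU : ∀ (σ : GQ), ∀ v ∈ U, (fun i => σ (v i)) ∈ U := by
    intro σ v hv
    obtain ⟨θ, hθj, hθ0⟩ := h2 σ
    rw [hUmem] at hv ⊢
    have e1 : ∑ k, j (σ (v k)) * w k = θ (∑ k, j (v k) * w k) := by
      rw [map_sum]
      refine Finset.sum_congr rfl fun k _ => ?_
      rw [map_mul, hθj, hθ0 _ (hw k)]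
    rw [e1]
    obtain ⟨d, hd⟩ := hv
    rw [hd, map_sum]
    refine RP_jspan_sum _ _ fun a _ => ?_
    rw [map_mul, hθj]
    exact RP_jspan_smul _ (hst θ σ hθj hθ0 a)
  obtain ⟨r, b, hb, hspan⟩ := RP_descent U hU
  refine ⟨r, fun i => ∑ k, j (RP_emb m (b i) k) * w k, fun i => ?_, fun i => hb i, fun a => ?_⟩
  · refine M0.sum_mem fun k _ => M0.mul_mem ?_ (hw k)
    exact RP_ratCast_mem j M0 _
  · obtain ⟨c, hc⟩ := hΨw a
    have hcU : c ∈ U := by
      rw [hUmem, ← hc]
      exact RP_jspan_self j Ψ' a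
    obtain ⟨d, hd⟩ := hspan c hcU
    refine ⟨d, ?_⟩
    rw [hc, hd]
    simp only [Finset.sum_apply, Pi.smul_apply, smul_eq_mul, map_sum, map_mul, Finset.sum_mul,
      Finset.mul_sum]
    rw [Finset.sum_comm]
    refine Finset.sum_congr rfl fun i _ => Finset.sum_congr rfl fun k _ => ?_
    rw [mul_assoc]

theorem RP_indep (j : Qb →+* Ω) (A : ValuationSubring Qb) (hA : ∃ a : Qb, a ∉ A)
    (B : ValuationSubring Ω) {r : ℕ} (u : Fin r → Ω)
    (hu : ∀ lam : Fin r → Qb, ∑ t, j (lam t) * u t ∈ B → ∀ t, lam t ∈ A)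
    (c d : Fin r → Qb) (h : ∑ t, j (c t) * u t = ∑ t, j (d t) * u t) : c = d := by
  obtain ⟨a, ha⟩ := hA
  funext t
  by_contra hne
  have hne' : c t - d t ≠ 0 := sub_ne_zero.2 hne
  apply ha
  have h0 : ∑ t', j ((a / (c t - d t)) * (c t' - d t')) * u t' = 0 := by
    have : ∑ t', j ((a / (c t - d t)) * (c t' - d t')) * u t' =
        j (a / (c t - d t)) * (∑ t', j (c t') * u t' - ∑ t', j (d t') * u t') := by
      rw [← Finset.sum_sub_distrib, Finset.mul_sum]
      refine Finset.sum_congr rfl fun t' _ => ?_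
      rw [map_mul, map_sub]
      ring
    rw [this, h, sub_self, mul_zero]
  have := hu (fun t' => (a / (c t - d t)) * (c t' - d t')) (by rw [h0]; exact B.zero_mem) t
  rwa [div_mul_cancel₀ _ hne'] at this

/-- (RP3) the matrices -/
theorem rep_of_basis (j : Qb →+* Ω) (A : ValuationSubring Qb) (hA : ∃ a : Qb, a ∉ A)
    (B : ValuationSubring Ω) (G : Type) [AddCommGroup G] (act : GQ → G → G) {r : ℕ} (u : Fin r → Ω)
    (hu : ∀ lam : Fin r → Qb, ∑ t, j (lam t) * u t ∈ B → ∀ t, lam t ∈ A)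
    (s : G → Ω ≃+* Ω) (hsj : ∀ y a, s y (j a) = j a)
    (hspan : ∀ y t, s y (u t) ∈ jspan j u) (hB : ∀ y t, s y (u t) ∈ B)
    (hadd : ∀ x y t, s (x + y) (u t) = s x (s y (u t))) (h0 : ∀ t, s 0 (u t) = u t)
    (hgal : ∀ (σ : GQ) (y : G), ∃ θ : Ω ≃+* Ω, (∀ a, θ (j a) = j (σ a)) ∧ (∀ t, θ (u t) = u t) ∧
      ∀ t, θ (s y (u t)) = s (act σ y) (u t))
    (hf : ∀ y, (∀ t, s y (u t) = u t) → y = 0) : IsIntRep A G act := by
  classical
  choose C hC using hspan
  have hind := RP_indep j A hA B u hu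
  let c : G → Matrix (Fin r) (Fin r) Qb := fun y i k => C y k i
  have hmul : ∀ x y, c (x + y) = c x * c y := by
    intro x y
    have key : ∀ k, (fun i => c (x + y) i k) = fun i => (c x * c y) i k := by
      intro k
      apply hind
      show ∑ i, j (C (x + y) k i) * u i = ∑ i, j ((c x * c y) i k) * u i
      rw [← hC, hadd, hC y k, map_sum]
      have e1 : ∀ l, s x (j (C y k l) * u l) = ∑ i, j (C x l i * C y k l) * u i := by
        intro l
        rw [map_mul, hsj, hC x l, Finset.mul_sum]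
        refine Finset.sum_congr rfl fun i _ => ?_
        rw [map_mul]
        ring
      simp only [e1]
      rw [Finset.sum_comm]
      refine Finset.sum_congr rfl fun i _ => ?_
      rw [← Finset.sum_mul, ← map_sum]
      rfl
    ext i k
    exact congrFun (key k) i
  have hone : c 0 = 1 := by
    have key : ∀ k, (fun i => c 0 i k) = fun i => (1 : Matrix (Fin r) (Fin r) Qb) i k := by
      intro k
      apply hind
      show ∑ i, j (C 0 k i) * u i = ∑ i, j ((1 : Matrix (Fin r) (Fin r) Qb) i k) * u i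
      rw [← hC, h0]
      simp [Matrix.one_apply]
    ext i k
    exact congrFun (key k) i
  refine ⟨r, c, hmul, hone, ?_, ?_, ?_⟩
  · intro x y hxy
    have h1 : c (x - y) * c y = c y := by rw [← hmul, sub_add_cancel, hxy]
    have h2 : c y * c (-y) = 1 := by rw [← hmul, add_neg_cancel, hone]
    have h3 : c (x - y) = 1 := by
      calc c (x - y) = c (x - y) * (c y * c (-y)) := by rw [h2, mul_one]
        _ = c y * c (-y) := by rw [← mul_assoc, h1]
        _ = 1 := h2
    have h4 : x - y = 0 := by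
      apply hf
      intro t
      rw [hC]
      have : ∀ i, C (x - y) t i = (1 : Matrix (Fin r) (Fin r) Qb) i t := fun i =>
        congrFun (congrFun h3 i) t
      simp [this, Matrix.one_apply]
    exact sub_eq_zero.1 h4
  · intro y i k
    exact hu (fun i => C y k i) (by rw [← hC]; exact hB y k) i
  · intro σ y i k
    obtain ⟨θ, hθj, hθu, hθs⟩ := hgal σ y
    have key : (fun i => C (act σ y) k i) = fun i => σ (C y k i) := by
      apply hind
      rw [← hC, ← hθs, hC y k, map_sum]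
      refine Finset.sum_congr rfl fun i _ => ?_
      rw [map_mul, hθj, hθu]
    exact congrFun key i


theorem RP_ext {j : Qb →+* Ω} {n : ℕ} {w : Fin n → Ω} (f g : Ω →+* Ω)
    (hj : ∀ a, f (j a) = g (j a)) (hw : ∀ a, f (w a) = g (w a)) {z : Ω} (hz : z ∈ jspan j w) :
    f z = g z := by
  obtain ⟨c, rfl⟩ := hz
  rw [map_sum, map_sum]
  refine Finset.sum_congr rfl fun a _ => ?_
  rw [map_mul, map_mul, hj, hw]

theorem RP_isAlgebraic_mono {M0 M1 : Subfield Ω} (h : M0 ≤ M1) {z : Ω} (hz : IsAlgebraic M0 z) :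
    IsAlgebraic M1 z := by
  obtain ⟨p, hp0, hp⟩ := hz
  refine ⟨p.map (Subfield.inclusion h),
    (Polynomial.map_ne_zero_iff (Subfield.inclusion h).injective).2 hp0, ?_⟩
  have hφ : (algebraMap M1 Ω).comp (Subfield.inclusion h) = algebraMap M0 Ω := rfl
  rw [Polynomial.aeval_def, Polynomial.eval₂_map, hφ, ← Polynomial.aeval_def, hp]

/-- (REP) -/
theorem rep_of_system [IsAlgClosed Ω] [CharZero Ω] (j : Qb →+* Ω) (A : ValuationSubring Qb)
    (hA : ∃ a : Qb, a ∉ A) (B : ValuationSubring Ω)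
    (G : Type) [AddCommGroup G] [Finite G] (act : GQ → G → G) (hact1 : ∀ x, act 1 x = x)
    (hactadd : ∀ σ x y, act σ (x + y) = act σ x + act σ y)
    (T : Type) [Finite T] (Ψ : T → G → Ω) (M0 : Subfield Ω)
    (h1 : ∀ z : Ω, IsAlgebraic M0 z)
    (h2 : ∀ σ : GQ, ∃ θ : Ω ≃+* Ω, (∀ a, θ (j a) = j (σ a)) ∧ ∀ x ∈ M0, θ x = x)
    (h3 : ∀ (θ : Ω ≃+* Ω) (σ : GQ), (∀ a, θ (j a) = j (σ a)) → (∀ x ∈ M0, θ x = x) →
      ∀ t x, θ (Ψ t x) = Ψ t (act σ x))
    (s : G → Ω ≃+* Ω) (h4 : ∀ y a, s y (j a) = j a) (h4' : ∀ y t x, s y (Ψ t x) = Ψ t (x + y))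
    (h5 : ∀ y, ∀ z ∈ Subfield.closure (Set.range j ∪ (M0 : Set Ω)), z ∈ B → s y z ∈ B)
    (h6 : ∀ (r : ℕ) (u' : Fin r → Ω), (∀ i, u' i ∈ M0) → ∃ (r' : ℕ) (u : Fin r' → Ω),
      (∀ t, u t ∈ M0) ∧ (∀ t, u t ∈ B) ∧
      (∀ lam : Fin r' → Qb, ∑ t, j (lam t) * u t ∈ B → ∀ t, lam t ∈ A) ∧
      (∀ i, ∃ c : Fin r' → ℚ, u' i = ∑ t, j (algebraMap ℚ Qb (c t)) * u t) ∧
      (∀ t, ∃ c : Fin r → ℚ, u t = ∑ i, j (algebraMap ℚ Qb (c i)) * u' i))
    (h7 : ∀ y, (∀ t, Ψ t y = Ψ t 0) → y = 0) : IsIntRep A G act := by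
  classical
  haveI : Fintype T := Fintype.ofFinite T
  haveI : Fintype G := Fintype.ofFinite G
  set M1 : Subfield Ω := Subfield.closure (Set.range j ∪ (M0 : Set Ω)) with hM1
  have hM01 : M0 ≤ M1 := fun x hx => Subfield.subset_closure (Or.inr hx)
  have hjM1 : ∀ a, j a ∈ M1 := fun a => Subfield.subset_closure (Or.inl ⟨a, rfl⟩)
  -- (a)
  have hΨM1 : ∀ t x, Ψ t x ∈ M1 := by
    intro t x
    refine mem_of_fixed M1 (fun z => RP_isAlgebraic_mono hM01 (h1 z)) _ fun s' hs' => ?_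
    have := h3 s' 1 (fun a => hs' _ (hjM1 a)) (fun y hy => hs' _ (hM01 hy)) t x
    rwa [hact1] at this
  -- (b)
  let e := Fintype.equivFin (T × G)
  let F : T × G → Ω := fun x => Ψ x.1 x.2
  let Ψ' : Fin (Fintype.card (T × G)) → Ω := fun a => F (e.symm a)
  have hΨself : ∀ t x, Ψ t x ∈ jspan j Ψ' := by
    intro t x
    have h : F (e.symm (e (t, x))) ∈ jspan j Ψ' := RP_jspan_self j Ψ' (e (t, x))
    rw [Equiv.symm_apply_apply] at h
    exact h
  obtain ⟨r, u', hu'M, hu'Ψ, hΨu'⟩ := exists_rational_span j M0 h2 Ψ' (fun a => hΨM1 _ _)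
    (fun θ σ hθj hθ0 a => by
      show θ (Ψ _ _) ∈ jspan j Ψ'
      rw [h3 θ σ hθj hθ0]
      exact hΨself _ _)
  -- (c)
  obtain ⟨r', u, huM, huB, hu, hu'u, huu'⟩ := h6 r u' hu'M
  have hu'u' : ∀ i, u' i ∈ jspan j u := fun i => by
    obtain ⟨c, hc⟩ := hu'u i
    exact ⟨fun t => algebraMap ℚ Qb (c t), hc⟩
  have huu'' : ∀ t, u t ∈ jspan j u' := fun t => by
    obtain ⟨c, hc⟩ := huu' t
    exact ⟨fun t => algebraMap ℚ Qb (c t), hc⟩
  have huΨ : ∀ t, u t ∈ jspan j Ψ' := fun t => RP_jspan_trans hu'Ψ (huu'' t)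
  have hΨu : ∀ t x, Ψ t x ∈ jspan j u := fun t x =>
    RP_jspan_trans hu'u' (RP_jspan_trans hΨu' (hΨself t x))
  -- (d)
  refine rep_of_basis j A hA B G act u hu s h4 ?_ (fun y t => h5 y _ (hM01 (huM t)) (huB t))
    ?_ ?_ ?_ ?_
  · intro y t
    obtain ⟨c, hc⟩ := huΨ t
    rw [hc, map_sum]
    refine RP_jspan_sum _ _ fun a _ => ?_
    rw [map_mul, h4]
    refine RP_jspan_smul _ ?_
    show s y (Ψ _ _) ∈ jspan j u
    rw [h4']
    exact hΨu _ _
  · intro x y t
    refine RP_ext (w := Ψ') (s (x + y) : Ω →+* Ω)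
      ((s x : Ω →+* Ω).comp (s y : Ω →+* Ω)) (fun a => ?_) (fun a => ?_) (huΨ t)
    · show s (x + y) (j a) = s x (s y (j a))
      rw [h4, h4, h4]
    · show s (x + y) (Ψ _ _) = s x (s y (Ψ _ _))
      rw [h4', h4', h4', add_assoc, add_comm x y]
  · intro t
    refine RP_ext (w := Ψ') (s 0 : Ω →+* Ω) (RingHom.id Ω) (fun a => ?_) (fun a => ?_) (huΨ t)
    · exact h4 0 a
    · show s 0 (Ψ _ _) = Ψ _ _
      rw [h4', add_zero]
  · intro σ y
    obtain ⟨θ, hθj, hθ0⟩ := h2 σ
    refine ⟨θ, hθj, fun t => hθ0 _ (huM t), fun t => ?_⟩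
    have key : θ (s y (u t)) = s (act σ y) (θ (u t)) := by
      refine RP_ext (w := Ψ') ((θ : Ω →+* Ω).comp (s y : Ω →+* Ω))
        ((s (act σ y) : Ω →+* Ω).comp (θ : Ω →+* Ω)) (fun a => ?_) (fun a => ?_) (huΨ t)
      · show θ (s y (j a)) = s (act σ y) (θ (j a))
        rw [h4, hθj, h4]
      · show θ (s y (Ψ _ _)) = s (act σ y) (θ (Ψ _ _))
        rw [h4', h3 θ σ hθj hθ0, h3 θ σ hθj hθ0, h4', hactadd]
    rw [key, hθ0 _ (huM t)]
  · intro y hy
    apply h7
    intro t
    have key : s y (Ψ t 0) = Ψ t 0 :=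
      RP_ext (w := u) (s y : Ω →+* Ω) (RingHom.id Ω) (fun a => h4 y a) (fun a => hy a) (hΨu t 0)
    rw [h4', zero_add] at key
    exact key

end Fermat.Agent.S19Lib
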