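import Fermat.Agent.S19.Kit
import Fermat.Agent.S19.General

/-!
# S19 (CA): calculus of translates of a tuple of generic points
-/

set_option autoImplicit false

open AlgebraicCurve

namespace Fermat.Agent.S19Lib

open Fermat.Agent.S18Lib Fermat.Agent.S24Lib Fermat.Agent.FFLib Fermat.Agent.S34Lib

variable {K F Ω FΩ : Type*} [Field K] [Field F] [Algebra K F] [Field Ω] [Field FΩ] [Algebra Ω FΩ]
  [IsAlgClosed K] [IsAlgClosed Ω]

/-- `e'` is a translate by the class of `D` of the tuple with points `v` -/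
def IsTr (C : CE K F Ω FΩ) (hF : IsFF K F) (hFΩ : IsFF Ω FΩ) {g : ℕ} (v : Fin g → Place Ω FΩ)
    (D : Divisor K F) (e' : Fin g → F →+* Ω) : Prop :=
  ∃ v' : Fin g → Place Ω FΩ, (∀ i, IsPt C (e' i) (v' i)) ∧
    Divisor.IsPrincipal (sumP v' - sumP v - C.extD hF hFΩ D)

/-- transport of an embedding by a pair of semilinear automorphisms -/
def conjE (Θ : SemilinearAut Ω FΩ) (φ : SemilinearAut K F) (e : F →+* Ω) : F →+* Ω :=
  ((SemilinearAut.baseAut Θ : Ω ≃+* Ω) : Ω →+* Ω).comp
    (e.comp ((SemilinearAut.toRingAut φ).symm : F →+* F))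

omit [IsAlgClosed Ω] in
theorem tr_sumP_nonneg {g : ℕ} (v : Fin g → Place Ω FΩ) : 0 ≤ sumP v := by
  classical
  unfold sumP
  refine Finset.sum_nonneg fun i _ => ?_
  intro u
  rw [Finsupp.single_apply]
  simp only [Finsupp.coe_zero, Pi.zero_apply]
  split_ifs <;> simp

omit [IsAlgClosed Ω] in
theorem tr_sumP_comp {g : ℕ} (v : Fin g → Place Ω FΩ) (π : Equiv.Perm (Fin g)) :
    sumP (v ∘ π) = sumP v := by
  unfold sumP
  exact Equiv.sum_comp π (fun i => Finsupp.single (v i) (1 : ℤ))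

theorem tr_extD_add (C : CE K F Ω FΩ) (hF : IsFF K F) (hFΩ : IsFF Ω FΩ) (D D' : Divisor K F) :
    C.extD hF hFΩ (D + D') = C.extD hF hFΩ D + C.extD hF hFΩ D' :=
  Finsupp.mapDomain_add

theorem tr_extD_sub (C : CE K F Ω FΩ) (hF : IsFF K F) (hFΩ : IsFF Ω FΩ) (D D' : Divisor K F) :
    C.extD hF hFΩ (D - D') = C.extD hF hFΩ D - C.extD hF hFΩ D' := by
  rw [eq_sub_iff_add_eq, ← tr_extD_add, sub_add_cancel]

omit [IsAlgClosed Ω] in
theorem tr_smul_sumP (Θ : SemilinearAut Ω FΩ) {g : ℕ} (v : Fin g → Place Ω FΩ) :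
    Θ • sumP v = sumP (fun i => Θ • v i) := by
  unfold sumP
  rw [Finset.smul_sum]
  simp only [SemilinearAut.smul_single]

/-- (CA0) -/
theorem IsTr.zero (C : CE K F Ω FΩ) (hF : IsFF K F) (hFΩ : IsFF Ω FΩ) {g : ℕ}
    {v : Fin g → Place Ω FΩ} {e : Fin g → F →+* Ω} (hv : ∀ i, IsPt C (e i) (v i)) :
    IsTr C hF hFΩ v 0 e := by
  refine ⟨v, hv, ?_⟩
  have : sumP v - sumP v - C.extD hF hFΩ 0 = 0 := by
    unfold CE.extD
    rw [Finsupp.mapDomain_zero, sub_self, sub_zero]
  rw [this]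
  exact (Divisor.principal (K := Ω) (F := FΩ)).zero_mem

/-- (CA1) uniqueness up to permutation: (G11) (G10) (G9) (CE5), `CE.extD_isPrincipal` -/
theorem IsTr.perm {C : CE K F Ω FΩ} {hF : IsFF K F} {hFΩ : IsFF Ω FΩ} {g : ℕ}
    {v : Fin g → Place Ω FΩ} {D D₂ : Divisor K F} {e' e'' : Fin g → F →+* Ω}
    (hell : FFLib.ell (sumP v + C.extD hF hFΩ D) = 1) (h : IsTr C hF hFΩ v D e')
    (h2 : IsTr C hF hFΩ v D₂ e'') (hDD : Divisor.IsPrincipal (D₂ - D)) :
    ∃ π : Equiv.Perm (Fin g), e'' = e' ∘ π := by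
  obtain ⟨v', hv', hp'⟩ := h
  obtain ⟨v'', hv'', hp''⟩ := h2
  have h3 := C.extD_isPrincipal hF hFΩ hDD
  rw [tr_extD_sub] at h3
  have h4 : Divisor.IsPrincipal (sumP v'' - sumP v') := by
    have := (Divisor.principal (K := Ω) (F := FΩ)).add_mem
      ((Divisor.principal (K := Ω) (F := FΩ)).sub_mem hp'' hp') h3
    have heq : sumP v'' - sumP v - C.extD hF hFΩ D₂ - (sumP v' - sumP v - C.extD hF hFΩ D) +
        (C.extD hF hFΩ D₂ - C.extD hF hFΩ D) = sumP v'' - sumP v' := by abel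
    rw [heq] at this
    exact this
  have h5 : FFLib.ell (sumP v') = 1 := by
    rw [← hell]
    refine ell_eq_of_isPrincipal hFΩ ?_
    rwa [← sub_sub]
  have h6 := eq_of_ell_eq_one hFΩ (tr_sumP_nonneg v') (tr_sumP_nonneg v'') h4 h5
  obtain ⟨π, hπ⟩ := exists_perm_of_sumP_eq h6.symm
  refine ⟨π, ?_⟩
  funext i
  have h7 := hv'' i
  rw [hπ] at h7
  exact h7.eq_of (hv' (π i))

/-- (CA2) functoriality: apply `Θ` to the principal divisor of `h`
(`SemilinearAut.smul_mem_principal`), (PT4) (PT6); `Θ • v i` is a point of `conjE Θ φ (e i)`, hence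
equal to the corresponding point in `hs` (PT2). -/
theorem IsTr.smul [CharZero K] {C : CE K F Ω FΩ} {hF : IsFF K F} {hFΩ : IsFF Ω FΩ} {g : ℕ}
    {v : Fin g → Place Ω FΩ} {e : Fin g → F →+* Ω} (hv : ∀ i, IsPt C (e i) (v i))
    (Θ : SemilinearAut Ω FΩ) (φ : SemilinearAut K F) (hΘ : ∀ f, Θ • C.ι f = C.ι (φ • f))
    {Ds : Divisor K F} (hs : IsTr C hF hFΩ v Ds (fun i => conjE Θ φ (e i)))
    {D : Divisor K F} {e' : Fin g → F →+* Ω} (h : IsTr C hF hFΩ v D e') :
    IsTr C hF hFΩ v (φ • D + Ds) (fun i => conjE Θ φ (e' i)) := by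
  obtain ⟨w, hw, hpw⟩ := hs
  obtain ⟨v', hv', hp'⟩ := h
  have hΘ' : ∀ f, Θ • C.ι f = C.ι (SemilinearAut.toRingAut φ f) := hΘ
  refine ⟨fun i => Θ • v' i, fun i => (hv' i).smul Θ (SemilinearAut.toRingAut φ) hΘ', ?_⟩
  have hwv : w = fun i => Θ • v i := by
    funext i
    exact (hw i).unique hF hFΩ ((hv i).smul Θ (SemilinearAut.toRingAut φ) hΘ')
  have h1 := SemilinearAut.smul_mem_principal Θ hp'
  rw [smul_sub, smul_sub, tr_smul_sumP, tr_smul_sumP, C.smul_extD hF hFΩ Θ φ hΘ] at h1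
  rw [hwv] at hpw
  have := (Divisor.principal (K := Ω) (F := FΩ)).add_mem h1 hpw
  have heq : (sumP (fun i => Θ • v' i) - sumP (fun i => Θ • v i) - C.extD hF hFΩ (φ • D)) +
      (sumP (fun i => Θ • v i) - sumP v - C.extD hF hFΩ Ds) =
      sumP (fun i => Θ • v' i) - sumP v - C.extD hF hFΩ (φ • D + Ds) := by
    rw [tr_extD_add]; abel
  rw [heq] at this
  exact this

omit [IsAlgClosed K] [IsAlgClosed Ω] [Algebra K F] [Field K] in
/-- (CA3) pure algebra.  For `a ∈ F0` the polynomials `∏ (T - e' i a)` and `∏ (T - e i a)` agree at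
all rational `T = c` (`a - c ∈ F0`), hence are equal; so `e' 0 a ∈ {e i a}`: `F0` is the union of
the `ℚ`-subspaces `{a | e' 0 a = e i a}`, so one of them is `F0`
(`Subspace.biUnion_ne_univ_of_top_notMem` ...); cancel and induct on `g`. -/
theorem exists_perm_of_prod_eq [CharZero F] (F0 : Subfield F) {g : ℕ} (e e' : Fin g → F →+* Ω)
    (hext : ∀ i i', (∀ a ∈ F0, e' i a = e i' a) → e' i = e i')
    (hprod : ∀ a ∈ F0, ∏ i, e' i a = ∏ i, e i a) : ∃ π : Equiv.Perm (Fin g), e' = e ∘ π := by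
  induction g with
  | zero => exact ⟨1, funext fun i => i.elim0⟩
  | succ g ih =>
    have hchar : CharZero Ω := charZero_of_injective_ringHom (e 0).injective
    have h1 : ∀ a ∈ F0, ∃ i, e' 0 a = e i a := by
      intro a ha
      have hpoly : ∏ i, (Polynomial.X - Polynomial.C (e' i a)) =
          ∏ i, (Polynomial.X - Polynomial.C (e i a)) := by
        apply Polynomial.eq_of_infinite_eval_eq
        refine Set.Infinite.mono ?_ (Set.infinite_range_of_injective (Nat.cast_injective (R := Ω)))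
        rintro _ ⟨c, rfl⟩
        simp only [Set.mem_setOf_eq, Polynomial.eval_prod, Polynomial.eval_sub, Polynomial.eval_X,
          Polynomial.eval_C]
        have := hprod ((c : F) - a) (sub_mem (natCast_mem F0 c) ha)
        simpa only [map_sub, map_natCast] using this
      have h2 : (∏ i, (Polynomial.X - Polynomial.C (e i a))).eval (e' 0 a) = 0 := by
        rw [← hpoly, Polynomial.eval_prod]
        exact Finset.prod_eq_zero (Finset.mem_univ 0) (by simp)
      rw [Polynomial.eval_prod, Finset.prod_eq_zero_iff] at h2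
      obtain ⟨i, -, hi⟩ := h2
      exact ⟨i, by simpa [sub_eq_zero] using hi⟩
    let p : Fin (g + 1) → Submodule ℚ F0 := fun i =>
      { carrier := {a | e' 0 (a : F) = e i (a : F)}
        add_mem' := fun {a b} ha hb => by
          simp only [Set.mem_setOf_eq, Subfield.coe_add, map_add] at *
          rw [ha, hb]
        zero_mem' := by simp
        smul_mem' := fun c a ha => by
          simp only [Set.mem_setOf_eq] at *
          rw [Rat.smul_def]
          push_cast
          rw [map_mul, map_mul, ha, map_ratCast, map_ratCast] }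
    obtain ⟨i0, hi0⟩ := Subspace.exists_eq_top_of_iUnion_eq_univ (p := p) (by
      rw [Set.eq_univ_iff_forall]
      intro a
      obtain ⟨i, hi⟩ := h1 a a.2
      exact Set.mem_iUnion.mpr ⟨i, hi⟩)
    have h0 : e' 0 = e i0 := by
      refine hext 0 i0 fun a ha => ?_
      have : (⟨a, ha⟩ : F0) ∈ p i0 := by rw [hi0]; trivial
      exact this
    obtain ⟨π', hπ'⟩ := ih (fun i => e (Equiv.swap 0 i0 i.succ)) (fun i => e' i.succ)
      (fun i i' h => hext _ _ h) (by
        intro a ha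
        by_cases ha0 : a = 0
        · simp [ha0]
        · have h2 := hprod a ha
          rw [← Equiv.prod_comp (Equiv.swap 0 i0) (fun i => e i a), Fin.prod_univ_succ,
            Fin.prod_univ_succ, Equiv.swap_apply_left, h0] at h2
          exact mul_left_cancel₀ ((map_ne_zero (e i0)).mpr ha0) h2)
    refine ⟨Equiv.Perm.decomposeFin.symm (i0, π'), ?_⟩
    funext i
    refine Fin.cases ?_ (fun i => ?_) i
    · rw [Function.comp, Equiv.Perm.decomposeFin_symm_apply_zero, h0]
    · rw [Function.comp, Equiv.Perm.decomposeFin_symm_apply_succ]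
      exact congrFun hπ' i

/-- (CA4) faithfulness: (CA3), (PT2), (SK'') -/
theorem IsTr.isPrincipal_of_prod_eq [CharZero K] {C : CE K F Ω FΩ} {hF : IsFF K F}
    {hFΩ : IsFF Ω FΩ} {g : ℕ} {v : Fin g → Place Ω FΩ} {e : Fin g → F →+* Ω}
    (hv : ∀ i, IsPt C (e i) (v i)) {D : Divisor K F} {e' : Fin g → F →+* Ω}
    (h : IsTr C hF hFΩ v D e') (F0 : Subfield F)
    (hgen : Subfield.closure (Set.range (algebraMap K F) ∪ (F0 : Set F)) = ⊤)
    (hprod : ∀ a ∈ F0, ∏ i, e' i a = ∏ i, e i a) : Divisor.IsPrincipal D := by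
  obtain ⟨v', hv', hp'⟩ := h
  have : CharZero F := charZero_of_injective_algebraMap (algebraMap K F).injective
  obtain ⟨π, hπ⟩ := exists_perm_of_prod_eq F0 e e' (by
    intro i i' hii
    have hle : Subfield.closure (Set.range (algebraMap K F) ∪ (F0 : Set F)) ≤
        RingHom.eqLocusField (e' i) (e i') := by
      rw [Subfield.closure_le]
      rintro x (⟨a, rfl⟩ | hx)
      · show e' i _ = e i' _
        rw [(hv' i).comm, (hv i').comm]
      · exact hii x hx
    rw [hgen] at hle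
    ext x
    exact hle (Subfield.mem_top x)) hprod
  have hvv : v' = v ∘ π := by
    funext i
    have h1 := hv' i
    rw [hπ] at h1
    exact h1.unique hF hFΩ (hv (π i))
  rw [hvv, tr_sumP_comp, sub_self, zero_sub] at hp'
  have h2 := (Divisor.principal (K := Ω) (F := FΩ)).neg_mem hp'
  rw [neg_neg] at h2
  exact C.isPrincipal_of_extD hF hFΩ h2

end Fermat.Agent.S19Lib
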