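import Fermat.Agent.S19.TR
import Fermat.Agent.S19.Tr
import Fermat.Agent.S19.Pkg
import Fermat.Agent.S19.Rep

/-!
# S19 (GEO): finite Galois stable subgroups of the Jacobian of a curve with good reduction have an
integral Galois equivariant faithful matrix representation
-/

set_option autoImplicit false

open AlgebraicCurve ModularCurve

namespace Fermat.Agent.S19Lib

open Fermat.Agent.S18Lib Fermat.Agent.S24Lib Fermat.Agent.FFLib Fermat.Agent.S34Lib

section Abs

variable {k F Ft Ω ω FΩ Ftω : Type} [Field k] [Field F] [Algebra Qb F] [Field Ft]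
  [Algebra k Ft] [Field Ω] [Field ω] [Field FΩ] [Algebra Ω FΩ] [Field Ftω] [Algebra ω Ftω]
  [IsAlgClosed k] [IsAlgClosed Ω] [IsAlgClosed ω]
  {A : ValuationSubring Qb} {resK : A →+* k} {B : ValuationSubring Ω} {resΩ : B →+* ω}

theorem prod_comp_perm {g : ℕ} {e e' : Fin g → F →+* Ω} {π : Equiv.Perm (Fin g)}
    (h : e' = e ∘ π) (a : F) : ∏ i, e' i a = ∏ i, e i a := by
  subst h
  exact Equiv.prod_comp π (fun i => e i a)

omit [IsAlgClosed Ω] in
theorem principal_of_mk_eq {D₁ D₂ : Divisor.degZero (K := Qb) (F := F)}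
    (h : Pic0.mk D₁ = Pic0.mk D₂) :
    Divisor.IsPrincipal ((D₂ : Divisor Qb F) - (D₁ : Divisor Qb F)) := by
  have h1 := (QuotientAddGroup.eq (s := (Divisor.principal (K := Qb) (F := F)).addSubgroupOf
    (Divisor.degZero (K := Qb) (F := F)))).mp h
  rw [AddSubgroup.mem_addSubgroupOf] at h1
  have h2 : ((-D₁ + D₂ : Divisor.degZero (K := Qb) (F := F)) : Divisor Qb F)
      = (D₂ : Divisor Qb F) - (D₁ : Divisor Qb F) := by
    push_cast
    abel
  rw [h2] at h1
  exact h1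

omit [IsAlgClosed Ω] in
theorem mk_eq_zero_of_principal {D₁ : Divisor.degZero (K := Qb) (F := F)}
    (h : Divisor.IsPrincipal (D₁ : Divisor Qb F)) : Pic0.mk D₁ = 0 := by
  apply (QuotientAddGroup.eq_zero_iff _).mpr
  rw [AddSubgroup.mem_addSubgroupOf]
  exact h

/-- the key computation: action of an automorphism of `Ω` on the products -/
theorem geo_key (hF : IsFF Qb F) (hFΩ : IsFF Ω FΩ) (C : CE Qb F Ω FΩ) {g : ℕ}
    (e : Fin g → F →+* Ω) (v : Fin g → Place Ω FΩ) (hv : ∀ i, IsPt C (e i) (v i))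
    (φ : SemilinearAut Qb F) (Θ : SemilinearAut Ω FΩ) (hΘ : ∀ f : F, Θ • C.ι f = C.ι (φ • f))
    (ey : Fin g → F →+* Ω) (Dy : Divisor Qb F) (hTy : IsTr C hF hFΩ v Dy ey)
    (hy : ∀ i f, SemilinearAut.baseAut Θ (e i f) = ey i (φ • f))
    (Dx Dz : Divisor Qb F) (ex ez : Fin g → F →+* Ω) (hTx : IsTr C hF hFΩ v Dx ex)
    (hTz : IsTr C hF hFΩ v Dz ez) (hell : FFLib.ell (sumP v + C.extD hF hFΩ Dz) = 1)
    (hDD : Divisor.IsPrincipal ((φ • Dx + Dy) - Dz)) (a : F) (ha : φ • a = a) :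
    SemilinearAut.baseAut Θ (∏ i, ex i a) = ∏ i, ez i a := by
  have hsymm : ∀ f : F, φ • ((SemilinearAut.toRingAut φ).symm f) = f := fun f => by
    rw [SemilinearAut.smul_def]; exact (SemilinearAut.toRingAut φ).apply_symm_apply f
  have hc : (fun i => conjE Θ φ (e i)) = ey := by
    funext i
    ext f
    show SemilinearAut.baseAut Θ (e i ((SemilinearAut.toRingAut φ).symm f)) = ey i f
    rw [hy, hsymm]
  have hs : IsTr C hF hFΩ v Dy (fun i => conjE Θ φ (e i)) := by rw [hc]; exact hTy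
  have h3 := IsTr.smul hv Θ φ hΘ hs hTx
  obtain ⟨π, hπ⟩ := IsTr.perm hell hTz h3 hDD
  have h4 := prod_comp_perm hπ a
  rw [← h4, map_prod]
  refine Finset.prod_congr rfl fun i _ => ?_
  show _ = SemilinearAut.baseAut Θ (ex i ((SemilinearAut.toRingAut φ).symm a))
  have ha' : (SemilinearAut.toRingAut φ).symm a = a := by
    rw [RingEquiv.symm_apply_eq]
    exact ha.symm
  rw [ha']

/-- the abstract form of (GEO), with all the data over `Ω` given -/
theorem geo_core (hF : IsFF Qb F) (hFt : IsFF k Ft) (hFΩ : IsFF Ω FΩ) (hFtω : IsFF ω Ftω)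
    (hres : Function.Surjective resK) (hresΩ : Function.Surjective resΩ)
    (hA : ∃ a : Qb, a ∉ A) (R : RedData A resK F Ft) (C : CE Qb F Ω FΩ) (Cb : CE k Ft ω Ftω)
    (V : VE A resK B resΩ C.i Cb.i) {g : ℕ} (hgK : genusR Qb F = g) (hgk : genusR k Ft = g)
    (e : Fin g → F →+* Ω) (eb : Fin g → Ft →+* ω) (hgood : Good R B resΩ C.i Cb.i e eb)
    (halg : ∀ z : Ω, IsAlgebraic (Subfield.closure (Set.range C.i ∪ ⋃ i, Set.range (e i))) z)
    (gal : GQ →* SemilinearAut Qb F)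
    (hgalb : ∀ (σ : GQ) (a : Qb), SemilinearAut.baseAut (gal σ) a = σ a)
    (hAut : ∀ (s : Ω ≃+* Ω) (σ : GQ), (∀ a, s (C.i a) = C.i (σ a)) →
      ∃ Θ : SemilinearAut Ω FΩ, SemilinearAut.baseAut Θ = s ∧ ∀ f : F, Θ • C.ι f = C.ι (gal σ • f))
    (F0 : Subfield F) (hfix : ∀ σ, ∀ a ∈ F0, gal σ • a = a)
    (hgen : Subfield.closure (Set.range (algebraMap Qb F) ∪ (F0 : Set F)) = ⊤)
    (horth : HasRatOrth R F0)
    (G : AddSubgroup (Pic0 Qb F)) [Finite G] (hG : ∀ (σ : GQ), ∀ x ∈ G, gal σ • x ∈ G) :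
    IsIntRep A G (fun σ x => ⟨gal σ • (x : Pic0 Qb F), hG σ x x.2⟩) := by
  classical
  have hchar : CharZero Ω := charZero_of_injective_ringHom C.i.injective
  have he : ∀ i a, e i (algebraMap Qb F a) = C.i a := hgood.comm
  -- the points of the base tuple
  have hv' : ∀ i, ∃ v : Place Ω FΩ, IsPt C (e i) v := fun i =>
    exists_isPt hF hFΩ C (e i) (he i)
  choose v hv using hv'
  -- representatives
  have hD' : ∀ x : G, ∃ D : Divisor.degZero (K := Qb) (F := F), Pic0.mk D = (x : Pic0 Qb F) :=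
    fun x => Pic0.mk_surjective _
  choose D hD using hD'
  have hDdeg : ∀ x : G, Divisor.degree ((D x : Divisor.degZero (K := Qb) (F := F)) : Divisor Qb F) = 0 :=
    fun x => (D x).2
  -- translates
  have htr := fun x : G => exists_translate hF hFt hFΩ hFtω hres hresΩ R C Cb V hgK hgk e eb hgood
    v hv (D x : Divisor Qb F) (hDdeg x)
  have hell : ∀ x : G, FFLib.ell (sumP v + C.extD hF hFΩ (D x : Divisor Qb F)) = 1 :=
    fun x => (htr x).1
  choose e' eb' v' hgood' hv'' hprin using fun x : G => (htr x).2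
  have hTr : ∀ x : G, IsTr C hF hFΩ v (D x : Divisor Qb F) (e' x) := fun x =>
    ⟨v' x, hv'' x, hprin x⟩
  have hindK : Indep C.i e := hgood.indepK hres hresΩ V
  have hindK' : ∀ x, Indep C.i (e' x) := fun x => (hgood' x).indepK hres hresΩ V
  -- the automorphisms
  have hs' : ∀ x : G, ∃ s : Ω ≃+* Ω, (∀ a, s (C.i a) = C.i a) ∧ ∀ i f, s (e i f) = e' x i f :=
    fun x => exists_aut hF he (hgood' x).comm hindK (hindK' x) rfl halg
  choose s hsj hse using hs'
  -- separating elements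
  have hat' : ∀ y : G, ∃ a : F, a ∈ F0 ∧ (y ≠ 0 → ∏ i, e' y i a ≠ ∏ i, e i a) := by
    intro y
    by_cases hy : y = 0
    · exact ⟨1, F0.one_mem, fun h => absurd hy h⟩
    · by_contra hcon
      push Not at hcon
      apply hy
      have hp : Divisor.IsPrincipal (D y : Divisor Qb F) :=
        (hTr y).isPrincipal_of_prod_eq hv F0 hgen (fun a ha => (hcon a ha).2)
      apply Subtype.ext
      rw [← hD y, mk_eq_zero_of_principal hp]
      rfl
  choose at_ hat0 hat using hat'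
  have hsmul_mk : ∀ (σ : GQ) (x : G), gal σ • (x : Pic0 Qb F) =
      Pic0.mk (SemilinearAut.degZeroSMulHom (gal σ) (D x)) := by
    intro σ x
    rw [← hD x, SemilinearAut.pic0_smul_mk]
  have hzero : ∀ a : F, ∏ i, e' 0 i a = ∏ i, e i a := by
    intro a
    have hDD : Divisor.IsPrincipal ((0 : Divisor Qb F) - (D 0 : Divisor Qb F)) := by
      have h1 : Pic0.mk (D 0) = Pic0.mk (0 : Divisor.degZero (K := Qb) (F := F)) := by
        rw [hD 0]; rfl
      exact principal_of_mk_eq h1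
    obtain ⟨π, hπ⟩ := IsTr.perm (hell 0) (hTr 0) (IsTr.zero C hF hFΩ hv) hDD
    exact (prod_comp_perm hπ a).symm
  refine rep_of_system C.i A hA B G _ ?_ ?_ G (fun t x => ∏ i, e' x i (at_ t))
    (Subfield.closure (⋃ i, (e i) '' (F0 : Set F)))
    (isAlgebraic_closure_F0 C.i e he F0 hgen halg) ?_ ?_ s hsj ?_ ?_
    (fun r u' hu' => exists_orth_rational hres hresΩ V hgood F0 horth r u' hu') ?_
  · intro x
    apply Subtype.ext
    show gal 1 • (x : Pic0 Qb F) = x
    rw [map_one, one_smul]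
  · intro σ x y
    apply Subtype.ext
    show gal σ • ((x : Pic0 Qb F) + (y : Pic0 Qb F)) = gal σ • (x : Pic0 Qb F) + gal σ • (y : Pic0 Qb F)
    rw [smul_add]
  · intro σ
    obtain ⟨θ, h1, -, h3⟩ := exists_lift hF C.i e he hindK halg F0 (gal σ) (hfix σ)
    exact ⟨θ, fun a => by rw [h1, hgalb], h3⟩
  · intro θ σ hθj hθ0 t x
    obtain ⟨Θ, hΘb, hΘ⟩ := hAut θ σ hθj
    have hl := lift_comp C.i e he F0 hgen (gal σ) (hfix σ) θ
      (fun a => by rw [hθj, hgalb]) hθ0
    set z : G := ⟨gal σ • (x : Pic0 Qb F), hG σ x x.2⟩ with hz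
    have hDD : Divisor.IsPrincipal ((gal σ • (D x : Divisor Qb F) + 0) - (D z : Divisor Qb F)) := by
      have h1 : Pic0.mk (D z) = Pic0.mk (SemilinearAut.degZeroSMulHom (gal σ) (D x)) := by
        rw [hD z, ← hsmul_mk]
      have h2 := principal_of_mk_eq h1
      rwa [SemilinearAut.coe_degZeroSMulHom, ← add_zero (gal σ • (D x : Divisor Qb F))] at h2
    have key := geo_key hF hFΩ C e v hv (gal σ) Θ hΘ e 0 (IsTr.zero C hF hFΩ hv)
      (fun i f => by rw [hΘb]; exact hl i f) (D x : Divisor Qb F) (D z : Divisor Qb F) (e' x) (e' z)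
      (hTr x) (hTr z) (hell z) hDD (at_ t) (hfix σ _ (hat0 t))
    rw [hΘb] at key
    exact key
  · intro y t x
    obtain ⟨Θ, hΘb, hΘ⟩ := hAut (s y) 1 (fun a => by rw [hsj]; rfl)
    have hDD : Divisor.IsPrincipal ((gal 1 • (D x : Divisor Qb F) + (D y : Divisor Qb F)) -
        (D (x + y) : Divisor Qb F)) := by
      have h1 : Pic0.mk (D (x + y)) = Pic0.mk (D x + D y) := by
        rw [hD (x + y), Pic0.mk_add, hD x, hD y]; rfl
      have h2 := principal_of_mk_eq h1
      rw [map_one, one_smul]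
      exact h2
    have key := geo_key hF hFΩ C e v hv (gal 1) Θ hΘ (e' y) (D y : Divisor Qb F) (hTr y)
      (fun i f => by rw [hΘb, hse, map_one, one_smul]) (D x : Divisor Qb F)
      (D (x + y) : Divisor Qb F) (e' x) (e' (x + y))
      (hTr x) (hTr (x + y)) (hell (x + y)) hDD (at_ t) (hfix 1 _ (hat0 t))
    rw [hΘb] at key
    exact key
  · intro y z hz hzB
    rw [closure_union_F0 C.i e he F0 hgen] at hz
    exact iso_of_good hres hresΩ V hgood (hgood' y) (s y) (hsj y) (hse y) z hz hzB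
  · intro y hy
    by_contra hne
    apply hat y hne
    have h0 : ∏ i, e' y i (at_ y) = ∏ i, e' 0 i (at_ y) := hy y
    rw [h0, hzero]

end Abs

/-- (GEO) -/
theorem geo_abs {k : Type} [Field k] [IsAlgClosed k]
    (F : IntermediateField Qb (LaurentSeries Qb)) (Ft : IntermediateField k (LaurentSeries k))
    (hF : IsFF Qb F) (hFt : IsFF k Ft) {A : ValuationSubring Qb} {resK : A →+* k}
    (hres : Function.Surjective resK) (hA : ∃ a : Qb, a ∉ A) (R : RedData A resK F Ft)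
    (hg : genusR Qb F ≤ genusR k Ft)
    (gal : GQ →* SemilinearAut Qb F)
    (hgal : ∀ (σ : GQ) (f : F), ((gal σ • f : F) : LaurentSeries Qb) =
      coeffMap (σ : Qb →+* Qb) (f : LaurentSeries Qb))
    (hgalb : ∀ (σ : GQ) (a : Qb), SemilinearAut.baseAut (gal σ) a = σ a)
    (F0 : Subfield F) (hfix : ∀ σ, ∀ a ∈ F0, gal σ • a = a)
    (hgen : Subfield.closure (Set.range (algebraMap Qb F) ∪ (F0 : Set F)) = ⊤)
    (horth : HasRatOrth R F0)
    (G : AddSubgroup (Pic0 Qb F)) [Finite G] (hG : ∀ (σ : GQ), ∀ x ∈ G, gal σ • x ∈ G) :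
    IsIntRep A G (fun σ x => ⟨gal σ • (x : Pic0 Qb F), hG σ x x.2⟩) := by
  have hgeq := genusR_eq_of_le hF hFt hres R hg
  obtain ⟨P⟩ := exists_pkg F Ft hres R (genusR k Ft)
  obtain ⟨C, hCi, hCι⟩ := exists_ceL P.j F
  obtain ⟨Cb, hCbi, -⟩ := exists_ceL P.jb Ft
  have V : VE A resK P.B P.resΩ C.i Cb.i := by rw [hCi, hCbi]; exact P.ve
  have hgood : Good R P.B P.resΩ C.i Cb.i P.e P.eb := by rw [hCi, hCbi]; exact P.good
  refine geo_core hF hFt (C.isFF hF) (Cb.isFF hFt) hres P.hresΩ hA R C Cb V hgeq rfl P.e P.eb hgood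
    (by rw [hCi]; exact P.alg) gal hgalb ?_ F0 hfix hgen horth G hG
  intro s σ hs
  refine exists_autL P.j F C hCι s (gal σ) (fun f => ?_) (fun a => ?_)
  · rw [hgal]
    exact coeffMap_congr (RingHom.ext fun a => (hgalb σ a).symm) _
  · rw [hgalb, ← hCi]
    exact hs a

end Fermat.Agent.S19Lib
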