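import Fermat.Agent.S19.Alg.Final

/-!
# S19 block (HOPF): a Hopf order from an integral, Galois equivariant, faithful matrix representation
-/

set_option autoImplicit false

namespace Fermat.Agent.S19Lib

/-- (HOPF) -/
theorem hopf_of_rep (ℓ : ℕ) [Fact ℓ.Prime] (G : Type) [AddCommGroup G] [Finite G]
    (act : (AlgebraicClosure ℚ ≃ₐ[ℚ] AlgebraicClosure ℚ) → G → G)
    (A : ValuationSubring (AlgebraicClosure ℚ))
    (hA : ((ℓ : AlgebraicClosure ℚ))⁻¹ ∉ A)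
    (r : ℕ) (c : G → Matrix (Fin r) (Fin r) (AlgebraicClosure ℚ))
    (hadd : ∀ x y, c (x + y) = c x * c y) (h0 : c 0 = 1)
    (hinj : Function.Injective c)
    (hint : ∀ x i j, c x i j ∈ A)
    (hgal : ∀ σ x i j, c (act σ x) i j = σ (c x i j)) :
    ∃ (H : Type) (_ : CommRing H) (_ : HopfAlgebra (GaloisRep.ratLocalizedAt ℓ) H),
      Module.Finite (GaloisRep.ratLocalizedAt ℓ) H ∧ Module.Flat (GaloisRep.ratLocalizedAt ℓ) H ∧
      Coalgebra.IsCocomm (GaloisRep.ratLocalizedAt ℓ) H ∧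
      ∃ e : WithConv (H →ₐ[GaloisRep.ratLocalizedAt ℓ] AlgebraicClosure ℚ) ≃ G,
        (∀ f g, e (f * g) = e f + e g) ∧
        ∀ (σ : AlgebraicClosure ℚ ≃ₐ[ℚ] AlgebraicClosure ℚ)
          (f g : WithConv (H →ₐ[GaloisRep.ratLocalizedAt ℓ] AlgebraicClosure ℚ)),
          (∀ h : H, g h = σ (f h)) → e g = act σ (e f) :=
  (IsIntRep.hasOrd A hA ⟨r, c, hadd, h0, hinj, hint, hgal⟩).isFlatGrp

end Fermat.Agent.S19Lib
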