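import Fermat.Agent.S19.Rat
import Fermat.Agent.S18.RiemannUpper
import Fermat.Agent.S18.RiemannLower
import Fermat.Agent.S18.RedDataC
import Fermat.Agent.S05.QbarOrd

/-!
# S19 (MOD): the modular inputs at a level `M` of good reduction
-/

set_option autoImplicit false
set_option synthInstance.maxHeartbeats 400000

open AlgebraicCurve ModularCurve CongruenceSubgroup

namespace Fermat.Agent.S19Lib

open Fermat.Agent.S18Lib Fermat.Agent.S24Lib Fermat.Agent.FFLib Fermat.Agent.S34Lib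

/-- the rational functions in `FB M` -/
noncomputable def ratF (M : ℕ) : Subfield (FB M) :=
  ((modularFunctionFieldFull M).toSubfield.map (coeffEmb Qb)).comap
    (algebraMap (FB M) (LaurentSeries Qb))

theorem mem_ratF_iff (M : ℕ) (a : FB M) :
    a ∈ ratF M ↔ ∃ x ∈ modularFunctionFieldFull M, coeffEmb Qb x = (a : LaurentSeries Qb) :=
  Iff.rfl

/-- (M1) `coeffMap_coeffEmb` -/
theorem ratF_fix (M : ℕ) (σ : GQ) (a : FB M) (ha : a ∈ ratF M) :
    arithmeticGalois (modularFunctionFieldFull M) σ • a = a := by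
  obtain ⟨x, -, hx⟩ := (mem_ratF_iff M a).1 ha
  apply Subtype.ext
  rw [coe_arithmeticGalois_smul, ← hx, coeffMap_coeffEmb]

/-- (M2) `mem_laurentBaseChange_iff` -/
theorem ratF_gen (M : ℕ) :
    Subfield.closure (Set.range (algebraMap Qb (FB M)) ∪ (ratF M : Set (FB M))) = ⊤ := by
  rw [eq_top_iff]
  rintro ⟨x, hx⟩ -
  have hle : Subfield.closure (Set.range (algebraMap Qb (LaurentSeries Qb)) ∪
      (⇑(coeffEmb Qb) '' (modularFunctionFieldFull M : Set (LaurentSeries ℚ)))) ≤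
      (Subfield.closure (Set.range (algebraMap Qb (FB M)) ∪ (ratF M : Set (FB M)))).map
        (algebraMap (FB M) (LaurentSeries Qb)) := by
    rw [Subfield.closure_le]
    rintro y (⟨c, rfl⟩ | ⟨z, hz, rfl⟩)
    · exact ⟨algebraMap Qb (FB M) c, Subfield.subset_closure (Or.inl ⟨c, rfl⟩), rfl⟩
    · exact ⟨⟨coeffEmb Qb z, coeffEmb_mem_laurentBaseChange Qb hz⟩,
        Subfield.subset_closure (Or.inr ⟨z, hz, rfl⟩), rfl⟩
  obtain ⟨x', hx', hxx⟩ := hle (mem_laurentBaseChange_iff.1 hx)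
  have h2 : x' = ⟨x, hx⟩ := Subtype.ext hxx
  rwa [h2] at hx'

/-- (M4) `riemann_lower`, `riemann_upper`, `riemann_equality`, definition of `genusR` -/
theorem genusR_FB_le (M : ℕ) [NeZero M] {ℓ : ℕ} [Fact ℓ.Prime] (hℓM : ¬ ℓ ∣ M)
    (hbase : 2 ∣ M ∨ 3 ∣ M) (A : ValuationSubring Qb) (hA : A.LiesOverPrime ℓ) :
    haveI := isAlgClosed_kk A
    genusR Qb (FB M) ≤ genusR (kk A) (FT A M) := by
  have := isAlgClosed_kk A
  have h1 : genusR Qb (FB M) ≤ Module.finrank ℂ (CuspForm (Gamma0 M) 2) := by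
    apply Nat.sInf_le
    intro E
    have := riemann_lower M E
    rw [ell_eq_ell] at this
    exact this
  refine h1.trans ?_
  obtain ⟨c, hc⟩ := riemann_equality (isFF_FT A M)
  obtain ⟨E, hE1, hE2⟩ := riemann_upper M hℓM hbase A hA c
  rw [ell_eq_ell, hc E hE1] at hE2
  have : (Module.finrank ℂ (CuspForm (Gamma0 M) 2) : ℤ) ≤ genusR (kk A) (FT A M) := by linarith
  exact_mod_cast this

/-- echelon bases with integral entries and pivots, for subspaces of `X → L` on which the sup norm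
is attained -/
theorem MD_echelon {L X : Type*} [Field L] (A₀ : ValuationSubring L) :
    ∀ (n : ℕ) (W : Submodule L (X → L)), FiniteDimensional L W → Module.finrank L W ≤ n →
      (∀ y ∈ W, y ≠ 0 → ∃ x0, y x0 ≠ 0 ∧ ∀ x, y x / y x0 ∈ A₀) →
      ∃ (r : ℕ) (u : Fin r → X → L) (piv : Fin r → X), (∀ t x, u t x ∈ A₀) ∧
        (∀ t t', u t (piv t') = if t = t' then 1 else 0) ∧ (∀ t, u t ∈ W) ∧
        ∀ y ∈ W, y = ∑ t, y (piv t) • u t := by
  classical
  have hbotcase : ∀ W : Submodule L (X → L), W = ⊥ →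
      ∃ (r : ℕ) (u : Fin r → X → L) (piv : Fin r → X), (∀ t x, u t x ∈ A₀) ∧
        (∀ t t', u t (piv t') = if t = t' then 1 else 0) ∧ (∀ t, u t ∈ W) ∧
        ∀ y ∈ W, y = ∑ t, y (piv t) • u t := by
    intro W hW
    refine ⟨0, fun t => t.elim0, fun t => t.elim0, fun t => t.elim0, fun t => t.elim0,
      fun t => t.elim0, ?_⟩
    intro y hy
    rw [hW, Submodule.mem_bot] at hy
    simp [hy]
  intro n
  induction n with
  | zero =>
    intro W hfd hW _
    exact hbotcase W (Submodule.finrank_eq_zero.mp (by omega))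
  | succ n ih =>
    intro W hfd hW hmax
    by_cases hbot : W = ⊥
    · exact hbotcase W hbot
    obtain ⟨y0, hy0W, hy0⟩ := Submodule.exists_mem_ne_zero_of_ne_bot hbot
    obtain ⟨x0, hx0, hmax0⟩ := hmax y0 hy0W hy0
    let W' : Submodule L (X → L) := W ⊓ LinearMap.ker (LinearMap.proj x0 : (X → L) →ₗ[L] L)
    have hW'mem : ∀ y, y ∈ W' ↔ y ∈ W ∧ y x0 = 0 := fun y => Iff.rfl
    have hlt : W' < W := by
      refine lt_of_le_of_ne inf_le_left fun h => ?_
      have : y0 ∈ W' := by rw [h]; exact hy0W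
      exact hx0 ((hW'mem y0).1 this).2
    have hfd' : FiniteDimensional L W' := Submodule.finiteDimensional_of_le inf_le_left
    have hfr : Module.finrank L W' ≤ n := by
      have := Submodule.finrank_lt_finrank_of_lt hlt
      omega
    obtain ⟨r, u, piv, hu1, hu2, hu3, hu4⟩ := ih W' hfd' hfr (fun y hy => hmax y hy.1)
    have hux0 : ∀ t, u t x0 = 0 := fun t => ((hW'mem _).1 (hu3 t)).2
    let v0 : X → L := (y0 x0)⁻¹ • y0
    have hv0 : ∀ x, v0 x ∈ A₀ := by
      intro x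
      have := hmax0 x
      rw [div_eq_inv_mul] at this
      exact this
    have hv0x0 : v0 x0 = 1 := inv_mul_cancel₀ hx0
    let v : X → L := v0 - ∑ t, v0 (piv t) • u t
    have hvx : ∀ x, v x = v0 x - ∑ t, v0 (piv t) * u t x := by
      intro x
      simp [v, Finset.sum_apply]
    have hvA : ∀ x, v x ∈ A₀ := by
      intro x
      rw [hvx]
      exact A₀.sub_mem (hv0 x) (sum_mem fun t _ => A₀.mul_mem _ _ (hv0 _) (hu1 t x))
    have hvx0 : v x0 = 1 := by
      rw [hvx, hv0x0]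
      simp [hux0]
    have hvpiv : ∀ t', v (piv t') = 0 := by
      intro t'
      rw [hvx]
      simp [hu2]
    have hvW : v ∈ W :=
      W.sub_mem (W.smul_mem _ hy0W) (W.sum_mem fun t _ => W.smul_mem _ (hu3 t).1)
    refine ⟨r + 1, Fin.cons v u, Fin.cons x0 piv, ?_, ?_, ?_, ?_⟩
    · intro t
      refine Fin.cases ?_ (fun t => ?_) t
      · simpa using hvA
      · simpa using hu1 t
    · intro t t'
      refine Fin.cases ?_ (fun t => ?_) t <;> refine Fin.cases ?_ (fun t' => ?_) t'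
      · simpa using hvx0
      · simpa [Fin.succ_ne_zero, eq_comm] using hvpiv t'
      · simpa [Fin.succ_ne_zero] using hux0 t
      · simpa using hu2 t t'
    · intro t
      refine Fin.cases ?_ (fun t => ?_) t
      · simpa using hvW
      · simpa using (hu3 t).1
    · intro y hy
      have hy' : y - y x0 • v ∈ W' := by
        rw [hW'mem]
        refine ⟨W.sub_mem hy (W.smul_mem _ hvW), ?_⟩
        simp [hvx0]
      have h1 := hu4 _ hy'
      rw [Fin.sum_univ_succ]
      simp only [Fin.cons_zero, Fin.cons_succ]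
      have h2 : ∀ t, (y - y x0 • v) (piv t) = y (piv t) := by
        intro t
        simp [hvpiv]
      simp only [h2] at h1
      rw [← h1]
      abel

theorem MD_coeffMap_C {R S : Type*} [CommRing R] [CommRing S] (f : R →+* S) (a : R) :
    coeffMap f (HahnSeries.C a : LaurentSeries R) = HahnSeries.C (f a) := by
  rw [HahnSeries.C_apply, coeffMap_single, HahnSeries.C_apply]

theorem MD_coeff_C_mul {R : Type*} [CommRing R] (a : R) (x : LaurentSeries R) (n : ℤ) :
    (HahnSeries.C a * x).coeff n = a * x.coeff n := by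
  rw [HahnSeries.C_mul_eq_smul, HahnSeries.coeff_smul, smul_eq_mul]

/-- (M3a) elements of the `ℚ`-algebra generated by the `j(q^d)` have bounded denominators -/
theorem MD_bd (M : ℕ) (r : LaurentSeries ℚ) (hr : r ∈ Algebra.adjoin ℚ (divisorExpansions M)) :
    ∃ (c : ℚ) (z : LaurentSeries ℤ), r = HahnSeries.C c * coeffMap (Int.castRingHom ℚ) z := by
  induction hr using Algebra.adjoin_induction with
  | mem x hx =>
    obtain ⟨d, _, -, rfl⟩ := hx
    refine ⟨1, qExpand ℤ d (jqModC ℤ), ?_⟩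
    rw [map_one, one_mul, ff_coeffMap_qExpand, coeffMap_jqModC]
    rfl
  | algebraMap c =>
    refine ⟨c, 1, ?_⟩
    rw [map_one, mul_one, algebraMap_laurentSeries_eq_single]
    rfl
  | add x y _ _ hx hy =>
    obtain ⟨c, z, rfl⟩ := hx
    obtain ⟨c', z', rfl⟩ := hy
    refine ⟨1 / (c.den * c'.den), HahnSeries.C (c.num * c'.den) * z +
      HahnSeries.C (c'.num * c.den) * z', ?_⟩
    rw [map_add, map_mul (coeffMap (Int.castRingHom ℚ)) (HahnSeries.C (c.num * c'.den)) z,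
      map_mul (coeffMap (Int.castRingHom ℚ)) (HahnSeries.C (c'.num * c.den)) z',
      MD_coeffMap_C, MD_coeffMap_C, mul_add, ← mul_assoc, ← mul_assoc,
      ← map_mul HahnSeries.C, ← map_mul HahnSeries.C]
    have hd : (c.den : ℚ) ≠ 0 := by exact_mod_cast c.den_ne_zero
    have hd' : (c'.den : ℚ) ≠ 0 := by exact_mod_cast c'.den_ne_zero
    have h1 : (1 / ((c.den : ℚ) * c'.den)) * (Int.castRingHom ℚ) (c.num * c'.den) = c := by
      conv_rhs => rw [← Rat.num_div_den c]
      simp only [eq_intCast]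
      push_cast
      field_simp
    have h2 : (1 / ((c.den : ℚ) * c'.den)) * (Int.castRingHom ℚ) (c'.num * c.den) = c' := by
      conv_rhs => rw [← Rat.num_div_den c']
      simp only [eq_intCast]
      push_cast
      field_simp
    rw [h1, h2]
  | mul x y _ _ hx hy =>
    obtain ⟨c, z, rfl⟩ := hx
    obtain ⟨c', z', rfl⟩ := hy
    refine ⟨c * c', z * z', ?_⟩
    rw [map_mul, map_mul]
    ring

/-- the sup norm is attained on series with bounded denominators -/
theorem MD_max {ℓ : ℕ} (hℓ : ℓ.Prime) (A : ValuationSubring Qb) (hA : A.LiesOverPrime ℓ)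
    (c : ℚ) (z : LaurentSeries ℤ) (y : LaurentSeries ℚ)
    (hy : y = HahnSeries.C c * coeffMap (Int.castRingHom ℚ) z) (h : y ≠ 0) :
    ∃ n0, y.coeff n0 ≠ 0 ∧ ∀ n, algebraMap ℚ Qb (y.coeff n / y.coeff n0) ∈ A := by
  classical
  have hc : c ≠ 0 := by
    rintro rfl
    apply h
    rw [hy, map_zero, zero_mul]
  have hz : ∃ n1, z.coeff n1 ≠ 0 := by
    by_contra hcon
    push Not at hcon
    apply h
    have : z = 0 := HahnSeries.ext (funext hcon)
    rw [hy, this, map_zero, mul_zero]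
  obtain ⟨n1, hn1⟩ := hz
  have hex : ∃ e : ℕ, ∃ n, ¬ (ℓ : ℤ) ^ (e + 1) ∣ z.coeff n := by
    refine ⟨(z.coeff n1).natAbs, n1, fun hd => ?_⟩
    have h1 := Int.natAbs_dvd_natAbs.mpr hd
    have h2 := Nat.le_of_dvd (Int.natAbs_pos.mpr hn1) h1
    rw [Int.natAbs_pow, Int.natAbs_natCast] at h2
    have h3 : (z.coeff n1).natAbs + 1 < ℓ ^ ((z.coeff n1).natAbs + 1) :=
      Nat.lt_pow_self hℓ.one_lt
    omega
  obtain ⟨n0, hn0⟩ := Nat.find_spec hex
  set e := Nat.find hex with he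
  have hall : ∀ n, (ℓ : ℤ) ^ e ∣ z.coeff n := by
    intro n
    rcases Nat.eq_zero_or_pos e with h0 | h0
    · rw [h0, pow_zero]; exact one_dvd _
    · have h1 := Nat.find_min hex (m := e - 1) (by omega)
      push Not at h1
      have h2 := h1 n
      rwa [Nat.sub_add_cancel h0] at h2
  choose m hm using hall
  have hℓ0 : (ℓ : ℤ) ≠ 0 := by exact_mod_cast hℓ.ne_zero
  have hm0 : ¬ (ℓ : ℤ) ∣ m n0 := by
    rintro ⟨k, hk⟩
    apply hn0
    rw [hm n0, hk, pow_succ, ← mul_assoc]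
    exact Dvd.intro _ rfl
  have hm00 : m n0 ≠ 0 := by
    intro h0
    exact hm0 (h0 ▸ dvd_zero _)
  have hcoef : ∀ n, y.coeff n = c * (ℓ : ℚ) ^ e * (m n : ℚ) := by
    intro n
    rw [hy, MD_coeff_C_mul, coeffMap_coeff, hm n]
    simp only [eq_intCast]
    push_cast
    ring
  have hℓq : (ℓ : ℚ) ≠ 0 := by exact_mod_cast hℓ.ne_zero
  have hmq : (m n0 : ℚ) ≠ 0 := by exact_mod_cast hm00
  refine ⟨n0, ?_, fun n => ?_⟩
  · rw [hcoef]
    exact mul_ne_zero (mul_ne_zero hc (pow_ne_zero _ hℓq)) hmq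
  · have h1 : y.coeff n / y.coeff n0 = (m n : ℚ) / (m n0 : ℚ) := by
      rw [hcoef, hcoef]
      field_simp
    rw [h1, map_div₀, div_eq_mul_inv]
    have h2 : algebraMap ℚ Qb (m n : ℚ) = ((m n : ℤ) : Qb) := by simp
    have h3 : algebraMap ℚ Qb (m n0 : ℚ) = ((m n0 : ℤ) : Qb) := by simp
    rw [h2, h3]
    refine A.mul_mem _ _ (intCast_mem A _) ?_
    rw [← A.valuation_le_one_iff, map_inv₀, Fermat.Agent.S05Lib.val_int_eq_one hℓ hA hm0, inv_one]

/-- rational series with coefficients in `A` lie in `O`, and `red` reduces the coefficients -/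
theorem MD_lift {M : ℕ} {A : ValuationSubring Qb}
    (R : RedData A (IsLocalRing.residue A) (FB M) (FT A M)) (hR : IsQRed A M R)
    (Y : LaurentSeries ℚ) (hY : Y ∈ modularFunctionFieldFull M)
    (hYA : ∀ n, algebraMap ℚ Qb (Y.coeff n) ∈ A) :
    ∃ b : R.O, (((b : R.O) : FB M) : LaurentSeries Qb) = coeffEmb Qb Y ∧
      ∀ n, ((R.red b : FT A M) : LaurentSeries (kk A)).coeff n =
        IsLocalRing.residue A ⟨algebraMap ℚ Qb (Y.coeff n), hYA n⟩ := by
  let y' : LaurentSeries A := ⟨fun n => ⟨algebraMap ℚ Qb (Y.coeff n), hYA n⟩,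
    Y.isPWO_support.mono (by
      intro n hn
      simp only [Function.mem_support, ne_eq] at hn
      simp only [HahnSeries.mem_support, ne_eq]
      intro h0
      exact hn (Subtype.ext (by simp [h0])))⟩
  have h1 : coeffMap A.subtype y' = coeffEmb Qb Y := by
    ext n
    rfl
  have hy : coeffMap A.subtype y' ∈ FB M := by
    rw [h1]
    exact coeffEmb_mem_laurentBaseChange Qb hY
  obtain ⟨h, hred⟩ := hR.int y' hy
  refine ⟨⟨⟨coeffMap A.subtype y', hy⟩, h⟩, h1, fun n => ?_⟩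
  rw [hred]
  rfl

/-- the coefficient map -/
noncomputable def MD_cf : LaurentSeries ℚ →ₗ[ℚ] (ℤ → ℚ) where
  toFun y n := y.coeff n
  map_add' _ _ := rfl
  map_smul' _ _ := rfl

theorem MD_cf_apply (y : LaurentSeries ℚ) (n : ℤ) : MD_cf y n = y.coeff n := rfl

theorem MD_cf_injective : Function.Injective MD_cf := fun _ _ h =>
  HahnSeries.ext h

/-- the purely rational part of (M3): common denominator and echelon basis of the numerators -/
theorem MD_rat (M : ℕ) {ℓ : ℕ} (hℓ : ℓ.Prime) (A : ValuationSubring Qb)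
    (hA : A.LiesOverPrime ℓ) (n : ℕ) (x : Fin n → LaurentSeries ℚ)
    (hx : ∀ t, x t ∈ modularFunctionFieldFull M) :
    ∃ (Δ : LaurentSeries ℚ) (n0 : ℤ) (m : ℕ) (U : Fin m → LaurentSeries ℚ) (piv : Fin m → ℤ)
      (c : Fin n → Fin m → ℚ),
      Δ ∈ modularFunctionFieldFull M ∧ (∀ k, algebraMap ℚ Qb (Δ.coeff k) ∈ A) ∧ Δ.coeff n0 = 1 ∧
      (∀ s, U s ∈ modularFunctionFieldFull M) ∧ (∀ s k, algebraMap ℚ Qb ((U s).coeff k) ∈ A) ∧
      (∀ s s', (U s).coeff (piv s') = if s = s' then 1 else 0) ∧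
      ∀ t, x t * Δ = ∑ s, HahnSeries.C (c t s) * U s := by
  classical
  set Alg := Algebra.adjoin ℚ (divisorExpansions M) with hAlg
  have hAlgF : ∀ r ∈ Alg, r ∈ modularFunctionFieldFull M := fun r hr =>
    IntermediateField.algebra_adjoin_le_adjoin ℚ _ hr
  have hfrac : ∀ t, ∃ r ∈ Alg, ∃ s ∈ Alg, s ≠ 0 ∧ x t * s = r := by
    intro t
    obtain ⟨r, hr, s, hs, hrs⟩ := IntermediateField.mem_adjoin_iff_div.1 (hx t)
    by_cases hs0 : s = 0
    · exact ⟨0, Alg.zero_mem, 1, Alg.one_mem, one_ne_zero, by rw [hrs, hs0, div_zero, zero_mul]⟩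
    · exact ⟨r, hr, s, hs, hs0, by rw [hrs, div_mul_cancel₀ _ hs0]⟩
  choose r hr s hs hs0 hrs using hfrac
  let Δ₀ : LaurentSeries ℚ := ∏ t, s t
  have hΔ : Δ₀ ∈ Alg := Subalgebra.prod_mem _ (fun t _ => hs t)
  have hΔ0 : Δ₀ ≠ 0 := Finset.prod_ne_zero_iff.2 (fun t _ => hs0 t)
  let Nn : Fin n → LaurentSeries ℚ := fun t => x t * Δ₀
  have hN : ∀ t, Nn t ∈ Alg := by
    intro t
    have h1 : Nn t = r t * ∏ t' ∈ Finset.univ.erase t, s t' := by
      show x t * ∏ t, s t = _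
      rw [← Finset.mul_prod_erase Finset.univ s (Finset.mem_univ t), ← mul_assoc, hrs]
    rw [h1]
    exact Alg.mul_mem (hr t) (Subalgebra.prod_mem _ fun t' _ => hs t')
  -- the normalised denominator
  obtain ⟨c0, z0, hcz0⟩ := MD_bd M Δ₀ hΔ
  obtain ⟨n0, hn0, hmax0⟩ := MD_max hℓ A hA c0 z0 Δ₀ hcz0 hΔ0
  -- the space of numerators
  let V : Submodule ℚ (LaurentSeries ℚ) := Submodule.span ℚ (Set.range Nn)
  have hVAlg : ∀ y ∈ V, y ∈ Alg := by
    intro y hy
    induction hy using Submodule.span_induction with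
    | mem y hy =>
      obtain ⟨t, rfl⟩ := hy
      exact hN t
    | zero => exact Alg.zero_mem
    | add a b _ _ ha hb => exact Alg.add_mem ha hb
    | smul c a _ ha =>
      rw [← HahnSeries.C_mul_eq_smul]
      refine Alg.mul_mem ?_ ha
      have := Alg.algebraMap_mem c
      rwa [algebraMap_laurentSeries_eq_single] at this
  let W : Submodule ℚ (ℤ → ℚ) := V.map MD_cf
  have hVfd : FiniteDimensional ℚ V := FiniteDimensional.span_of_finite ℚ (Set.finite_range Nn)
  have hWfd : FiniteDimensional ℚ W := inferInstance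
  let A₀ : ValuationSubring ℚ := A.comap (algebraMap ℚ Qb)
  have hA₀ : ∀ a : ℚ, a ∈ A₀ ↔ algebraMap ℚ Qb a ∈ A := fun a => Iff.rfl
  obtain ⟨m, u, piv, hu1, hu2, hu3, hu4⟩ := MD_echelon A₀ (Module.finrank ℚ W) W hWfd le_rfl (by
    rintro _ ⟨Y, hY, rfl⟩ hne
    have hY0 : Y ≠ 0 := by
      rintro rfl
      exact hne (map_zero _)
    obtain ⟨c, z, hcz⟩ := MD_bd M Y (hVAlg Y hY)
    obtain ⟨k0, hk0, hk⟩ := MD_max hℓ A hA c z Y hcz hY0
    exact ⟨k0, hk0, fun k => hk k⟩)
  choose U hUV hU using hu3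
  refine ⟨HahnSeries.C (Δ₀.coeff n0)⁻¹ * Δ₀, n0, m, U, piv,
    fun t s => (Δ₀.coeff n0)⁻¹ * (Nn t).coeff (piv s), ?_, ?_, ?_, ?_, ?_, ?_, ?_⟩
  · refine (modularFunctionFieldFull M).mul_mem ?_ (hAlgF _ hΔ)
    have := (modularFunctionFieldFull M).algebraMap_mem (Δ₀.coeff n0)⁻¹
    rwa [algebraMap_laurentSeries_eq_single] at this
  · intro k
    rw [MD_coeff_C_mul, ← div_eq_inv_mul]
    exact hmax0 k
  · rw [MD_coeff_C_mul, inv_mul_cancel₀ hn0]
  · exact fun s => hAlgF _ (hVAlg _ (hUV s))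
  · intro s k
    rw [← MD_cf_apply, hU]
    exact hu1 s k
  · intro s s'
    rw [← MD_cf_apply, hU]
    exact hu2 s s'
  · intro t
    have h1 : MD_cf (Nn t) ∈ W := ⟨Nn t, Submodule.subset_span ⟨t, rfl⟩, rfl⟩
    have h2 := hu4 _ h1
    have h3 : Nn t = ∑ s, (Nn t).coeff (piv s) • U s := by
      apply MD_cf_injective
      rw [map_sum]
      simp only [map_smul, hU]
      exact h2
    have h4 : x t * (HahnSeries.C (Δ₀.coeff n0)⁻¹ * Δ₀) = HahnSeries.C (Δ₀.coeff n0)⁻¹ * Nn t := by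
      show _ = _ * (x t * Δ₀)
      ring
    rw [h4]
    conv_lhs => rw [h3]
    rw [Finset.mul_sum]
    refine Finset.sum_congr rfl fun s _ => ?_
    rw [map_mul, mul_assoc, HahnSeries.C_mul_eq_smul (r := (Nn t).coeff (piv s))]

theorem MD_coe_algebraMap_FT (A : ValuationSubring Qb) (M : ℕ) (a : kk A) :
    ((algebraMap (kk A) (FT A M) a : FT A M) : LaurentSeries (kk A)) = HahnSeries.C a := by
  show algebraMap (kk A) (LaurentSeries (kk A)) a = _
  rw [algebraMap_laurentSeries_eq_single]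
  rfl

theorem MD_coe_algebraMap_FB (M : ℕ) (a : Qb) :
    ((algebraMap Qb (FB M) a : FB M) : LaurentSeries Qb) = HahnSeries.C a := by
  show algebraMap Qb (LaurentSeries Qb) a = _
  rw [algebraMap_laurentSeries_eq_single]
  rfl

theorem MD_li {k Ft : Type*} [Field k] [Field Ft] [Algebra k Ft] {m : ℕ} (w : Fin m → Ft) (d : Ft)
    (hd : d ≠ 0) (ev : Fin m → Ft →ₗ[k] k)
    (hev : ∀ s s', ev s' (w s) = if s = s' then 1 else 0) :
    LinearIndependent k (fun s => w s * d) := by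
  classical
  rw [Fintype.linearIndependent_iff]
  intro a ha s'
  have h1 : (∑ s, a s • w s) * d = 0 := by
    rw [Finset.sum_mul, ← ha]
    exact Finset.sum_congr rfl fun s _ => smul_mul_assoc _ _ _
  have h3 : ∑ s, a s • w s = 0 := (mul_eq_zero.1 h1).resolve_right hd
  have h4 := congrArg (ev s') h3
  rw [map_sum, map_zero] at h4
  simpa [hev] using h4

/-- coefficient functionals on `FT A M` -/
noncomputable def MD_cfT (A : ValuationSubring Qb) (M : ℕ) (n : ℤ) : FT A M →ₗ[kk A] kk A where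
  toFun z := (z : LaurentSeries (kk A)).coeff n
  map_add' _ _ := rfl
  map_smul' a z := by
    rw [Algebra.smul_def, IntermediateField.coe_mul, MD_coe_algebraMap_FT, MD_coeff_C_mul]
    rfl

theorem MD_cfT_apply (A : ValuationSubring Qb) (M : ℕ) (n : ℤ) (z : FT A M) :
    MD_cfT A M n z = (z : LaurentSeries (kk A)).coeff n := rfl

set_option maxHeartbeats 4000000 in
/-- (M3) rational orthonormal families.  Common denominator `Δ` (M3a), normalised to be primitive at
`ℓ`, so that `Δ ∈ O^×` (`IsQRed.int`); (M3b) for the numerators; `b t = u t / Δ`; the reductions of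
the `u t` are independent over `kk A` by the pivots. -/
theorem ratF_orth (M : ℕ) [NeZero M] {ℓ : ℕ} [Fact ℓ.Prime] (A : ValuationSubring Qb)
    (hA : A.LiesOverPrime ℓ) (R : RedData A (IsLocalRing.residue A) (FB M) (FT A M))
    (hR : IsQRed A M R) : HasRatOrth R (ratF M) := by
  classical
  intro n f hf
  choose x hxF hx using fun t => (mem_ratF_iff M (f t)).1 (hf t)
  obtain ⟨Δ, n0, m, U, piv, c, hΔF, hΔA, hΔ1, hUF, hUA, hUp, hexp⟩ :=
    MD_rat M Fact.out A hA n x hxF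
  obtain ⟨bΔ, hbΔ, hbΔr⟩ := MD_lift R hR Δ hΔF hΔA
  choose bU hbU hbUr using fun s => MD_lift R hR (U s) (hUF s) (hUA s)
  have hredΔ : R.red bΔ ≠ 0 := by
    intro h0
    have h1 := hbΔr n0
    have h2 : (⟨algebraMap ℚ Qb (Δ.coeff n0), hΔA n0⟩ : A) = 1 := Subtype.ext (by simp [hΔ1])
    rw [h0, h2, map_one] at h1
    exact zero_ne_one h1
  obtain ⟨v, hv⟩ := R.isUnit_of_red_ne_zero bΔ hredΔ
  have hinv : ((((v⁻¹ : R.Oˣ) : R.O)) : FB M) = ((bΔ : R.O) : FB M)⁻¹ := by
    have h := v.mul_inv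
    rw [hv] at h
    have h' : ((bΔ : R.O) : FB M) * ((((v⁻¹ : R.Oˣ) : R.O)) : FB M) = 1 :=
      congrArg (fun z : R.O => (z : FB M)) h
    exact eq_inv_of_mul_eq_one_right h'
  have hΔne : ((bΔ : R.O) : FB M) ≠ 0 := by
    intro h0
    apply hredΔ
    have : bΔ = 0 := Subtype.ext h0
    rw [this, map_zero]
  refine ⟨m, fun s => bU s * ((v⁻¹ : R.Oˣ) : R.O), ?_, ?_, ?_⟩
  · intro s
    show ((bU s : R.O) : FB M) * ((((v⁻¹ : R.Oˣ) : R.O)) : FB M) ∈ ratF M
    rw [hinv]
    exact (ratF M).mul_mem ((mem_ratF_iff M _).2 ⟨U s, hUF s, (hbU s).symm⟩)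
      ((ratF M).inv_mem ((mem_ratF_iff M _).2 ⟨Δ, hΔF, hbΔ.symm⟩))
  · have h2 : R.red ((v⁻¹ : R.Oˣ) : R.O) ≠ 0 := ((v⁻¹).isUnit.map R.red).ne_zero
    have hev : ∀ s s', MD_cfT A M (piv s') (R.red (bU s)) = if s = s' then 1 else 0 := by
      intro s s'
      rw [MD_cfT_apply, hbUr]
      by_cases hss : s = s'
      · have h6 : (⟨algebraMap ℚ Qb ((U s).coeff (piv s')), hUA s (piv s')⟩ : A) = 1 :=
          Subtype.ext (by simp [hUp, hss])
        rw [h6, map_one, if_pos hss]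
      · have h6 : (⟨algebraMap ℚ Qb ((U s).coeff (piv s')), hUA s (piv s')⟩ : A) = 0 :=
          Subtype.ext (by simp [hUp, hss])
        rw [h6, map_zero, if_neg hss]
    have h3 := MD_li (k := kk A) (Ft := FT A M) (fun s => R.red (bU s))
      (R.red ((v⁻¹ : R.Oˣ) : R.O)) h2 (fun s' => MD_cfT A M (piv s')) hev
    have h4 : (fun s => R.red (bU s * ((v⁻¹ : R.Oˣ) : R.O))) =
        fun s => R.red (bU s) * R.red ((v⁻¹ : R.Oˣ) : R.O) := funext fun s => map_mul _ _ _
    rw [h4]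
    exact h3
  · intro t
    refine ⟨c t, ?_⟩
    have h1 : f t * ((bΔ : R.O) : FB M) =
        ∑ s, algebraMap Qb (FB M) (algebraMap ℚ Qb (c t s)) * ((bU s : R.O) : FB M) := by
      apply Subtype.ext
      rw [AddSubmonoidClass.coe_finsetSum, IntermediateField.coe_mul, ← hx t, hbΔ, ← map_mul,
        hexp t, map_sum]
      refine Finset.sum_congr rfl fun s _ => ?_
      rw [IntermediateField.coe_mul, map_mul, hbU, MD_coe_algebraMap_FB]
      congr 1
      exact MD_coeffMap_C _ _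
    have h2 : f t = (∑ s, algebraMap Qb (FB M) (algebraMap ℚ Qb (c t s)) *
        ((bU s : R.O) : FB M)) * ((bΔ : R.O) : FB M)⁻¹ := by
      rw [← h1, mul_assoc, mul_inv_cancel₀ hΔne, mul_one]
    rw [h2, Finset.sum_mul]
    refine Finset.sum_congr rfl fun s _ => ?_
    rw [Algebra.smul_def, ← hinv, mul_assoc]
    rfl

end Fermat.Agent.S19Lib
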