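import Mathlib

/-!
# S19: integral Galois equivariant faithful matrix representations
-/

set_option autoImplicit false

namespace Fermat.Agent.S19Lib

/-- an integral (at `A`), Galois equivariant, faithful matrix representation of `G` -/
def IsIntRep (A : ValuationSubring (AlgebraicClosure ℚ)) (G : Type) [AddCommGroup G]
    (act : (AlgebraicClosure ℚ ≃ₐ[ℚ] AlgebraicClosure ℚ) → G → G) : Prop :=
  ∃ (r : ℕ) (c : G → Matrix (Fin r) (Fin r) (AlgebraicClosure ℚ)),
    (∀ x y, c (x + y) = c x * c y) ∧ c 0 = 1 ∧ Function.Injective c ∧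
    (∀ x i j, c x i j ∈ A) ∧ ∀ σ x i j, c (act σ x) i j = σ (c x i j)

/-- (CLOa) restriction along an equivariant injective homomorphism -/
theorem IsIntRep.of_injective {A : ValuationSubring (AlgebraicClosure ℚ)} {G G' : Type}
    [AddCommGroup G] [AddCommGroup G']
    {act : (AlgebraicClosure ℚ ≃ₐ[ℚ] AlgebraicClosure ℚ) → G → G}
    {act' : (AlgebraicClosure ℚ ≃ₐ[ℚ] AlgebraicClosure ℚ) → G' → G'}
    (h : IsIntRep A G act) (φ : G' →+ G) (hφ : Function.Injective φ)
    (heq : ∀ σ x, φ (act' σ x) = act σ (φ x)) : IsIntRep A G' act' := by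
  obtain ⟨r, c, h1, h2, h3, h4, h5⟩ := h
  refine ⟨r, fun x => c (φ x), fun x y => ?_, ?_, h3.comp hφ, fun x i j => h4 _ i j,
    fun σ x i j => ?_⟩
  · show c (φ (x + y)) = c (φ x) * c (φ y)
    rw [map_add, h1]
  · show c (φ 0) = 1
    rw [map_zero, h2]
  · show c (φ (act' σ x)) i j = σ (c (φ x) i j)
    rw [heq, h5]

end Fermat.Agent.S19Lib
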