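import Fermat.Agent.S19.BC_Rep

/-!
# S19 (BC), part 3: the valuation ring `O'` and its reduction, as a relation
-/

set_option autoImplicit false

open AlgebraicCurve

namespace Fermat.Agent.S19Lib

open Fermat.Agent.S18Lib Fermat.Agent.S24Lib Fermat.Agent.FFLib Fermat.Agent.S34Lib

variable {K k F Ft K' k' F' Ft' : Type*} [Field K] [Field k] [Field F] [Algebra K F]
  [Field Ft] [Algebra k Ft] [Field K'] [Field k'] [Field F'] [Algebra K' F'] [Field Ft']
  [Algebra k' Ft'] {A : ValuationSubring K} {resK : A →+* k}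
  {B : ValuationSubring K'} {resK' : B →+* k'}

theorem bc_li_mul {K V ι : Type*} [Field K] [Field V] [Algebra K V] {v : ι → V}
    (hv : LinearIndependent K v) {s : V} (hs : s ≠ 0) :
    LinearIndependent K (fun t => s * v t) :=
  hv.map' (LinearMap.mulLeft K s) (LinearMap.ker_eq_bot.2 (mul_right_injective₀ hs))

/-- the graph of the reduction map of `O'` -/
def BCInt (R : RedData A resK F Ft) (C : CE K F K' F') (Cb : CE k Ft k' Ft') (resK' : B →+* k')
    (z : F') (w : Ft') : Prop :=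
  ∃ (a s : F') (wa ws : Ft'), BCRep R C Cb resK' a wa ∧ BCRep R C Cb resK' s ws ∧ ws ≠ 0 ∧
    z * s = a ∧ w * ws = wa

namespace BCInt

variable {R : RedData A resK F Ft} {C : CE K F K' F'} {Cb : CE k Ft k' Ft'}

theorem ofRep {z : F'} {w : Ft'} (h : BCRep R C Cb resK' z w) : BCInt R C Cb resK' z w :=
  ⟨z, 1, w, 1, h, BCRep.one, one_ne_zero, mul_one _, mul_one _⟩

theorem unique (hres : Function.Surjective resK) (V : VE A resK B resK' C.i Cb.i) {z : F'}
    {w w' : Ft'} (h : BCInt R C Cb resK' z w) (h' : BCInt R C Cb resK' z w') : w = w' := by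
  obtain ⟨a, s, wa, ws, ha, hs, hws, hz, hw⟩ := h
  obtain ⟨a', s', wa', ws', ha', hs', hws', hz', hw'⟩ := h'
  have e : a' * s = a * s' := by rw [← hz, ← hz']; ring
  have h2 := ha'.mul hs
  rw [e] at h2
  have h1 := (ha.mul hs').unique hres V h2
  rw [← hw, ← hw'] at h1
  have h3 : w * (ws * ws') = w' * (ws * ws') := by
    calc w * (ws * ws') = w * ws * ws' := by ring
      _ = w' * ws' * ws := h1
      _ = w' * (ws * ws') := by ring
  exact mul_right_cancel₀ (mul_ne_zero hws hws') h3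

theorem add {z z' : F'} {w w' : Ft'} (h : BCInt R C Cb resK' z w) (h' : BCInt R C Cb resK' z' w') :
    BCInt R C Cb resK' (z + z') (w + w') := by
  obtain ⟨a, s, wa, ws, ha, hs, hws, hz, hw⟩ := h
  obtain ⟨a', s', wa', ws', ha', hs', hws', hz', hw'⟩ := h'
  exact ⟨a * s' + a' * s, s * s', wa * ws' + wa' * ws, ws * ws', (ha.mul hs').add (ha'.mul hs),
    hs.mul hs', mul_ne_zero hws hws', by rw [← hz, ← hz']; ring, by rw [← hw, ← hw']; ring⟩

theorem mul {z z' : F'} {w w' : Ft'} (h : BCInt R C Cb resK' z w) (h' : BCInt R C Cb resK' z' w') :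
    BCInt R C Cb resK' (z * z') (w * w') := by
  obtain ⟨a, s, wa, ws, ha, hs, hws, hz, hw⟩ := h
  obtain ⟨a', s', wa', ws', ha', hs', hws', hz', hw'⟩ := h'
  exact ⟨a * a', s * s', wa * wa', ws * ws', ha.mul ha',
    hs.mul hs', mul_ne_zero hws hws', by rw [← hz, ← hz']; ring, by rw [← hw, ← hw']; ring⟩

theorem neg {z : F'} {w : Ft'} (h : BCInt R C Cb resK' z w) : BCInt R C Cb resK' (-z) (-w) := by
  obtain ⟨a, s, wa, ws, ha, hs, hws, hz, hw⟩ := h
  exact ⟨-a, s, -wa, ws, ha.neg, hs, hws, by rw [← hz]; ring, by rw [← hw]; ring⟩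

theorem zero : BCInt R C Cb resK' 0 0 := ofRep BCRep.zero

theorem one : BCInt R C Cb resK' 1 1 := ofRep BCRep.one

theorem smul (β : B) {z : F'} {w : Ft'} (h : BCInt R C Cb resK' z w) :
    BCInt R C Cb resK' ((β : K') • z) (resK' β • w) := by
  rw [Algebra.smul_def, Algebra.smul_def]
  exact (ofRep (BCRep.const β)).mul h

theorem ne_zero (hres : Function.Surjective resK) (V : VE A resK B resK' C.i Cb.i) {z : F'}
    {w : Ft'} (h : BCInt R C Cb resK' z w) (hw0 : w ≠ 0) : z ≠ 0 := by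
  obtain ⟨a, s, wa, ws, ha, hs, hws, hz, hw⟩ := h
  have hwa : wa ≠ 0 := by rw [← hw]; exact mul_ne_zero hw0 hws
  have ha0 := ha.ne_zero hres V hwa
  rintro rfl
  rw [zero_mul] at hz
  exact ha0 hz.symm

theorem inv (hres : Function.Surjective resK) (V : VE A resK B resK' C.i Cb.i) {z : F'}
    {w : Ft'} (h : BCInt R C Cb resK' z w) (hw0 : w ≠ 0) : BCInt R C Cb resK' z⁻¹ w⁻¹ := by
  have hz0 := h.ne_zero hres V hw0
  obtain ⟨a, s, wa, ws, ha, hs, hws, hz, hw⟩ := h
  have hwa : wa ≠ 0 := by rw [← hw]; exact mul_ne_zero hw0 hws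
  exact ⟨s, a, ws, wa, hs, ha, hwa, by rw [← hz]; field_simp, by rw [← hw]; field_simp⟩

/-- same value group -/
theorem exists_scale (hres : Function.Surjective resK) (V : VE A resK B resK' C.i Cb.i)
    (R : RedData A resK F Ft) {x : F'} (hx : x ≠ 0) :
    ∃ (γ : K') (y : F') (w : Ft'), γ ≠ 0 ∧ BCInt R C Cb resK' y w ∧ w ≠ 0 ∧ x = γ • y := by
  obtain ⟨a, ha, b, hb, hb0, rfl⟩ := C.exists_frac x
  have ha0 : a ≠ 0 := by
    rintro rfl
    exact hx (zero_div _)
  obtain ⟨γa, a₁, wa, hγa, hra, hwa, rfl⟩ := bc_exists_normal R C Cb resK' ha ha0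
  obtain ⟨γb, b₁, wb, hγb, hrb, hwb, rfl⟩ := bc_exists_normal R C Cb resK' hb hb0
  have hb₁ := hrb.ne_zero hres V hwb
  refine ⟨γa / γb, a₁ / b₁, wa / wb, div_ne_zero hγa hγb,
    ⟨a₁, b₁, wa, wb, hra, hrb, hwb, by field_simp, by field_simp⟩, div_ne_zero hwa hwb, ?_⟩
  rw [Algebra.smul_def, Algebra.smul_def, Algebra.smul_def, map_div₀]
  have : algebraMap K' F' γb ≠ 0 := (map_ne_zero _).2 hγb
  field_simp

theorem total (hres : Function.Surjective resK) (V : VE A resK B resK' C.i Cb.i)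
    (R : RedData A resK F Ft) (x : F') :
    (∃ w, BCInt R C Cb resK' x w) ∨ ∃ w, BCInt R C Cb resK' x⁻¹ w := by
  by_cases hx : x = 0
  · subst hx
    exact Or.inl ⟨0, zero⟩
  obtain ⟨γ, y, w, hγ, hy, hw, rfl⟩ := exists_scale (C := C) (Cb := Cb) (resK' := resK') hres V R hx
  rcases B.mem_or_inv_mem γ with h | h
  · exact Or.inl ⟨_, hy.smul ⟨γ, h⟩⟩
  · have h1 := (hy.inv hres V hw).smul ⟨γ⁻¹, h⟩
    have h2 : (γ • y)⁻¹ = γ⁻¹ • y⁻¹ := by
      rw [Algebra.smul_def, Algebra.smul_def, mul_inv, map_inv₀]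
    rw [h2]
    exact Or.inr ⟨_, h1⟩

theorem const_mem (hres : Function.Surjective resK) (hres' : Function.Surjective resK')
    (V : VE A resK B resK' C.i Cb.i) {γ : K'} {w : Ft'}
    (h : BCInt R C Cb resK' (algebraMap K' F' γ) w) : γ ∈ B := by
  by_contra hγ
  obtain ⟨hinv, h0⟩ := bc_res_inv_eq_zero hres' hγ
  have hγ0 : γ ≠ 0 := by
    rintro rfl
    exact hγ B.zero_mem
  obtain ⟨a, s, wa, ws, ha, hs, hws, hz, hw⟩ := h
  have h1 := ha.smul ⟨γ⁻¹, hinv⟩
  rw [h0, zero_smul] at h1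
  have h2 : ((⟨γ⁻¹, hinv⟩ : B) : K') • a = s := by
    rw [← hz, Algebra.smul_def, ← mul_assoc, ← map_mul]
    simp [inv_mul_cancel₀ hγ0]
  rw [h2] at h1
  exact hws (hs.unique hres V h1)

theorem surj (hres : Function.Surjective resK) (hres' : Function.Surjective resK')
    (V : VE A resK B resK' C.i Cb.i) (R : RedData A resK F Ft) (w : Ft') :
    ∃ z, BCInt R C Cb resK' z w := by
  obtain ⟨a, ha, b, hb, hb0, rfl⟩ := Cb.exists_frac w
  obtain ⟨za, hza⟩ := bc_exists_rep R C Cb hres' ha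
  obtain ⟨zb, hzb⟩ := bc_exists_rep R C Cb hres' hb
  have hzb0 := hzb.ne_zero hres V hb0
  exact ⟨za / zb, za, zb, a, b, hza, hzb, hb0, by field_simp, by field_simp⟩

/-- no defect -/
theorem exists_orth (hres : Function.Surjective resK) (V : VE A resK B resK' C.i Cb.i)
    (R : RedData A resK F Ft) (U : Submodule K' F') [FiniteDimensional K' U] :
    ∃ (x : Fin (Module.finrank K' U) → F') (w : Fin (Module.finrank K' U) → Ft'),
      (∀ t, x t ∈ U) ∧ (∀ t, BCInt R C Cb resK' (x t) (w t)) ∧ LinearIndependent k' w := by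
  classical
  set r := Module.finrank K' U with hr
  let u : Module.Basis (Fin r) K' U := Module.finBasis K' U
  have hu : LinearIndependent K' (fun t => ((u t : U) : F')) :=
    u.linearIndependent.map' U.subtype (Submodule.ker_subtype _)
  have h1 := fun t => C.exists_frac ((u t : U) : F')
  choose a ha b hb hb0 hab using h1
  have hconst : ∀ c : K', algebraMap K' F' c ∈ C.ring :=
    fun c => Subring.subset_closure (Or.inr ⟨c, rfl⟩)
  have hs : ∏ t, b t ∈ C.ring := Subring.prod_mem _ fun t _ => hb t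
  have hs0 : ∏ t, b t ≠ 0 := Finset.prod_ne_zero_iff.2 fun t _ => hb0 t
  have hsu : ∀ t, (∏ t, b t) * ((u t : U) : F') ∈ C.ring := by
    intro t
    rw [← Finset.mul_prod_erase Finset.univ b (Finset.mem_univ t), hab t]
    have : (b t * ∏ x ∈ Finset.univ.erase t, b x) * (a t / b t) =
        a t * ∏ x ∈ Finset.univ.erase t, b x := by
      have := hb0 t
      field_simp
    rw [this]
    exact C.ring.mul_mem (ha t) (Subring.prod_mem _ fun t _ => hb t)
  obtain ⟨γ, s₁, ws, hγ, hrs, hws, hsγ⟩ := bc_exists_normal R C Cb resK' hs hs0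
  have hs₁ := hrs.ne_zero hres V hws
  have hz : ∀ t, s₁ * ((u t : U) : F') ∈ C.ring := by
    intro t
    have : s₁ * ((u t : U) : F') = algebraMap K' F' γ⁻¹ * ((∏ t, b t) * ((u t : U) : F')) := by
      rw [hsγ, Algebra.smul_def, ← mul_assoc, ← mul_assoc, ← map_mul, inv_mul_cancel₀ hγ, map_one,
        one_mul]
    rw [this]
    exact C.ring.mul_mem (hconst _) (hsu t)
  obtain ⟨m, bb, hbb, hco⟩ := bc_exists_coord R C (fun t => s₁ * ((u t : U) : F')) hz
  choose δ hδ using hco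
  set Λ : (Fin m → K') →ₗ[K'] F' :=
    Fintype.linearCombination K' (fun i => C.ι ((bb i : R.O) : F)) with hΛ
  have hΛδ : ∀ t, Λ (δ t) = s₁ * ((u t : U) : F') := by
    intro t
    rw [hΛ, Fintype.linearCombination_apply, hδ t]
  have hδli : LinearIndependent K' δ := by
    apply LinearIndependent.of_comp Λ
    have : Λ ∘ δ = fun t => s₁ * ((u t : U) : F') := funext hΛδ
    rw [this]
    exact bc_li_mul hu hs₁
  have hN : Module.finrank K' (Submodule.span K' (Set.range δ)) = r := by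
    rw [finrank_span_eq_card hδli, Fintype.card_fin]
  obtain ⟨w', hw'N, hw'ind⟩ := bc_la_aux (A := B) (resK := resK') m r _ hN
  have hNU : ∀ n ∈ Submodule.span K' (Set.range δ), s₁⁻¹ * Λ n ∈ U := by
    intro n hn
    induction hn using Submodule.span_induction with
    | mem x hx =>
      obtain ⟨t, rfl⟩ := hx
      rw [hΛδ, ← mul_assoc, inv_mul_cancel₀ hs₁, one_mul]
      exact (u t).2
    | zero => rw [map_zero, mul_zero]; exact U.zero_mem
    | add x y _ _ hx hy => rw [map_add, mul_add]; exact U.add_mem hx hy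
    | smul c x _ hx => rw [map_smul, mul_smul_comm]; exact U.smul_mem _ hx
  set Λb : (Fin m → k') →ₗ[k'] Ft' :=
    Fintype.linearCombination k' (fun i => Cb.ι (R.red (bb i))) with hΛb
  have hΛbinj : Function.Injective Λb := (Cb.ld m _ hbb).fintypeLinearCombination_injective
  refine ⟨fun t => s₁⁻¹ * Λ (fun i => ((w' t i : B) : K')),
    fun t => ws⁻¹ * Λb (fun i => resK' (w' t i)), fun t => hNU _ (hw'N t), fun t => ?_, ?_⟩
  · refine ⟨_, s₁, _, ws, BCRep.ofOrth bb (w' t), hrs, hws, ?_, ?_⟩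
    · show s₁⁻¹ * Λ (fun i => ((w' t i : B) : K')) * s₁ = _
      rw [hΛ, Fintype.linearCombination_apply]
      field_simp
    · show ws⁻¹ * Λb (fun i => resK' (w' t i)) * ws = _
      rw [hΛb, Fintype.linearCombination_apply]
      field_simp
  · exact bc_li_mul (hw'ind.map' Λb (LinearMap.ker_eq_bot.2 hΛbinj)) (inv_ne_zero hws)

end BCInt

end Fermat.Agent.S19Lib
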