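import Fermat.Agent.S19.UP

/-!
# S19 (BC), part 1: orthonormal coordinates
-/

set_option autoImplicit false

open AlgebraicCurve

namespace Fermat.Agent.S19Lib

open Fermat.Agent.S18Lib Fermat.Agent.S24Lib Fermat.Agent.FFLib Fermat.Agent.S34Lib

section Orth

variable {K k F Ft : Type*} [Field K] [Field k] [Field F] [Algebra K F] [Field Ft] [Algebra k Ft]
  {A : ValuationSubring K} {resK : A →+* k}

/-- an element outside `A` has its inverse in the maximal ideal -/
theorem bc_res_inv_eq_zero (hres : Function.Surjective resK) {a : K} (ha : a ∉ A) :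
    ∃ h : a⁻¹ ∈ A, resK ⟨a⁻¹, h⟩ = 0 := by
  have h : a⁻¹ ∈ A := (A.mem_or_inv_mem a).resolve_left ha
  refine ⟨h, ?_⟩
  rw [resK_eq_zero_iff hres]
  rintro ⟨u, hu⟩
  apply ha
  have ha0 : a ≠ 0 := by
    rintro rfl
    exact ha A.zero_mem
  have h1 : ((u⁻¹ : Aˣ) : A) * (⟨a⁻¹, h⟩ : A) = 1 := by rw [← hu]; simp
  have h2 : (((u⁻¹ : Aˣ) : A) : K) * a⁻¹ = 1 := congrArg Subtype.val h1
  have h3 : (((u⁻¹ : Aˣ) : A) : K) = a := by
    field_simp at h2
    exact h2
  rw [← h3]
  exact ((u⁻¹ : Aˣ) : A).2

/-- coordinates with respect to an orthonormal family -/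
theorem bc_orth_coord (R : RedData A resK F Ft) (hres : Function.Surjective resK) {n : ℕ}
    (b : Fin n → R.O) (hb : LinearIndependent k (fun i => R.red (b i))) (a : Fin n → K) (x : R.O)
    (hx : ((x : R.O) : F) = ∑ i, a i • ((b i : R.O) : F)) :
    ∃ a' : Fin n → A, (∀ i, ((a' i : A) : K) = a i) ∧
      R.red x = ∑ i, resK (a' i) • R.red (b i) := by
  classical
  have key : ∀ (c : A) (a' : Fin n → A), (∀ i, ((a' i : A) : K) = (c : K) * a i) →
      resK c • R.red x = ∑ i, resK (a' i) • R.red (b i) := by
    intro c a' ha'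
    have h1 : R.const c * x = ∑ i, R.const (a' i) * b i := by
      apply Subtype.val_injective
      have h2 : ((∑ i, R.const (a' i) * b i : R.O) : F) =
          ∑ i, ((R.const (a' i) * b i : R.O) : F) := map_sum R.O.subtype _ _
      rw [h2]
      change algebraMap K F (c : K) * ((x : R.O) : F) = _
      rw [hx, Finset.mul_sum]
      refine Finset.sum_congr rfl fun i _ => ?_
      change _ = algebraMap K F ((a' i : A) : K) * ((b i : R.O) : F)
      rw [ha' i, Algebra.smul_def, map_mul, mul_assoc]
    have h2 := congrArg R.red h1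
    rw [map_mul, map_sum, R.red_const, ← Algebra.smul_def] at h2
    rw [h2]
    refine Finset.sum_congr rfl fun i _ => ?_
    rw [map_mul, R.red_const, ← Algebra.smul_def]
  have hA : ∀ i, a i ∈ A := by
    by_contra hcon
    push Not at hcon
    obtain ⟨i1, hi1⟩ := hcon
    have hi10 : a i1 ≠ 0 := by
      intro h
      rw [h] at hi1
      exact hi1 A.zero_mem
    obtain ⟨i0, -, hi0, hall⟩ := exists_scale_finset A Finset.univ a ⟨i1, Finset.mem_univ _, hi10⟩
    have hi0A : a i0 ∉ A := by
      intro h
      apply hi1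
      have : a i1 = a i1 / a i0 * a i0 := by field_simp
      rw [this]
      exact A.mul_mem _ _ (hall i1 (Finset.mem_univ _)) h
    obtain ⟨hinv, hres0⟩ := bc_res_inv_eq_zero hres hi0A
    have h1 := key ⟨(a i0)⁻¹, hinv⟩ (fun i => ⟨a i / a i0, hall i (Finset.mem_univ _)⟩)
      (fun i => by simp only; rw [div_eq_inv_mul])
    rw [hres0, zero_smul] at h1
    have h2 := (Fintype.linearIndependent_iff.1 hb) _ h1.symm i0
    have h3 : (⟨a i0 / a i0, hall i0 (Finset.mem_univ _)⟩ : A) = 1 := Subtype.ext (div_self hi0)
    rw [h3, map_one] at h2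
    exact one_ne_zero h2
  refine ⟨fun i => ⟨a i, hA i⟩, fun i => rfl, ?_⟩
  have h1 := key 1 (fun i => ⟨a i, hA i⟩) (fun i => by simp)
  rwa [map_one, one_smul] at h1

/-- an orthonormal basis of the span of a finite family, with coordinates -/
theorem bc_exists_orth_span (R : RedData A resK F Ft) {J : Type*} [Finite J] (f : J → F) :
    ∃ (m : ℕ) (b : Fin m → R.O), LinearIndependent k (fun i => R.red (b i)) ∧
      ∀ j, ∃ a : Fin m → K, f j = ∑ i, a i • ((b i : R.O) : F) := by
  classical
  set U : Submodule K F := Submodule.span K (Set.range f) with hU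
  have : FiniteDimensional K U := FiniteDimensional.span_of_finite K (Set.finite_range f)
  obtain ⟨b, hbU, hb⟩ := R.exists_orth U inferInstance
  refine ⟨_, b, hb, fun j => ?_⟩
  have hli := linearIndependent_of_red R b hb
  have hli' : LinearIndependent K (fun i => (⟨((b i : R.O) : F), hbU i⟩ : U)) :=
    LinearIndependent.of_comp U.subtype hli
  have hspan := hli'.span_eq_top_of_card_eq_finrank' (by simp)
  have hmem : (⟨f j, Submodule.subset_span ⟨j, rfl⟩⟩ : U) ∈
      Submodule.span K (Set.range fun i => (⟨((b i : R.O) : F), hbU i⟩ : U)) := by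
    rw [hspan]; trivial
  obtain ⟨a, ha⟩ := (Submodule.mem_span_range_iff_exists_fun K).1 hmem
  refine ⟨a, ?_⟩
  have := congrArg Subtype.val ha
  simp only [AddSubmonoidClass.coe_finsetSum, Submodule.coe_smul] at this
  exact this.symm

end Orth

section Coord

variable {K k : Type*} [Field K] [Field k] {A : ValuationSubring K} {resK : A →+* k}

/-- subspaces of `K^m` have orthonormal bases -/
theorem bc_la_aux (m n : ℕ) :
    ∀ (U : Submodule K (Fin m → K)), Module.finrank K U = n →
    ∃ w : Fin n → (Fin m → A),
      (∀ t, (fun i => ((w t i : A) : K)) ∈ U) ∧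
      LinearIndependent k (fun t => fun i => resK (w t i)) := by
  classical
  induction n with
  | zero =>
    intro U _
    exact ⟨fun i => i.elim0, fun i => i.elim0, linearIndependent_empty_type⟩
  | succ n ih =>
    intro U hU
    have hne : U ≠ ⊥ := by
      intro h
      rw [h, finrank_bot] at hU
      omega
    obtain ⟨u, huU, hu0⟩ := Submodule.exists_mem_ne_zero_of_ne_bot hne
    obtain ⟨i1, hi1⟩ : ∃ i, u i ≠ 0 := by
      by_contra h
      push Not at h
      exact hu0 (funext h)
    obtain ⟨i₀, -, hui₀, hall⟩ := exists_scale_finset A Finset.univ (fun i => u i)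
      ⟨i1, Finset.mem_univ _, hi1⟩
    set u' : Fin m → K := (u i₀)⁻¹ • u with hu'
    have hu'U : u' ∈ U := U.smul_mem _ huU
    have hu'A : ∀ i, u' i ∈ A := by
      intro i
      rw [hu', Pi.smul_apply, smul_eq_mul, mul_comm, ← div_eq_mul_inv]
      exact hall i (Finset.mem_univ _)
    have hu'1 : u' i₀ = 1 := by
      rw [hu', Pi.smul_apply, smul_eq_mul, inv_mul_cancel₀ hui₀]
    set φ : (Fin m → K) →ₗ[K] K := LinearMap.proj i₀ with hφ
    set U' : Submodule K (Fin m → K) := U ⊓ LinearMap.ker φ with hU'
    have hrank : Module.finrank K U' = n := by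
      have h1 := LinearMap.finrank_range_add_finrank_ker (K := K) (V := U) (V₂ := K)
        (φ.domRestrict U)
      have h2 : LinearMap.range (φ.domRestrict U) = ⊤ := by
        rw [LinearMap.range_eq_top]
        intro c
        refine ⟨⟨c • u', U.smul_mem _ hu'U⟩, ?_⟩
        show φ (c • u') = c
        rw [map_smul, hφ, LinearMap.proj_apply, hu'1, smul_eq_mul, mul_one]
      rw [h2, finrank_top, Module.finrank_self, hU] at h1
      have h3 : Module.finrank K (LinearMap.ker (φ.domRestrict U)) = Module.finrank K U' := by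
        rw [LinearMap.ker_domRestrict, hU']
        have e : (LinearMap.ker φ).comap U.subtype =
            (U ⊓ LinearMap.ker φ).comap U.subtype := by
          ext x
          simp
        rw [e]
        exact (Submodule.comapSubtypeEquivOfLe (p := U ⊓ LinearMap.ker φ) (q := U)
          inf_le_left).finrank_eq
      omega
    obtain ⟨w', hw'U, hw'ind⟩ := ih U' hrank
    set uA : Fin m → A := fun i => ⟨u' i, hu'A i⟩ with huA
    refine ⟨Fin.cons uA w', ?_, ?_⟩
    · intro i
      refine Fin.cases ?_ (fun j => ?_) i
      · rw [Fin.cons_zero]; exact hu'U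
      · rw [Fin.cons_succ]; exact (hw'U j).1
    · have hfun : (fun t : Fin (n + 1) => fun i => resK ((Fin.cons uA w' : Fin (n + 1) →
          (Fin m → A)) t i)) =
          Fin.cons (fun i => resK (uA i)) (fun t => fun i => resK (w' t i)) := by
        funext t
        refine Fin.cases ?_ (fun j => ?_) t
        · simp
        · simp
      rw [hfun, linearIndependent_finCons]
      refine ⟨hw'ind, ?_⟩
      intro hmem
      have hz : ∀ v ∈ Submodule.span k (Set.range fun t => fun i => resK (w' t i)),
          v i₀ = 0 := by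
        intro v hv
        induction hv using Submodule.span_induction with
        | mem x hx =>
          obtain ⟨j, rfl⟩ := hx
          have h1 : φ (fun i => ((w' j i : A) : K)) = 0 := (hw'U j).2
          rw [hφ, LinearMap.proj_apply] at h1
          have h2 : w' j i₀ = 0 := Subtype.ext h1
          simp only [h2, map_zero]
        | zero => rfl
        | add x y _ _ hx hy => rw [Pi.add_apply, hx, hy, add_zero]
        | smul c x _ hx => rw [Pi.smul_apply, hx, smul_zero]
      have h1 := hz _ hmem
      have h2 : uA i₀ = 1 := Subtype.ext hu'1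
      simp only [h2, map_one] at h1
      exact one_ne_zero h1

end Coord

end Fermat.Agent.S19Lib
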