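import Fermat.Agent.S19.BC_Orth

/-!
# S19 (BC), part 2: the ring `S_B = B[ι O]` and its reduction, as a relation
-/

set_option autoImplicit false

open AlgebraicCurve

namespace Fermat.Agent.S19Lib

open Fermat.Agent.S18Lib Fermat.Agent.S24Lib Fermat.Agent.FFLib Fermat.Agent.S34Lib

variable {K k F Ft K' k' F' Ft' : Type*} [Field K] [Field k] [Field F] [Algebra K F]
  [Field Ft] [Algebra k Ft] [Field K'] [Field k'] [Field F'] [Algebra K' F'] [Field Ft']
  [Algebra k' Ft'] {A : ValuationSubring K} {resK : A →+* k}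
  {B : ValuationSubring K'} {resK' : B →+* k'}

theorem CE.ι_smul (C : CE K F K' F') (a : K) (x : F) : C.ι (a • x) = C.i a • C.ι x := by
  rw [Algebra.smul_def, map_mul, C.comm, Algebra.smul_def]

/-- `z = ∑ β_j ι(c_j)`, `w = ∑ res β_j ιb (red c_j)` -/
def BCRep (R : RedData A resK F Ft) (C : CE K F K' F') (Cb : CE k Ft k' Ft') (resK' : B →+* k')
    (z : F') (w : Ft') : Prop :=
  ∃ (J : Type) (_ : Fintype J) (β : J → B) (c : J → R.O),
    z = ∑ j, ((β j : B) : K') • C.ι ((c j : R.O) : F) ∧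
    w = ∑ j, resK' (β j) • Cb.ι (R.red (c j))

namespace BCRep

variable {R : RedData A resK F Ft} {C : CE K F K' F'} {Cb : CE k Ft k' Ft'}

theorem zero : BCRep R C Cb resK' 0 0 :=
  ⟨Empty, inferInstance, fun e => e.elim, fun e => e.elim, by simp, by simp⟩

theorem const (β : B) :
    BCRep R C Cb resK' (algebraMap K' F' (β : K')) (algebraMap k' Ft' (resK' β)) :=
  ⟨Unit, inferInstance, fun _ => β, fun _ => 1, by simp [Algebra.smul_def],
    by simp [Algebra.smul_def]⟩

theorem iota (x : R.O) : BCRep R C Cb resK' (C.ι ((x : R.O) : F)) (Cb.ι (R.red x)) :=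
  ⟨Unit, inferInstance, fun _ => 1, fun _ => x, by simp, by simp⟩

theorem one : BCRep R C Cb resK' 1 1 := by
  have := const (R := R) (C := C) (Cb := Cb) (resK' := resK') 1
  simpa using this

theorem add {z z' : F'} {w w' : Ft'} (h : BCRep R C Cb resK' z w) (h' : BCRep R C Cb resK' z' w') :
    BCRep R C Cb resK' (z + z') (w + w') := by
  obtain ⟨J, _, β, c, rfl, rfl⟩ := h
  obtain ⟨J', _, β', c', rfl, rfl⟩ := h'
  exact ⟨J ⊕ J', inferInstance, Sum.elim β β', Sum.elim c c', by simp [Fintype.sum_sum_type],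
    by simp [Fintype.sum_sum_type]⟩

theorem mul {z z' : F'} {w w' : Ft'} (h : BCRep R C Cb resK' z w) (h' : BCRep R C Cb resK' z' w') :
    BCRep R C Cb resK' (z * z') (w * w') := by
  obtain ⟨J, _, β, c, rfl, rfl⟩ := h
  obtain ⟨J', _, β', c', rfl, rfl⟩ := h'
  refine ⟨J × J', inferInstance, fun p => β p.1 * β' p.2, fun p => c p.1 * c' p.2, ?_, ?_⟩
  · rw [Finset.sum_mul_sum, Fintype.sum_prod_type]
    refine Finset.sum_congr rfl fun j _ => Finset.sum_congr rfl fun j' _ => ?_
    have e1 : ((β j * β' j' : B) : K') = (β j : K') * (β' j' : K') := rfl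
    have e2 : ((c j * c' j' : R.O) : F) = (c j : F) * (c' j' : F) := rfl
    simp only [e1, e2, map_mul, Algebra.smul_def]
    ring
  · rw [Finset.sum_mul_sum, Fintype.sum_prod_type]
    refine Finset.sum_congr rfl fun j _ => Finset.sum_congr rfl fun j' _ => ?_
    simp only [map_mul, Algebra.smul_def]
    ring

theorem neg {z : F'} {w : Ft'} (h : BCRep R C Cb resK' z w) : BCRep R C Cb resK' (-z) (-w) := by
  have h1 := (const (R := R) (C := C) (Cb := Cb) (resK' := resK') (-1)).mul h
  simpa using h1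

theorem sub {z z' : F'} {w w' : Ft'} (h : BCRep R C Cb resK' z w) (h' : BCRep R C Cb resK' z' w') :
    BCRep R C Cb resK' (z - z') (w - w') := by
  rw [sub_eq_add_neg, sub_eq_add_neg]
  exact h.add h'.neg

theorem smul (β : B) {z : F'} {w : Ft'} (h : BCRep R C Cb resK' z w) :
    BCRep R C Cb resK' ((β : K') • z) (resK' β • w) := by
  rw [Algebra.smul_def, Algebra.smul_def]
  exact (const β).mul h

/-- orthonormal representations -/
theorem ofOrth {m : ℕ} (b : Fin m → R.O) (β : Fin m → B) :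
    BCRep R C Cb resK' (∑ i, ((β i : B) : K') • C.ι ((b i : R.O) : F))
      (∑ i, resK' (β i) • Cb.ι (R.red (b i))) :=
  ⟨Fin m, inferInstance, β, b, rfl, rfl⟩

/-- the key lemma: the reduction is well defined -/
theorem eq_zero (hres : Function.Surjective resK) (V : VE A resK B resK' C.i Cb.i) {w : Ft'}
    (h : BCRep R C Cb resK' 0 w) : w = 0 := by
  classical
  obtain ⟨J, _, β, c, h0, rfl⟩ := h
  obtain ⟨m, b, hb, hco⟩ := bc_exists_orth_span R (fun j => ((c j : R.O) : F))
  choose a ha using hco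
  have h1 := fun j => bc_orth_coord R hres b hb (a j) (c j) (ha j)
  choose a' ha' hred using h1
  have hli := C.ld m _ (linearIndependent_of_red R b hb)
  have hmem : ∀ j i, C.i ((a' j i : A) : K) ∈ B := fun j i => (V.mem_iff _).2 (a' j i).2
  have h2 : ∑ i, (∑ j, ((β j : B) : K') * C.i ((a' j i : A) : K)) • C.ι ((b i : R.O) : F) = 0 := by
    rw [h0]
    simp only [Finset.sum_smul]
    rw [Finset.sum_comm]
    refine Finset.sum_congr rfl fun j _ => ?_
    rw [ha j, map_sum, Finset.smul_sum]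
    refine Finset.sum_congr rfl fun i _ => ?_
    rw [C.ι_smul, smul_smul, ha']
  have h3 := Fintype.linearIndependent_iff.1 hli _ h2
  have h4 : ∀ i, ∑ j, resK' (β j) * Cb.i (resK (a' j i)) = 0 := by
    intro i
    have h5 : (∑ j, β j * ⟨C.i ((a' j i : A) : K), hmem j i⟩ : B) = 0 := by
      apply Subtype.val_injective
      have h6 : ((∑ j, β j * ⟨C.i ((a' j i : A) : K), hmem j i⟩ : B) : K') =
          ∑ j, ((β j * ⟨C.i ((a' j i : A) : K), hmem j i⟩ : B) : K') := map_sum B.subtype _ _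
      rw [h6]
      exact h3 i
    have h6 := congrArg resK' h5
    rw [map_sum, map_zero] at h6
    rw [← h6]
    refine Finset.sum_congr rfl fun j _ => ?_
    rw [map_mul, V.res_comm]
  have h5 : ∑ j, resK' (β j) • Cb.ι (R.red (c j)) =
      ∑ i, (∑ j, resK' (β j) * Cb.i (resK (a' j i))) • Cb.ι (R.red (b i)) := by
    simp only [Finset.sum_smul]
    rw [Finset.sum_comm]
    refine Finset.sum_congr rfl fun j _ => ?_
    rw [hred j, map_sum, Finset.smul_sum]
    refine Finset.sum_congr rfl fun i _ => ?_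
    rw [Cb.ι_smul, smul_smul]
  rw [h5]
  simp only [h4, zero_smul, Finset.sum_const_zero]

theorem unique (hres : Function.Surjective resK) (V : VE A resK B resK' C.i Cb.i) {z : F'}
    {w w' : Ft'} (h : BCRep R C Cb resK' z w) (h' : BCRep R C Cb resK' z w') : w = w' := by
  have h1 := h.sub h'
  rw [sub_self] at h1
  exact sub_eq_zero.1 (h1.eq_zero hres V)

theorem ne_zero (hres : Function.Surjective resK) (V : VE A resK B resK' C.i Cb.i) {z : F'}
    {w : Ft'} (h : BCRep R C Cb resK' z w) (hw : w ≠ 0) : z ≠ 0 := by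
  rintro rfl
  exact hw (h.eq_zero hres V)

end BCRep

/-- common orthonormal coordinates for a finite family of elements of `K'[F]` -/
theorem bc_exists_coord (R : RedData A resK F Ft) (C : CE K F K' F') {T : Type*} [Finite T]
    (z : T → F') (hz : ∀ t, z t ∈ C.ring) :
    ∃ (m : ℕ) (b : Fin m → R.O), LinearIndependent k (fun i => R.red (b i)) ∧
      ∀ t, ∃ δ : Fin m → K', z t = ∑ i, δ i • C.ι ((b i : R.O) : F) := by
  classical
  have h1 := fun t => (C.mem_ring_iff (z t)).1 (hz t)
  choose n c f hzt using h1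
  obtain ⟨m, b, hb, hco⟩ := bc_exists_orth_span R (fun p : (Σ t, Fin (n t)) => f p.1 p.2)
  choose a ha using hco
  refine ⟨m, b, hb, fun t => ⟨fun i => ∑ j, c t j * C.i (a ⟨t, j⟩ i), ?_⟩⟩
  rw [hzt t]
  simp only [Finset.sum_smul]
  rw [Finset.sum_comm]
  refine Finset.sum_congr rfl fun j _ => ?_
  have := ha ⟨t, j⟩
  simp only at this
  rw [this, map_sum, Finset.smul_sum]
  refine Finset.sum_congr rfl fun i _ => ?_
  rw [C.ι_smul, smul_smul]

/-- normal form of a nonzero element of `K'[F]` -/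
theorem bc_exists_normal (R : RedData A resK F Ft) (C : CE K F K' F') (Cb : CE k Ft k' Ft')
    (resK' : B →+* k') {z : F'} (hz : z ∈ C.ring) (hz0 : z ≠ 0) :
    ∃ (γ : K') (z₁ : F') (w₁ : Ft'), γ ≠ 0 ∧ BCRep R C Cb resK' z₁ w₁ ∧ w₁ ≠ 0 ∧ z = γ • z₁ := by
  classical
  obtain ⟨m, b, hb, hco⟩ := bc_exists_coord R C (fun _ : Unit => z) (fun _ => hz)
  obtain ⟨δ, hδ⟩ := hco ()
  have hne : ∃ i ∈ Finset.univ, δ i ≠ 0 := by
    by_contra h
    push Not at h
    apply hz0
    rw [hδ]
    exact Finset.sum_eq_zero fun i hi => by rw [h i hi, zero_smul]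
  obtain ⟨i0, -, hi0, hall⟩ := exists_scale_finset B Finset.univ δ hne
  refine ⟨δ i0, _, _, hi0,
    BCRep.ofOrth b (fun i => ⟨δ i / δ i0, hall i (Finset.mem_univ _)⟩), ?_, ?_⟩
  · intro h0
    have h1 := Fintype.linearIndependent_iff.1 (Cb.ld m _ hb) _ h0 i0
    have h2 : (⟨δ i0 / δ i0, hall i0 (Finset.mem_univ _)⟩ : B) = 1 := Subtype.ext (div_self hi0)
    rw [h2, map_one] at h1
    exact one_ne_zero h1
  · rw [hδ, Finset.smul_sum]
    refine Finset.sum_congr rfl fun i _ => ?_
    rw [smul_smul, mul_div_cancel₀ _ hi0]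

/-- every element of `k'[Ft]` is a reduction -/
theorem bc_exists_rep (R : RedData A resK F Ft) (C : CE K F K' F') (Cb : CE k Ft k' Ft')
    (hres' : Function.Surjective resK') {w : Ft'} (hw : w ∈ Cb.ring) :
    ∃ z : F', BCRep R C Cb resK' z w := by
  obtain ⟨n, c, f, rfl⟩ := (Cb.mem_ring_iff w).1 hw
  choose β hβ using fun j => hres' (c j)
  choose x hx using fun j => R.red_surjective (f j)
  refine ⟨_, Fin n, inferInstance, β, x, rfl, ?_⟩
  simp only [hβ, hx]

end Fermat.Agent.S19Lib
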