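import Mathlib

/-!
# S19 (CHEV): Chevalley's extension theorem for places (Atiyah-Macdonald 5.19 - 5.21)

Zorn on pairs `(S, φ : S → k)`, encoded as subrings `Γ ⊆ L × k` which are graphs; a maximal pair is a
valuation ring:
* `S` is local with maximal ideal `ker φ`;
* for `x ≠ 0` one of `𝔪[x] ≠ S[x]`, `𝔪[x⁻¹] ≠ S[x⁻¹]` holds (AM 5.20);
* if `𝔪[x] ≠ S[x]`, the polynomials `φ(P)`, `P(x) = 0`, have a common root `b` in `k`, and `φ` extends
  to `S[x]` by `x ↦ b`.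
-/

set_option autoImplicit false

namespace Fermat.Agent.S19Lib

open Polynomial

section Abstract

theorem chev_reflect {Γ E : Type*} [CommRing Γ] [Field E] (p : Γ →+* E) {y : E} (hy : y ≠ 0) (N : ℕ)
    (f : Γ[X]) (hf : f.natDegree ≤ N) : eval₂ p y⁻¹ (reflect N f) * y ^ N = eval₂ p y f := by
  let _ := invertibleOfNonzero hy
  have := eval₂_reflect_mul_pow p y N f hf
  rwa [invOf_eq_inv] at this

theorem chev_natDegree_reflect {Γ : Type*} [CommRing Γ] (N : ℕ) (f : Γ[X]) (hf : f.natDegree ≤ N) :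
    (reflect N f).natDegree ≤ N := by
  rw [natDegree_le_iff_coeff_eq_zero]
  intro i hi
  rw [coeff_reflect, revAt_eq_self_of_lt hi]
  exact coeff_eq_zero_of_natDegree_lt (lt_of_le_of_lt hf hi)

theorem chev_reflect_reflect {Γ : Type*} [CommRing Γ] (N : ℕ) (f : Γ[X]) :
    reflect N (reflect N f) = f := by
  ext i
  rw [coeff_reflect, coeff_reflect, revAt_invol]

variable {Γ L k : Type*} [CommRing Γ] [Field L] [Field k] (p₁ : Γ →+* L) (p₂ : Γ →+* k)

/-- `φ` extends to `S[x]` by `x ↦ b` -/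
def ChevCond (x : L) (b : k) : Prop := ∀ P : Γ[X], P.eval₂ p₁ x = 0 → P.eval₂ p₂ b = 0

/-- maximality of the pair -/
def ChevMax : Prop := ∀ (x : L) (b : k), ChevCond p₁ p₂ x b → ∃ γ, p₁ γ = x ∧ p₂ γ = b

/-- `1 ∈ 𝔪[x]` -/
def ChevBad (x : L) : Prop := ∃ U : Γ[X], U.map p₂ = 0 ∧ U.eval₂ p₁ x = 1

variable {p₁ p₂}

theorem chev_unit (h1 : Function.Injective p₁) (hmax : ChevMax p₁ p₂) (γ : Γ) (hγ : p₂ γ ≠ 0) :
    ∃ δ, γ * δ = 1 := by
  have hγ0 : p₁ γ ≠ 0 := by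
    intro h
    have : γ = 0 := h1 (by rw [h, map_zero])
    rw [this, map_zero] at hγ
    exact hγ rfl
  obtain ⟨δ, hδ, -⟩ := hmax (p₁ γ)⁻¹ (p₂ γ)⁻¹ (by
    intro P hP
    have hf := chev_natDegree_reflect P.natDegree P le_rfl
    have e1 := chev_reflect p₁ hγ0 P.natDegree _ hf
    rw [chev_reflect_reflect, hP, zero_mul, eval₂_at_apply] at e1
    have h0 : eval γ (reflect P.natDegree P) = 0 := h1 (by rw [← e1, map_zero])
    have e2 := chev_reflect p₂ hγ P.natDegree _ hf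
    rw [chev_reflect_reflect, eval₂_at_apply, h0, map_zero] at e2
    exact (mul_eq_zero.1 e2).resolve_right (pow_ne_zero _ hγ))
  exact ⟨δ, h1 (by rw [map_mul, hδ, mul_inv_cancel₀ hγ0, map_one])⟩

theorem chev_red (h1 : Function.Injective p₁) (hmax : ChevMax p₁ p₂) {x : L} (hx : x ≠ 0)
    (U V : Γ[X]) (hU : U.map p₂ = 0) (hUx : U.eval₂ p₁ x = 1) (hV : V.map p₂ = 0)
    (hVx : V.eval₂ p₁ x⁻¹ = 1) (hle : V.natDegree ≤ U.natDegree) :
    ∃ U' : Γ[X], U'.map p₂ = 0 ∧ U'.eval₂ p₁ x = 1 ∧ U'.natDegree < U.natDegree := by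
  rcases Nat.eq_zero_or_pos U.natDegree with hm | hm
  · exfalso
    rw [eq_C_of_natDegree_eq_zero hm, eval₂_C] at hUx
    have h2 : U.coeff 0 = 1 := h1 (by rw [hUx, map_one])
    have h3 := congrArg (fun q => coeff q 0) hU
    simp only [coeff_map, coeff_zero, h2, map_one] at h3
    exact one_ne_zero h3
  have hv0 : p₂ (V.coeff 0) = 0 := by
    have h3 := congrArg (fun q => coeff q 0) hV
    simpa using h3
  obtain ⟨w, hw⟩ := chev_unit h1 hmax (1 - V.coeff 0) (by rw [map_sub, map_one, hv0, sub_zero]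
                                                          exact one_ne_zero)
  have hlc : p₂ U.leadingCoeff = 0 := by
    have h3 := congrArg (fun q => coeff q U.natDegree) hU
    simpa using h3
  set N := U.natDegree - 1 with hN
  have hV1 : V.divX.natDegree ≤ N := by
    rw [natDegree_divX_eq_natDegree_tsub_one]
    omega
  have e1 := chev_reflect p₁ (inv_ne_zero hx) N V.divX hV1
  rw [inv_inv] at e1
  have e2 : eval₂ p₁ x⁻¹ V.divX * x⁻¹ + p₁ (V.coeff 0) = 1 := by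
    conv_rhs => rw [← hVx, ← divX_mul_X_add V]
    rw [eval₂_add, eval₂_mul, eval₂_X, eval₂_C]
  have e3 : eval₂ p₁ x (reflect N V.divX) = p₁ (1 - V.coeff 0) * x ^ U.natDegree := by
    have h4 : eval₂ p₁ x⁻¹ V.divX = p₁ (1 - V.coeff 0) * x := by
      rw [map_sub, map_one, ← e2]
      field_simp
      ring
    rw [h4] at e1
    have h5 : U.natDegree = N + 1 := by omega
    rw [h5, pow_succ]
    have hxN : x ^ N ≠ 0 := pow_ne_zero _ hx
    rw [inv_pow] at e1
    field_simp at e1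
    rw [e1]
    ring
  have e4 : x ^ U.natDegree = p₁ w * eval₂ p₁ x (reflect N V.divX) := by
    rw [e3, ← mul_assoc, ← map_mul, mul_comm w, hw, map_one, one_mul]
  refine ⟨U.eraseLead + C (U.leadingCoeff * w) * reflect N V.divX, ?_, ?_, ?_⟩
  · have h6 : U.eraseLead = U - C U.leadingCoeff * X ^ U.natDegree := by
      conv_rhs => rw [← eraseLead_add_C_mul_X_pow U]
      simp
    rw [Polynomial.map_add, Polynomial.map_mul, map_C, map_mul, hlc, zero_mul, map_zero, zero_mul,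
      add_zero, h6, Polynomial.map_sub, hU, Polynomial.map_mul, map_C, hlc, map_zero, zero_mul,
      sub_zero]
  · rw [eval₂_add, eval₂_mul, eval₂_C, map_mul, mul_assoc, ← e4]
    conv_rhs => rw [← hUx, ← eraseLead_add_C_mul_X_pow U]
    rw [eval₂_add, eval₂_mul, eval₂_C, eval₂_pow, eval₂_X]
  · have h7 : (U.eraseLead + C (U.leadingCoeff * w) * reflect N V.divX).natDegree ≤ N := by
      refine (natDegree_add_le _ _).trans (max_le (eraseLead_natDegree_le U) ?_)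
      exact (natDegree_C_mul_le _ _).trans (chev_natDegree_reflect N _ hV1)
    omega

theorem chev_not_bad_both (h1 : Function.Injective p₁) (hmax : ChevMax p₁ p₂) {x : L}
    (hx : x ≠ 0) : ¬ (ChevBad p₁ p₂ x ∧ ChevBad p₁ p₂ x⁻¹) := by
  have key : ∀ (n : ℕ) (U V : Γ[X]), U.natDegree + V.natDegree = n → U.map p₂ = 0 →
      U.eval₂ p₁ x = 1 → V.map p₂ = 0 → V.eval₂ p₁ x⁻¹ = 1 → False := by
    intro n
    induction n using Nat.strong_induction_on with
    | _ n ih =>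
      intro U V hn hU hUx hV hVx
      rcases le_total V.natDegree U.natDegree with hle | hle
      · obtain ⟨U', hU', hU'x, hlt⟩ := chev_red h1 hmax hx U V hU hUx hV hVx hle
        exact ih (U'.natDegree + V.natDegree) (by omega) U' V rfl hU' hU'x hV hVx
      · obtain ⟨V', hV', hV'x, hlt⟩ := chev_red h1 hmax (inv_ne_zero hx) V U hV hVx hU
          (by rw [inv_inv]; exact hUx) hle
        exact ih (U.natDegree + V'.natDegree) (by omega) U V' rfl hU hUx hV' hV'x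
  rintro ⟨⟨U, hU, hUx⟩, ⟨V, hV, hVx⟩⟩
  exact key _ U V rfl hU hUx hV hVx

theorem chev_exists_cond [IsAlgClosed k] (h1 : Function.Injective p₁) (hmax : ChevMax p₁ p₂)
    {x : L} (hx : ¬ ChevBad p₁ p₂ x) : ∃ b, ChevCond p₁ p₂ x b := by
  classical
  by_cases hall : ∀ P : Γ[X], P.eval₂ p₁ x = 0 → P.map p₂ = 0
  · exact ⟨0, fun P hP => by rw [eval₂_eq_eval_map, hall P hP, eval_zero]⟩
  push Not at hall
  obtain ⟨P', hP'x, hP'0⟩ := hall
  have hex : ∃ d : ℕ, ∃ P : Γ[X], P.eval₂ p₁ x = 0 ∧ P.map p₂ ≠ 0 ∧ (P.map p₂).natDegree = d :=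
    ⟨_, P', hP'x, hP'0, rfl⟩
  obtain ⟨P0, hP0x, hP00, hP0d⟩ := Nat.find_spec hex
  have hmin : ∀ P : Γ[X], P.eval₂ p₁ x = 0 → (P.map p₂).natDegree < Nat.find hex →
      P.map p₂ = 0 := by
    intro P hPx hlt
    by_contra h0
    exact Nat.find_min hex hlt ⟨P, hPx, h0, rfl⟩
  set d := Nat.find hex with hd
  have hc : p₂ (P0.coeff d) ≠ 0 := by
    rw [← coeff_map, ← hP0d]
    exact leadingCoeff_ne_zero.2 hP00
  obtain ⟨c', hc'⟩ := chev_unit h1 hmax _ hc
  set P1 : Γ[X] := C c' * P0 with hP1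
  have hP1x : P1.eval₂ p₁ x = 0 := by rw [hP1, eval₂_mul, hP0x, mul_zero]
  have hpc' : p₂ c' ≠ 0 := by
    intro h
    have := congrArg p₂ hc'
    rw [map_mul, h, mul_zero, map_one] at this
    exact zero_ne_one this
  have hgdeg : (P1.map p₂).natDegree = d := by
    rw [hP1, Polynomial.map_mul, map_C, natDegree_C_mul hpc', hP0d]
  have hgmon : (P1.map p₂).Monic := by
    rw [Monic, leadingCoeff, hgdeg, hP1, Polynomial.map_mul, map_C, coeff_C_mul, coeff_map,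
      ← map_mul, mul_comm, hc', map_one]
  have hd0 : d ≠ 0 := by
    intro h0
    apply hx
    have h1' : P1.map p₂ = 1 :=
      (Monic.natDegree_eq_zero hgmon).1 (by rw [hgdeg, h0])
    exact ⟨1 - P1, by rw [Polynomial.map_sub, Polynomial.map_one, h1', sub_self],
      by rw [eval₂_sub, eval₂_one, hP1x, sub_zero]⟩
  have hg1 : P1.map p₂ ≠ 1 := by
    intro h
    rw [h, natDegree_one] at hgdeg
    exact hd0 hgdeg.symm
  obtain ⟨b, hb⟩ := IsAlgClosed.exists_root (P1.map p₂) (by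
    intro h
    apply hd0
    rw [← hgdeg]
    exact natDegree_eq_zero_iff_degree_le_zero.2 h.le)
  refine ⟨b, fun P hP => ?_⟩
  obtain ⟨G, hGmap, -, hGmon⟩ :=
    lifts_and_natDegree_eq_and_monic ((mem_lifts _).2 ⟨P1, rfl⟩) hgmon
  have hRx : (P - (P /ₘ G) * P1).eval₂ p₁ x = 0 := by
    rw [eval₂_sub, eval₂_mul, hP, hP1x, mul_zero, sub_zero]
  have hRmap : (P - (P /ₘ G) * P1).map p₂ = P.map p₂ %ₘ P1.map p₂ := by
    rw [Polynomial.map_sub, Polynomial.map_mul, map_divByMonic p₂ hGmon, hGmap]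
    have := modByMonic_add_div (P.map p₂) (P1.map p₂)
    linear_combination -this
  have hR0 := hmin _ hRx (by rw [hRmap, ← hgdeg]; exact natDegree_modByMonic_lt _ hgmon hg1)
  rw [hRmap] at hR0
  have h2 := modByMonic_add_div (P.map p₂) (P1.map p₂)
  rw [hR0, zero_add] at h2
  rw [eval₂_eq_eval_map, ← h2, eval_mul, show eval b (P1.map p₂) = 0 from hb, zero_mul]

theorem chev_total [IsAlgClosed k] (h1 : Function.Injective p₁) (hmax : ChevMax p₁ p₂) (x : L) :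
    (∃ γ, p₁ γ = x) ∨ ∃ γ, p₁ γ = x⁻¹ := by
  by_cases hx : x = 0
  · exact Or.inl ⟨0, by rw [hx, map_zero]⟩
  by_cases hb : ChevBad p₁ p₂ x
  · have hb' : ¬ ChevBad p₁ p₂ x⁻¹ := fun h => chev_not_bad_both h1 hmax hx ⟨hb, h⟩
    obtain ⟨b, hb⟩ := chev_exists_cond h1 hmax hb'
    obtain ⟨γ, hγ, -⟩ := hmax _ _ hb
    exact Or.inr ⟨γ, hγ⟩
  · obtain ⟨b, hb⟩ := chev_exists_cond h1 hmax hb
    obtain ⟨γ, hγ, -⟩ := hmax _ _ hb
    exact Or.inl ⟨γ, hγ⟩

end Abstract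

/-- (CHEV) -/
theorem exists_valuationSubring_extending {L k : Type*} [Field L] [Field k] [IsAlgClosed k]
    (S : Subring L) (φ : S →+* k) :
    ∃ (B : ValuationSubring L) (r : B →+* k) (hSB : S ≤ B.toSubring),
      ∀ x : S, r ⟨(x : L), hSB x.2⟩ = φ x := by
  classical
  -- the graph of `φ`
  set Γ₀ : Subring (L × k) := (S.subtype.prod φ).range with hΓ₀
  let 𝒢 : Set (Subring (L × k)) := {Γ | ∀ b : k, ((0 : L), b) ∈ Γ → b = 0}
  have hΓ₀𝒢 : Γ₀ ∈ 𝒢 := by
    rintro b ⟨s, hs⟩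
    have h1 : ((s : S) : L) = 0 := congrArg Prod.fst hs
    have h2 : φ s = b := congrArg Prod.snd hs
    have h3 : s = 0 := Subtype.ext h1
    rw [← h2, h3, map_zero]
  obtain ⟨Γ, hΓ₀Γ, hΓmax⟩ := zorn_le_nonempty₀ 𝒢 (by
    intro c hc hchain y hy
    refine ⟨sSup c, ?_, fun z hz => le_sSup hz⟩
    intro b hb
    obtain ⟨Γ', hΓ', hb'⟩ := (Subring.mem_sSup_of_directedOn ⟨y, hy⟩ hchain.directedOn).1 hb
    exact hc hΓ' b hb') Γ₀ hΓ₀𝒢
  have hfun : ∀ b : k, ((0 : L), b) ∈ Γ → b = 0 := hΓmax.prop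
  set p₁ : Γ →+* L := (RingHom.fst L k).comp Γ.subtype with hp₁
  set p₂ : Γ →+* k := (RingHom.snd L k).comp Γ.subtype with hp₂
  have h1 : Function.Injective p₁ := by
    rw [injective_iff_map_eq_zero]
    rintro ⟨⟨x, b⟩, hxb⟩ h0
    have hx0 : x = 0 := h0
    subst hx0
    have := hfun b hxb
    subst this
    rfl
  have hmax : ChevMax p₁ p₂ := by
    intro x b hcond
    set Γ' : Subring (L × k) := Subring.closure ((Γ : Set (L × k)) ∪ {(x, b)}) with hΓ'
    have hform : ∀ z ∈ Γ', ∃ P : Polynomial Γ, z = (P.eval₂ p₁ x, P.eval₂ p₂ b) := by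
      intro z hz
      induction hz using Subring.closure_induction with
      | mem z hz =>
        rcases hz with hz | hz
        · exact ⟨Polynomial.C ⟨z, hz⟩, by simp [hp₁, hp₂]⟩
        · rw [Set.mem_singleton_iff] at hz
          exact ⟨Polynomial.X, by simp [hz]⟩
      | zero => exact ⟨0, by simp; rfl⟩
      | one => exact ⟨1, by simp; rfl⟩
      | add z z' _ _ hz hz' =>
        obtain ⟨P, rfl⟩ := hz
        obtain ⟨P', rfl⟩ := hz'
        exact ⟨P + P', by simp [Polynomial.eval₂_add]⟩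
      | neg z _ hz =>
        obtain ⟨P, rfl⟩ := hz
        exact ⟨-P, by simp [Polynomial.eval₂_neg]⟩
      | mul z z' _ _ hz hz' =>
        obtain ⟨P, rfl⟩ := hz
        obtain ⟨P', rfl⟩ := hz'
        exact ⟨P * P', by simp [Polynomial.eval₂_mul]⟩
    have hΓ'𝒢 : Γ' ∈ 𝒢 := by
      intro c hc
      obtain ⟨P, hP⟩ := hform _ hc
      have e1 : (0 : L) = P.eval₂ p₁ x := congrArg Prod.fst hP
      have e2 : c = P.eval₂ p₂ b := congrArg Prod.snd hP
      rw [e2]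
      exact hcond P e1.symm
    have hle : Γ ≤ Γ' := fun z hz => Subring.subset_closure (Or.inl hz)
    have hmem : (x, b) ∈ Γ := hΓmax.le_of_ge hΓ'𝒢 hle (Subring.subset_closure (Or.inr rfl))
    exact ⟨⟨(x, b), hmem⟩, rfl, rfl⟩
  have huniq : ∀ (x : L) (a b : k), (x, a) ∈ Γ → (x, b) ∈ Γ → a = b := by
    intro x a b ha hb
    have h2 := Γ.sub_mem ha hb
    have h3 : ((x, a) - (x, b) : L × k) = (0, a - b) := by simp
    rw [h3] at h2
    exact sub_eq_zero.1 (hfun _ h2)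
  let B : ValuationSubring L :=
    { carrier := {x | ∃ b, (x, b) ∈ Γ}
      mul_mem' := fun ⟨_, h⟩ ⟨_, h'⟩ => ⟨_, Γ.mul_mem h h'⟩
      one_mem' := ⟨1, Γ.one_mem⟩
      add_mem' := fun ⟨_, h⟩ ⟨_, h'⟩ => ⟨_, Γ.add_mem h h'⟩
      zero_mem' := ⟨0, Γ.zero_mem⟩
      neg_mem' := fun ⟨_, h⟩ => ⟨_, Γ.neg_mem h⟩
      mem_or_inv_mem' := by
        intro x
        rcases chev_total h1 hmax x with ⟨γ, hγ⟩ | ⟨γ, hγ⟩
        · exact Or.inl ⟨γ.1.2, by rw [← hγ]; exact γ.2⟩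
        · exact Or.inr ⟨γ.1.2, by rw [← hγ]; exact γ.2⟩ }
  have spec : ∀ z : B, ((z : L), z.2.choose) ∈ Γ := fun z => z.2.choose_spec
  have uniq : ∀ (z : B) (b : k), ((z : L), b) ∈ Γ → z.2.choose = b :=
    fun z b h => huniq _ _ _ (spec z) h
  let r : B →+* k :=
    { toFun := fun z => z.2.choose
      map_one' := uniq 1 1 Γ.one_mem
      map_mul' := fun x y => uniq (x * y) _ (Γ.mul_mem (spec x) (spec y))
      map_zero' := uniq 0 0 Γ.zero_mem
      map_add' := fun x y => uniq (x + y) _ (Γ.add_mem (spec x) (spec y)) }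
  have hS : ∀ s : S, ((s : L), φ s) ∈ Γ := fun s => hΓ₀Γ ⟨s, rfl⟩
  exact ⟨B, r, fun x hx => ⟨φ ⟨x, hx⟩, hS ⟨x, hx⟩⟩, fun x => uniq _ _ (hS x)⟩

end Fermat.Agent.S19Lib
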