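import Fermat.Agent.S37.Rho
import Fermat.Agent.S34.EvP
import Fermat.Agent.Lib.FF.ConstExtRestrict
import Fermat.Agent.Lib.FF.ConstExtExtend
import Fermat.Agent.Lib.FF.ConstExtDegree

/-!
# S19 library: basic definitions

* `CE K F K' F'` : `F'/K'` is a constant field extension of the function field `F/K`
* `VE` : `(K', B, k')` is a valued extension of `(K, A, k)`
* `IsPt C e v` : the place `v` of `F'` is the point of the embedding `e : F → K'`
* `IsCst C P v` : the place `v` of `F'` is the constant place above the place `P` of `F`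
* `Indep j e` : independence of a tuple of embeddings `e i : F → Ω` (the product map
  `F ⊗ ... ⊗ F → Ω` is injective)
* `Good` : a tuple of embeddings which is isometric for the Gauss norm, with independent residues
* `IsRho R r` : `r` is a Deuring reduction of places
-/

set_option autoImplicit false

open AlgebraicCurve

namespace Fermat.Agent.S19Lib

open Fermat.Agent.S18Lib Fermat.Agent.S24Lib Fermat.Agent.FFLib Fermat.Agent.S34Lib

/-- `F'/K'` is a constant field extension of `F/K` -/
structure CE (K F K' F' : Type*) [Field K] [Field F] [Algebra K F] [Field K'] [Field F']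
    [Algebra K' F'] where
  /-- the map of constant fields -/
  i : K →+* K'
  /-- the map of function fields -/
  ι : F →+* F'
  comm : ∀ a, ι (algebraMap K F a) = algebraMap K' F' (i a)
  gen : IntermediateField.adjoin K' (Set.range ι) = ⊤
  /-- linear disjointness -/
  ld : ∀ (n : ℕ) (f : Fin n → F), LinearIndependent K f →
    LinearIndependent K' (fun j => ι (f j))

/-- `(K', B, k')` is a valued extension of `(K, A, k)` -/
structure VE {K k K' k' : Type*} [Field K] [Field k] [Field K'] [Field k']
    (A : ValuationSubring K) (resK : A →+* k) (B : ValuationSubring K') (resK' : B →+* k')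
    (i : K →+* K') (ib : k →+* k') : Prop where
  mem_iff : ∀ a : K, i a ∈ B ↔ a ∈ A
  res_comm : ∀ (a : A) (h : i (a : K) ∈ B), resK' ⟨i (a : K), h⟩ = ib (resK a)

section CE

variable {K F K' F' : Type*} [Field K] [Field F] [Algebra K F] [Field K'] [Field F']
  [Algebra K' F']

/-- the trivial constant field extension -/
def CE.refl (K F : Type*) [Field K] [Field F] [Algebra K F] : CE K F K F where
  i := RingHom.id K
  ι := RingHom.id F
  comm _ := rfl
  gen := by
    rw [eq_top_iff]
    intro x _
    exact IntermediateField.subset_adjoin _ _ ⟨x, rfl⟩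
  ld _ _ h := h

/-- the subring `K'[F]` of `F'` -/
def CE.ring (C : CE K F K' F') : Subring F' :=
  Subring.closure (Set.range C.ι ∪ Set.range (algebraMap K' F'))

/-- `v` is the point of `F'` defined by the embedding `e : F → K'` -/
def IsPt (C : CE K F K' F') (e : F →+* K') (v : Place K' F') : Prop :=
  ∀ f : F, D2_ge v 1 (C.ι f - algebraMap K' F' (e f))

/-- `v` is the constant place of `F'` above the place `P` of `F` -/
def IsCst (C : CE K F K' F') (P : Place K F) (v : Place K' F') : Prop :=
  ∀ f : F, v.ord (C.ι f) = P.ord f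

theorem CE.hconst (C : CE K F K' F') (f : F) (hf : C.ι f ∈ Set.range (algebraMap K' F')) :
    f ∈ Set.range (algebraMap K F) := by
  obtain ⟨c, hc⟩ := hf
  by_contra hne
  have hli : LinearIndependent K ![(1 : F), f] := by
    rw [LinearIndependent.pair_iff]
    intro s t hst
    by_cases ht : t = 0
    · subst ht
      simp only [zero_smul, add_zero] at hst
      refine ⟨?_, rfl⟩
      rw [Algebra.smul_def, mul_one] at hst
      exact (map_eq_zero (algebraMap K F)).mp hst
    · exfalso
      apply hne
      refine ⟨-(s / t), ?_⟩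
      have h1 : t • f = -(s • (1 : F)) := by
        rw [eq_neg_iff_add_eq_zero, add_comm]; exact hst
      have h2 : f = t⁻¹ • (t • f) := by rw [smul_smul, inv_mul_cancel₀ ht, one_smul]
      rw [h2, h1, Algebra.smul_def, Algebra.smul_def, mul_one, map_neg, div_eq_mul_inv, map_mul]
      ring
  have h2 := C.ld 2 _ hli
  rw [Fintype.linearIndependent_iff] at h2
  have h3 := h2 ![-c, 1] (by
    simp only [Fin.sum_univ_two, Matrix.cons_val_zero, Matrix.cons_val_one, map_one, one_smul]
    rw [← hc, Algebra.smul_def, mul_one, map_neg]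
    ring) 1
  simp at h3

/-- the constant place above `P` -/
noncomputable def CE.extP [IsAlgClosed K] [IsAlgClosed K'] (C : CE K F K' F') (hF : IsFF K F)
    (hF' : IsFF K' F') (P : Place K F) : Place K' F' :=
  (ce_extend hF hF' C.i C.ι C.comm C.gen C.hconst P).choose

theorem CE.isCst_extP [IsAlgClosed K] [IsAlgClosed K'] (C : CE K F K' F') (hF : IsFF K F)
    (hF' : IsFF K' F') (P : Place K F) : IsCst C P (C.extP hF hF' P) :=
  (ce_extend hF hF' C.i C.ι C.comm C.gen C.hconst P).choose_spec

/-- extension of divisors -/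
noncomputable def CE.extD [IsAlgClosed K] [IsAlgClosed K'] (C : CE K F K' F') (hF : IsFF K F)
    (hF' : IsFF K' F') (D : Divisor K F) : Divisor K' F' :=
  Finsupp.mapDomain (C.extP hF hF') D

end CE

/-- the divisor `∑ v i` -/
noncomputable def sumP {K F : Type*} [Field K] [Field F] [Algebra K F] {g : ℕ}
    (v : Fin g → Place K F) : Divisor K F := ∑ i, Finsupp.single (v i) 1

/-- independence of a tuple of embeddings -/
def Indep {K F Ω : Type*} [Field K] [Field F] [Algebra K F] [Field Ω] (j : K →+* Ω) {g : ℕ}
    (e : Fin g → F →+* Ω) : Prop :=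
  ∀ (m : ℕ) (b : Fin m → F), LinearIndependent K b → ∀ lam : (Fin g → Fin m) → K,
    (∑ ν, j (lam ν) * ∏ i, e i (b (ν i))) = 0 → lam = 0

/-- `e : F → Ω` is isometric for the Gauss norm, with residue embedding `eb` -/
structure Isom {K k F Ft Ω ω : Type*} [Field K] [Field k] [Field F] [Algebra K F] [Field Ft]
    [Algebra k Ft] [Field Ω] [Field ω] {A : ValuationSubring K} {resK : A →+* k}
    (R : RedData A resK F Ft) (B : ValuationSubring Ω) (resΩ : B →+* ω)
    (e : F →+* Ω) (eb : Ft →+* ω) : Prop where
  mem : ∀ x : R.O, e (x : F) ∈ B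
  res : ∀ (x : R.O) (h : e (x : F) ∈ B), resΩ ⟨e (x : F), h⟩ = eb (R.red x)

/-- a tuple of embeddings which is isometric, with independent residues -/
structure Good {K k F Ft Ω ω : Type*} [Field K] [Field k] [Field F] [Algebra K F] [Field Ft]
    [Algebra k Ft] [Field Ω] [Field ω] {A : ValuationSubring K} {resK : A →+* k}
    (R : RedData A resK F Ft) (B : ValuationSubring Ω) (resΩ : B →+* ω) (j : K →+* Ω)
    (jb : k →+* ω) {g : ℕ} (e : Fin g → F →+* Ω) (eb : Fin g → Ft →+* ω) : Prop where
  comm : ∀ i a, e i (algebraMap K F a) = j a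
  commb : ∀ i a, eb i (algebraMap k Ft a) = jb a
  isom : ∀ i, Isom R B resΩ (e i) (eb i)
  indep : Indep jb eb

/-- `r` is a Deuring reduction of places -/
def IsRho {K k F Ft : Type*} [Field K] [Field k] [Field F] [Algebra K F] [Field Ft]
    [Algebra k Ft] {A : ValuationSubring K} {resK : A →+* k} (R : RedData A resK F Ft)
    (r : Place K F → Place k Ft) : Prop :=
  ∀ u : R.O, R.red u ≠ 0 → ∀ D : Divisor K F, (∀ v, D v = v.ord ((u : R.O) : F)) →
    ∀ Q : Place k Ft, Finsupp.mapDomain r D Q = Q.ord (R.red u)

end Fermat.Agent.S19Lib
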