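import Fermat.Agent.S19.BC_Orth

/-!
# S19 (EV): consequences of a Deuring reduction `r` of places (`IsRho R r`)
-/

set_option autoImplicit false

open AlgebraicCurve

namespace Fermat.Agent.S19Lib

open Fermat.Agent.S18Lib Fermat.Agent.S24Lib Fermat.Agent.FFLib Fermat.Agent.S34Lib

variable {K k F Ft : Type*} [Field K] [Field k] [Field F] [Algebra K F] [Field Ft] [Algebra k Ft]
  {A : ValuationSubring K} {resK : A →+* k}

theorem ev_mapDomain_apply {α β : Type*} (r : α → β) (E : α →₀ ℤ) (Q : β) [DecidableEq β] :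
    Finsupp.mapDomain r E Q = ∑ v ∈ E.support, if r v = Q then E v else 0 := by
  rw [Finsupp.mapDomain, Finsupp.sum_apply, Finsupp.sum]
  refine Finset.sum_congr rfl fun v _ => ?_
  rw [Finsupp.single_apply]

theorem ev_mapDomain_nonneg {α β : Type*} (r : α → β) (E : α →₀ ℤ) (Q : β)
    (h : ∀ v, r v = Q → 0 ≤ E v) : 0 ≤ Finsupp.mapDomain r E Q := by
  classical
  rw [ev_mapDomain_apply]
  refine Finset.sum_nonneg fun v _ => ?_
  split_ifs with hv
  · exact h v hv
  · exact le_rfl

theorem ev_le_mapDomain {α β : Type*} (r : α → β) (E : α →₀ ℤ) (Q : β) (P : α) (hP : r P = Q)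
    (h : ∀ v, r v = Q → 0 ≤ E v) : E P ≤ Finsupp.mapDomain r E Q := by
  classical
  by_cases hPs : P ∈ E.support
  · rw [ev_mapDomain_apply]
    have h1 := Finset.single_le_sum (f := fun v => if r v = Q then E v else 0) (s := E.support)
      (fun v _ => by
        show 0 ≤ if r v = Q then E v else 0
        split_ifs with hv
        · exact h v hv
        · exact le_rfl) hPs
    simpa [hP] using h1
  · rw [Finsupp.notMem_support_iff.1 hPs]
    exact ev_mapDomain_nonneg r E Q h

/-- (EV0) `S37Lib.exists_rho` in terms of the genera -/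
theorem exists_isRho [IsAlgClosed K] [IsAlgClosed k] (hF : IsFF K F) (hFt : IsFF k Ft)
    (hres : Function.Surjective resK) (R : RedData A resK F Ft)
    (hg : genusR K F ≤ genusR k Ft) : ∃ r : Place K F → Place k Ft, IsRho R r := by
  refine Fermat.Agent.S37Lib.exists_rho hF hFt hres R (genusR K F) (riemann_inequality hF) ?_
  intro c
  obtain ⟨c', hc'⟩ := riemann_equality hFt
  obtain ⟨v⟩ := exists_place hFt
  refine ⟨Finsupp.single v (max c c'), ?_, ?_⟩
  · rw [degree_single' hFt]; exact le_max_left _ _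
  · have h1 := hc' (Finsupp.single v (max c c')) (by rw [degree_single' hFt]; exact le_max_right _ _)
    rw [h1]
    have : (genusR K F : ℤ) ≤ genusR k Ft := by exact_mod_cast hg
    omega

/-- (EV1) `D = div f`, `f = c u` (`R.exists_scale`), `div f = div u`, `red u ≠ 0` -/
theorem IsRho.isPrincipal {R : RedData A resK F Ft} {r : Place K F → Place k Ft} (hr : IsRho R r)
    {D : Divisor K F} (hD : Divisor.IsPrincipal D) :
    Divisor.IsPrincipal (Finsupp.mapDomain r D) := by
  obtain ⟨f, hf, hD⟩ := hD
  obtain ⟨c, hc, y, rfl⟩ := R.exists_scale f hf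
  have hy : R.red (y : R.O) ≠ 0 := (y.isUnit.map R.red).ne_zero
  have hy0 : (((y : R.O) : F)) ≠ 0 := right_ne_zero_of_mul hf
  have hc' : algebraMap K F c ≠ 0 := left_ne_zero_of_mul hf
  refine ⟨R.red (y : R.O), hy, hr (y : R.O) hy D fun v => ?_⟩
  rw [hD v, v.ord_mul hc' hy0, ord_algebraMap, zero_add]

/-- (EV2) -/
theorem IsRho.red_mem_L [IsAlgClosed K] (hF : IsFF K F) {R : RedData A resK F Ft}
    {r : Place K F → Place k Ft} (hr : IsRho R r) {D : Divisor K F} (u : R.O)
    (hu : ((u : R.O) : F) ∈ riemannRochSpace D) :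
    R.red u ∈ riemannRochSpace (Finsupp.mapDomain r D) := by
  by_cases h0 : R.red u = 0
  · rw [h0]; exact Submodule.zero_mem _
  have hu0 : ((u : R.O) : F) ≠ 0 := by
    intro h
    apply h0
    have : u = 0 := Subtype.ext h
    rw [this, map_zero]
  have h1 := hr u h0 (divOf K ((u : R.O) : F)) (fun v => divOf_apply hF _ v)
  rw [mem_L_iff]
  intro Q
  refine Or.inr ?_
  have h2 : 0 ≤ Finsupp.mapDomain r (divOf K ((u : R.O) : F) + D) Q := by
    refine ev_mapDomain_nonneg _ _ _ fun v _ => ?_
    rw [Finsupp.add_apply, divOf_apply hF]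
    rcases (mem_L_iff.1 hu) v with h | h
    · exact absurd h hu0
    · omega
  rw [Finsupp.mapDomain_add, Finsupp.add_apply, h1] at h2
  omega

/-- (EV3) semicontinuity: `finrank_redSpace` + (EV2) -/
theorem IsRho.ell_le [IsAlgClosed K] [IsAlgClosed k] (hF : IsFF K F) (hFt : IsFF k Ft)
    (hres : Function.Surjective resK) {R : RedData A resK F Ft}
    {r : Place K F → Place k Ft} (hr : IsRho R r) (D : Divisor K F) :
    FFLib.ell D ≤ FFLib.ell (Finsupp.mapDomain r D) := by
  have := finiteDimensional_L hF D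
  have := finiteDimensional_L hFt (Finsupp.mapDomain r D)
  have h1 := finrank_redSpace R hres (riemannRochSpace D)
  have h2 : redSpace R hres (riemannRochSpace D) ≤ riemannRochSpace (Finsupp.mapDomain r D) := by
    rintro a ⟨x, hx, rfl⟩
    exact hr.red_mem_L hF x hx
  have h3 := Submodule.finrank_mono h2
  rw [h1] at h3
  exact h3

/-- (EV4) -/
theorem degree_mapDomain [IsAlgClosed K] [IsAlgClosed k] (hF : IsFF K F) (hFt : IsFF k Ft)
    (r : Place K F → Place k Ft) (D : Divisor K F) :
    Divisor.degree (Finsupp.mapDomain r D) = Divisor.degree D := by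
  induction D using Finsupp.induction_linear with
  | zero => simp
  | add f g hf hg => rw [Finsupp.mapDomain_add, map_add, map_add, hf, hg]
  | single v n => rw [Finsupp.mapDomain_single, degree_single' hFt, degree_single' hF]

/-- (EV5) evaluation commutes with reduction.  If `c ∉ A` then `1 - u / c` has reduction `1`, so
`r_* (div (u - c)) = 0`; but `r P` occurs in `r_*` of the zeros and not in `r_*` of the poles.
So `c ∈ A`.  If `red (u - c) ≠ 0`: the coefficient of `r P` in `div (red (u - c)) = r_* div (u - c)`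
is `≥ 1`. -/
theorem IsRho.ev [IsAlgClosed K] [IsAlgClosed k] (hF : IsFF K F) (hFt : IsFF k Ft)
    (hres : Function.Surjective resK) {R : RedData A resK F Ft}
    {r : Place K F → Place k Ft} (hr : IsRho R r) (u : R.O) (P : Place K F)
    (hP : ∀ P' : Place K F, P'.ord ((u : R.O) : F) < 0 → r P' ≠ r P) (c : K)
    (hc : D2_ge P 1 (((u : R.O) : F) - algebraMap K F c)) :
    ∃ hcA : c ∈ A, D2_ge (r P) 1 (R.red u - algebraMap k Ft (resK ⟨c, hcA⟩)) := by
  -- orders of `u - c` at the places above `r P`
  have hge : ∀ v : Place K F, r v = r P → D2_ge v 0 (((u : R.O) : F) - algebraMap K F c) := by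
    intro v hv
    refine D2.ge_sub v (Or.inr ?_) (Or.inr (ord_algebraMap v c).ge)
    by_contra hlt
    exact hP v (not_le.1 hlt) hv
  have key : ∀ y : R.O, R.red y ≠ 0 → (∃ d : K, d ≠ 0 ∧
      ((y : R.O) : F) = algebraMap K F d * (((u : R.O) : F) - algebraMap K F c)) →
      1 ≤ (r P).ord (R.red y) := by
    rintro y hy ⟨d, hd, hyd⟩
    have hy0 : ((y : R.O) : F) ≠ 0 := by
      intro h
      apply hy
      have : y = 0 := Subtype.ext h
      rw [this, map_zero]
    have hd' : algebraMap K F d ≠ 0 := (map_ne_zero _).2 hd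
    have huc : ((u : R.O) : F) - algebraMap K F c ≠ 0 := by
      intro h
      rw [h, mul_zero] at hyd
      exact hy0 hyd
    have hord : ∀ v : Place K F, v.ord ((y : R.O) : F) =
        v.ord (((u : R.O) : F) - algebraMap K F c) := by
      intro v
      rw [hyd, v.ord_mul hd' huc, ord_algebraMap, zero_add]
    have h1 := hr y hy (divOf K ((y : R.O) : F)) (fun v => divOf_apply hF _ v) (r P)
    rw [← h1]
    have h2 := ev_le_mapDomain r (divOf K ((y : R.O) : F)) (r P) P rfl (fun v hv => by
      rw [divOf_apply hF, hord]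
      exact (hge v hv).resolve_left huc)
    rw [divOf_apply hF, hord] at h2
    exact (hc.resolve_left huc).trans h2
  have hcA : c ∈ A := by
    by_contra hcA
    obtain ⟨hinv, h0⟩ := bc_res_inv_eq_zero hres hcA
    have hc0 : c ≠ 0 := by
      rintro rfl
      exact hcA A.zero_mem
    have h1 := key (1 - R.const ⟨c⁻¹, hinv⟩ * u)
      (by rw [map_sub, map_one, map_mul, R.red_const, h0, map_zero, zero_mul, sub_zero]
          exact one_ne_zero)
      ⟨-c⁻¹, neg_ne_zero.2 (inv_ne_zero hc0), by
        show 1 - algebraMap K F c⁻¹ * ((u : R.O) : F) = _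
        rw [map_neg, mul_sub, neg_mul, neg_mul, ← map_mul, inv_mul_cancel₀ hc0, map_one]
        ring⟩
    rw [map_sub, map_one, map_mul, R.red_const, h0, map_zero, zero_mul, sub_zero,
      Place.ord_one] at h1
    omega
  refine ⟨hcA, ?_⟩
  by_cases h0 : R.red u - algebraMap k Ft (resK ⟨c, hcA⟩) = 0
  · exact Or.inl h0
  · refine Or.inr ?_
    have h1 := key (u - R.const ⟨c, hcA⟩) (by rw [map_sub, R.red_const]; exact h0)
      ⟨1, one_ne_zero, by rw [map_one, one_mul]; rfl⟩
    rwa [map_sub, R.red_const] at h1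

/-- (EV6) functions with a single pole and non constant reduction: `redSpace (L(n P))` has dimension
`ℓ(n P) ≥ 2` for large `n`. -/
theorem exists_nonconst_red [IsAlgClosed K] [IsAlgClosed k] (hF : IsFF K F) (hFt : IsFF k Ft)
    (hres : Function.Surjective resK) (R : RedData A resK F Ft) (P : Place K F) :
    ∃ u : R.O, (∀ P' : Place K F, P' ≠ P → 0 ≤ P'.ord ((u : R.O) : F)) ∧
      R.red u ∉ Set.range (algebraMap k Ft) := by
  classical
  set D : Divisor K F := Finsupp.single P ((genusR K F : ℤ) + 1) with hD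
  have := finiteDimensional_L hF D
  have h1 := finrank_redSpace R hres (riemannRochSpace D)
  have h2 : 2 ≤ Module.finrank K (riemannRochSpace D) := by
    have h3 := riemann_inequality hF D
    rw [hD, degree_single' hF] at h3
    have h4 : (2 : ℤ) ≤ (FFLib.ell (Finsupp.single P ((genusR K F : ℤ) + 1)) : ℤ) := by omega
    exact_mod_cast h4
  by_contra hcon
  push Not at hcon
  have h3 : redSpace R hres (riemannRochSpace D) ≤ Submodule.span k {(1 : Ft)} := by
    rintro a ⟨x, hx, rfl⟩
    have h4 : R.red x ∈ Set.range (algebraMap k Ft) := by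
      apply hcon x
      intro P' hP'
      rcases (mem_L_iff.1 hx) P' with h | h
      · rw [h, Place.ord_zero]
      · rw [hD, Finsupp.single_apply, if_neg (Ne.symm hP')] at h
        simpa using h
    obtain ⟨c, hc⟩ := h4
    rw [Submodule.mem_span_singleton]
    exact ⟨c, by rw [← hc, Algebra.smul_def, mul_one]⟩
  have h4 := Submodule.finrank_mono h3
  rw [h1, finrank_span_singleton one_ne_zero] at h4
  omega

/-- (EV7) the poles of `red u` lie in `r (poles of u)` -/
theorem IsRho.exists_pole [IsAlgClosed K] (hF : IsFF K F) {R : RedData A resK F Ft}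
    {r : Place K F → Place k Ft} (hr : IsRho R r) (u : R.O) (Q : Place k Ft)
    (hQ : Q.ord (R.red u) < 0) : ∃ P : Place K F, P.ord ((u : R.O) : F) < 0 ∧ r P = Q := by
  have h0 : R.red u ≠ 0 := by
    intro h
    rw [h, Place.ord_zero] at hQ
    exact lt_irrefl _ hQ
  have h1 := hr u h0 (divOf K ((u : R.O) : F)) (fun v => divOf_apply hF _ v) Q
  by_contra hcon
  push Not at hcon
  have h2 := ev_mapDomain_nonneg r (divOf K ((u : R.O) : F)) Q (fun v hv => by
    rw [divOf_apply hF]
    by_contra hlt
    exact hcon v (not_le.1 hlt) hv)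
  omega

end Fermat.Agent.S19Lib
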