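import Fermat.Agent.S19.CEBasic
import Fermat.Agent.S19.BC
import Fermat.Agent.S19.Chev

/-!
# S19 (GE): the genus is invariant under extension of the algebraically closed constant field
-/

set_option autoImplicit false

open AlgebraicCurve

namespace Fermat.Agent.S19Lib

open Fermat.Agent.S18Lib Fermat.Agent.S24Lib Fermat.Agent.FFLib Fermat.Agent.S34Lib

variable {K F K' F' : Type*} [Field K] [Field F] [Algebra K F] [Field K'] [Field F']
  [Algebra K' F']

/-- (GE0) equality of degrees: `≤` is `ce_finrank_le`; `≥`: a `K(x)`-basis... or use (GE2)'s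
`RedData` and `S18Lib.finrank_red_le`. -/
theorem CE.finrank_eq [IsAlgClosed K] [IsAlgClosed K'] (hF : IsFF K F) (hF' : IsFF K' F')
    (C : CE K F K' F') {x : F} (hx : Transcendental K x) :
    Module.finrank (IntermediateField.adjoin K' {C.ι x}) F' =
      Module.finrank (IntermediateField.adjoin K {x}) F := by
  have h1 := degree_poleDiv hF hx
  have h2 := degree_poleDiv hF' (C.transcendental hx)
  rw [← C.extD_poleDiv hF hF', C.degree_extD hF hF', h1] at h2
  exact_mod_cast h2.symm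

/-- (GE1) `x ∈ F` transcendental, `E = a (x)_∞`, `a` large:
`a d + 1 - g = ℓ(E) ≤ ℓ(extD E) = deg (extD E) + 1 - g' = a d + 1 - g'`
(`riemann_equality` twice, `CE.ell_le_extD`, `CE.degree_extD`). -/
theorem genusR_ce_le [IsAlgClosed K] [IsAlgClosed K'] (hF : IsFF K F) (hF' : IsFF K' F')
    (C : CE K F K' F') : genusR K' F' ≤ genusR K F := by
  obtain ⟨c, hc⟩ := riemann_equality hF
  obtain ⟨c', hc'⟩ := riemann_equality hF'
  obtain ⟨P⟩ := exists_place hF
  have h1 := hc (Finsupp.single P (max c c')) (by rw [degree_single' hF]; exact le_max_left _ _)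
  have h2 := hc' (C.extD hF hF' (Finsupp.single P (max c c')))
    (by rw [C.degree_extD hF hF', degree_single' hF]; exact le_max_right _ _)
  rw [C.degree_extD hF hF'] at h2
  have h3 : (FFLib.ell (Finsupp.single P (max c c')) : ℤ) ≤
      FFLib.ell (C.extD hF hF' (Finsupp.single P (max c c'))) := by
    exact_mod_cast C.ell_le_extD hF hF' _
  omega

/-- (GE2) a specialisation `RedData`: (CHEV) applied to `S = range C.i`, `φ = (C.i)⁻¹` gives
`(B, r)`; then (BC) with the trivial `RedData` of `F`, `C`, `Cb = CE.refl K F`. -/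
theorem exists_specRed [IsAlgClosed K] (C : CE K F K' F') (B : ValuationSubring K') (r : B →+* K)
    (hr : ∀ a, ∃ h : C.i a ∈ B, r ⟨C.i a, h⟩ = a) :
    ∃ R' : RedData B r F' F, ∀ x : F, ∃ h : C.ι x ∈ R'.O, R'.red ⟨C.ι x, h⟩ = x := by
  obtain ⟨R, hR⟩ := exists_trivRed K F
  have hres : Function.Surjective (⊤ : ValuationSubring K).subtype := fun a => ⟨⟨a, trivial⟩, rfl⟩
  have hres' : Function.Surjective r := fun a => ⟨_, (hr a).choose_spec⟩
  have V : VE (⊤ : ValuationSubring K) (⊤ : ValuationSubring K).subtype B r C.i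
      (CE.refl K F).i :=
    { mem_iff := fun a => ⟨fun _ => trivial, fun _ => (hr a).choose⟩
      res_comm := fun a h => (hr (a : K)).choose_spec }
  obtain ⟨R', hR'⟩ := exists_bc hres hres' R C (CE.refl K F) V
  refine ⟨R', fun x => ?_⟩
  obtain ⟨hx, hxr⟩ := hR x
  obtain ⟨h, hh⟩ := hR' ⟨x, hx⟩
  refine ⟨h, ?_⟩
  rw [hh, hxr]
  rfl

/-- (GE2') -/
theorem exists_spec0 [IsAlgClosed K] (i : K →+* K') :
    ∃ (B : ValuationSubring K') (r : B →+* K), ∀ a, ∃ h : i a ∈ B, r ⟨i a, h⟩ = a := by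
  let e : K ≃+* i.range := RingEquiv.ofBijective i.rangeRestrict
    ⟨fun a b h => i.injective (congrArg Subtype.val h), i.rangeRestrict_surjective⟩
  obtain ⟨B, r, hSB, hr⟩ := exists_valuationSubring_extending i.range (e.symm : i.range →+* K)
  refine ⟨B, r, fun a => ⟨hSB ⟨a, rfl⟩, ?_⟩⟩
  have h1 := hr ⟨i a, ⟨a, rfl⟩⟩
  rw [h1]
  exact e.symm_apply_apply a

/-- (GE3) with `R'` of (GE2), `X = ι x`, `red' X = x`: `S18Lib.red_mem_L_pole_zero` (its `hdeg` is
`ce_finrank_le`) gives `redSpace (L(a (ι x)_∞)) ⊆ L(a (x)_∞)`, so by `finrank_redSpace`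
`ℓ(a (ι x)_∞) ≤ ℓ(a (x)_∞)`; degrees agree (`CE.degree_extD`, `CE.extD_poleDiv`);
`riemann_equality` twice. -/
theorem genusR_ce_ge [IsAlgClosed K] [IsAlgClosed K'] (hF : IsFF K F) (hF' : IsFF K' F')
    (C : CE K F K' F') : genusR K F ≤ genusR K' F' := by
  obtain ⟨B, r, hr⟩ := exists_spec0 C.i
  obtain ⟨R', hR'⟩ := exists_specRed C B r hr
  have hres' : Function.Surjective r := fun a => ⟨_, (hr a).choose_spec⟩
  obtain ⟨x, hx, hfin⟩ := id hF
  obtain ⟨hX, hXred⟩ := hR' x
  obtain ⟨c, hc⟩ := riemann_equality hF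
  obtain ⟨c', hc'⟩ := riemann_equality hF'
  set a : ℕ := (max c c').toNat with ha
  have hd : (1 : ℤ) ≤ Divisor.degree (poleDiv K x) := by
    rw [degree_poleDiv hF hx]
    have : 0 < Module.finrank (IntermediateField.adjoin K {x}) F := Module.finrank_pos
    exact_mod_cast this
  have hd' : Divisor.degree (poleDiv K' (C.ι x)) = Divisor.degree (poleDiv K x) := by
    rw [← C.extD_poleDiv hF hF', C.degree_extD hF hF']
  have hale : max c c' ≤ (a : ℤ) * Divisor.degree (poleDiv K x) := by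
    have h1 : max c c' ≤ (a : ℤ) := Int.self_le_toNat _
    have h2 : (0 : ℤ) ≤ a := Int.natCast_nonneg _
    nlinarith
  have hdegE : Divisor.degree (a • poleDiv K x + 0 • zeroDiv K x) =
      (a : ℤ) * Divisor.degree (poleDiv K x) := by
    rw [zero_smul, add_zero, map_nsmul, nsmul_eq_mul]
  have hdegE' : Divisor.degree (a • poleDiv K' (C.ι x) + 0 • zeroDiv K' (C.ι x)) =
      (a : ℤ) * Divisor.degree (poleDiv K x) := by
    rw [zero_smul, add_zero, map_nsmul, nsmul_eq_mul, hd']
  have h1 := hc _ (by rw [hdegE]; exact (le_max_left _ _).trans hale)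
  have h2 := hc' _ (by rw [hdegE']; exact (le_max_right _ _).trans hale)
  rw [hdegE] at h1
  rw [hdegE'] at h2
  have := finiteDimensional_L hF' (a • poleDiv K' (C.ι x) + 0 • zeroDiv K' (C.ι x))
  have := finiteDimensional_L hF (a • poleDiv K x + 0 • zeroDiv K x)
  have h3 := finrank_redSpace R' hres'
    (riemannRochSpace (a • poleDiv K' (C.ι x) + 0 • zeroDiv K' (C.ι x)))
  have h4 : redSpace R' hres' (riemannRochSpace (a • poleDiv K' (C.ι x) + 0 • zeroDiv K' (C.ι x)))
      ≤ riemannRochSpace (a • poleDiv K x + 0 • zeroDiv K x) := by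
    rintro _ ⟨y, hy, rfl⟩
    have h5 := red_mem_L_pole_zero hF' hF R' ⟨C.ι x, hX⟩ (by rw [hXred]; exact hx)
      (by rw [hXred]; exact (C.finrank_eq hF hF' hx).le) a 0 y hy
    rwa [hXred] at h5
  have h5 := Submodule.finrank_mono h4
  rw [h3] at h5
  have h6 : (FFLib.ell (a • poleDiv K' (C.ι x) + 0 • zeroDiv K' (C.ι x)) : ℤ) ≤
      FFLib.ell (a • poleDiv K x + 0 • zeroDiv K x) := by
    exact_mod_cast h5
  omega

theorem genusR_ce [IsAlgClosed K] [IsAlgClosed K'] (hF : IsFF K F) (hF' : IsFF K' F')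
    (C : CE K F K' F') : genusR K' F' = genusR K F :=
  le_antisymm (genusR_ce_le hF hF' C) (genusR_ce_ge hF hF' C)

end Fermat.Agent.S19Lib
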