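import Fermat.Agent.S19.Pt
import Fermat.Agent.S19.Ev
import Fermat.Agent.S19.Genus

/-!
# S19 (KIT): Deuring reduction over the big valued field `(Ω, B, ω)`

Situation: `R` a `RedData` for `(F, Ft)` over `(K, A, k)`; `C : CE K F Ω FΩ`, `Cb : CE k Ft ω Ftω`;
`R'` a `RedData` for `(FΩ, Ftω)` over `(Ω, B, ω)` compatible with `R` (from (BC));
`r`, `r'` Deuring reductions for `R`, `R'`.
-/

set_option autoImplicit false

open AlgebraicCurve

namespace Fermat.Agent.S19Lib

open Fermat.Agent.S18Lib Fermat.Agent.S24Lib Fermat.Agent.FFLib Fermat.Agent.S34Lib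

section Kit

variable {K k F Ft Ω ω FΩ Ftω : Type*} [Field K] [Field k] [Field F] [Algebra K F] [Field Ft]
  [Algebra k Ft] [Field Ω] [Field ω] [Field FΩ] [Algebra Ω FΩ] [Field Ftω] [Algebra ω Ftω]
  [IsAlgClosed K] [IsAlgClosed k] [IsAlgClosed Ω] [IsAlgClosed ω]
  {A : ValuationSubring K} {resK : A →+* k} {B : ValuationSubring Ω} {resΩ : B →+* ω}

/-- the poles of `ι x` are the constant places above the poles of `x` -/
theorem kit_pole_ι (hF : IsFF K F) (hFΩ : IsFF Ω FΩ) (C : CE K F Ω FΩ) {x : F} {v : Place Ω FΩ}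
    (hv : v.ord (C.ι x) < 0) : ∃ P : Place K F, P.ord x < 0 ∧ v = C.extP hF hFΩ P := by
  rcases C.cst_or_pt hF hFΩ v with ⟨P, hP⟩ | ⟨e, he⟩
  · exact ⟨P, by rw [← hP x]; exact hv, hP.eq_extP hF hFΩ⟩
  · rw [he.ord_eq_zero] at hv
    exact absurd hv (lt_irrefl _)

/-- a function in `R.O` with its only pole at `P`, non constant reduction with a pole at `r P`
and no other pole -/
theorem kit_exists_u (hF : IsFF K F) (hFt : IsFF k Ft) (hres : Function.Surjective resK)
    (R : RedData A resK F Ft) {r : Place K F → Place k Ft} (hr : IsRho R r) (P : Place K F) :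
    ∃ u : R.O, (∀ P' : Place K F, P' ≠ P → 0 ≤ P'.ord ((u : R.O) : F)) ∧
      R.red u ∉ Set.range (algebraMap k Ft) ∧ (r P).ord (R.red u) < 0 ∧
      ∀ Q : Place k Ft, Q ≠ r P → 0 ≤ Q.ord (R.red u) := by
  obtain ⟨u, hu1, hu2⟩ := exists_nonconst_red hF hFt hres R P
  have key : ∀ Q : Place k Ft, Q.ord (R.red u) < 0 → Q = r P := by
    intro Q hQ
    obtain ⟨P0, hP0, hP0Q⟩ := hr.exists_pole hF u Q hQ
    have : P0 = P := by
      by_contra hne
      exact absurd (hu1 P0 hne) (not_le.mpr hP0)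
    rw [← hP0Q, this]
  obtain ⟨Q, hQ⟩ := ce3_exists_pole hFt (x := R.red u) (fun ⟨c, hc⟩ => hu2 ⟨c, hc⟩)
  refine ⟨u, hu1, hu2, ?_, ?_⟩
  · rw [← key Q hQ]; exact hQ
  · intro Q' hQ'
    by_contra hcon
    exact hQ' (key Q' (not_le.mp hcon))

/-- (K1) constant places reduce to constant places.  Take `u` of (EV6) for `P`; `ι u ∈ R'.O` has
reduction `ιb (red u)`, non constant; its poles are the `extP Q`, `Q` a pole of `red u`, and such
`Q` is `r P` (EV7 for `R`); by (EV7) for `R'` the pole `extP (r P)` is `r'` of a pole of `ι u`,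
and the only pole of `ι u` is `extP P` (CE7, CE4). -/
theorem rho_extP (hF : IsFF K F) (hFt : IsFF k Ft) (hFΩ : IsFF Ω FΩ) (hFtω : IsFF ω Ftω)
    (hres : Function.Surjective resK) (hresΩ : Function.Surjective resΩ)
    (R : RedData A resK F Ft) (C : CE K F Ω FΩ) (Cb : CE k Ft ω Ftω)
    (R' : RedData B resΩ FΩ Ftω)
    (hR' : ∀ x : R.O, ∃ h : C.ι (x : F) ∈ R'.O, R'.red ⟨C.ι (x : F), h⟩ = Cb.ι (R.red x))
    {r : Place K F → Place k Ft} (hr : IsRho R r) {r' : Place Ω FΩ → Place ω Ftω}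
    (hr' : IsRho R' r') (P : Place K F) :
    r' (C.extP hF hFΩ P) = Cb.extP hFt hFtω (r P) := by
  obtain ⟨u, hu1, -, hu3, -⟩ := kit_exists_u hF hFt hres R hr P
  obtain ⟨h, hred⟩ := hR' u
  have h1 : (Cb.extP hFt hFtω (r P)).ord (R'.red ⟨C.ι (u : F), h⟩) < 0 := by
    rw [hred, Cb.isCst_extP hFt hFtω (r P)]
    exact hu3
  obtain ⟨v, hv, hvr⟩ := hr'.exists_pole hFΩ ⟨C.ι (u : F), h⟩ _ h1
  obtain ⟨P0, hP0, rfl⟩ := kit_pole_ι hF hFΩ C hv
  have : P0 = P := by
    by_contra hne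
    exact absurd (hu1 P0 hne) (not_le.mpr hP0)
  rw [← this, hvr, this]

/-- (K1') -/
theorem rho_extD (hF : IsFF K F) (hFt : IsFF k Ft) (hFΩ : IsFF Ω FΩ) (hFtω : IsFF ω Ftω)
    (hres : Function.Surjective resK) (hresΩ : Function.Surjective resΩ)
    (R : RedData A resK F Ft) (C : CE K F Ω FΩ) (Cb : CE k Ft ω Ftω)
    (R' : RedData B resΩ FΩ Ftω)
    (hR' : ∀ x : R.O, ∃ h : C.ι (x : F) ∈ R'.O, R'.red ⟨C.ι (x : F), h⟩ = Cb.ι (R.red x))
    {r : Place K F → Place k Ft} (hr : IsRho R r) {r' : Place Ω FΩ → Place ω Ftω}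
    (hr' : IsRho R' r') (D : Divisor K F) :
    Finsupp.mapDomain r' (C.extD hF hFΩ D) = Cb.extD hFt hFtω (Finsupp.mapDomain r D) := by
  unfold CE.extD
  rw [← Finsupp.mapDomain_comp, ← Finsupp.mapDomain_comp]
  congr 1
  funext P
  exact rho_extP hF hFt hFΩ hFtω hres hresΩ R C Cb R' hR' hr hr' P

/-- (K2) if the reduction of the point of `e` is the point of `eb`, then `e` is isometric with
residue `eb`.  For `x ∈ R.O` apply (EV5) to `ι x`, `P = v`, `c = e x`: the poles of `ι x` are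
constant places, they reduce to constant places (K1), and `r' v` is a point (CE6).  Then
`ev_unique`. -/
theorem isom_of_rho_isPt (hF : IsFF K F) (hFt : IsFF k Ft) (hFΩ : IsFF Ω FΩ) (hFtω : IsFF ω Ftω)
    (hres : Function.Surjective resK) (hresΩ : Function.Surjective resΩ)
    (R : RedData A resK F Ft) (C : CE K F Ω FΩ) (Cb : CE k Ft ω Ftω)
    (R' : RedData B resΩ FΩ Ftω)
    (hR' : ∀ x : R.O, ∃ h : C.ι (x : F) ∈ R'.O, R'.red ⟨C.ι (x : F), h⟩ = Cb.ι (R.red x))
    {r : Place K F → Place k Ft} (hr : IsRho R r) {r' : Place Ω FΩ → Place ω Ftω}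
    (hr' : IsRho R' r') {e : F →+* Ω} {v : Place Ω FΩ} (hv : IsPt C e v) {eb : Ft →+* ω}
    (hvb : IsPt Cb eb (r' v)) : Isom R B resΩ e eb := by
  have key : ∀ x : R.O, ∃ h : e (x : F) ∈ B, resΩ ⟨e (x : F), h⟩ = eb (R.red x) := by
    intro x
    obtain ⟨h, hred⟩ := hR' x
    obtain ⟨hcA, hc⟩ := hr'.ev hFΩ hFtω hresΩ ⟨C.ι (x : F), h⟩ v (by
      intro P' hP' heq
      obtain ⟨P0, -, rfl⟩ := kit_pole_ι hF hFΩ C hP'
      rw [rho_extP hF hFt hFΩ hFtω hres hresΩ R C Cb R' hR' hr hr' P0] at heq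
      refine hvb.not_isCst hFt (r P0) ?_
      rw [← heq]
      exact Cb.isCst_extP hFt hFtω (r P0)) (e (x : F)) (hv (x : F))
    refine ⟨hcA, ?_⟩
    rw [hred] at hc
    exact ev_unique _ hc (hvb (R.red x))
  exact ⟨fun x => (key x).1, fun x h => (key x).2⟩

/-- (K3) the point of an isometric embedding `e` reduces to the point of its residue `eb`.
By (CE7) `r' v` is a constant place `extP Q` or the point of some `eb'`.  In the second case
`eb' = eb` by (K2).  In the first case choose a place `P₁` of `F` with `r P₁ ≠ Q` (`r` takes at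
least two values: zeros and poles of a non constant `red u`), `u` of (EV6) for `P₁`; (EV5) for
`ι u` at `v` gives `res (e u) = ` value of `ιb (red u)` at `extP Q`, a constant of `k`;
but `res (e u) = eb (red u)` is not in `Cb.i k` since `red u` is not constant and `eb` injective. -/
theorem rho_isPt_of_isom (hF : IsFF K F) (hFt : IsFF k Ft) (hFΩ : IsFF Ω FΩ) (hFtω : IsFF ω Ftω)
    (hres : Function.Surjective resK) (hresΩ : Function.Surjective resΩ)
    (R : RedData A resK F Ft) (C : CE K F Ω FΩ) (Cb : CE k Ft ω Ftω)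
    (R' : RedData B resΩ FΩ Ftω)
    (hR' : ∀ x : R.O, ∃ h : C.ι (x : F) ∈ R'.O, R'.red ⟨C.ι (x : F), h⟩ = Cb.ι (R.red x))
    {r : Place K F → Place k Ft} (hr : IsRho R r) {r' : Place Ω FΩ → Place ω Ftω}
    (hr' : IsRho R' r') {e : F →+* Ω} {v : Place Ω FΩ} (hv : IsPt C e v) {eb : Ft →+* ω}
    (heb : ∀ a, eb (algebraMap k Ft a) = Cb.i a) (he : Isom R B resΩ e eb) :
    IsPt Cb eb (r' v) := by
  rcases Cb.cst_or_pt hFt hFtω (r' v) with ⟨Q, hQ⟩ | ⟨eb', heb'⟩
  · exfalso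
    -- a place `Q' ≠ Q` of `Ft`
    obtain ⟨Q', hQ'⟩ : ∃ Q' : Place k Ft, Q' ≠ Q := by
      obtain ⟨x, hx1, hx2⟩ := ce3_exists_only_pole hFt Q
      have hx0 : x ≠ 0 := by
        rintro rfl
        exact hx1 ⟨0, map_zero _⟩
      obtain ⟨Q', hQ'⟩ := ce3_exists_pole hFt (x := x⁻¹) (by
        rintro ⟨c, hc⟩
        exact hx1 ⟨c⁻¹, by rw [map_inv₀, hc, inv_inv]⟩)
      obtain ⟨Q1, hQ1⟩ := ce3_exists_pole hFt hx1
      have hQ1Q : Q1 = Q := by
        by_contra hne
        exact absurd (hx2 Q1 hne) (not_le.mpr hQ1)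
      refine ⟨Q', ?_⟩
      rintro rfl
      rw [Place.ord_inv] at hQ'
      rw [hQ1Q] at hQ1
      omega
    -- `r` is surjective
    obtain ⟨P₁, hP₁⟩ : ∃ P₁ : Place K F, r P₁ = Q' := by
      obtain ⟨x, hx1, hx2⟩ := ce3_exists_only_pole hFt Q'
      obtain ⟨Q1, hQ1⟩ := ce3_exists_pole hFt hx1
      have hQ1Q : Q1 = Q' := by
        by_contra hne
        exact absurd (hx2 Q1 hne) (not_le.mpr hQ1)
      obtain ⟨u, rfl⟩ := R.red_surjective x
      obtain ⟨P₁, -, hP₁⟩ := hr.exists_pole hF u Q1 hQ1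
      exact ⟨P₁, by rw [hP₁, hQ1Q]⟩
    obtain ⟨u, hu1, hu2, -, hu4⟩ := kit_exists_u hF hFt hres R hr P₁
    obtain ⟨h, hred⟩ := hR' u
    have hvQ : r' v = Cb.extP hFt hFtω Q := hQ.eq_extP hFt hFtω
    obtain ⟨hcA, hc⟩ := hr'.ev hFΩ hFtω hresΩ ⟨C.ι (u : F), h⟩ v (by
      intro P' hP' heq
      obtain ⟨P0, hP0, rfl⟩ := kit_pole_ι hF hFΩ C hP'
      have hP01 : P0 = P₁ := by
        by_contra hne
        exact absurd (hu1 P0 hne) (not_le.mpr hP0)
      rw [rho_extP hF hFt hFΩ hFtω hres hresΩ R C Cb R' hR' hr hr' P0, hvQ, hP01, hP₁] at heq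
      exact hQ' (Cb.extP_injective hFt hFtω heq)) (e (u : F)) (hv (u : F))
    rw [hred, he.res u hcA] at hc
    have hQu : 0 ≤ Q.ord (R.red u) := hu4 Q (by rw [hP₁]; exact hQ'.symm)
    have h2 := evP_spec hFt Q (a := R.red u) (Or.inr hQu)
    have h3 : D2_ge (r' v) 1 (Cb.ι (R.red u) - algebraMap ω Ftω (Cb.i (evP Q (R.red u)))) := by
      rw [← Cb.comm, ← map_sub]
      rcases h2 with h2 | h2
      · left; rw [h2, map_zero]
      · right; rw [hQ]; exact h2
    have h4 := ev_unique _ hc h3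
    rw [← heb] at h4
    exact hu2 ⟨_, (eb.injective h4).symm⟩
  · have h1 := isom_of_rho_isPt hF hFt hFΩ hFtω hres hresΩ R C Cb R' hR' hr hr' hv heb'
    have : eb = eb' := by
      ext x
      obtain ⟨u, rfl⟩ := R.red_surjective x
      rw [← he.res u (he.mem u), ← h1.res u (he.mem u)]
    rw [this]
    exact heb'

end Kit

section SpecKit

variable {K F K' F' : Type*} [Field K] [Field F] [Algebra K F] [Field K'] [Field F']
  [Algebra K' F'] [IsAlgClosed K] [IsAlgClosed K']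

/-- the valuation ring of a place, as a subalgebra -/
def kitT (Q : Place K F) : Subalgebra K F :=
  { Q.toValuationSubring.toSubring.toSubsemiring with algebraMap_mem' := Q.algebraMap_mem' }

omit [IsAlgClosed K] in
theorem mem_kitT (Q : Place K F) (f : F) : f ∈ kitT Q ↔ 0 ≤ Q.ord f :=
  mem_valuationSubring_iff Q f

/-- evaluation at a place, as a ring homomorphism -/
noncomputable def kitEv (hF : IsFF K F) (Q : Place K F) : kitT Q →+* K where
  toFun f := evP Q (f : F)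
  map_one' := by
    have := evP_algebraMap Q (1 : K)
    rwa [map_one] at this
  map_zero' := by
    have := evP_algebraMap Q (0 : K)
    rwa [map_zero] at this
  map_add' f g := evP_add hF Q (Or.inr ((mem_kitT Q _).mp f.2)) (Or.inr ((mem_kitT Q _).mp g.2))
  map_mul' f g := evP_mul hF Q (Or.inr ((mem_kitT Q _).mp f.2)) (Or.inr ((mem_kitT Q _).mp g.2))

/-- (SP) specialisation of independent generic points to arbitrary points: `Indep.exists_hom` with
`T i =` the valuation ring of `Q i`, `a i = evP (Q i)`, `b = id`; then (CHEV). -/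
theorem exists_spec (hF : IsFF K F) (j : K →+* K') {g : ℕ} (e : Fin g → F →+* K')
    (he : ∀ i a, e i (algebraMap K F a) = j a) (hind : Indep j e) (Q : Fin g → Place K F) :
    ∃ (B : ValuationSubring K') (r : B →+* K), (∀ a, ∃ h : j a ∈ B, r ⟨j a, h⟩ = a) ∧
      ∀ (i : Fin g) (f : F), 0 ≤ (Q i).ord f → ∃ h : e i f ∈ B, r ⟨e i f, h⟩ = evP (Q i) f := by
  obtain ⟨φ, hφ1, hφ2⟩ := hind.exists_hom he (fun i => kitT (Q i)) (fun i => kitEv hF (Q i))
    (RingHom.id K) (fun i x => evP_algebraMap (Q i) x)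
  obtain ⟨B, r, hSB, hr⟩ := exists_valuationSubring_extending _ φ
  refine ⟨B, r, fun a => ?_, fun i f hf => ?_⟩
  · have h : j a ∈ Subring.closure (Set.range j ∪ ⋃ i, (e i) '' (kitT (Q i) : Set F)) :=
      Subring.subset_closure (Or.inl ⟨a, rfl⟩)
    refine ⟨hSB h, ?_⟩
    rw [hr ⟨j a, h⟩, hφ1 a h]
    rfl
  · have hf' : f ∈ kitT (Q i) := (mem_kitT (Q i) f).mpr hf
    have h : e i f ∈ Subring.closure (Set.range j ∪ ⋃ i, (e i) '' (kitT (Q i) : Set F)) :=
      Subring.subset_closure (Or.inr (Set.mem_iUnion.mpr ⟨i, ⟨f, hf', rfl⟩⟩))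
    refine ⟨hSB h, ?_⟩
    rw [hr ⟨e i f, h⟩, hφ2 i ⟨f, hf'⟩ h]
    rfl

/-- (SK) the specialisation kit.  `(B, r)` from (SP), `R'` from (GE2), `rho` from (EV0)
(`genusR_ce`).  Clauses: (EV1); (EV3); (K1)-type argument with `r = id` (or directly: `f` with only
pole at `P`: `rho_* (div (ι f)) = div f`); for the points: if `rho v = Q₁ ≠ Q i` take `f` regular at
both with different values (`weak_approximation`), (EV5) gives `r (e i f) = f(Q₁)`, (SP) gives
`f(Q i)`; last clause = (EV5) (the poles of `ι f` are the `extP P'`, `P'` a pole of `f`, and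
`rho (extP P') = P' ≠ rho v`). -/
theorem exists_spec_kit (hF : IsFF K F) (hF' : IsFF K' F') (C : CE K F K' F') {g : ℕ}
    (e : Fin g → F →+* K') (he : ∀ i a, e i (algebraMap K F a) = C.i a) (hind : Indep C.i e)
    (Q : Fin g → Place K F) :
    ∃ (B : ValuationSubring K') (r : B →+* K) (rho : Place K' F' → Place K F),
      (∀ a, ∃ h : C.i a ∈ B, r ⟨C.i a, h⟩ = a) ∧
      (∀ D' : Divisor K' F', Divisor.IsPrincipal D' →
        Divisor.IsPrincipal (Finsupp.mapDomain rho D')) ∧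
      (∀ D' : Divisor K' F', FFLib.ell D' ≤ FFLib.ell (Finsupp.mapDomain rho D')) ∧
      (∀ P, rho (C.extP hF hF' P) = P) ∧
      (∀ i v, IsPt C (e i) v → rho v = Q i) ∧
      (∀ (e' : F →+* K') (v : Place K' F'), IsPt C e' v → ∀ f : F, 0 ≤ (rho v).ord f →
        ∃ h : e' f ∈ B, r ⟨e' f, h⟩ = evP (rho v) f) := by
  classical
  obtain ⟨B, r, hr1, hr2⟩ := exists_spec hF C.i e he hind Q
  obtain ⟨R', hR'⟩ := exists_specRed C B r hr1
  have hsurj : Function.Surjective r := fun a => ⟨_, (hr1 a).2⟩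
  obtain ⟨rho, hrho⟩ := exists_isRho hF' hF hsurj R' (genusR_ce_le hF hF' C)
  have h4 : ∀ P, rho (C.extP hF hF' P) = P := by
    intro P
    obtain ⟨x, hx1, hx2⟩ := ce3_exists_only_pole hF P
    obtain ⟨Q1, hQ1⟩ := ce3_exists_pole hF hx1
    have hQ1P : Q1 = P := by
      by_contra hne
      exact absurd (hx2 Q1 hne) (not_le.mpr hQ1)
    obtain ⟨h, hred⟩ := hR' x
    obtain ⟨v, hv, hvr⟩ := hrho.exists_pole hF' ⟨C.ι x, h⟩ P (by rw [hred, ← hQ1P]; exact hQ1)
    obtain ⟨P0, hP0, rfl⟩ := kit_pole_ι hF hF' C hv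
    have : P0 = P := by
      by_contra hne
      exact absurd (hx2 P0 hne) (not_le.mpr hP0)
    rw [← this, hvr, this]
  have h6 : ∀ (e' : F →+* K') (v : Place K' F'), IsPt C e' v → ∀ f : F, 0 ≤ (rho v).ord f →
      ∃ h : e' f ∈ B, r ⟨e' f, h⟩ = evP (rho v) f := by
    intro e' v hv f hf
    obtain ⟨h, hred⟩ := hR' f
    obtain ⟨hcA, hc⟩ := hrho.ev hF' hF hsurj ⟨C.ι f, h⟩ v (by
      intro P' hP' heq
      obtain ⟨P0, hP0, rfl⟩ := kit_pole_ι hF hF' C hP'
      rw [h4] at heq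
      rw [← heq] at hf
      exact absurd hf (not_le.mpr hP0)) (e' f) (hv f)
    rw [hred] at hc
    exact ⟨hcA, (evP_eq_of _ hc).symm⟩
  refine ⟨B, r, rho, hr1, fun D' hD' => hrho.isPrincipal hD', fun D' => hrho.ell_le hF' hF hsurj D',
    h4, ?_, h6⟩
  intro i v hv
  by_contra hne
  obtain ⟨z, hz⟩ := weak_approximation ({rho v, Q i} : Finset (Place K F))
    (fun w => if w = rho v then 0 else 1) (fun _ => 1)
  have hz1 := hz (rho v) (by simp)
  have hz2 := hz (Q i) (by simp)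
  simp only [if_true, sub_zero] at hz1
  rw [if_neg (fun h => hne h.symm)] at hz2
  have e1 : evP (rho v) z = 0 := evP_eq_of _ (Or.inr (by rw [map_zero, sub_zero, hz1.2]))
  have e2 : evP (Q i) z = 1 := evP_eq_of _ (Or.inr (by rw [map_one, hz2.2]))
  have o2 : 0 ≤ (Q i).ord z := by
    rw [← mem_valuationSubring_iff]
    have h1 : z - 1 ∈ (Q i).toValuationSubring := by
      rw [mem_valuationSubring_iff, hz2.2]; exact zero_le_one
    have := add_mem h1 (one_mem _)
    rwa [sub_add_cancel] at this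
  obtain ⟨h, hh⟩ := h6 (e i) v hv z (by rw [hz1.2]; exact zero_le_one)
  obtain ⟨h', hh'⟩ := hr2 i z o2
  rw [e1] at hh
  rw [e2, hh] at hh'
  exact zero_ne_one hh'

omit [IsAlgClosed K] [IsAlgClosed K'] in
theorem kit_indep_zero (j : K →+* K') (e : Fin 0 → F →+* K') : Indep j e := by
  intro m b _ lam h
  funext ν
  have hν : ∀ μ : Fin 0 → Fin m, μ = ν := fun μ => Subsingleton.elim _ _
  rw [Fintype.sum_eq_single ν (fun μ hμ => absurd (hν μ) hμ)] at h
  simpa using h

theorem kit_mapDomain_extD (hF : IsFF K F) (hF' : IsFF K' F') (C : CE K F K' F')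
    {rho : Place K' F' → Place K F} (h : ∀ P, rho (C.extP hF hF' P) = P) (D : Divisor K F) :
    Finsupp.mapDomain rho (C.extD hF hF' D) = D := by
  unfold CE.extD
  rw [← Finsupp.mapDomain_comp]
  have : rho ∘ C.extP hF hF' = id := funext h
  rw [this, Finsupp.mapDomain_id]

/-- (SK') `ℓ` is invariant under constant field extension: (CE13) and (SK) with `g = 0` -/
theorem CE.ell_extD (hF : IsFF K F) (hF' : IsFF K' F') (C : CE K F K' F') (D : Divisor K F) :
    FFLib.ell (C.extD hF hF' D) = FFLib.ell D := by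
  obtain ⟨B, r, rho, -, -, h3, h4, -, -⟩ := exists_spec_kit hF hF' C (g := 0)
    (fun i => i.elim0) (fun i => i.elim0) (kit_indep_zero C.i _) (fun i => i.elim0)
  refine le_antisymm ?_ (C.ell_le_extD hF hF' D)
  have := h3 (C.extD hF hF' D)
  rwa [kit_mapDomain_extD hF hF' C h4] at this

/-- (SK'') descent of principal divisors -/
theorem CE.isPrincipal_of_extD (hF : IsFF K F) (hF' : IsFF K' F') (C : CE K F K' F')
    {D : Divisor K F} (hD : Divisor.IsPrincipal (C.extD hF hF' D)) : Divisor.IsPrincipal D := by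
  obtain ⟨B, r, rho, -, h2, -, h4, -, -⟩ := exists_spec_kit hF hF' C (g := 0)
    (fun i => i.elim0) (fun i => i.elim0) (kit_indep_zero C.i _) (fun i => i.elim0)
  have := h2 _ hD
  rwa [kit_mapDomain_extD hF hF' C h4] at this

end SpecKit

end Fermat.Agent.S19Lib
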