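import Fermat.Agent.S19.UP
import Fermat.Agent.S19.BC_Orth

/-!
# S19 (CC): the Gauss norm on `K(e_1 F, ..., e_g F)` for a good tuple
-/

set_option autoImplicit false

open AlgebraicCurve

namespace Fermat.Agent.S19Lib

open Fermat.Agent.S18Lib Fermat.Agent.S24Lib Fermat.Agent.FFLib Fermat.Agent.S34Lib

variable {K k F Ft Ω ω : Type*} [Field K] [Field k] [Field F] [Algebra K F] [Field Ft]
  [Algebra k Ft] [Field Ω] [Field ω]
  {A : ValuationSubring K} {resK : A →+* k} {B : ValuationSubring Ω} {resΩ : B →+* ω}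

/-- (N0) a finite family in a valued field has an element of largest absolute value -/
theorem exists_max_val {L : Type*} [Field L] (A : ValuationSubring L) {ι : Type*} [Finite ι]
    (lam : ι → L) (h : lam ≠ 0) : ∃ ν0, lam ν0 ≠ 0 ∧ ∀ ν, lam ν / lam ν0 ∈ A := by
  classical
  have : Fintype ι := Fintype.ofFinite ι
  obtain ⟨ν1, hν1⟩ : ∃ ν, lam ν ≠ 0 := by
    by_contra hcon
    push Not at hcon
    exact h (funext hcon)
  obtain ⟨ν0, -, h0, hall⟩ := exists_scale_finset A Finset.univ lam ⟨ν1, Finset.mem_univ _, hν1⟩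
  exact ⟨ν0, h0, fun ν => hall ν (Finset.mem_univ _)⟩

/-- the residue of an integral combination of products -/
theorem Good.N_res {R : RedData A resK F Ft} {j : K →+* Ω} {jb : k →+* ω}
    (V : VE A resK B resΩ j jb) {g : ℕ}
    {e : Fin g → F →+* Ω} {eb : Fin g → Ft →+* ω} (h : Good R B resΩ j jb e eb) {m : ℕ}
    (b : Fin m → R.O) (μ : (Fin g → Fin m) → A) :
    ∃ hS : (∑ ν, j ((μ ν : A) : K) * ∏ i, e i ((b (ν i) : R.O) : F)) ∈ B,
      resΩ ⟨_, hS⟩ = ∑ ν, jb (resK (μ ν)) * ∏ i, eb i (R.red (b (ν i))) := by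
  have hj : ∀ ν, j ((μ ν : A) : K) ∈ B := fun ν => (V.mem_iff _).2 (μ ν).2
  have he : ∀ i a, e i ((b a : R.O) : F) ∈ B := fun i a => (h.isom i).mem (b a)
  let S : B := ∑ ν, (⟨_, hj ν⟩ : B) * ∏ i, (⟨_, he i (ν i)⟩ : B)
  have hS : ((S : B) : Ω) = ∑ ν, j ((μ ν : A) : K) * ∏ i, e i ((b (ν i) : R.O) : F) := by
    show B.subtype S = _
    rw [map_sum]
    refine Finset.sum_congr rfl fun ν _ => ?_
    rw [map_mul, map_prod]
    rfl
  refine ⟨hS ▸ S.2, ?_⟩
  have hS' : (⟨_, hS ▸ S.2⟩ : B) = S := Subtype.ext hS.symm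
  rw [hS']
  show resΩ (∑ ν, (⟨_, hj ν⟩ : B) * ∏ i, (⟨_, he i (ν i)⟩ : B)) = _
  rw [map_sum]
  refine Finset.sum_congr rfl fun ν _ => ?_
  rw [map_mul, map_prod, V.res_comm]
  congr 1
  refine Finset.prod_congr rfl fun i _ => ?_
  exact (h.isom i).res (b (ν i)) _

/-- (N1) products of an orthonormal family are orthonormal. -/
theorem Good.mem_iff (hres : Function.Surjective resK) (hresΩ : Function.Surjective resΩ)
    {R : RedData A resK F Ft} {j : K →+* Ω} {jb : k →+* ω} (V : VE A resK B resΩ j jb) {g : ℕ}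
    {e : Fin g → F →+* Ω} {eb : Fin g → Ft →+* ω} (h : Good R B resΩ j jb e eb) {m : ℕ}
    (b : Fin m → R.O) (hb : LinearIndependent k (fun a => R.red (b a)))
    (lam : (Fin g → Fin m) → K) :
    (∑ ν, j (lam ν) * ∏ i, e i ((b (ν i) : R.O) : F)) ∈ B ↔ ∀ ν, lam ν ∈ A := by
  constructor
  · intro hS
    by_contra hcon
    push Not at hcon
    obtain ⟨ν1, hν1⟩ := hcon
    have hlam : lam ≠ 0 := by
      rintro rfl
      exact hν1 A.zero_mem
    obtain ⟨ν0, h0, hall⟩ := exists_max_val A lam hlam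
    have h0A : lam ν0 ∉ A := by
      intro hA
      apply hν1
      have : lam ν1 = lam ν1 / lam ν0 * lam ν0 := by field_simp
      rw [this]
      exact A.mul_mem _ _ (hall ν1) hA
    obtain ⟨hinv, hres0⟩ := bc_res_inv_eq_zero hres h0A
    obtain ⟨hS', hr⟩ := h.N_res V b (fun ν => ⟨lam ν / lam ν0, hall ν⟩)
    have hjinv : j (lam ν0)⁻¹ ∈ B := (V.mem_iff _).2 hinv
    have e1 : (⟨_, hS'⟩ : B) = ⟨_, hjinv⟩ * ⟨_, hS⟩ := by
      apply Subtype.ext
      show ∑ ν, j (lam ν / lam ν0) * ∏ i, e i ((b (ν i) : R.O) : F) =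
        j (lam ν0)⁻¹ * ∑ ν, j (lam ν) * ∏ i, e i ((b (ν i) : R.O) : F)
      rw [Finset.mul_sum]
      refine Finset.sum_congr rfl fun ν _ => ?_
      rw [div_eq_inv_mul, map_mul, mul_assoc]
    rw [e1, map_mul, V.res_comm ⟨_, hinv⟩ hjinv, hres0, map_zero, zero_mul] at hr
    have h2 := h.indep m _ hb (fun ν => resK ⟨lam ν / lam ν0, hall ν⟩) hr.symm
    have h3 := congrFun h2 ν0
    have h4 : (⟨lam ν0 / lam ν0, hall ν0⟩ : A) = 1 := Subtype.ext (div_self h0)
    simp only [h4, map_one, Pi.zero_apply] at h3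
    exact one_ne_zero h3
  · intro hA
    exact (h.N_res V b (fun ν => ⟨lam ν, hA ν⟩)).1

/-- an element of a valuation ring whose inverse is in the ring is a unit -/
theorem N_isUnit {L : Type*} [Field L] (A : ValuationSubring L) {x : L} (hx : x ∈ A) (hx0 : x ≠ 0)
    (hx' : x⁻¹ ∈ A) : IsUnit (⟨x, hx⟩ : A) :=
  IsUnit.of_mul_eq_one (⟨x⁻¹, hx'⟩ : A) (Subtype.ext (mul_inv_cancel₀ hx0))

theorem N_inv_mem_of_isUnit {L : Type*} [Field L] (A : ValuationSubring L) {x : L} (hx : x ∈ A)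
    (h : IsUnit (⟨x, hx⟩ : A)) : x⁻¹ ∈ A := by
  obtain ⟨u, hu⟩ := h
  have h1 : ((u⁻¹ : Aˣ) : A) * (⟨x, hx⟩ : A) = 1 := by rw [← hu]; simp
  have h2 : (((u⁻¹ : Aˣ) : A) : L) * x = 1 := congrArg Subtype.val h1
  rw [← eq_inv_of_mul_eq_one_left h2]
  exact ((u⁻¹ : Aˣ) : A).2

/-- (N2) [hypothesis `hne` added: the statement is false for `lam ν0 = 0`] -/
theorem Good.inv_mem (hres : Function.Surjective resK) (hresΩ : Function.Surjective resΩ)
    {R : RedData A resK F Ft} {j : K →+* Ω} {jb : k →+* ω} (V : VE A resK B resΩ j jb) {g : ℕ}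
    {e : Fin g → F →+* Ω} {eb : Fin g → Ft →+* ω} (h : Good R B resΩ j jb e eb) {m : ℕ}
    (b : Fin m → R.O) (hb : LinearIndependent k (fun a => R.red (b a)))
    (lam : (Fin g → Fin m) → K) (hlam : ∀ ν, lam ν ∈ A) (ν0 : Fin g → Fin m)
    (hne : lam ν0 ≠ 0) (h0 : (lam ν0)⁻¹ ∈ A) :
    (∑ ν, j (lam ν) * ∏ i, e i ((b (ν i) : R.O) : F))⁻¹ ∈ B := by
  obtain ⟨hS, hr⟩ := h.N_res V b (fun ν => ⟨lam ν, hlam ν⟩)
  refine N_inv_mem_of_isUnit B hS ?_
  by_contra hnu
  rw [(resK_eq_zero_iff hresΩ _).2 hnu] at hr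
  have h2 := h.indep m _ hb (fun ν => resK ⟨lam ν, hlam ν⟩) hr.symm
  have h3 : resK ⟨lam ν0, hlam ν0⟩ = 0 := congrFun h2 ν0
  exact (resK_eq_zero_iff hres _).1 h3 (N_isUnit A (hlam ν0) hne h0)

/-- (N3) every finite family of `F` lies in the span of an orthonormal family (`R.exists_orth`) -/
theorem exists_orth_family (R : RedData A resK F Ft) {n : ℕ} (f : Fin n → F) :
    ∃ (m : ℕ) (b : Fin m → R.O), LinearIndependent k (fun a => R.red (b a)) ∧
      ∀ t, ∃ c : Fin m → K, f t = ∑ a, c a • ((b a : R.O) : F) :=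
  bc_exists_orth_span R f

/-- (N4) representation of finitely many elements of `K[e_1 F, ..., e_g F]` in one orthonormal
product basis: `Indep.exists_rep` + (N3) + multilinear expansion -/
theorem exists_rep_orth (R : RedData A resK F Ft) {j : K →+* Ω} {g : ℕ} {e : Fin g → F →+* Ω}
    (he : ∀ i a, e i (algebraMap K F a) = j a) {n : ℕ} (z : Fin n → Ω)
    (hz : ∀ t, z t ∈ Subring.closure (Set.range j ∪ ⋃ i, Set.range (e i))) :
    ∃ (m : ℕ) (b : Fin m → R.O), LinearIndependent k (fun a => R.red (b a)) ∧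
      ∀ t, ∃ lam : (Fin g → Fin m) → K,
        z t = ∑ ν, j (lam ν) * ∏ i, e i ((b (ν i) : R.O) : F) := by
  obtain ⟨m', b', -, hrep⟩ := Indep.exists_rep he z hz
  obtain ⟨m, b, hb, hco⟩ := exists_orth_family R b'
  choose γ hγ using hco
  refine ⟨m, b, hb, fun t => ?_⟩
  obtain ⟨lam, hlam⟩ := hrep t
  refine ⟨fun μ => ∑ ν, lam ν * ∏ i, γ (ν i) (μ i), ?_⟩
  rw [hlam, ← up_expand j (fun _ => m) lam (fun i ν l => γ (ν i) l)
    (fun i l => e i ((b l : R.O) : F))]
  refine Finset.sum_congr rfl fun ν _ => ?_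
  congr 1
  refine Finset.prod_congr rfl fun i _ => ?_
  rw [hγ (ν i), map_sum]
  refine Finset.sum_congr rfl fun l _ => ?_
  rw [up_e_smul he]

/-- (ISO) an automorphism carrying a good tuple to a good tuple preserves the Gauss norm. -/
theorem iso_of_good (hres : Function.Surjective resK) (hresΩ : Function.Surjective resΩ)
    {R : RedData A resK F Ft} {j : K →+* Ω} {jb : k →+* ω} (V : VE A resK B resΩ j jb) {g : ℕ}
    {e e' : Fin g → F →+* Ω} {eb eb' : Fin g → Ft →+* ω} (h : Good R B resΩ j jb e eb)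
    (h' : Good R B resΩ j jb e' eb') (s : Ω ≃+* Ω) (hsj : ∀ a, s (j a) = j a)
    (hse : ∀ i f, s (e i f) = e' i f) (z : Ω)
    (hz : z ∈ Subfield.closure (Set.range j ∪ ⋃ i, Set.range (e i))) (hzB : z ∈ B) :
    s z ∈ B := by
  obtain ⟨N, hN, Δ, hΔ, rfl⟩ := Subfield.mem_closure_iff.1 hz
  by_cases hΔ0 : Δ = 0
  · rw [hΔ0, div_zero, map_zero]
    exact B.zero_mem
  obtain ⟨m, b, hb, hrep⟩ := exists_rep_orth R h.comm ![N, Δ] (by
    intro t
    fin_cases t
    · exact hN
    · exact hΔ)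
  obtain ⟨lamN, hlamN⟩ := hrep 0
  obtain ⟨lamΔ, hlamΔ⟩ := hrep 1
  simp only [Matrix.cons_val_zero, Matrix.cons_val_one] at hlamN hlamΔ
  have hlamΔ0 : lamΔ ≠ 0 := by
    rintro rfl
    apply hΔ0
    rw [hlamΔ]
    simp
  obtain ⟨ν0, h0, hall⟩ := exists_max_val A lamΔ hlamΔ0
  set c := lamΔ ν0 with hc
  have hjc : j c ≠ 0 := (map_ne_zero j).2 h0
  -- scaled sums
  have hscale : ∀ (e₁ : Fin g → F →+* Ω) (lam : (Fin g → Fin m) → K),
      ∑ ν, j (lam ν / c) * ∏ i, e₁ i ((b (ν i) : R.O) : F) =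
        (∑ ν, j (lam ν) * ∏ i, e₁ i ((b (ν i) : R.O) : F)) / j c := by
    intro e₁ lam
    rw [Finset.sum_div]
    refine Finset.sum_congr rfl fun ν _ => ?_
    rw [map_div₀]
    ring
  have hs : ∀ lam : (Fin g → Fin m) → K,
      s (∑ ν, j (lam ν) * ∏ i, e i ((b (ν i) : R.O) : F)) =
        ∑ ν, j (lam ν) * ∏ i, e' i ((b (ν i) : R.O) : F) := by
    intro lam
    rw [map_sum]
    refine Finset.sum_congr rfl fun ν _ => ?_
    rw [map_mul, hsj, map_prod]
    congr 1
    exact Finset.prod_congr rfl fun i _ => hse i _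
  have hone : (lamΔ ν0 / c)⁻¹ ∈ A := by
    rw [hc, div_self h0, inv_one]
    exact A.one_mem
  have hone0 : lamΔ ν0 / c ≠ 0 := by
    rw [hc, div_self h0]
    exact one_ne_zero
  have hΔ'B : (∑ ν, j (lamΔ ν / c) * ∏ i, e i ((b (ν i) : R.O) : F)) ∈ B :=
    (h.mem_iff hres hresΩ V b hb _).2 hall
  have hN'B : (∑ ν, j (lamN ν / c) * ∏ i, e i ((b (ν i) : R.O) : F)) ∈ B := by
    have : (∑ ν, j (lamN ν / c) * ∏ i, e i ((b (ν i) : R.O) : F)) =
        N / Δ * ∑ ν, j (lamΔ ν / c) * ∏ i, e i ((b (ν i) : R.O) : F) := by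
      rw [hscale, hscale, ← hlamN, ← hlamΔ]
      field_simp
    rw [this]
    exact B.mul_mem _ _ hzB hΔ'B
  have hNA := (h.mem_iff hres hresΩ V b hb _).1 hN'B
  have h1 : (∑ ν, j (lamN ν / c) * ∏ i, e' i ((b (ν i) : R.O) : F)) ∈ B :=
    (h'.mem_iff hres hresΩ V b hb _).2 hNA
  have h2 := h'.inv_mem hres hresΩ V b hb (fun ν => lamΔ ν / c) hall ν0 hone0 hone
  have h3 : s (N / Δ) = (∑ ν, j (lamN ν / c) * ∏ i, e' i ((b (ν i) : R.O) : F)) *
      (∑ ν, j (lamΔ ν / c) * ∏ i, e' i ((b (ν i) : R.O) : F))⁻¹ := by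
    rw [hscale, hscale, ← hs, ← hs, ← hlamN, ← hlamΔ, map_div₀]
    have : s Δ ≠ 0 := (map_ne_zero s).2 hΔ0
    field_simp
  rw [h3]
  exact B.mul_mem _ _ h1 h2

theorem ECH_aux {L : Type*} [Field L] (A₀ : ValuationSubring L) {ι : Type*} [Finite ι]
    (r : ℕ) (w : Fin r → ι → L) :
    ∃ (r' : ℕ) (u : Fin r' → ι → L) (piv : Fin r' → ι), (∀ t ν, u t ν ∈ A₀) ∧
      (∀ t t', u t (piv t') = if t = t' then 1 else 0) ∧
      Submodule.span L (Set.range u) = Submodule.span L (Set.range w) := by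
  classical
  induction r with
  | zero => exact ⟨0, w, Fin.elim0, fun t => t.elim0, fun t => t.elim0, rfl⟩
  | succ r ih =>
    obtain ⟨r', u, piv, hA, hpiv, hspan⟩ := ih (fun i => w i.succ)
    set W := Submodule.span L (Set.range w) with hW
    have hwW : ∀ i, w i ∈ W := fun i => Submodule.subset_span ⟨i, rfl⟩
    have huW : ∀ t, u t ∈ W := by
      intro t
      have h1 : u t ∈ Submodule.span L (Set.range u) := Submodule.subset_span ⟨t, rfl⟩
      rw [hspan] at h1
      refine Submodule.span_mono ?_ h1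
      rintro _ ⟨i, rfl⟩
      exact ⟨i.succ, rfl⟩
    set x := w 0 with hx
    set v : ι → L := x - ∑ t, x (piv t) • u t with hv
    have hvpiv : ∀ t', v (piv t') = 0 := by
      intro t'
      rw [hv, Pi.sub_apply, Finset.sum_apply]
      simp only [Pi.smul_apply, smul_eq_mul, hpiv, mul_ite, mul_one, mul_zero,
        Finset.sum_ite_eq', Finset.mem_univ, if_true, sub_self]
    have hxv : x = v + ∑ t, x (piv t) • u t := by rw [hv]; abel
    by_cases hv0 : v = 0
    · refine ⟨r', u, piv, hA, hpiv, le_antisymm ?_ ?_⟩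
      · rw [Submodule.span_le]
        rintro _ ⟨t, rfl⟩
        exact huW t
      · rw [hW, Submodule.span_le]
        rintro _ ⟨i, rfl⟩
        refine Fin.cases ?_ (fun i => ?_) i
        · show x ∈ _
          rw [hxv, hv0, zero_add]
          exact Submodule.sum_mem _ fun t _ =>
            Submodule.smul_mem _ _ (Submodule.subset_span ⟨t, rfl⟩)
        · rw [hspan]
          exact Submodule.subset_span ⟨i, rfl⟩
    · obtain ⟨ν0, h0, hall⟩ := exists_max_val A₀ v hv0
      set v' : ι → L := (v ν0)⁻¹ • v with hv'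
      have hv'A : ∀ ν, v' ν ∈ A₀ := by
        intro ν
        have : v' ν = v ν / v ν0 := by
          rw [hv', Pi.smul_apply, smul_eq_mul, div_eq_inv_mul]
        rw [this]
        exact hall ν
      have hv'0 : v' ν0 = 1 := by
        rw [hv', Pi.smul_apply, smul_eq_mul, inv_mul_cancel₀ h0]
      have hv'piv : ∀ t', v' (piv t') = 0 := by
        intro t'
        rw [hv', Pi.smul_apply, hvpiv, smul_zero]
      have hvv' : v = (v ν0) • v' := by
        rw [hv', smul_smul, mul_inv_cancel₀ h0, one_smul]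
      have hv'W : v' ∈ W := by
        refine W.smul_mem _ (W.sub_mem (hwW 0) ?_)
        exact W.sum_mem fun t _ => W.smul_mem _ (huW t)
      refine ⟨r' + 1, Fin.cons v' (fun t => u t - u t ν0 • v'), Fin.cons ν0 piv, ?_, ?_, ?_⟩
      · intro t ν
        refine Fin.cases ?_ (fun t => ?_) t
        · exact hv'A ν
        · simp only [Fin.cons_succ, Pi.sub_apply, Pi.smul_apply, smul_eq_mul]
          exact A₀.sub_mem (hA t ν) (A₀.mul_mem _ _ (hA t ν0) (hv'A ν))
      · intro t t'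
        refine Fin.cases ?_ (fun t => ?_) t <;> refine Fin.cases ?_ (fun t' => ?_) t'
        · simp [hv'0]
        · simp only [Fin.cons_zero, Fin.cons_succ, hv'piv]
          rw [if_neg (Fin.succ_ne_zero t').symm]
        · simp only [Fin.cons_zero, Fin.cons_succ, Pi.sub_apply, Pi.smul_apply, smul_eq_mul, hv'0,
            mul_one, sub_self]
          rw [if_neg (Fin.succ_ne_zero t)]
        · simp only [Fin.cons_succ, Pi.sub_apply, Pi.smul_apply, smul_eq_mul, hv'piv, mul_zero,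
            sub_zero, hpiv, Fin.succ_inj]
      · set U'' := Submodule.span L
          (Set.range (Fin.cons v' (fun t => u t - u t ν0 • v') : Fin (r' + 1) → ι → L)) with hU''
        have hv'U : v' ∈ U'' := Submodule.subset_span ⟨0, rfl⟩
        have huU : ∀ t, u t ∈ U'' := by
          intro t
          have h1 : u t - u t ν0 • v' ∈ U'' := Submodule.subset_span ⟨t.succ, rfl⟩
          have : u t = (u t - u t ν0 • v') + u t ν0 • v' := by abel
          rw [this]
          exact U''.add_mem h1 (U''.smul_mem _ hv'U)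
        apply le_antisymm
        · rw [hU'', Submodule.span_le]
          rintro _ ⟨t, rfl⟩
          refine Fin.cases ?_ (fun t => ?_) t
          · exact hv'W
          · exact W.sub_mem (huW t) (W.smul_mem _ hv'W)
        · rw [hW, Submodule.span_le]
          rintro _ ⟨i, rfl⟩
          refine Fin.cases ?_ (fun i => ?_) i
          · show x ∈ U''
            rw [hxv, hvv']
            exact U''.add_mem (U''.smul_mem _ hv'U)
              (U''.sum_mem fun t _ => U''.smul_mem _ (huU t))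
          · have h1 : w i.succ ∈ Submodule.span L (Set.range fun i : Fin r => w i.succ) :=
              Submodule.subset_span ⟨i, rfl⟩
            rw [← hspan] at h1
            refine (Submodule.span_le.2 ?_) h1
            rintro _ ⟨t, rfl⟩
            exact huU t

/-- (ECH) -/
theorem exists_echelon {L : Type*} [Field L] (A₀ : ValuationSubring L) {ι : Type*} [Finite ι]
    {r : ℕ} (w : Fin r → ι → L) :
    ∃ (r' : ℕ) (u : Fin r' → ι → L) (piv : Fin r' → ι), (∀ t ν, u t ν ∈ A₀) ∧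
      (∀ t t', u t (piv t') = if t = t' then 1 else 0) ∧
      (∀ i, ∃ c : Fin r' → L, w i = ∑ t, c t • u t) ∧
      (∀ t, ∃ c : Fin r → L, u t = ∑ i, c i • w i) := by
  obtain ⟨r', u, piv, hA, hpiv, hspan⟩ := ECH_aux A₀ r w
  refine ⟨r', u, piv, hA, hpiv, fun i => ?_, fun t => ?_⟩
  · have h1 : w i ∈ Submodule.span L (Set.range w) := Submodule.subset_span ⟨i, rfl⟩
    rw [← hspan] at h1
    obtain ⟨c, hc⟩ := (Submodule.mem_span_range_iff_exists_fun L).1 h1
    exact ⟨c, hc.symm⟩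
  · have h1 : u t ∈ Submodule.span L (Set.range u) := Submodule.subset_span ⟨t, rfl⟩
    rw [hspan] at h1
    obtain ⟨c, hc⟩ := (Submodule.mem_span_range_iff_exists_fun L).1 h1
    exact ⟨c, hc.symm⟩

end Fermat.Agent.S19Lib
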