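import Fermat.Agent.S19.Defs

/-!
# S19: the package `(Ω, B, ω)` with a good tuple of `g` generic points
-/

set_option autoImplicit false

open AlgebraicCurve

namespace Fermat.Agent.S19Lib

open Fermat.Agent.S18Lib Fermat.Agent.S24Lib Fermat.Agent.FFLib Fermat.Agent.S34Lib

/-- an algebraically closed valued extension `(Ω, B, ω)` of `(K, A, k)` with a good tuple of `g`
generic points of `F`, algebraic over the field they generate -/
structure Pkg {K k F Ft : Type} [Field K] [Field k] [Field F] [Algebra K F] [Field Ft]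
    [Algebra k Ft] {A : ValuationSubring K} {resK : A →+* k} (R : RedData A resK F Ft)
    (g : ℕ) : Type 1 where
  /-- the big field -/
  Ω : Type
  /-- its residue field -/
  ω : Type
  [fΩ : Field Ω]
  [fω : Field ω]
  [acΩ : IsAlgClosed Ω]
  [acω : IsAlgClosed ω]
  j : K →+* Ω
  jb : k →+* ω
  B : ValuationSubring Ω
  resΩ : B →+* ω
  hresΩ : Function.Surjective resΩ
  ve : VE A resK B resΩ j jb
  e : Fin g → F →+* Ω
  eb : Fin g → Ft →+* ω
  good : Good R B resΩ j jb e eb
  alg : ∀ z : Ω, IsAlgebraic (Subfield.closure (Set.range j ∪ ⋃ i, Set.range (e i))) z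

attribute [instance] Pkg.fΩ Pkg.fω Pkg.acΩ Pkg.acω

end Fermat.Agent.S19Lib
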