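import Fermat.Agent.S19.CEBasic
import Fermat.Agent.S19.Chev

/-!
# S19 (PT): the point of `F'` attached to an embedding `e : F → K'`
-/

set_option autoImplicit false
set_option linter.style.haveILetI false

open AlgebraicCurve

namespace Fermat.Agent.S19Lib

open Fermat.Agent.S18Lib Fermat.Agent.S24Lib Fermat.Agent.FFLib Fermat.Agent.S34Lib

variable {K F K' F' : Type*} [Field K] [Field F] [Algebra K F] [Field K'] [Field F']
  [Algebra K' F']

/-- (PT1) existence.  `φ : C.ring → K'` from `CE.exists_hom` with `a = e`, `b = id`.  Its kernel `𝔪`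
is a nonzero prime (`ι t - e t ≠ 0` for `t` transcendental, by `CE.hconst`).
`Ideal.image_subset_nonunits_valuationSubring` (or `LocalSubring.exists_le_valuationSubring`) gives
a valuation subring `O ⊇ C.ring` of `F'` in which the elements of `𝔪` are non units; `O ≠ ⊤`,
`K' ⊆ O`: `exists_place_of_valuationSubring`. -/
theorem exists_isPt [IsAlgClosed K'] (hF : IsFF K F) (hF' : IsFF K' F') (C : CE K F K' F')
    (e : F →+* K') (he : ∀ a, e (algebraMap K F a) = C.i a) : ∃ v : Place K' F', IsPt C e v := by
  obtain ⟨φ, hφι, hφc⟩ := C.exists_hom e (RingHom.id K') (fun x => by rw [he]; rfl)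
  obtain ⟨B, r, hSB, hr⟩ := exists_valuationSubring_extending C.ring φ
  have hιR : ∀ f, C.ι f ∈ C.ring := fun f => Subring.subset_closure (Or.inl ⟨f, rfl⟩)
  have hcR : ∀ c, algebraMap K' F' c ∈ C.ring := fun c => Subring.subset_closure (Or.inr ⟨c, rfl⟩)
  have hzR : ∀ f, C.ι f - algebraMap K' F' (e f) ∈ C.ring :=
    fun f => C.ring.sub_mem (hιR f) (hcR _)
  have hrz : ∀ f, r ⟨C.ι f - algebraMap K' F' (e f), hSB (hzR f)⟩ = 0 := by
    intro f
    rw [hr ⟨_, hzR f⟩]
    have : (⟨C.ι f - algebraMap K' F' (e f), hzR f⟩ : C.ring) =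
        ⟨C.ι f, hιR f⟩ - ⟨algebraMap K' F' (e f), hcR _⟩ := rfl
    rw [this, map_sub, hφι, hφc]
    simp
  have hnonunit : ∀ (z : F') (hz : z ∈ B), r ⟨z, hz⟩ = 0 → z ≠ 0 → z⁻¹ ∉ B := by
    intro z hz hr0 hz0 hinv
    have h1 : (⟨z, hz⟩ : B) * ⟨z⁻¹, hinv⟩ = 1 := Subtype.ext (mul_inv_cancel₀ hz0)
    have h2 := congrArg r h1
    rw [map_mul, hr0, zero_mul, map_one] at h2
    exact zero_ne_one h2
  have hB : B ≠ ⊤ := by
    intro htop
    obtain ⟨t, ht, -⟩ := hF
    have hz0 : C.ι t - algebraMap K' F' (e t) ≠ 0 := by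
      intro h0
      obtain ⟨a, ha⟩ := C.hconst t ⟨e t, (sub_eq_zero.1 h0).symm⟩
      exact ht (ha ▸ isAlgebraic_algebraMap a)
    exact hnonunit _ (hSB (hzR t)) (hrz t) hz0 (by rw [htop]; trivial)
  obtain ⟨v, hv⟩ := exists_place_of_valuationSubring hF' B (fun c => hSB (hcR c)) hB
  refine ⟨v, fun f => ?_⟩
  by_cases hz0 : C.ι f - algebraMap K' F' (e f) = 0
  · exact Or.inl hz0
  refine Or.inr ?_
  have h1 : 0 ≤ v.ord (C.ι f - algebraMap K' F' (e f)) := by
    rw [← mem_valuationSubring_iff, hv]
    exact hSB (hzR f)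
  have h2 : ¬ 0 ≤ v.ord (C.ι f - algebraMap K' F' (e f))⁻¹ := by
    rw [← mem_valuationSubring_iff, hv]
    exact hnonunit _ (hSB (hzR f)) (hrz f) hz0
  rw [Place.ord_inv] at h2
  omega

/-- (PT2) uniqueness, characteristic zero.  Let `t ∈ F` be transcendental, `d = [F : K(t)]`,
`z = ι t - e t`.  There are exactly `d` embeddings `e'` of `F` with `e' = C.i` on `K` and
`e' t = e t` (separable; `K'` algebraically closed; `e t` is transcendental over `C.i K`), each has a
point (PT1), which is a zero of `z`; different embeddings have different points (`IsPt.eq_of`);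
`deg (z)_0 = [F' : K'(z)] = [F' : K'(ι t)] ≤ d` (`degree_zeroDiv`, `ce_finrank_le`).  A second point
of `e` would be a `(d+1)`-st zero. -/
theorem IsPt.unique [CharZero K] [IsAlgClosed K] [IsAlgClosed K'] (hF : IsFF K F)
    (hF' : IsFF K' F') {C : CE K F K' F'} {e : F →+* K'} {v v' : Place K' F'} (h : IsPt C e v)
    (h' : IsPt C e v') : v = v' := by
  classical
  by_contra hne
  obtain ⟨t, ht, hfin⟩ := id hF
  letI : Algebra (IntermediateField.adjoin K {t}) K' :=
    (e.comp (algebraMap (IntermediateField.adjoin K {t}) F)).toAlgebra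
  haveI : CharZero (IntermediateField.adjoin K {t}) :=
    charZero_of_injective_algebraMap (algebraMap K (IntermediateField.adjoin K {t})).injective
  let σ₀ : F →ₐ[IntermediateField.adjoin K {t}] K' := { e with commutes' := fun _ => rfl }
  have hσK : ∀ (σ : F →ₐ[IntermediateField.adjoin K {t}] K') (a : K),
      (σ : F →+* K') (algebraMap K F a) = C.i a := by
    intro σ a
    have h1 : algebraMap K F a = algebraMap (IntermediateField.adjoin K {t}) F
        (algebraMap K (IntermediateField.adjoin K {t}) a) := rfl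
    rw [h1]
    have h2 := σ.commutes (algebraMap K (IntermediateField.adjoin K {t}) a)
    rw [RingHom.coe_coe, h2]
    exact h.comm a
  have hσt : ∀ σ : F →ₐ[IntermediateField.adjoin K {t}] K', σ t = e t := by
    intro σ
    have h2 := σ.commutes (IntermediateField.AdjoinSimple.gen K t)
    rw [IntermediateField.AdjoinSimple.algebraMap_gen] at h2
    rw [h2]
    show e (algebraMap (IntermediateField.adjoin K {t}) F (IntermediateField.AdjoinSimple.gen K t))
      = e t
    rw [IntermediateField.AdjoinSimple.algebraMap_gen]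
  have hex : ∀ σ : F →ₐ[IntermediateField.adjoin K {t}] K', ∃ p : Place K' F',
      IsPt C (σ : F →+* K') p := fun σ => exists_isPt hF hF' C _ (hσK σ)
  choose w₀ hw₀ using hex
  set w := Function.update w₀ σ₀ v with hw
  have hwpt : ∀ σ, IsPt C ((σ : F →ₐ[IntermediateField.adjoin K {t}] K') : F →+* K') (w σ) := by
    intro σ
    by_cases hσ : σ = σ₀
    · rw [hσ, hw, Function.update_self]
      exact h
    · rw [hw, Function.update_of_ne hσ]
      exact hw₀ σ
  have hwinj : Function.Injective w := by
    intro σ σ' hσ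
    have h1 := hwpt σ
    rw [hσ] at h1
    exact AlgHom.coe_ringHom_injective (h1.eq_of (hwpt σ'))
  have hv' : v' ∉ Finset.univ.image w := by
    intro hmem
    obtain ⟨σ, -, hσ⟩ := Finset.mem_image.1 hmem
    have h1 := hwpt σ
    rw [hσ] at h1
    have h2 : (σ : F →+* K') = (σ₀ : F →+* K') := h1.eq_of h'
    have h3 : σ = σ₀ := AlgHom.coe_ringHom_injective h2
    rw [h3, hw, Function.update_self] at hσ
    exact hne hσ
  have hztr : Transcendental K' (C.ι t - algebraMap K' F' (e t)) := by
    intro halg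
    apply C.transcendental ht
    have := halg.add (isAlgebraic_algebraMap (e t))
    simpa using this
  have hz0 : C.ι t - algebraMap K' F' (e t) ≠ 0 := fun h0 => hztr (h0 ▸ isAlgebraic_zero)
  have hpos : ∀ p ∈ insert v' (Finset.univ.image w),
      1 ≤ p.ord (C.ι t - algebraMap K' F' (e t)) := by
    intro p hp
    rcases Finset.mem_insert.1 hp with rfl | hp
    · exact (h' t).resolve_left hz0
    · obtain ⟨σ, -, rfl⟩ := Finset.mem_image.1 hp
      have h1 := hwpt σ t
      rw [RingHom.coe_coe, hσt σ] at h1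
      exact h1.resolve_left hz0
  have h1 := sum_ord_le_finrank hF' hztr (insert v' (Finset.univ.image w))
    (fun p hp => by have := hpos p hp; omega)
  have h2 : ((insert v' (Finset.univ.image w)).card : ℤ) ≤
      ∑ p ∈ insert v' (Finset.univ.image w), p.ord (C.ι t - algebraMap K' F' (e t)) := by
    have := Finset.card_nsmul_le_sum (insert v' (Finset.univ.image w))
      (fun p => p.ord (C.ι t - algebraMap K' F' (e t))) 1 hpos
    simpa using this
  have h3 : (insert v' (Finset.univ.image w)).card =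
      Module.finrank (IntermediateField.adjoin K {t}) F + 1 := by
    rw [Finset.card_insert_of_notMem hv', Finset.card_image_of_injective _ hwinj, Finset.card_univ,
      AlgHom.card]
  have h4 : IntermediateField.adjoin K' {C.ι t - algebraMap K' F' (e t)} =
      IntermediateField.adjoin K' {C.ι t} := by
    apply le_antisymm
    · rw [IntermediateField.adjoin_simple_le_iff]
      exact sub_mem (IntermediateField.mem_adjoin_simple_self K' _)
        (IntermediateField.algebraMap_mem _ _)
    · rw [IntermediateField.adjoin_simple_le_iff]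
      have := add_mem (IntermediateField.mem_adjoin_simple_self K'
        (C.ι t - algebraMap K' F' (e t)))
        (IntermediateField.algebraMap_mem
          (IntermediateField.adjoin K' {C.ι t - algebraMap K' F' (e t)}) (e t))
      simpa using this
  rw [h4] at h1
  have h5 := (ce_finrank_le C.i C.ι C.comm C.gen t hfin).2
  rw [h3] at h2
  have h6 : ((Module.finrank (IntermediateField.adjoin K' {C.ι t}) F' : ℕ) : ℤ) ≤
      (Module.finrank (IntermediateField.adjoin K {t}) F : ℕ) := by exact_mod_cast h5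
  push_cast at h2
  omega

/-- (PT3) evaluation at a point -/
theorem IsPt.evP_eq {C : CE K F K' F'} {e : F →+* K'} {v : Place K' F'} (h : IsPt C e v) (f : F) :
    evP v (C.ι f) = e f :=
  evP_eq_of v (h f)

/-- (PT4) semilinear automorphisms: points -/
theorem IsPt.smul {C : CE K F K' F'} {e : F →+* K'} {v : Place K' F'} (h : IsPt C e v)
    (Θ : SemilinearAut K' F') (φ : F ≃+* F) (hΘ : ∀ f, Θ • C.ι f = C.ι (φ f)) :
    IsPt C (((SemilinearAut.baseAut Θ : K' ≃+* K') : K' →+* K').comp
      (e.comp (φ.symm : F →+* F))) (Θ • v) := by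
  intro f
  have h1 : C.ι f - algebraMap K' F' ((((SemilinearAut.baseAut Θ : K' ≃+* K') : K' →+* K').comp
      (e.comp (φ.symm : F →+* F))) f) =
      Θ • (C.ι (φ.symm f) - algebraMap K' F' (e (φ.symm f))) := by
    rw [smul_sub, hΘ, RingEquiv.apply_symm_apply, SemilinearAut.smul_algebraMap]
    rfl
  rw [h1]
  rcases h (φ.symm f) with h0 | h0
  · exact Or.inl (by rw [h0, smul_zero])
  · exact Or.inr (by rw [SemilinearAut.ord_smul]; exact h0)

/-- (PT5) semilinear automorphisms: constant places -/
theorem IsCst.smul {C : CE K F K' F'} {P : Place K F} {v : Place K' F'} (h : IsCst C P v)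
    (Θ : SemilinearAut K' F') (φ : SemilinearAut K F) (hΘ : ∀ f, Θ • C.ι f = C.ι (φ • f)) :
    IsCst C (φ • P) (Θ • v) := by
  intro f
  have h1 : f = φ • (φ⁻¹ • f) := (smul_inv_smul φ f).symm
  rw [h1, ← hΘ, SemilinearAut.ord_smul, SemilinearAut.ord_smul]
  exact h _

/-- (PT6) -/
theorem CE.smul_extD [IsAlgClosed K] [IsAlgClosed K'] (hF : IsFF K F) (hF' : IsFF K' F')
    (C : CE K F K' F') (Θ : SemilinearAut K' F') (φ : SemilinearAut K F)
    (hΘ : ∀ f, Θ • C.ι f = C.ι (φ • f)) (D : Divisor K F) :
    Θ • C.extD hF hF' D = C.extD hF hF' (φ • D) := by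
  unfold CE.extD
  rw [SemilinearAut.divisor_smul_def, SemilinearAut.divisor_smul_def, ← Finsupp.mapDomain_comp,
    ← Finsupp.mapDomain_comp]
  congr 1
  funext P
  exact ((C.isCst_extP hF hF' P).smul Θ φ hΘ).eq_extP hF hF'

end Fermat.Agent.S19Lib
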