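import Fermat.Agent.S19.SF

/-!
# S19 (TR): the key theorem.  Translating a good tuple of generic points by a constant divisor class
of degree zero gives a good tuple.
-/

set_option autoImplicit false

open AlgebraicCurve

namespace Fermat.Agent.S19Lib

open Fermat.Agent.S18Lib Fermat.Agent.S24Lib Fermat.Agent.FFLib Fermat.Agent.S34Lib

variable {K k F Ft Ω ω FΩ Ftω : Type*} [Field K] [Field k] [Field F] [Algebra K F] [Field Ft]
  [Algebra k Ft] [Field Ω] [Field ω] [Field FΩ] [Algebra Ω FΩ] [Field Ftω] [Algebra ω Ftω]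
  [IsAlgClosed K] [IsAlgClosed k] [IsAlgClosed Ω] [IsAlgClosed ω]
  {A : ValuationSubring K} {resK : A →+* k} {B : ValuationSubring Ω} {resΩ : B →+* ω}

/-- (TR0) good reduction: the genera agree.  `≤` given; `≥`: (EV0) (EV3) (EV4) and
`riemann_equality` on both sides. -/
theorem genusR_eq_of_le (hF : IsFF K F) (hFt : IsFF k Ft) (hres : Function.Surjective resK)
    (R : RedData A resK F Ft) (hg : genusR K F ≤ genusR k Ft) : genusR K F = genusR k Ft := by
  refine le_antisymm hg ?_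
  obtain ⟨r, hr⟩ := exists_isRho hF hFt hres R hg
  obtain ⟨c, hc⟩ := riemann_equality hF
  obtain ⟨c', hc'⟩ := riemann_equality hFt
  obtain ⟨v⟩ := exists_place hF
  have h1 := hc (Finsupp.single v (max c c')) (by rw [degree_single' hF]; exact le_max_left _ _)
  have h2 := hc' (Finsupp.mapDomain r (Finsupp.single v (max c c')))
    (by rw [degree_mapDomain hF hFt, degree_single' hF]; exact le_max_right _ _)
  rw [degree_mapDomain hF hFt] at h2
  have h3 : (FFLib.ell (Finsupp.single v (max c c')) : ℤ) ≤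
      FFLib.ell (Finsupp.mapDomain r (Finsupp.single v (max c c'))) := by
    exact_mod_cast hr.ell_le hF hFt hres _
  omega

omit [IsAlgClosed K] [IsAlgClosed k] [IsAlgClosed Ω] [IsAlgClosed ω] in
/-- independence on families with independent reductions -/
theorem TR_core {R : RedData A resK F Ft} {j : K →+* Ω} {jb : k →+* ω}
    (V : VE A resK B resΩ j jb) {g : ℕ}
    {e : Fin g → F →+* Ω} {eb : Fin g → Ft →+* ω} (h : Good R B resΩ j jb e eb) (M : ℕ)
    (c : Fin M → R.O) (hc : LinearIndependent k (fun s => R.red (c s)))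
    (lam : (Fin g → Fin M) → K)
    (hrel : ∑ μ, j (lam μ) * ∏ i, e i ((c (μ i) : R.O) : F) = 0) : lam = 0 := by
  classical
  by_contra hne
  have hex : ∃ μ ∈ Finset.univ, lam μ ≠ 0 := by
    by_contra hcon
    push Not at hcon
    exact hne (funext fun μ => hcon μ (Finset.mem_univ _))
  obtain ⟨μ0, -, h0, hA⟩ := exists_scale_finset A Finset.univ lam hex
  let a : (Fin g → Fin M) → A := fun μ => ⟨lam μ / lam μ0, hA μ (Finset.mem_univ _)⟩
  have hmemj : ∀ μ, j (a μ : K) ∈ B := fun μ => (V.mem_iff _).2 (a μ).2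
  have hzero : (∑ μ, (⟨j (a μ : K), hmemj μ⟩ : B) *
      ∏ i, (⟨e i ((c (μ i) : R.O) : F), (h.isom i).mem _⟩ : B)) = 0 := by
    apply Subtype.ext
    push_cast
    have h1 : ∀ μ, j (lam μ / lam μ0) * ∏ i, e i ((c (μ i) : R.O) : F) =
        (j (lam μ0))⁻¹ * (j (lam μ) * ∏ i, e i ((c (μ i) : R.O) : F)) := by
      intro μ
      rw [map_div₀]
      ring
    show ∑ μ, j (lam μ / lam μ0) * ∏ i, e i ((c (μ i) : R.O) : F) = 0
    simp_rw [h1]
    rw [← Finset.mul_sum, hrel, mul_zero]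
  have h2 := congrArg resΩ hzero
  rw [map_sum, map_zero] at h2
  have h3 : ∑ μ, jb (resK (a μ)) * ∏ i, eb i (R.red (c (μ i))) = 0 := by
    rw [← h2]
    refine Finset.sum_congr rfl fun μ _ => ?_
    rw [map_mul, map_prod, V.res_comm]
    congr 1
    refine Finset.prod_congr rfl fun i _ => ?_
    rw [(h.isom i).res]
  have h4 := h.indep M _ hc (fun μ => resK (a μ)) h3
  have h5 := congrFun h4 μ0
  have h6 : a μ0 = 1 := Subtype.ext (div_self h0)
  simp [h6] at h5

omit [IsAlgClosed K] [IsAlgClosed Ω] in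
/-- change of basis -/
theorem TR_change {j : K →+* Ω} {g : ℕ} {e : Fin g → F →+* Ω}
    (he : ∀ i a, e i (algebraMap K F a) = j a) (m : ℕ) (b : Fin m → F)
    (hb : LinearIndependent K b) (M : ℕ) (cc : Fin M → F) (γ : Fin m → Fin M → K)
    (hγ : ∀ a, b a = ∑ s, γ a s • cc s)
    (hcc : ∀ lam' : (Fin g → Fin M) → K, ∑ μ, j (lam' μ) * ∏ i, e i (cc (μ i)) = 0 → lam' = 0)
    (c : (Fin g → Fin m) → K) (hc : ∑ ν, j (c ν) * ∏ i, e i (b (ν i)) = 0) : c = 0 := by
  classical
  have hG : ∃ G : F →ₗ[K] (Fin m →₀ K), ∀ l, G (b l) = Finsupp.single l 1 := by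
    obtain ⟨G, hG⟩ := LinearMap.exists_extend hb.repr
    refine ⟨G, fun l => ?_⟩
    have h1 := LinearMap.congr_fun hG ⟨b l, Submodule.subset_span ⟨l, rfl⟩⟩
    rw [LinearMap.comp_apply] at h1
    rw [← hb.repr_eq_single l ⟨b l, Submodule.subset_span ⟨l, rfl⟩⟩ rfl, ← h1]
    rfl
  obtain ⟨G, hGβ⟩ := hG
  have hdual : ∀ (l' l : Fin m), ∑ s, γ l' s * G (cc s) l = if l' = l then 1 else 0 := by
    intro l' l
    have h1 := hGβ l'
    rw [hγ l', map_sum] at h1
    have h3 := DFunLike.congr_fun h1 l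
    rw [Finsupp.finsetSum_apply, Finsupp.single_apply] at h3
    rw [← h3]
    refine Finset.sum_congr rfl fun s _ => ?_
    rw [map_smul, Finsupp.smul_apply, smul_eq_mul]
  have h1 : ∑ μ, j (c μ) * ∏ i, e i (b (μ i)) =
      ∑ μ, j (c μ) * ∏ i, ∑ s, j (γ (μ i) s) * e i (cc s) := by
    refine Finset.sum_congr rfl fun μ _ => ?_
    congr 1
    refine Finset.prod_congr rfl fun i _ => ?_
    rw [hγ (μ i), map_sum]
    exact Finset.sum_congr rfl fun s _ => up_e_smul he i _ _
  rw [h1, up_expand j (fun _ => M) c (fun i μ s => γ (μ i) s) (fun i s => e i (cc s))] at hc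
  have hd := hcc _ hc
  funext μ'
  have h2 : ∑ ν : Fin g → Fin M, (∑ μ, c μ * ∏ i, γ (μ i) (ν i)) * ∏ i, G (cc (ν i)) (μ' i) =
      c μ' := by
    simp_rw [Finset.sum_mul]
    rw [Finset.sum_comm]
    have h3 : ∀ μ : (Fin g → Fin m),
        ∑ ν : Fin g → Fin M, c μ * (∏ i, γ (μ i) (ν i)) * ∏ i, G (cc (ν i)) (μ' i) =
          if μ = μ' then c μ else 0 := by
      intro μ
      have h4 : ∑ ν : Fin g → Fin M, c μ * (∏ i, γ (μ i) (ν i)) * ∏ i, G (cc (ν i)) (μ' i) =
          c μ * ∏ i, ∑ s, γ (μ i) s * G (cc s) (μ' i) := by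
        rw [Fintype.prod_sum, Finset.mul_sum]
        refine Finset.sum_congr rfl fun ν _ => ?_
        rw [Finset.prod_mul_distrib, mul_assoc]
      rw [h4]
      simp_rw [hdual]
      rw [Finset.prod_ite_zero]
      by_cases hμ : μ = μ'
      · subst hμ
        simp
      · rw [if_neg hμ, if_neg, mul_zero]
        intro h
        exact hμ (funext fun i => h i (Finset.mem_univ i))
    simp_rw [h3]
    simp
  rw [← h2]
  have h3 : ∀ ν : Fin g → Fin M, (∑ μ, c μ * ∏ i, γ (μ i) (ν i)) = 0 :=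
    fun ν => congrFun hd ν
  simp only [h3, zero_mul, Finset.sum_const_zero, Pi.zero_apply]

omit [IsAlgClosed K] [IsAlgClosed k] [IsAlgClosed Ω] [IsAlgClosed ω] in
/-- (TR1) a good tuple is independent over `K`: scale `lam` so that all `lam ν ∈ A` and one is a
unit; write `b` in an orthonormal basis of its span (`R.exists_orth`); reduce. -/
theorem Good.indepK (hres : Function.Surjective resK) (hresΩ : Function.Surjective resΩ)
    {R : RedData A resK F Ft} {j : K →+* Ω} {jb : k →+* ω} (V : VE A resK B resΩ j jb) {g : ℕ}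
    {e : Fin g → F →+* Ω} {eb : Fin g → Ft →+* ω} (h : Good R B resΩ j jb e eb) : Indep j e := by
  classical
  intro m b hb lam hrel
  set U : Submodule K F := Submodule.span K (Set.range b) with hU
  have hfin : FiniteDimensional K U := FiniteDimensional.span_of_finite K (Set.finite_range b)
  obtain ⟨c, hcU, hc⟩ := R.exists_orth U hfin
  have hli := linearIndependent_of_red R c hc
  -- `c` is a basis of `U`
  have hli' : LinearIndependent K (fun s => (⟨((c s : R.O) : F), hcU s⟩ : U)) :=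
    LinearIndependent.of_comp U.subtype hli
  have htop := hli'.span_eq_top_of_card_eq_finrank' (by simp)
  have hγ : ∀ a, ∃ γ : Fin (Module.finrank K U) → K, b a = ∑ s, γ s • ((c s : R.O) : F) := by
    intro a
    have h1 : (⟨b a, Submodule.subset_span ⟨a, rfl⟩⟩ : U) ∈
        Submodule.span K (Set.range fun s => (⟨((c s : R.O) : F), hcU s⟩ : U)) := by
      rw [htop]; trivial
    obtain ⟨γ, h2⟩ := (Submodule.mem_span_range_iff_exists_fun K).1 h1
    refine ⟨γ, ?_⟩
    have h3 := congrArg U.subtype h2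
    rw [map_sum] at h3
    simpa using h3.symm
  choose γ hγ using hγ
  exact TR_change h.comm m b hb _ (fun s => ((c s : R.O) : F)) _ hγ
    (fun lam' h' => TR_core V h _ c hc lam' h') lam hrel

/-- (TR) Let `R'` be the base change (BC), `r`, `r'` Deuring reductions of `R`, `R'` (EV0; genera:
`genusR_ce` for `C` and `Cb`).  `E = ∑ v_i`; `r'_* E = ∑ r' v_i`, points of the `eb i` (K3);
`r'_* (extD D) = extD (r_* D)` (K1'), of degree `0`.  (SF1): `ℓ(r'_* (E + extD D)) = 1`, so
`ℓ(E + extD D) ≤ 1` (EV3), and `≥ 1` by `riemann_inequality`.  (G7) (G8): `∑ v'_i ~ E + extD D`.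
(EV1): `∑ r' v'_i ~ ∑ r' v_i + extD (r_* D)`.  (SF): the `r' v'_i` are the points of an independent
tuple `eb'`.  The `v'_i` are not constant (K1, CE6), so they are points of `e'_i` (CE7), and
`e'_i` is isometric with residue `eb'_i` (K2). -/
theorem exists_translate (hF : IsFF K F) (hFt : IsFF k Ft) (hFΩ : IsFF Ω FΩ) (hFtω : IsFF ω Ftω)
    (hres : Function.Surjective resK) (hresΩ : Function.Surjective resΩ)
    (R : RedData A resK F Ft) (C : CE K F Ω FΩ) (Cb : CE k Ft ω Ftω)
    (V : VE A resK B resΩ C.i Cb.i) {g : ℕ} (hgK : genusR K F = g) (hgk : genusR k Ft = g)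
    (e : Fin g → F →+* Ω) (eb : Fin g → Ft →+* ω) (hgood : Good R B resΩ C.i Cb.i e eb)
    (v : Fin g → Place Ω FΩ) (hv : ∀ i, IsPt C (e i) (v i))
    (D : Divisor K F) (hD : Divisor.degree D = 0) :
    FFLib.ell (sumP v + C.extD hF hFΩ D) = 1 ∧
    ∃ (e' : Fin g → F →+* Ω) (eb' : Fin g → Ft →+* ω) (v' : Fin g → Place Ω FΩ),
      Good R B resΩ C.i Cb.i e' eb' ∧ (∀ i, IsPt C (e' i) (v' i)) ∧
      Divisor.IsPrincipal (sumP v' - sumP v - C.extD hF hFΩ D) := by
  subst hgk
  obtain ⟨R', hR'⟩ := exists_bc hres hresΩ R C Cb V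
  obtain ⟨r, hr⟩ := exists_isRho hF hFt hres R hgK.le
  obtain ⟨r', hr'⟩ := exists_isRho hFΩ hFtω hresΩ R'
    (by rw [genusR_ce hF hFΩ C, genusR_ce hFt hFtω Cb, hgK])
  have hpt : ∀ i, IsPt Cb (eb i) ((r' ∘ v) i) := fun i =>
    rho_isPt_of_isom hF hFt hFΩ hFtω hres hresΩ R C Cb R' hR' hr hr' (hv i) (hgood.commb i)
      (hgood.isom i)
  have hD0 : Divisor.degree (Finsupp.mapDomain r D) = 0 := by
    rw [degree_mapDomain hF hFt, hD]
  have hell' := sf_ell hFt hFtω Cb eb hgood.indep (r' ∘ v) hpt _ hD0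
  have hpush : Finsupp.mapDomain r' (sumP v + C.extD hF hFΩ D) =
      sumP (r' ∘ v) + Cb.extD hFt hFtω (Finsupp.mapDomain r D) := by
    rw [Finsupp.mapDomain_add, mapDomain_sumP,
      rho_extD hF hFt hFΩ hFtω hres hresΩ R C Cb R' hR' hr hr']
  have hell : FFLib.ell (sumP v + C.extD hF hFΩ D) = 1 := by
    apply le_antisymm
    · have h := hr'.ell_le hFΩ hFtω hresΩ (sumP v + C.extD hF hFΩ D)
      rw [hpush, hell'] at h
      exact h
    · have h := riemann_inequality hFΩ (sumP v + C.extD hF hFΩ D)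
      rw [map_add, degree_sumP hFΩ, C.degree_extD hF hFΩ, hD, genusR_ce hF hFΩ C, hgK] at h
      have : (1 : ℤ) ≤ (FFLib.ell (sumP v + C.extD hF hFΩ D) : ℤ) := by linarith
      exact_mod_cast this
  refine ⟨hell, ?_⟩
  obtain ⟨E, hE0, hEp⟩ := exists_effective hFΩ (D := sumP v + C.extD hF hFΩ D) (by omega)
  have hEdeg : Divisor.degree E = (genusR k Ft : ℕ) := by
    have h := degree_eq_zero_of_isPrincipal hFΩ hEp
    rw [map_sub, map_add, degree_sumP hFΩ, C.degree_extD hF hFΩ, hD] at h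
    linarith
  obtain ⟨v', rfl⟩ := exists_eq_sumP hFΩ hE0 hEdeg
  have hp' : Divisor.IsPrincipal (sumP (r' ∘ v') - sumP (r' ∘ v) -
      Cb.extD hFt hFtω (Finsupp.mapDomain r D)) := by
    have h := hr'.isPrincipal hEp
    rw [SF_mapDomain_sub, hpush, mapDomain_sumP] at h
    rw [sub_sub]
    exact h
  obtain ⟨eb', hpt', hind'⟩ := sf_main hFt hFtω Cb eb hgood.indep (r' ∘ v) hpt _ hD0 (r' ∘ v') hp'
  have hex : ∀ i, ∃ e' : F →+* Ω, IsPt C e' (v' i) := by
    intro i
    rcases C.cst_or_pt hF hFΩ (v' i) with ⟨P, hP⟩ | h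
    · exfalso
      have h1 : r' (v' i) = Cb.extP hFt hFtω (r P) := by
        rw [hP.eq_extP hF hFΩ]
        exact rho_extP hF hFt hFΩ hFtω hres hresΩ R C Cb R' hR' hr hr' P
      have h2 : IsCst Cb (r P) ((r' ∘ v') i) := by
        show IsCst Cb (r P) (r' (v' i))
        rw [h1]
        exact Cb.isCst_extP hFt hFtω (r P)
      exact (hpt' i).not_isCst hFt (r P) h2
    · exact h
  choose e' he' using hex
  refine ⟨e', eb', v', ⟨fun i a => (he' i).comm a, fun i a => (hpt' i).comm a, fun i => ?_, hind'⟩,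
    he', ?_⟩
  · exact isom_of_rho_isPt hF hFt hFΩ hFtω hres hresΩ R C Cb R' hR' hr hr' (he' i) (hpt' i)
  · rw [sub_sub]
    exact hEp

end Fermat.Agent.S19Lib
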