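import Fermat.Agent.S19.Defs

/-!
# S19 (UP): universal properties of `K'[F] ≅ K' ⊗_K F` and of `K[e_1 F, ..., e_g F] ≅ F ⊗ ... ⊗ F`

Both follow from the linear disjointness built into `CE.ld` / `Indep`:
the map `K' ⊗[K] F → F'` (`Algebra.TensorProduct.lift` / `productMap`, after
`letI := C.i.toAlgebra` ...) is injective (write an element as `∑ c_j ⊗ f_j` with `f_j`
`K`-independent), its range is `C.ring`; compose the inverse with the lift of `(b, a)`.
For `Indep` use `PiTensorProduct` (`PiTensorProduct.liftAlgHom`) or induction.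
-/

set_option autoImplicit false

open AlgebraicCurve

namespace Fermat.Agent.S19Lib

open Fermat.Agent.S18Lib Fermat.Agent.S24Lib Fermat.Agent.FFLib Fermat.Agent.S34Lib

/-- a basis of the span of a finite family, with coordinates -/
theorem up_exists_basis {K F : Type*} [Field K] [AddCommGroup F] [Module K F] {J : Type*} [Finite J]
    (f : J → F) :
    ∃ (m : ℕ) (e : Fin m → F), LinearIndependent K e ∧
      (∀ i, e i ∈ Submodule.span K (Set.range f)) ∧ ∀ j, ∃ α : Fin m → K, f j = ∑ i, α i • e i := by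
  classical
  set U : Submodule K F := Submodule.span K (Set.range f) with hU
  have : FiniteDimensional K U := FiniteDimensional.span_of_finite K (Set.finite_range f)
  let u := Module.finBasis K U
  refine ⟨_, fun i => ((u i : U) : F), u.linearIndependent.map' U.subtype (Submodule.ker_subtype _),
    fun i => (u i).2, fun j => ⟨fun i => u.repr ⟨f j, Submodule.subset_span ⟨j, rfl⟩⟩ i, ?_⟩⟩
  have h1 := u.sum_repr ⟨f j, Submodule.subset_span ⟨j, rfl⟩⟩
  have h2 := congrArg Subtype.val h1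
  simp only [AddSubmonoidClass.coe_finsetSum, Submodule.coe_smul] at h2
  exact h2.symm

section UP2

variable {K F K' F' : Type*} [Field K] [Field F] [Algebra K F] [Field K'] [Field F']
  [Algebra K' F']

theorem CE.up_ι_smul (C : CE K F K' F') (a : K) (x : F) : C.ι (a • x) = C.i a • C.ι x := by
  rw [Algebra.smul_def, map_mul, C.comm, Algebra.smul_def]

/-- the graph of the homomorphism `K'[F] → S` -/
def UPRel (C : CE K F K' F') {S : Type*} [CommRing S] (a : F →+* S) (b : K' →+* S)
    (z : F') (w : S) : Prop :=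
  ∃ (J : Type) (_ : Fintype J) (c : J → K') (f : J → F),
    z = ∑ j, c j • C.ι (f j) ∧ w = ∑ j, b (c j) * a (f j)

namespace UPRel

variable {C : CE K F K' F'} {S : Type*} [CommRing S] {a : F →+* S} {b : K' →+* S}

theorem zero : UPRel C a b 0 0 :=
  ⟨Empty, inferInstance, fun e => e.elim, fun e => e.elim, by simp, by simp⟩

theorem const (c : K') : UPRel C a b (algebraMap K' F' c) (b c) :=
  ⟨Unit, inferInstance, fun _ => c, fun _ => 1, by simp [Algebra.smul_def], by simp⟩

theorem iota (x : F) : UPRel C a b (C.ι x) (a x) :=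
  ⟨Unit, inferInstance, fun _ => 1, fun _ => x, by simp, by simp⟩

theorem one : UPRel C a b 1 1 := by
  have := const (C := C) (a := a) (b := b) 1
  simpa using this

theorem add {z z' : F'} {w w' : S} (h : UPRel C a b z w) (h' : UPRel C a b z' w') :
    UPRel C a b (z + z') (w + w') := by
  obtain ⟨J, _, c, f, rfl, rfl⟩ := h
  obtain ⟨J', _, c', f', rfl, rfl⟩ := h'
  exact ⟨J ⊕ J', inferInstance, Sum.elim c c', Sum.elim f f', by simp [Fintype.sum_sum_type],
    by simp [Fintype.sum_sum_type]⟩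

theorem mul {z z' : F'} {w w' : S} (h : UPRel C a b z w) (h' : UPRel C a b z' w') :
    UPRel C a b (z * z') (w * w') := by
  obtain ⟨J, _, c, f, rfl, rfl⟩ := h
  obtain ⟨J', _, c', f', rfl, rfl⟩ := h'
  refine ⟨J × J', inferInstance, fun p => c p.1 * c' p.2, fun p => f p.1 * f' p.2, ?_, ?_⟩
  · rw [Finset.sum_mul_sum, Fintype.sum_prod_type]
    refine Finset.sum_congr rfl fun j _ => Finset.sum_congr rfl fun j' _ => ?_
    simp only [map_mul, Algebra.smul_def]
    ring
  · rw [Finset.sum_mul_sum, Fintype.sum_prod_type]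
    refine Finset.sum_congr rfl fun j _ => Finset.sum_congr rfl fun j' _ => ?_
    simp only [map_mul]
    ring

theorem neg {z : F'} {w : S} (h : UPRel C a b z w) : UPRel C a b (-z) (-w) := by
  have h1 := (const (C := C) (a := a) (b := b) (-1)).mul h
  simpa using h1

theorem sub {z z' : F'} {w w' : S} (h : UPRel C a b z w) (h' : UPRel C a b z' w') :
    UPRel C a b (z - z') (w - w') := by
  rw [sub_eq_add_neg, sub_eq_add_neg]
  exact h.add h'.neg

theorem eq_zero (hab : ∀ x : K, a (algebraMap K F x) = b (C.i x)) {w : S}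
    (h : UPRel C a b 0 w) : w = 0 := by
  classical
  obtain ⟨J, _, c, f, h0, rfl⟩ := h
  obtain ⟨m, e, he, -, hco⟩ := up_exists_basis (K := K) f
  choose α hα using hco
  have hli := C.ld m e he
  have h2 : ∑ i, (∑ j, c j * C.i (α j i)) • C.ι (e i) = 0 := by
    rw [h0]
    simp only [Finset.sum_smul]
    rw [Finset.sum_comm]
    refine Finset.sum_congr rfl fun j _ => ?_
    rw [hα j, map_sum, Finset.smul_sum]
    refine Finset.sum_congr rfl fun i _ => ?_
    rw [C.up_ι_smul, smul_smul]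
  have h3 := Fintype.linearIndependent_iff.1 hli _ h2
  have h5 : ∑ j, b (c j) * a (f j) = ∑ i, b (∑ j, c j * C.i (α j i)) * a (e i) := by
    simp only [map_sum, Finset.sum_mul]
    rw [Finset.sum_comm]
    refine Finset.sum_congr rfl fun j _ => ?_
    rw [hα j, map_sum, Finset.mul_sum]
    refine Finset.sum_congr rfl fun i _ => ?_
    rw [Algebra.smul_def, map_mul, map_mul, hab, mul_assoc]
  rw [h5]
  simp only [h3, map_zero, zero_mul, Finset.sum_const_zero]

theorem unique (hab : ∀ x : K, a (algebraMap K F x) = b (C.i x)) {z : F'} {w w' : S}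
    (h : UPRel C a b z w) (h' : UPRel C a b z w') : w = w' := by
  have h1 := h.sub h'
  rw [sub_self] at h1
  exact sub_eq_zero.1 (h1.eq_zero hab)

theorem exists_of_mem {z : F'} (hz : z ∈ C.ring) : ∃ w, UPRel C a b z w := by
  induction hz using Subring.closure_induction with
  | mem x hx =>
    rcases hx with ⟨f, rfl⟩ | ⟨c, rfl⟩
    · exact ⟨_, iota f⟩
    · exact ⟨_, const c⟩
  | zero => exact ⟨_, zero⟩
  | one => exact ⟨_, one⟩
  | add x y _ _ hx hy =>
    obtain ⟨_, hx⟩ := hx
    obtain ⟨_, hy⟩ := hy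
    exact ⟨_, hx.add hy⟩
  | neg x _ hx =>
    obtain ⟨_, hx⟩ := hx
    exact ⟨_, hx.neg⟩
  | mul x y _ _ hx hy =>
    obtain ⟨_, hx⟩ := hx
    obtain ⟨_, hy⟩ := hy
    exact ⟨_, hx.mul hy⟩

end UPRel

/-- (UP2a) elements of `K'[F]` are `K'`-linear combinations of elements of `F` -/
theorem CE.mem_ring_iff (C : CE K F K' F') (z : F') :
    z ∈ C.ring ↔ ∃ (n : ℕ) (c : Fin n → K') (f : Fin n → F), z = ∑ j, c j • C.ι (f j) := by
  constructor
  · intro hz
    obtain ⟨w, J, _, c, f, rfl, -⟩ :=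
      UPRel.exists_of_mem (a := C.ι) (b := algebraMap K' F') hz
    let e := Fintype.equivFin J
    refine ⟨Fintype.card J, c ∘ e.symm, f ∘ e.symm, ?_⟩
    exact (Equiv.sum_comp e.symm (fun j => c j • C.ι (f j))).symm
  · rintro ⟨n, c, f, rfl⟩
    refine Subring.sum_mem _ fun j _ => ?_
    rw [Algebra.smul_def]
    exact C.ring.mul_mem (Subring.subset_closure (Or.inr ⟨_, rfl⟩))
      (Subring.subset_closure (Or.inl ⟨_, rfl⟩))

/-- (UP2b) every element of `F'` is a fraction of elements of `K'[F]` -/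
theorem CE.exists_frac (C : CE K F K' F') (z : F') :
    ∃ a ∈ C.ring, ∃ b ∈ C.ring, b ≠ 0 ∧ z = a / b := by
  have hz : z ∈ IntermediateField.adjoin K' (Set.range C.ι) := by rw [C.gen]; trivial
  rw [IntermediateField.mem_adjoin_iff_div] at hz
  obtain ⟨r, hr, s, hs, rfl⟩ := hz
  have hring : ∀ x, x ∈ Algebra.adjoin K' (Set.range C.ι) → x ∈ C.ring := by
    intro x hx
    have h1 : x ∈ (Algebra.adjoin K' (Set.range C.ι)).toSubring := hx
    rw [Algebra.adjoin_eq_ring_closure, Set.union_comm] at h1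
    exact h1
  by_cases hs0 : s = 0
  · exact ⟨0, C.ring.zero_mem, 1, C.ring.one_mem, one_ne_zero, by rw [hs0]; simp⟩
  · exact ⟨r, hring r hr, s, hring s hs, hs0, rfl⟩

/-- (UP2c) the universal property of `K'[F] = K' ⊗_K F` -/
theorem CE.exists_hom (C : CE K F K' F') {S : Type*} [CommRing S] (a : F →+* S) (b : K' →+* S)
    (hab : ∀ x : K, a (algebraMap K F x) = b (C.i x)) :
    ∃ φ : C.ring →+* S, (∀ (f : F) (h : C.ι f ∈ C.ring), φ ⟨C.ι f, h⟩ = a f) ∧
      ∀ (c : K') (h : algebraMap K' F' c ∈ C.ring), φ ⟨algebraMap K' F' c, h⟩ = b c := by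
  have ex : ∀ z : C.ring, ∃ w, UPRel C a b (z : F') w := fun z => UPRel.exists_of_mem z.2
  have spec : ∀ z : C.ring, UPRel C a b (z : F') (ex z).choose := fun z => (ex z).choose_spec
  have uniq : ∀ (z : C.ring) (w : S), UPRel C a b (z : F') w → (ex z).choose = w :=
    fun z w h => (spec z).unique hab h
  refine ⟨{ toFun := fun z => (ex z).choose
            map_one' := uniq 1 1 UPRel.one
            map_mul' := fun x y => uniq (x * y) _ ((spec x).mul (spec y))
            map_zero' := uniq 0 0 UPRel.zero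
            map_add' := fun x y => uniq (x + y) _ ((spec x).add (spec y)) }, ?_, ?_⟩
  · intro f h
    exact uniq _ _ (UPRel.iota f)
  · intro c h
    exact uniq _ _ (UPRel.const c)

end UP2

section UPg

variable {K F Ω : Type*} [Field K] [Field F] [Algebra K F] [Field Ω]

/-- expansion of a sum of products of linear combinations -/
theorem up_expand {K S : Type*} [CommRing K] [CommRing S] (b : K →+* S) {g : ℕ} {J : Type*}
    [Fintype J] (m : Fin g → ℕ) (lam : J → K) (τ : ∀ i, J → Fin (m i) → K)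
    (x : ∀ i, Fin (m i) → S) :
    ∑ ν, b (lam ν) * ∏ i, ∑ l, b (τ i ν l) * x i l =
      ∑ μ : ∀ i, Fin (m i), b (∑ ν, lam ν * ∏ i, τ i ν (μ i)) * ∏ i, x i (μ i) := by
  classical
  simp_rw [Fintype.prod_sum, Finset.mul_sum, map_sum, Finset.sum_mul]
  rw [Finset.sum_comm]
  refine Finset.sum_congr rfl fun μ _ => Finset.sum_congr rfl fun ν _ => ?_
  rw [Finset.prod_mul_distrib, map_mul, map_prod]
  ring

theorem up_e_smul {j : K →+* Ω} {g : ℕ} {e : Fin g → F →+* Ω}
    (he : ∀ i a, e i (algebraMap K F a) = j a) (i : Fin g) (a : K) (x : F) :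
    e i (a • x) = j a * e i x := by
  rw [Algebra.smul_def, map_mul, he]

/-- independence with respect to different independent families -/
theorem Indep.indep' {j : K →+* Ω} {g : ℕ} {e : Fin g → F →+* Ω}
    (he : ∀ i a, e i (algebraMap K F a) = j a) (hind : Indep j e) (m : Fin g → ℕ)
    (β : ∀ i, Fin (m i) → F) (hβ : ∀ i, LinearIndependent K (β i)) (c : (∀ i, Fin (m i)) → K)
    (hc : ∑ μ, j (c μ) * ∏ i, e i (β i (μ i)) = 0) : c = 0 := by
  classical
  obtain ⟨M, cc, hcc, -, hco⟩ := up_exists_basis (K := K) (fun p : (Σ i, Fin (m i)) => β p.1 p.2)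
  choose γ hγ using hco
  -- dual functionals
  have hG : ∀ i, ∃ G : F →ₗ[K] (Fin (m i) →₀ K), ∀ l, G (β i l) = Finsupp.single l 1 := by
    intro i
    obtain ⟨G, hG⟩ := LinearMap.exists_extend (hβ i).repr
    refine ⟨G, fun l => ?_⟩
    have h1 := LinearMap.congr_fun hG ⟨β i l, Submodule.subset_span ⟨l, rfl⟩⟩
    rw [LinearMap.comp_apply] at h1
    rw [← (hβ i).repr_eq_single l ⟨β i l, Submodule.subset_span ⟨l, rfl⟩⟩ rfl, ← h1]
    rfl
  choose G hGβ using hG
  have hdual : ∀ i (l' l : Fin (m i)), ∑ s, γ ⟨i, l'⟩ s * G i (cc s) l = if l' = l then 1 else 0 := by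
    intro i l' l
    have h1 := hGβ i l'
    have h2 : β i l' = ∑ s, γ ⟨i, l'⟩ s • cc s := hγ ⟨i, l'⟩
    rw [h2, map_sum] at h1
    have h3 := DFunLike.congr_fun h1 l
    rw [Finsupp.finsetSum_apply, Finsupp.single_apply] at h3
    rw [← h3]
    refine Finset.sum_congr rfl fun s _ => ?_
    rw [map_smul, Finsupp.smul_apply, smul_eq_mul]
  have h1 : ∑ μ, j (c μ) * ∏ i, e i (β i (μ i)) =
      ∑ μ, j (c μ) * ∏ i, ∑ s, j (γ ⟨i, μ i⟩ s) * e i (cc s) := by
    refine Finset.sum_congr rfl fun μ _ => ?_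
    congr 1
    refine Finset.prod_congr rfl fun i _ => ?_
    have h2 : β i (μ i) = ∑ s, γ ⟨i, μ i⟩ s • cc s := hγ ⟨i, μ i⟩
    rw [h2, map_sum]
    exact Finset.sum_congr rfl fun s _ => up_e_smul he i _ _
  rw [h1, up_expand j (fun _ => M) c (fun i μ s => γ ⟨i, μ i⟩ s) (fun i s => e i (cc s))] at hc
  have hd := hind M cc hcc _ hc
  funext μ'
  have h2 : ∑ ν : Fin g → Fin M, (∑ μ, c μ * ∏ i, γ ⟨i, μ i⟩ (ν i)) * ∏ i, G i (cc (ν i)) (μ' i) =
      c μ' := by
    simp_rw [Finset.sum_mul]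
    rw [Finset.sum_comm]
    have h3 : ∀ μ : (∀ i, Fin (m i)),
        ∑ ν : Fin g → Fin M, c μ * (∏ i, γ ⟨i, μ i⟩ (ν i)) * ∏ i, G i (cc (ν i)) (μ' i) =
          if μ = μ' then c μ else 0 := by
      intro μ
      have h4 : ∑ ν : Fin g → Fin M, c μ * (∏ i, γ ⟨i, μ i⟩ (ν i)) * ∏ i, G i (cc (ν i)) (μ' i) =
          c μ * ∏ i, ∑ s, γ ⟨i, μ i⟩ s * G i (cc s) (μ' i) := by
        rw [Fintype.prod_sum, Finset.mul_sum]
        refine Finset.sum_congr rfl fun ν _ => ?_
        rw [Finset.prod_mul_distrib, mul_assoc]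
      rw [h4]
      simp_rw [hdual]
      rw [Finset.prod_ite_zero]
      by_cases hμ : μ = μ'
      · subst hμ
        simp
      · rw [if_neg hμ, if_neg, mul_zero]
        intro h
        exact hμ (funext fun i => h i (Finset.mem_univ i))
    simp_rw [h3]
    simp
  rw [← h2]
  have h3 : ∀ ν : Fin g → Fin M, (∑ μ, c μ * ∏ i, γ ⟨i, μ i⟩ (ν i)) = 0 :=
    fun ν => congrFun hd ν
  simp only [h3, zero_mul, Finset.sum_const_zero, Pi.zero_apply]

/-- the graph of the homomorphism `K[e_1 T_1, ..., e_g T_g] → S` -/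
def UPgRel (j : K →+* Ω) {g : ℕ} (e : Fin g → F →+* Ω) (T : Fin g → Subalgebra K F)
    {S : Type*} [CommRing S] (a : ∀ i, T i →+* S) (b : K →+* S) (z : Ω) (w : S) : Prop :=
  ∃ (J : Type) (_ : Fintype J) (lam : J → K) (t : J → ∀ i, T i),
    z = ∑ ν, j (lam ν) * ∏ i, e i ((t ν i : T i) : F) ∧ w = ∑ ν, b (lam ν) * ∏ i, a i (t ν i)

namespace UPgRel

variable {j : K →+* Ω} {g : ℕ} {e : Fin g → F →+* Ω} {T : Fin g → Subalgebra K F}
  {S : Type*} [CommRing S] {a : ∀ i, T i →+* S} {b : K →+* S}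

theorem zero : UPgRel j e T a b 0 0 :=
  ⟨Empty, inferInstance, fun x => x.elim, fun x => x.elim, by simp, by simp⟩

theorem const (c : K) : UPgRel j e T a b (j c) (b c) :=
  ⟨Unit, inferInstance, fun _ => c, fun _ _ => 1, by simp, by simp⟩

theorem gen (i : Fin g) (f : T i) : UPgRel j e T a b (e i ((f : T i) : F)) (a i f) := by
  classical
  refine ⟨Unit, inferInstance, fun _ => 1, fun _ => Function.update (fun _ => 1) i f, ?_, ?_⟩
  · simp only [Finset.univ_unique, Finset.sum_singleton, map_one, one_mul]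
    rw [Finset.prod_eq_single i]
    · rw [Function.update_self]
    · intro i' _ hi'
      rw [Function.update_of_ne hi']
      simp
    · intro h
      exact absurd (Finset.mem_univ i) h
  · simp only [Finset.univ_unique, Finset.sum_singleton, map_one, one_mul]
    rw [Finset.prod_eq_single i]
    · rw [Function.update_self]
    · intro i' _ hi'
      rw [Function.update_of_ne hi']
      simp
    · intro h
      exact absurd (Finset.mem_univ i) h

theorem one : UPgRel j e T a b 1 1 := by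
  have := const (j := j) (e := e) (T := T) (a := a) (b := b) 1
  simpa using this

theorem add {z z' : Ω} {w w' : S} (h : UPgRel j e T a b z w) (h' : UPgRel j e T a b z' w') :
    UPgRel j e T a b (z + z') (w + w') := by
  obtain ⟨J, _, c, f, rfl, rfl⟩ := h
  obtain ⟨J', _, c', f', rfl, rfl⟩ := h'
  exact ⟨J ⊕ J', inferInstance, Sum.elim c c', Sum.elim f f', by simp [Fintype.sum_sum_type],
    by simp [Fintype.sum_sum_type]⟩

theorem mul {z z' : Ω} {w w' : S} (h : UPgRel j e T a b z w) (h' : UPgRel j e T a b z' w') :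
    UPgRel j e T a b (z * z') (w * w') := by
  obtain ⟨J, _, c, f, rfl, rfl⟩ := h
  obtain ⟨J', _, c', f', rfl, rfl⟩ := h'
  refine ⟨J × J', inferInstance, fun p => c p.1 * c' p.2, fun p i => f p.1 i * f' p.2 i, ?_, ?_⟩
  · rw [Finset.sum_mul_sum, Fintype.sum_prod_type]
    refine Finset.sum_congr rfl fun ν _ => Finset.sum_congr rfl fun ν' _ => ?_
    simp only [map_mul, MulMemClass.coe_mul, Finset.prod_mul_distrib]
    ring
  · rw [Finset.sum_mul_sum, Fintype.sum_prod_type]
    refine Finset.sum_congr rfl fun ν _ => Finset.sum_congr rfl fun ν' _ => ?_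
    simp only [map_mul, Finset.prod_mul_distrib]
    ring

theorem neg {z : Ω} {w : S} (h : UPgRel j e T a b z w) : UPgRel j e T a b (-z) (-w) := by
  have h1 := (const (j := j) (e := e) (T := T) (a := a) (b := b) (-1)).mul h
  simpa using h1

theorem sub {z z' : Ω} {w w' : S} (h : UPgRel j e T a b z w) (h' : UPgRel j e T a b z' w') :
    UPgRel j e T a b (z - z') (w - w') := by
  rw [sub_eq_add_neg, sub_eq_add_neg]
  exact h.add h'.neg

theorem eq_zero (he : ∀ i a, e i (algebraMap K F a) = j a) (hind : Indep j e)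
    (hab : ∀ i x, a i (algebraMap K (T i) x) = b x) {w : S}
    (h : UPgRel j e T a b 0 w) : w = 0 := by
  classical
  obtain ⟨J, _, lam, t, h0, rfl⟩ := h
  have h1 := fun i => up_exists_basis (K := K) (fun ν => ((t ν i : T i) : F))
  choose m β hβ hβmem hco using h1
  choose τ hτ using hco
  have hβT : ∀ i l, β i l ∈ T i := by
    intro i l
    have h2 : Submodule.span K (Set.range fun ν => ((t ν i : T i) : F)) ≤
        Subalgebra.toSubmodule (T i) := by
      rw [Submodule.span_le]
      rintro _ ⟨ν, rfl⟩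
      exact (t ν i).2
    exact h2 (hβmem i l)
  have h2 : ∑ ν, j (lam ν) * ∏ i, e i ((t ν i : T i) : F) =
      ∑ ν, j (lam ν) * ∏ i, ∑ l, j (τ i ν l) * e i (β i l) := by
    refine Finset.sum_congr rfl fun ν _ => ?_
    congr 1
    refine Finset.prod_congr rfl fun i _ => ?_
    rw [hτ i ν, map_sum]
    exact Finset.sum_congr rfl fun s _ => up_e_smul he i _ _
  rw [h2, up_expand j m lam τ (fun i l => e i (β i l))] at h0
  have hc := hind.indep' he m β hβ _ h0.symm
  have h3 : ∑ ν, b (lam ν) * ∏ i, a i (t ν i) =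
      ∑ ν, b (lam ν) * ∏ i, ∑ l, b (τ i ν l) * a i ⟨β i l, hβT i l⟩ := by
    refine Finset.sum_congr rfl fun ν _ => ?_
    congr 1
    refine Finset.prod_congr rfl fun i _ => ?_
    have h4 : t ν i = ∑ l, τ i ν l • (⟨β i l, hβT i l⟩ : T i) := by
      apply Subtype.ext
      rw [hτ i ν]
      simp
    rw [h4, map_sum]
    refine Finset.sum_congr rfl fun l _ => ?_
    rw [Algebra.smul_def, map_mul, hab]
  rw [h3, up_expand b m lam τ (fun i l => a i ⟨β i l, hβT i l⟩)]
  refine Finset.sum_eq_zero fun μ _ => ?_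
  have := congrFun hc μ
  simp only [Pi.zero_apply] at this
  rw [this, map_zero, zero_mul]

theorem unique (he : ∀ i a, e i (algebraMap K F a) = j a) (hind : Indep j e)
    (hab : ∀ i x, a i (algebraMap K (T i) x) = b x) {z : Ω} {w w' : S}
    (h : UPgRel j e T a b z w) (h' : UPgRel j e T a b z w') : w = w' := by
  have h1 := h.sub h'
  rw [sub_self] at h1
  exact sub_eq_zero.1 (h1.eq_zero he hind hab)

theorem exists_of_mem {z : Ω}
    (hz : z ∈ Subring.closure (Set.range j ∪ ⋃ i, (e i) '' (T i : Set F))) :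
    ∃ w, UPgRel j e T a b z w := by
  induction hz using Subring.closure_induction with
  | mem x hx =>
    rcases hx with ⟨c, rfl⟩ | hx
    · exact ⟨_, const c⟩
    · obtain ⟨i, f, hf, rfl⟩ := Set.mem_iUnion.1 hx
      exact ⟨_, gen i ⟨f, hf⟩⟩
  | zero => exact ⟨_, zero⟩
  | one => exact ⟨_, one⟩
  | add x y _ _ hx hy =>
    obtain ⟨_, hx⟩ := hx
    obtain ⟨_, hy⟩ := hy
    exact ⟨_, hx.add hy⟩
  | neg x _ hx =>
    obtain ⟨_, hx⟩ := hx
    exact ⟨_, hx.neg⟩
  | mul x y _ _ hx hy =>
    obtain ⟨_, hx⟩ := hx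
    obtain ⟨_, hy⟩ := hy
    exact ⟨_, hx.mul hy⟩

end UPgRel

/-- (UPg) the universal property of `K[e_1 T_1, ..., e_g T_g] = T_1 ⊗ ... ⊗ T_g` for an independent
tuple of embeddings and `K`-subalgebras `T_i ⊆ F` -/
theorem Indep.exists_hom {j : K →+* Ω} {g : ℕ} {e : Fin g → F →+* Ω}
    (he : ∀ i a, e i (algebraMap K F a) = j a) (hind : Indep j e)
    (T : Fin g → Subalgebra K F) {S : Type*} [CommRing S] (a : ∀ i, T i →+* S) (b : K →+* S)
    (hab : ∀ i x, a i (algebraMap K (T i) x) = b x) :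
    ∃ φ : Subring.closure (Set.range j ∪ ⋃ i, (e i) '' (T i : Set F)) →+* S,
      (∀ (x : K) (h : j x ∈ Subring.closure (Set.range j ∪ ⋃ i, (e i) '' (T i : Set F))),
        φ ⟨j x, h⟩ = b x) ∧
      ∀ (i : Fin g) (f : T i)
        (h : e i (f : F) ∈ Subring.closure (Set.range j ∪ ⋃ i, (e i) '' (T i : Set F))),
        φ ⟨e i (f : F), h⟩ = a i f := by
  have ex : ∀ z : Subring.closure (Set.range j ∪ ⋃ i, (e i) '' (T i : Set F)),
      ∃ w, UPgRel j e T a b (z : Ω) w := fun z => UPgRel.exists_of_mem z.2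
  have spec : ∀ z : Subring.closure (Set.range j ∪ ⋃ i, (e i) '' (T i : Set F)),
      UPgRel j e T a b (z : Ω) (ex z).choose := fun z => (ex z).choose_spec
  have uniq : ∀ (z : Subring.closure (Set.range j ∪ ⋃ i, (e i) '' (T i : Set F))) (w : S),
      UPgRel j e T a b (z : Ω) w → (ex z).choose = w :=
    fun z w h => (spec z).unique he hind hab h
  refine ⟨{ toFun := fun z => (ex z).choose
            map_one' := uniq 1 1 UPgRel.one
            map_mul' := fun x y => uniq (x * y) _ ((spec x).mul (spec y))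
            map_zero' := uniq 0 0 UPgRel.zero
            map_add' := fun x y => uniq (x + y) _ ((spec x).add (spec y)) }, ?_, ?_⟩
  · intro x h
    exact uniq _ _ (UPgRel.const x)
  · intro i f h
    exact uniq _ _ (UPgRel.gen i f)

/-- (UPg') elements of `K[e_1 F, ..., e_g F]` in terms of one independent family -/
theorem Indep.exists_rep {j : K →+* Ω} {g : ℕ} {e : Fin g → F →+* Ω}
    (he : ∀ i a, e i (algebraMap K F a) = j a) {n : ℕ} (z : Fin n → Ω)
    (hz : ∀ t, z t ∈ Subring.closure (Set.range j ∪ ⋃ i, Set.range (e i))) :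
    ∃ (m : ℕ) (b : Fin m → F), LinearIndependent K b ∧
      ∀ t, ∃ lam : (Fin g → Fin m) → K, z t = ∑ ν, j (lam ν) * ∏ i, e i (b (ν i)) := by
  classical
  have h1 : ∀ t, ∃ w, UPgRel j e (fun _ => (⊤ : Subalgebra K F))
      (fun i => (e i).comp (⊤ : Subalgebra K F).val.toRingHom) j (z t) w := by
    intro t
    apply UPgRel.exists_of_mem
    have := hz t
    simpa using this
  choose w J hJ lam tt hzt _ using h1
  obtain ⟨m, b, hb, -, hco⟩ := up_exists_basis (K := K)
    (fun p : (Σ t, J t × Fin g) => ((tt p.1 p.2.1 p.2.2 : (⊤ : Subalgebra K F)) : F))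
  choose τ hτ using hco
  refine ⟨m, b, hb, fun t => ?_⟩
  let _ := hJ t
  refine ⟨fun μ => ∑ ν, lam t ν * ∏ i, τ ⟨t, ν, i⟩ (μ i), ?_⟩
  rw [hzt t, ← up_expand j (fun _ => m) (lam t) (fun i ν l => τ ⟨t, ν, i⟩ l) (fun i l => e i (b l))]
  refine Finset.sum_congr rfl fun ν _ => ?_
  congr 1
  refine Finset.prod_congr rfl fun i _ => ?_
  have h2 : ((tt t ν i : (⊤ : Subalgebra K F)) : F) = ∑ l, τ ⟨t, ν, i⟩ l • b l := hτ ⟨t, ν, i⟩
  rw [h2, map_sum]
  exact Finset.sum_congr rfl fun s _ => up_e_smul he i _ _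

end UPg

end Fermat.Agent.S19Lib
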